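/-
Finiteness of the `n`-Selmer groups `K(S, n)` of a Dedekind domain with finite class group and
finitely generated unit group (in particular of a number field).
-/
import Mathlib

set_option autoImplicit false

namespace Fermat.Agent.MW.Selmer

open FractionalIdeal IsDedekindDomain
open scoped nonZeroDivisors

section General

lemma relIndex_ne_zero_of_finite {G : Type*} [Group G] (H K : Subgroup G) {α : Type*} [Finite α]
    (f : K → α) (hf : ∀ x y : K, f x = f y → (x : G)⁻¹ * y ∈ H) : H.relIndex K ≠ 0 := by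
  have : Finite (K ⧸ H.subgroupOf K) := by
    refine Finite.of_injective (fun q : K ⧸ H.subgroupOf K => f q.out) fun q q' hq => ?_
    have := hf _ _ hq
    rw [← q.out_eq', ← q'.out_eq']
    exact QuotientGroup.eq.2 this
  rw [Subgroup.relIndex, Subgroup.index_ne_zero_iff_finite]
  exact this

lemma exists_finset_of_relIndex_ne_zero {G : Type*} [Group G] (H K : Subgroup G)
    (h : H.relIndex K ≠ 0) :
    ∃ T : Finset G, ∀ x ∈ K, ∃ t ∈ T, t⁻¹ * x ∈ H := by
  classical
  rw [Subgroup.relIndex, Subgroup.index_ne_zero_iff_finite] at h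
  have := Fintype.ofFinite (K ⧸ H.subgroupOf K)
  refine ⟨Finset.univ.image (fun q : K ⧸ H.subgroupOf K => ((q.out : K) : G)), fun x hx => ?_⟩
  refine ⟨_, Finset.mem_image.2 ⟨(⟨x, hx⟩ : K), Finset.mem_univ _, rfl⟩, ?_⟩
  have : ((QuotientGroup.mk (⟨x, hx⟩ : K) : K ⧸ H.subgroupOf K).out : K) ⁻¹ * ⟨x, hx⟩ ∈
      H.subgroupOf K := by
    rw [← QuotientGroup.eq]
    exact Quotient.out_eq' _
  exact this

end General

variable {R : Type*} [CommRing R] [IsDedekindDomain R] {K : Type*} [Field K] [Algebra R K]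
  [IsFractionRing R K]

/-- The (additive) valuation of `x` at `v`. -/
noncomputable def cnt (v : HeightOneSpectrum R) (x : Kˣ) : ℤ :=
  count K v (spanSingleton R⁰ (x : K))

omit [IsDedekindDomain R] in
lemma span_ne_zero (x : Kˣ) : spanSingleton R⁰ (x : K) ≠ 0 :=
  spanSingleton_ne_zero_iff.2 x.ne_zero

lemma cnt_mul (v : HeightOneSpectrum R) (x y : Kˣ) : cnt v (x * y) = cnt v x + cnt v y := by
  rw [cnt, cnt, cnt, Units.val_mul, ← spanSingleton_mul_spanSingleton,
    count_mul K v (span_ne_zero x) (span_ne_zero y)]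

lemma cnt_one (v : HeightOneSpectrum R) : cnt v (1 : Kˣ) = 0 := by
  have := cnt_mul v (1 : Kˣ) 1
  rw [mul_one] at this
  omega

lemma cnt_inv (v : HeightOneSpectrum R) (x : Kˣ) : cnt v x⁻¹ = - cnt v x := by
  have := cnt_mul v x x⁻¹
  rw [mul_inv_cancel, cnt_one] at this
  omega

lemma cnt_pow (v : HeightOneSpectrum R) (x : Kˣ) (n : ℕ) : cnt v (x ^ n) = n * cnt v x := by
  induction n with
  | zero => simp [cnt_one]
  | succ n ih => rw [pow_succ, cnt_mul, ih]; push_cast; ring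

lemma cnt_unit (v : HeightOneSpectrum R) (u : Rˣ) :
    cnt v (Units.map (algebraMap R K : R →* K) u) = 0 := by
  rw [cnt]
  have : spanSingleton R⁰ ((Units.map (algebraMap R K : R →* K) u : Kˣ) : K) = 1 := by
    have h : ((Units.map (algebraMap R K : R →* K) u : Kˣ) : K) = algebraMap R K (u : R) := rfl
    rw [h, ← coeIdeal_span_singleton, Ideal.span_singleton_eq_top.2 u.isUnit, coeIdeal_top]
  rw [this, count_one]

lemma exists_root_ideal {n : ℕ} (hn : n ≠ 0) (x : Kˣ)
    (h : ∀ v : HeightOneSpectrum R, (n : ℤ) ∣ cnt v x) :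
    ∃ I : (FractionalIdeal R⁰ K)ˣ, I ^ n = toPrincipalIdeal R K x := by
  have hfac := finprod_heightOneSpectrum_factorization' K (span_ne_zero (R := R) x)
  set I : FractionalIdeal R⁰ K :=
    ∏ᶠ v : HeightOneSpectrum R, (v.asIdeal : FractionalIdeal R⁰ K) ^ (cnt v x / n) with hI
  have hfin : (Function.mulSupport fun v : HeightOneSpectrum R =>
      (v.asIdeal : FractionalIdeal R⁰ K) ^ (cnt v x / n)).Finite := by
    have h1 := finite_factors (spanSingleton R⁰ (x : K))
    rw [Filter.eventually_cofinite] at h1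
    refine h1.subset fun v hv => ?_
    rw [Function.mem_mulSupport] at hv
    intro h0
    apply hv
    have : cnt v x = 0 := h0
    rw [this]
    simp
  have hIn : I ^ n = spanSingleton R⁰ (x : K) := by
    rw [hI, finprod_pow hfin, ← hfac]
    refine finprod_congr fun v => ?_
    obtain ⟨k, hk⟩ := h v
    have : count K v (spanSingleton R⁰ (x : K)) = n * k := hk
    rw [this, hk, Int.mul_ediv_cancel_left _ (by exact_mod_cast hn), mul_comm, zpow_mul,
      zpow_natCast]
  have hI0 : I ≠ 0 := by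
    intro h0
    rw [h0, zero_pow hn] at hIn
    exact span_ne_zero x hIn.symm
  refine ⟨Units.mk0 I hI0, Units.ext ?_⟩
  rw [Units.val_pow_eq_pow_val, Units.val_mk0, hIn, coe_toPrincipalIdeal]

variable (R K) in
/-- The subgroup of elements whose valuation outside `S` is divisible by `n`. -/
noncomputable def E (S : Set (HeightOneSpectrum R)) (n : ℕ) : Subgroup Kˣ where
  carrier := {x | ∀ v ∉ S, (n : ℤ) ∣ cnt v x}
  one_mem' := fun v _ => by rw [cnt_one]; exact dvd_zero _
  mul_mem' := fun hx hy v hv => by rw [cnt_mul]; exact dvd_add (hx v hv) (hy v hv)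
  inv_mem' := fun hx v hv => by rw [cnt_inv]; exact (hx v hv).neg_right

variable (R K) in
/-- Units times `n`-th powers. -/
noncomputable def E₀ (n : ℕ) : Subgroup Kˣ :=
  (Units.map (algebraMap R K : R →* K)).range ⊔ (powMonoidHom n : Kˣ →* Kˣ).range

lemma mem_E {S : Set (HeightOneSpectrum R)} {n : ℕ} {x : Kˣ} :
    x ∈ E R K S n ↔ ∀ v ∉ S, (n : ℤ) ∣ cnt v x := Iff.rfl

lemma step1 (S : Set (HeightOneSpectrum R)) (hS : S.Finite) (n : ℕ) (hn : n ≠ 0) :
    (E R K ∅ n).relIndex (E R K S n) ≠ 0 := by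
  have := hS.to_subtype
  have : NeZero n := ⟨hn⟩
  refine relIndex_ne_zero_of_finite _ _ (α := S → ZMod n)
    (fun x v => ((cnt (v : HeightOneSpectrum R) (x : Kˣ) : ℤ) : ZMod n)) fun x y hxy v _ => ?_
  rw [cnt_mul, cnt_inv]
  by_cases hv : v ∈ S
  · have := congrFun hxy ⟨v, hv⟩
    rw [ZMod.intCast_eq_intCast_iff_dvd_sub] at this
    rw [neg_add_eq_sub]
    exact this
  · exact dvd_add ((x.2 v hv).neg_right) (y.2 v hv)

lemma step2 [Finite (ClassGroup R)] (n : ℕ) (hn : n ≠ 0) :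
    (E₀ R K n).relIndex (E R K ∅ n) ≠ 0 := by
  have hroot : ∀ x : E R K ∅ n, ∃ I : (FractionalIdeal R⁰ K)ˣ, I ^ n = toPrincipalIdeal R K x :=
    fun x => exists_root_ideal hn _ fun v => x.2 v (Set.notMem_empty v)
  choose I hI using hroot
  refine relIndex_ne_zero_of_finite _ _ (α := ClassGroup R)
    (fun x => ClassGroup.mk K (I x)) fun x y hxy => ?_
  have h1 : ClassGroup.mk K ((I x)⁻¹ * I y) = 1 := by
    rw [map_mul, map_inv, hxy, inv_mul_cancel]
  rw [ClassGroup.mk_eq_one_iff] at h1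
  obtain ⟨z, hz⟩ := h1.principal
  have hz' : (((I x)⁻¹ * I y : (FractionalIdeal R⁰ K)ˣ) : FractionalIdeal R⁰ K) =
      spanSingleton R⁰ z := by
    apply coeToSubmodule_injective
    simp only [coe_spanSingleton]
    exact hz
  have hz0 : z ≠ 0 := by
    rintro rfl
    rw [spanSingleton_zero] at hz'
    exact Units.ne_zero _ hz'
  have hz'' : (I x)⁻¹ * I y = toPrincipalIdeal R K (Units.mk0 z hz0) := by
    apply Units.ext
    rw [hz', coe_toPrincipalIdeal, Units.val_mk0]
  have h2 : toPrincipalIdeal R K ((x : Kˣ)⁻¹ * y) = toPrincipalIdeal R K ((Units.mk0 z hz0) ^ n) := by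
    rw [map_mul, map_inv, map_pow, ← hI, ← hI, ← hz'', mul_pow, inv_pow]
  have h3 : toPrincipalIdeal R K (((x : Kˣ)⁻¹ * y) * ((Units.mk0 z hz0) ^ n)⁻¹) = 1 := by
    rw [map_mul, map_inv, h2, mul_inv_cancel]
  have h4 : spanSingleton R⁰ (((((x : Kˣ)⁻¹ * y) * ((Units.mk0 z hz0) ^ n)⁻¹ : Kˣ)) : K) = 1 := by
    have := congrArg Units.val h3
    rwa [coe_toPrincipalIdeal] at this
  rw [← spanSingleton_one, eq_comm, spanSingleton_eq_spanSingleton] at h4
  obtain ⟨u, hu⟩ := h4
  have h5 : ((x : Kˣ)⁻¹ * y) = Units.map (algebraMap R K : R →* K) u * (Units.mk0 z hz0) ^ n := by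
    rw [← mul_inv_eq_iff_eq_mul]
    apply Units.ext
    rw [← hu, Units.smul_def, Algebra.smul_def, mul_one]
    rfl
  rw [h5]
  exact mul_mem (Subgroup.mem_sup_left ⟨u, rfl⟩) (Subgroup.mem_sup_right ⟨_, rfl⟩)

lemma step3 [Group.FG Rˣ] (n : ℕ) (hn : n ≠ 0) :
    (powMonoidHom n : Kˣ →* Kˣ).range.relIndex (E₀ R K n) ≠ 0 := by
  obtain ⟨T, hT⟩ := exists_finset_of_relIndex_ne_zero (powMonoidHom n : Rˣ →* Rˣ).range ⊤
    (by
      rw [Subgroup.relIndex_top_right]
      exact (Subgroup.finiteIndex_range_powMonoidHom_of_fg Rˣ hn).index_ne_zero)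
  have : ∀ x : E₀ R K n, ∃ u : Rˣ, ∃ y : Kˣ,
      (x : Kˣ) = Units.map (algebraMap R K : R →* K) u * y ^ n := by
    rintro ⟨x, hx⟩
    obtain ⟨_, ⟨u, rfl⟩, _, ⟨y, rfl⟩, h⟩ := Subgroup.mem_sup.1 hx
    exact ⟨u, y, h.symm⟩
  choose u y huy using this
  choose t ht htt using fun w : Rˣ => hT w (Subgroup.mem_top w)
  refine relIndex_ne_zero_of_finite _ _ (α := T) (fun x => ⟨t (u x), ht (u x)⟩)
    fun x x' hxx' => ?_
  have hxx : t (u x) = t (u x') := congrArg Subtype.val hxx'
  obtain ⟨w, hw⟩ := htt (u x)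
  obtain ⟨w', hw'⟩ := htt (u x')
  have e1 : u x = t (u x) * w ^ n := by
    have : (powMonoidHom n : Rˣ →* Rˣ) w = w ^ n := rfl
    rw [← this, hw, mul_inv_cancel_left]
  have e2 : u x' = t (u x) * w' ^ n := by
    have : (powMonoidHom n : Rˣ →* Rˣ) w' = w' ^ n := rfl
    rw [← this, hw', hxx, mul_inv_cancel_left]
  refine ⟨(Units.map (algebraMap R K : R →* K) w * y x)⁻¹ *
    (Units.map (algebraMap R K : R →* K) w' * y x'), ?_⟩
  rw [huy x, huy x', e1, e2]
  simp only [powMonoidHom_apply, map_mul, map_pow]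
  rw [inv_pow, mul_pow, mul_assoc, mul_assoc]
  generalize (Units.map (algebraMap R K : R →* K) w) ^ n * y x ^ n = b
  generalize (Units.map (algebraMap R K : R →* K) w') ^ n * y x' ^ n = b'
  group

/-- **Finiteness of `K(S, n)`.** -/
theorem finite_selmer [Finite (ClassGroup R)] [Group.FG Rˣ] (S : Set (HeightOneSpectrum R))
    (hS : S.Finite) (n : ℕ) (hn : n ≠ 0) :
    (powMonoidHom n : Kˣ →* Kˣ).range.relIndex (E R K S n) ≠ 0 :=
  Subgroup.relIndex_ne_zero_trans (Subgroup.relIndex_ne_zero_trans (step3 n hn) (step2 n hn))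
    (step1 S hS n hn)

end Fermat.Agent.MW.Selmer
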