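/-
Ramification of square roots: if `c ∈ K` has odd valuation at the centre of `A` on `K`, then some
element of the inertia group of `A` fixing `K` moves a square root of `c`.
-/
import Mathlib
import Fermat.Agent.QbarInst
import Fermat.Agent.FrobExists
import Fermat.Agent.FlatOrd.InertiaLift
import Fermat.Agent.MW.Selmer

set_option autoImplicit false

open Pointwise NumberField
open Fermat.Agent.FrobExists Fermat.Agent.MW.Selmer Fermat.Agent.FlatOrd
open IsDedekindDomain FractionalIdeal
open scoped nonZeroDivisors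

namespace Fermat.Agent.MW.QuadRam

section Valuation

variable {R : Type*} [CommRing R] [IsDedekindDomain R] {K : Type*} [Field K] [Algebra R K]
  [IsFractionRing R K]

lemma cnt_algebraMap (v : HeightOneSpectrum R) (x : Kˣ) (r : R) (hr : (x : K) = algebraMap R K r) :
    v.valuation K (x : K) = WithZero.exp (- cnt v x) := by
  classical
  have hr0 : r ≠ 0 := by
    rintro rfl
    rw [map_zero] at hr
    exact x.ne_zero hr
  have hI0 : (Ideal.span {r} : Ideal R) ≠ 0 := by
    rwa [Ne, Ideal.zero_eq_bot, Ideal.span_singleton_eq_bot]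
  rw [hr, HeightOneSpectrum.valuation_of_algebraMap, cnt, hr, ← coeIdeal_span_singleton,
    count_coe K v hI0, HeightOneSpectrum.intValuation_def, if_neg hr0]

/-- Comparison of the valuation with `cnt`. -/
lemma valuation_eq_exp (v : HeightOneSpectrum R) (x : Kˣ) :
    v.valuation K (x : K) = WithZero.exp (- cnt v x) := by
  obtain ⟨a, b, hb, hab⟩ := IsFractionRing.div_surjective (A := R) (x : K)
  have hb0 : algebraMap R K b ≠ 0 := by
    simpa using nonZeroDivisors.ne_zero hb
  have ha0 : algebraMap R K a ≠ 0 := by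
    intro h
    rw [h, zero_div] at hab
    exact x.ne_zero hab.symm
  have h1 := cnt_algebraMap v (Units.mk0 _ ha0) a rfl
  have h2 := cnt_algebraMap v (Units.mk0 _ hb0) b rfl
  have h3 : x = Units.mk0 _ ha0 * (Units.mk0 _ hb0)⁻¹ := by
    apply Units.ext
    rw [Units.val_mul, Units.val_inv_eq_inv_val, Units.val_mk0, Units.val_mk0, ← hab,
      div_eq_mul_inv]
  rw [h3, cnt_mul, cnt_inv, Units.val_mul, Units.val_inv_eq_inv_val, map_mul, map_inv₀, h1, h2,
    ← WithZero.exp_neg, ← WithZero.exp_add]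
  congr 1
  ring

lemma valuation_le_one_iff (v : HeightOneSpectrum R) (x : Kˣ) :
    v.valuation K (x : K) ≤ 1 ↔ 0 ≤ cnt v x := by
  rw [valuation_eq_exp, ← WithZero.exp_zero, WithZero.exp_le_exp]
  omega

lemma valuation_lt_one_iff (v : HeightOneSpectrum R) (x : Kˣ) :
    v.valuation K (x : K) < 1 ↔ 0 < cnt v x := by
  rw [valuation_eq_exp, ← WithZero.exp_zero, WithZero.exp_lt_exp]
  omega

end Valuation

section Center

variable {L : Type} [Field L] [Algebra ℚ L] (K : IntermediateField ℚ L)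

instance instNumberField [FiniteDimensional ℚ K] : NumberField K where
  to_charZero := by
    have : CharZero L := algebraRat.charZero L
    infer_instance
  to_finiteDimensional := by
    convert! (inferInstance : FiniteDimensional ℚ K)
    exact Subsingleton.elim _ _

lemma mem_of_ringOfIntegers (A : ValuationSubring L) (x : 𝓞 K) : ((x : K) : L) ∈ A :=
  mem_of_isIntegral A ((RingOfIntegers.isIntegral_coe x).map ((algebraMap K L).toIntAlgHom))

/-- The prime of `𝓞 K` below a valuation subring. -/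
noncomputable def centerOn (A : ValuationSubring L) : Ideal (𝓞 K) :=
  Ideal.comap (((algebraMap K L).comp (algebraMap (𝓞 K) K)).codRestrict A.toSubring
      (fun x => mem_of_ringOfIntegers K A x))
    (IsLocalRing.maximalIdeal A)

lemma mem_centerOn (A : ValuationSubring L) (x : 𝓞 K) :
    x ∈ centerOn K A ↔ ((x : K) : L) ∈ A.nonunits := by
  rw [centerOn, Ideal.mem_comap, ← ValuationSubring.coe_mem_nonunits_iff]
  rfl

instance (A : ValuationSubring L) : (centerOn K A).IsPrime := Ideal.IsPrime.comap _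

lemma centerOn_ne_bot (A : ValuationSubring L) {ℓ : ℕ} (hℓ : ℓ.Prime)
    (hA : A.LiesOverPrime ℓ) : centerOn K A ≠ ⊥ := by
  have : CharZero L := algebraRat.charZero L
  intro h
  have h1 : (ℓ : 𝓞 K) ∈ centerOn K A := by
    rw [mem_centerOn]
    simpa using! hA
  rw [h, Ideal.mem_bot] at h1
  exact hℓ.ne_zero (by exact_mod_cast h1)

variable [FiniteDimensional ℚ K]

/-- The finite place of `K` below a valuation subring of `L` over a prime. -/
noncomputable def place (A : ValuationSubring L) {ℓ : ℕ} (hℓ : ℓ.Prime)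
    (hA : A.LiesOverPrime ℓ) : HeightOneSpectrum (𝓞 K) :=
  ⟨centerOn K A, inferInstance, centerOn_ne_bot K A hℓ hA⟩

lemma exists_integral_of_mem (A : ValuationSubring L) {ℓ : ℕ} (hℓ : ℓ.Prime)
    (hA : A.LiesOverPrime ℓ) (x : K) (hx : (x : L) ∈ A) :
    ∃ a b : 𝓞 K, b ∉ centerOn K A ∧ x * b = a := by
  obtain ⟨a, b, hb, hab⟩ := key_numberField K (A.comap (algebraMap K L)) (ℓ := ℓ) hℓ.ne_zero
    (by rw [mem_nonunits_comap, map_natCast]; exact hA) (y := x)
    (by rw [ValuationSubring.mem_comap]; exact hx)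
  rw [mem_nonunits_comap] at hb
  exact ⟨a, b, by rw [mem_centerOn]; exact hb, hab⟩

lemma valuation_le_one_of_mem (A : ValuationSubring L) {ℓ : ℕ} (hℓ : ℓ.Prime)
    (hA : A.LiesOverPrime ℓ) (x : K) (hx : (x : L) ∈ A) :
    (place K A hℓ hA).valuation K x ≤ 1 := by
  obtain ⟨a, b, hb, hab⟩ := exists_integral_of_mem K A hℓ hA x hx
  have h1 := congrArg ((place K A hℓ hA).valuation K) hab
  rw [map_mul] at h1
  have h2 : (place K A hℓ hA).valuation K (b : K) = 1 := by
    refine le_antisymm (HeightOneSpectrum.valuation_le_one _ _) (not_lt.1 fun h => hb ?_)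
    exact (HeightOneSpectrum.valuation_lt_one_iff_mem _ _).1 h
  rw [h2, mul_one] at h1
  rw [h1]
  exact HeightOneSpectrum.valuation_le_one _ _

lemma valuation_lt_one_of_mem (A : ValuationSubring L) {ℓ : ℕ} (hℓ : ℓ.Prime)
    (hA : A.LiesOverPrime ℓ) (x : K) (hx : (x : L) ∈ A.nonunits) :
    (place K A hℓ hA).valuation K x < 1 := by
  have hxA : (x : L) ∈ A := A.nonunits_le hx
  obtain ⟨a, b, hb, hab⟩ := exists_integral_of_mem K A hℓ hA x hxA
  have h1 := congrArg ((place K A hℓ hA).valuation K) hab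
  rw [map_mul] at h1
  have h2 : (place K A hℓ hA).valuation K (b : K) = 1 := by
    refine le_antisymm (HeightOneSpectrum.valuation_le_one _ _) (not_lt.1 fun h => hb ?_)
    exact (HeightOneSpectrum.valuation_lt_one_iff_mem _ _).1 h
  rw [h2, mul_one] at h1
  rw [h1]
  refine (HeightOneSpectrum.valuation_lt_one_iff_mem _ _).2 ?_
  change a ∈ centerOn K A
  rw [mem_centerOn, ← hab]
  have : ((x * (b : K) : K) : L) = (b : K) * (x : L) := by
    rw [mul_comm]; rfl
  rw [this]
  exact mul_mem_nonunits A (mem_of_ringOfIntegers K A b) hx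

lemma mem_iff_valuation_le_one (A : ValuationSubring L) {ℓ : ℕ} (hℓ : ℓ.Prime)
    (hA : A.LiesOverPrime ℓ) (x : K) :
    (x : L) ∈ A ↔ (place K A hℓ hA).valuation K x ≤ 1 := by
  refine ⟨valuation_le_one_of_mem K A hℓ hA x, fun h => ?_⟩
  by_contra hx
  have hx' : ((x⁻¹ : K) : L) ∈ A.nonunits := by
    rw [ValuationSubring.mem_nonunits_iff_or]
    right
    have : (((x⁻¹ : K) : L))⁻¹ = (x : L) := by push_cast; rw [inv_inv]
    rw [this]; exact hx
  have h1 := valuation_lt_one_of_mem K A hℓ hA _ hx'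
  rw [map_inv₀] at h1
  have hx0 : x ≠ 0 := by
    rintro rfl
    exact hx (by simp)
  have h2 : (place K A hℓ hA).valuation K x ≠ 0 := (Valuation.ne_zero_iff _).2 hx0
  exact absurd h (not_le.2 ((one_lt_inv₀ (zero_lt_iff.2 (inv_ne_zero h2))).2 h1 |>.trans_eq
    (inv_inv _)))

/-- `A.valuation x = 1` iff the valuation at the place below is trivial. -/
lemma cnt_eq_zero_of_valuation_eq_one (A : ValuationSubring L) {ℓ : ℕ} (hℓ : ℓ.Prime)
    (hA : A.LiesOverPrime ℓ) (x : Kˣ) (h : A.valuation ((x : K) : L) = 1) :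
    cnt (place K A hℓ hA) x = 0 := by
  have h1 : ((x : K) : L) ∈ A := (A.valuation_le_one_iff _).1 h.le
  have h2 : (((x⁻¹ : Kˣ) : K) : L) ∈ A := by
    refine (A.valuation_le_one_iff _).1 ?_
    have : (((x⁻¹ : Kˣ) : K) : L) = (((x : K) : L))⁻¹ := by
      rw [Units.val_inv_eq_inv_val]; push_cast; rfl
    rw [this, map_inv₀, h, inv_one]
  have h3 := valuation_le_one_of_mem K A hℓ hA _ h1
  have h4 := valuation_le_one_of_mem K A hℓ hA _ h2
  rw [valuation_le_one_iff] at h3 h4
  rw [cnt_inv] at h4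
  omega

/-- Every finite place of `K` is below a valuation subring of `L` over some prime number. -/
lemma exists_valuationSubring_place (v : HeightOneSpectrum (𝓞 K)) :
    ∃ (ℓ : ℕ) (hℓ : ℓ.Prime) (A : ValuationSubring L) (hA : A.LiesOverPrime ℓ),
      (ℓ : 𝓞 K) ∈ v.asIdeal ∧ place K A hℓ hA = v := by
  -- the rational prime below
  obtain ⟨ℓ, hℓ, hℓv⟩ : ∃ ℓ : ℕ, ℓ.Prime ∧ (ℓ : 𝓞 K) ∈ v.asIdeal := by
    have hne : (v.asIdeal.under ℤ) ≠ ⊥ := Ideal.IsIntegral.comap_ne_bot _ v.ne_bot
    have hpr : (v.asIdeal.under ℤ).IsPrime := Ideal.IsPrime.comap _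
    obtain ⟨n, hn⟩ := (IsPrincipalIdealRing.principal (v.asIdeal.under ℤ)).principal
    have hn' : v.asIdeal.under ℤ = Ideal.span {n} := hn
    rw [hn'] at hpr hne
    have hn0 : n ≠ 0 := by
      rintro rfl
      exact hne (by simp)
    have hprime : Prime n := (Ideal.span_singleton_prime hn0).1 hpr
    refine ⟨n.natAbs, Int.prime_iff_natAbs_prime.1 hprime, ?_⟩
    have h1 : ((n.natAbs : ℕ) : ℤ) ∈ v.asIdeal.under ℤ := by
      rw [hn', Ideal.mem_span_singleton]
      exact Int.dvd_natAbs.2 dvd_rfl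
    have h2 : algebraMap ℤ (𝓞 K) ((n.natAbs : ℕ) : ℤ) ∈ v.asIdeal := h1
    simpa using h2
  let f : 𝓞 K →+* L := (algebraMap K L).comp (algebraMap (𝓞 K) K)
  have hf : Function.Injective f :=
    (algebraMap K L).injective.comp (FaithfulSMul.algebraMap_injective (𝓞 K) K)
  have hbij : Function.Bijective f.rangeRestrict :=
    ⟨fun x y h => hf (congrArg (Subtype.val : f.range → L) h), f.rangeRestrict_surjective⟩
  have hI : v.asIdeal.map f.rangeRestrict ≠ ⊤ := by
    intro h
    have h1 := congrArg (Ideal.comap f.rangeRestrict) h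
    rw [Ideal.comap_map_of_bijective _ hbij, Ideal.comap_top] at h1
    exact v.isPrime.ne_top h1
  obtain ⟨B, -, hB⟩ := Ideal.image_subset_nonunits_valuationSubring _ hI
  have hB' : ∀ x ∈ v.asIdeal, ((x : K) : L) ∈ B.nonunits := fun x hx =>
    hB ⟨f.rangeRestrict x, Ideal.mem_map_of_mem _ hx, rfl⟩
  have hBℓ : B.LiesOverPrime ℓ := by
    have := hB' _ hℓv
    simpa using! this
  refine ⟨ℓ, hℓ, B, hBℓ, hℓv, ?_⟩
  apply HeightOneSpectrum.ext
  have hle : v.asIdeal ≤ centerOn K B := fun x hx => (mem_centerOn K B x).2 (hB' x hx)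
  exact (v.isMaximal.eq_of_le (Ideal.IsPrime.ne_top inferInstance) hle).symm

end Center

section Main

variable {L : Type} [Field L] [Algebra ℚ L] [IsGalois ℚ L] (K : IntermediateField ℚ L)
  [FiniteDimensional ℚ K]

/-- If `c ∈ K` has odd valuation at the place below `A` and `b² = c`, then some element of the
inertia group of `A` fixing `K` moves `b`. -/
theorem exists_inertia_moving (A : ValuationSubring L) {ℓ : ℕ} (hℓ : ℓ.Prime)
    (hA : A.LiesOverPrime ℓ) (c : Kˣ) (hc : Odd (cnt (place K A hℓ hA) c))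
    (b : L) (hb : b ^ 2 = ((c : K) : L)) :
    ∃ σ ∈ A.inertiaSubgroupIn ℚ, (∀ x ∈ K, σ x = x) ∧ σ b = -b := by
  have hchar : CharZero L := algebraRat.charZero L
  set v := place K A hℓ hA with hv
  have hc0 : ((c : K) : L) ≠ 0 := by
    have := c.ne_zero
    exact fun h => this (Subtype.ext h)
  have hb0 : b ≠ 0 := by
    rintro rfl
    rw [zero_pow two_ne_zero] at hb
    exact hc0 hb.symm
  -- `b ∉ K`
  have hbK : b ∉ K := by
    intro hbK
    let b' : Kˣ := Units.mk0 ⟨b, hbK⟩ (fun h => hb0 (congrArg Subtype.val h))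
    have : c = b' ^ 2 := Units.ext (Subtype.ext hb.symm)
    rw [this, cnt_pow] at hc
    have he : Even (((2 : ℕ) : ℤ) * cnt v b') := ⟨cnt v b', by push_cast; ring⟩
    exact (Int.not_even_iff_odd.2 hc) he
  -- an element `g` fixing `K` and moving `b`
  obtain ⟨g, hgK, hgb⟩ : ∃ g : L ≃ₐ[ℚ] L, (∀ x ∈ K, g x = x) ∧ g b = -b := by
    have h1 : b ∉ IntermediateField.fixedField K.fixingSubgroup := by
      rwa [InfiniteGalois.fixedField_fixingSubgroup]
    rw [IntermediateField.mem_fixedField_iff] at h1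
    push Not at h1
    obtain ⟨g, hg, hgb⟩ := h1
    rw [IntermediateField.mem_fixingSubgroup_iff] at hg
    refine ⟨g, hg, ?_⟩
    have h2 : (g b) ^ 2 = b ^ 2 := by
      rw [← map_pow, hb]
      exact hg _ (c : K).2
    rcases sq_eq_sq_iff_eq_or_eq_neg.1 h2 with h | h
    · exact absurd h hgb
    · exact h
  -- the stabiliser of `b`
  let H : Subgroup (L ≃ₐ[ℚ] L) := K.fixingSubgroup ⊓ (IntermediateField.adjoin ℚ {b}).fixingSubgroup
  have hH : IsClosed (H : Set (L ≃ₐ[ℚ] L)) :=
    (InfiniteGalois.fixingSubgroup_isClosed K).inter (InfiniteGalois.fixingSubgroup_isClosed _)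
  have hHK : ∀ h ∈ H, ∀ x ∈ K, h x = x := fun h hh =>
    (IntermediateField.mem_fixingSubgroup_iff K h).1 hh.1
  have hHb : ∀ h ∈ H, h b = b := fun h hh =>
    (IntermediateField.mem_fixingSubgroup_iff _ h).1 hh.2 b
      (IntermediateField.mem_adjoin_simple_self ℚ b)
  have hmemH : ∀ h : L ≃ₐ[ℚ] L, (∀ x ∈ K, h x = x) → h b = b → h ∈ H := by
    intro h hh hhb
    refine ⟨(IntermediateField.mem_fixingSubgroup_iff K h).2 hh, ?_⟩
    have hle : (IntermediateField.adjoin ℚ {b}) ≤
        IntermediateField.fixedField (Subgroup.zpowers h) := by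
      rw [IntermediateField.adjoin_simple_le_iff, IntermediateField.mem_fixedField_iff]
      intro k hk
      obtain ⟨n, rfl⟩ := Subgroup.mem_zpowers_iff.1 hk
      have : h ∈ MulAction.stabilizer (L ≃ₐ[ℚ] L) b := hhb
      exact (MulAction.stabilizer (L ≃ₐ[ℚ] L) b).zpow_mem this n
    have := (IntermediateField.le_iff_le (Subgroup.zpowers h) _).1 hle
    exact this (Subgroup.mem_zpowers h)
  -- the key valuation computation
  have hkey : ∀ x y : K, (x : L) + (y : L) * b ∈ A → (y : L) * b ∈ A.nonunits := by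
    intro x y hxy
    have hne : ∀ x y : K, y ≠ 0 → A.valuation (x : L) ≠ A.valuation ((y : L) * b) := by
      intro x y hy h
      have hy' : (y : L) ≠ 0 := fun h => hy (Subtype.ext h)
      have hx' : (x : L) ≠ 0 := by
        intro hx
        rw [hx, map_zero, eq_comm, map_eq_zero] at h
        exact (mul_ne_zero hy' hb0) h
      have hx0 : x ≠ 0 := fun h => hx' (by rw [h]; rfl)
      let X : Kˣ := Units.mk0 x hx0
      let Y : Kˣ := Units.mk0 y hy
      have h1 : A.valuation (((X ^ 2 * (Y ^ 2 * c)⁻¹ : Kˣ) : K) : L) = 1 := by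
        have e : (((X ^ 2 * (Y ^ 2 * c)⁻¹ : Kˣ) : K) : L) =
            (x : L) ^ 2 * (((y : L) * b) ^ 2)⁻¹ := by
          rw [mul_pow, hb]
          push_cast
          rfl
        rw [e, map_mul, map_inv₀, map_pow, map_pow, h, mul_inv_cancel₀]
        refine pow_ne_zero _ ?_
        rw [Ne, map_eq_zero]
        exact mul_ne_zero hy' hb0
      have h2 := cnt_eq_zero_of_valuation_eq_one K A hℓ hA _ h1
      rw [cnt_mul, cnt_inv, cnt_mul, cnt_pow, cnt_pow] at h2
      obtain ⟨k, hk⟩ := hc
      rw [← hv, hk] at h2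
      push_cast at h2
      omega
    rcases eq_or_ne y 0 with rfl | hy
    · have : ((0 : K) : L) * b = 0 := by push_cast; ring
      rw [this, ValuationSubring.mem_nonunits_iff, map_zero]
      exact zero_lt_one
    · have h1 := hne x y hy
      rw [← ValuationSubring.valuation_le_one_iff, Valuation.map_add_of_distinct_val _ h1] at hxy
      rw [ValuationSubring.mem_nonunits_iff]
      refine lt_of_le_of_ne ((le_max_right _ _).trans hxy) ?_
      have h2 := hne 1 y hy
      intro h3
      exact h2 (by rw [h3]; exact map_one _)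
  -- decomposition of `H`-fixed elements
  have h2L : (2 : L) ≠ 0 := two_ne_zero
  have hdecomp : ∀ z : L, (∀ h ∈ H, h z = z) → ∃ x y : K, z = (x : L) + (y : L) * b ∧
      g z = (x : L) - (y : L) * b := by
    intro z hz
    have hginv : ∀ w w' : L, g w = w' → g⁻¹ w' = w := fun w w' h => by
      rw [AlgEquiv.aut_inv, AlgEquiv.symm_apply_eq, h]
    have hcase1 : ∀ σ : L ≃ₐ[ℚ] L, (∀ x ∈ K, σ x = x) → σ b = b →
        σ z = z ∧ σ (g z) = g z := by
      intro σ hσ h
      refine ⟨hz σ (hmemH σ hσ h), ?_⟩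
      have h3 : g⁻¹ * σ * g ∈ H := by
        refine hmemH _ (fun x hx => ?_) ?_
        · change g⁻¹ (σ (g x)) = x
          rw [hgK x hx, hσ x hx]
          exact hginv _ _ (hgK x hx)
        · change g⁻¹ (σ (g b)) = b
          rw [hgb, map_neg, h]
          exact hginv _ _ hgb
      have h4 := hz _ h3
      change g⁻¹ (σ (g z)) = z at h4
      rwa [AlgEquiv.aut_inv, AlgEquiv.symm_apply_eq] at h4
    have hcase2 : ∀ σ : L ≃ₐ[ℚ] L, (∀ x ∈ K, σ x = x) → σ b = -b →
        σ z = g z ∧ σ (g z) = z := by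
      intro σ hσ h
      constructor
      · have h3 : g⁻¹ * σ ∈ H := by
          refine hmemH _ (fun x hx => ?_) ?_
          · change g⁻¹ (σ x) = x
            rw [hσ x hx]
            exact hginv _ _ (hgK x hx)
          · change g⁻¹ (σ b) = b
            rw [h]
            exact hginv _ _ hgb
        have h4 := hz _ h3
        change g⁻¹ (σ z) = z at h4
        rwa [AlgEquiv.aut_inv, AlgEquiv.symm_apply_eq] at h4
      · have h3 : σ * g ∈ H := by
          refine hmemH _ (fun x hx => ?_) ?_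
          · change σ (g x) = x
            rw [hgK x hx, hσ x hx]
          · change σ (g b) = b
            rw [hgb, map_neg, h, neg_neg]
        exact hz _ h3
    have hsign : ∀ σ : L ≃ₐ[ℚ] L, (∀ x ∈ K, σ x = x) → σ b = b ∨ σ b = -b := by
      intro σ hσ
      have h2 : (σ b) ^ 2 = b ^ 2 := by
        rw [← map_pow, hb]
        exact hσ _ (c : K).2
      exact sq_eq_sq_iff_eq_or_eq_neg.1 h2
    have hfix : ∀ w : L, (∀ σ : L ≃ₐ[ℚ] L, (∀ x ∈ K, σ x = x) → σ w = w) → w ∈ K := by
      intro w hw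
      have : w ∈ IntermediateField.fixedField K.fixingSubgroup := by
        rw [IntermediateField.mem_fixedField_iff]
        intro σ hσ
        exact hw σ ((IntermediateField.mem_fixingSubgroup_iff K σ).1 hσ)
      rwa [InfiniteGalois.fixedField_fixingSubgroup] at this
    have hx : (z + g z) / 2 ∈ K := by
      refine hfix _ fun σ hσ => ?_
      rcases hsign σ hσ with h | h
      · obtain ⟨h1, h2⟩ := hcase1 σ hσ h
        rw [map_div₀, map_add, h1, h2, map_ofNat]
      · obtain ⟨h1, h2⟩ := hcase2 σ hσ h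
        rw [map_div₀, map_add, h1, h2, map_ofNat, add_comm]
    have hy : (z - g z) / (2 * b) ∈ K := by
      refine hfix _ fun σ hσ => ?_
      rcases hsign σ hσ with h | h
      · obtain ⟨h1, h2⟩ := hcase1 σ hσ h
        rw [map_div₀, map_sub, map_mul, h1, h2, map_ofNat, h]
      · obtain ⟨h1, h2⟩ := hcase2 σ hσ h
        rw [map_div₀, map_sub, map_mul, h1, h2, map_ofNat, h]
        field_simp
        ring
    refine ⟨⟨_, hx⟩, ⟨_, hy⟩, ?_, ?_⟩
    · change z = (z + g z) / 2 + (z - g z) / (2 * b) * b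
      field_simp
      ring
    · change g z = (z + g z) / 2 - (z - g z) / (2 * b) * b
      field_simp
      ring
  obtain ⟨h, hh, hgh⟩ := InertiaLift.exists_mul_mem_inertia H hH A hℓ hA g (fun z hz => by
    obtain ⟨x, y, hxy, hgxy⟩ := hdecomp (z : L) (fun h hh => congrArg Subtype.val (hz h hh))
    rw [mem_center]
    have h1 : (y : L) * b ∈ A.nonunits := by
      refine hkey x y ?_
      rw [← hxy]
      exact mem_of_isIntegral A z.2
    have h2 : ((g • z - z : integralClosure ℤ L) : L) = (-2 : L) * ((y : L) * b) := by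
      change g (z : L) - (z : L) = _
      rw [hgxy, hxy]
      ring
    rw [h2]
    refine mul_mem_nonunits A ?_ h1
    exact A.neg_mem _ (ofNat_mem A 2))
  refine ⟨g * h, hgh, fun x hx => ?_, ?_⟩
  · change g (h x) = x
    rw [hHK h hh x hx, hgK x hx]
  · change g (h b) = -b
    rw [hHb h hh, hgb]

end Main

end Fermat.Agent.MW.QuadRam
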