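/-
Finiteness of the set of continuous homomorphisms from an open subgroup of `G_ℚ` to a finite
elementary abelian `2`-group, unramified outside a finite set of primes.
-/
import Mathlib
import Fermat.Agent.MW.QuadRam

set_option autoImplicit false

open Pointwise NumberField
open Fermat.Agent.FrobExists Fermat.Agent.MW.Selmer Fermat.Agent.FlatOrd Fermat.Agent.MW.QuadRam
open IsDedekindDomain

namespace Fermat.Agent.MW.QuadFinite

variable {L : Type} [Field L] [Algebra ℚ L] [IsGalois ℚ L]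

/-- A quadratic character of a closed subgroup is given by a square root. -/
theorem exists_sqrt (U : Subgroup (L ≃ₐ[ℚ] L)) (hU : IsClosed (U : Set (L ≃ₐ[ℚ] L)))
    (χ : U →* ℤˣ) (hχ : IsClosed ((χ.ker.map U.subtype : Subgroup (L ≃ₐ[ℚ] L)) :
      Set (L ≃ₐ[ℚ] L))) :
    ∃ β : L, β ≠ 0 ∧ ∀ σ : U, (σ : L ≃ₐ[ℚ] L) β = (((χ σ : ℤˣ) : ℤ) : L) * β := by
  by_cases htriv : χ.ker = ⊤
  · refine ⟨1, one_ne_zero, fun σ => ?_⟩
    have : χ σ = 1 := by
      have : σ ∈ χ.ker := htriv ▸ Subgroup.mem_top σ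
      exact this
    rw [this, map_one]
    simp
  · obtain ⟨V, hV⟩ : ∃ V : Subgroup (L ≃ₐ[ℚ] L), V = χ.ker.map U.subtype := ⟨_, rfl⟩
    rw [← hV] at hχ
    have hVU : V ≤ U := by
      rw [hV]
      rintro _ ⟨σ, -, rfl⟩
      exact σ.2
    have hne : V ≠ U := by
      intro h
      apply htriv
      rw [eq_top_iff]
      intro σ _
      have : (σ : L ≃ₐ[ℚ] L) ∈ V := h ▸ σ.2
      rw [hV] at this
      obtain ⟨τ, hτ, hτσ⟩ := this
      have : τ = σ := Subtype.ext hτσ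
      exact this ▸ hτ
    have hfix : ¬ (IntermediateField.fixedField V ≤ IntermediateField.fixedField U) := by
      intro hle
      have h1 : (IntermediateField.fixedField U).fixingSubgroup ≤
          (IntermediateField.fixedField V).fixingSubgroup :=
        IntermediateField.fixingSubgroup_antitone hle
      have h2 : (IntermediateField.fixedField V).fixingSubgroup = V :=
        InfiniteGalois.fixingSubgroup_fixedField ⟨V, hχ⟩
      have h3 : (IntermediateField.fixedField U).fixingSubgroup = U :=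
        InfiniteGalois.fixingSubgroup_fixedField ⟨U, hU⟩
      rw [h2, h3] at h1
      exact hne (le_antisymm hVU h1)
    obtain ⟨x, hxV, hxU⟩ := SetLike.not_le_iff_exists.1 hfix
    rw [IntermediateField.mem_fixedField_iff] at hxV hxU
    push Not at hxU
    obtain ⟨σ, hσU, hσx⟩ := hxU
    have hmem : ∀ τ : U, χ τ = 1 → (τ : L ≃ₐ[ℚ] L) ∈ V := fun τ hτ => hV ▸ ⟨τ, hτ, rfl⟩
    have hχσ : χ ⟨σ, hσU⟩ = -1 := by
      rcases Int.units_eq_one_or (χ ⟨σ, hσU⟩) with h | h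
      · exact absurd (hxV _ (hmem _ h)) hσx
      · exact h
    refine ⟨x - σ x, sub_ne_zero.2 (Ne.symm hσx), fun ρ => ?_⟩
    rcases Int.units_eq_one_or (χ ρ) with h | h
    · rw [h]
      have h1 : (ρ : L ≃ₐ[ℚ] L) x = x := hxV _ (hmem _ h)
      have h2 : (ρ : L ≃ₐ[ℚ] L) (σ x) = σ x := by
        have h3 : χ (⟨σ, hσU⟩⁻¹ * ρ * ⟨σ, hσU⟩) = 1 := by
          rw [map_mul, map_mul, map_inv, h, hχσ]
          rfl
        have h4 := hxV _ (hmem _ h3)
        change σ⁻¹ ((ρ : L ≃ₐ[ℚ] L) (σ x)) = x at h4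
        rwa [AlgEquiv.aut_inv, AlgEquiv.symm_apply_eq] at h4
      rw [map_sub, h1, h2]
      simp
    · rw [h]
      have h1 : (ρ : L ≃ₐ[ℚ] L) x = σ x := by
        have h3 : χ (⟨σ, hσU⟩⁻¹ * ρ) = 1 := by
          rw [map_mul, map_inv, h, hχσ]
          rfl
        have h4 := hxV _ (hmem _ h3)
        change σ⁻¹ ((ρ : L ≃ₐ[ℚ] L) x) = x at h4
        rwa [AlgEquiv.aut_inv, AlgEquiv.symm_apply_eq] at h4
      have h2 : (ρ : L ≃ₐ[ℚ] L) (σ x) = x := by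
        have h3 : χ (ρ * ⟨σ, hσU⟩) = 1 := by
          rw [map_mul, h, hχσ]
          rfl
        exact hxV _ (hmem _ h3)
      rw [map_sub, h1, h2]
      push_cast
      ring

/-- Predicate: a homomorphism on `U` is unramified outside `S`. -/
def UnramifiedOutside {M : Type*} [Monoid M] (U : Subgroup (L ≃ₐ[ℚ] L)) (S : Set ℕ) (φ : U →* M) :
    Prop :=
  ∀ ℓ : ℕ, ℓ.Prime → ℓ ∉ S → ∀ A : ValuationSubring L, A.LiesOverPrime ℓ →
    ∀ σ : U, (σ : L ≃ₐ[ℚ] L) ∈ A.inertiaSubgroupIn ℚ → φ σ = 1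

/-- Predicate: the kernel of a homomorphism on `U` is open. -/
def OpenKer {M : Type*} [Monoid M] (U : Subgroup (L ≃ₐ[ℚ] L)) (φ : U →* M) : Prop :=
  IsOpen ((φ.ker.map U.subtype : Subgroup (L ≃ₐ[ℚ] L)) : Set (L ≃ₐ[ℚ] L))

theorem finite_placesOver (K : Type*) [Field K] [NumberField K] (S : Set ℕ) (hS : S.Finite)
    (hS0 : ∀ ℓ ∈ S, ℓ ≠ 0) :
    {v : HeightOneSpectrum (𝓞 K) | ∃ ℓ ∈ S, (ℓ : 𝓞 K) ∈ v.asIdeal}.Finite := by
  have : {v : HeightOneSpectrum (𝓞 K) | ∃ ℓ ∈ S, (ℓ : 𝓞 K) ∈ v.asIdeal} =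
      ⋃ ℓ ∈ S, {v : HeightOneSpectrum (𝓞 K) | (ℓ : 𝓞 K) ∈ v.asIdeal} := by
    ext v; simp
  rw [this]
  refine hS.biUnion fun ℓ hℓ => ?_
  have h0 : (Ideal.span {(ℓ : 𝓞 K)}) ≠ 0 := by
    rw [Ne, Ideal.zero_eq_bot, Ideal.span_singleton_eq_bot]
    exact_mod_cast hS0 ℓ hℓ
  refine (Ideal.finite_factors h0).subset fun v hv => ?_
  rw [Set.mem_ofPred_eq, Ideal.dvd_span_singleton]
  exact hv

/-- **Finiteness of quadratic characters unramified outside `S`.** -/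
theorem finite_quadratic (U : Subgroup (L ≃ₐ[ℚ] L)) (hU : IsOpen (U : Set (L ≃ₐ[ℚ] L)))
    (S : Set ℕ) (hS : S.Finite) :
    {χ : U →* ℤˣ | OpenKer U χ ∧ UnramifiedOutside U S χ}.Finite := by
  classical
  have hchar : CharZero L := algebraRat.charZero L
  have hUc : IsClosed (U : Set (L ≃ₐ[ℚ] L)) := U.isClosed_of_isOpen hU
  set K := IntermediateField.fixedField U with hK
  have hKU : K.fixingSubgroup = U := InfiniteGalois.fixingSubgroup_fixedField ⟨U, hUc⟩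
  have hfd : FiniteDimensional ℚ K := by
    rw [← InfiniteGalois.isOpen_iff_finite, hKU]
    exact hU
  have hmemU : ∀ σ : L ≃ₐ[ℚ] L, (∀ x ∈ K, σ x = x) → σ ∈ U := fun σ hσ => by
    rw [← hKU, IntermediateField.mem_fixingSubgroup_iff]
    exact hσ
  have hfixK : ∀ w : L, (∀ σ ∈ U, σ w = w) → w ∈ K := fun w hw =>
    (IntermediateField.mem_fixedField_iff _ _).2 hw
  -- the finite set of places
  set S' : Set (HeightOneSpectrum (𝓞 K)) :=
    {v | ∃ ℓ ∈ (S \ {0} : Set ℕ), (ℓ : 𝓞 K) ∈ v.asIdeal} with hS'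
  have hS'fin : S'.Finite := finite_placesOver K _ (hS.subset Set.sdiff_subset)
    (fun ℓ hℓ => fun h => hℓ.2 h)
  have hFG : Group.FG (𝓞 K)ˣ := Group.fg_iff_monoid_fg.2 inferInstance
  obtain ⟨T, hT⟩ := exists_finset_of_relIndex_ne_zero _ _
    (finite_selmer (R := 𝓞 K) (K := K) S' hS'fin 2 two_ne_zero)
  -- data attached to a character
  have hdata : ∀ χ : U →* ℤˣ, OpenKer U χ → UnramifiedOutside U S χ →
      ∃ t ∈ T, ∃ γ : L, γ ≠ 0 ∧ γ ^ 2 = ((t : K) : L) ∧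
        ∀ σ : U, (σ : L ≃ₐ[ℚ] L) γ = (((χ σ : ℤˣ) : ℤ) : L) * γ := by
    intro χ hχ hunr
    obtain ⟨β, hβ0, hβ⟩ := exists_sqrt U hUc χ (Subgroup.isClosed_of_isOpen _ hχ)
    have hβ2 : β ^ 2 ∈ K := by
      refine hfixK _ fun σ hσ => ?_
      rw [map_pow, hβ ⟨σ, hσ⟩, mul_pow]
      rcases Int.units_eq_one_or (χ ⟨σ, hσ⟩) with h | h <;> rw [h] <;> simp
    let a : Kˣ := Units.mk0 ⟨β ^ 2, hβ2⟩ (fun h => (pow_ne_zero 2 hβ0) (congrArg Subtype.val h))
    have ha : a ∈ E (𝓞 K) K S' 2 := by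
      intro v hv
      by_contra hodd
      have hodd' : Odd (cnt v a) := by
        rw [← Int.not_even_iff_odd, even_iff_two_dvd]
        exact hodd
      obtain ⟨ℓ, hℓ, A, hA, hℓv, rfl⟩ := exists_valuationSubring_place K v
      have hℓS : ℓ ∉ S := fun h => hv ⟨ℓ, ⟨h, hℓ.ne_zero⟩, hℓv⟩
      obtain ⟨σ, hσI, hσK, hσβ⟩ := exists_inertia_moving K A hℓ hA a hodd' β rfl
      have h1 := hunr ℓ hℓ hℓS A hA ⟨σ, hmemU σ hσK⟩ hσI
      have h2 := hβ ⟨σ, hmemU σ hσK⟩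
      rw [h1] at h2
      have h3 : σ β = β := by simpa using h2
      rw [hσβ] at h3
      have h4 : (2 : L) * β = 0 := by
        rw [two_mul]
        nth_rewrite 1 [← h3]
        exact neg_add_cancel β
      exact (mul_ne_zero two_ne_zero hβ0) h4
    obtain ⟨t, htT, y, hy⟩ := hT a ha
    have hy' : y ^ 2 = t⁻¹ * a := hy
    refine ⟨t, htT, β * (((y⁻¹ : Kˣ) : K) : L), ?_, ?_, ?_⟩
    · refine mul_ne_zero hβ0 fun h => ?_
      exact (y⁻¹ : Kˣ).ne_zero (Subtype.ext h)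
    · have h1 : t = a * (y⁻¹) ^ 2 := by
        rw [inv_pow, hy', mul_inv, inv_inv, mul_comm t, mul_inv_cancel_left]
      rw [mul_pow]
      have h2 := congrArg (fun u : Kˣ => ((u : K) : L)) h1
      refine Eq.trans ?_ h2.symm
      push_cast
      rfl
    · intro σ
      have h1 : (σ : L ≃ₐ[ℚ] L) (((y⁻¹ : Kˣ) : K) : L) = (((y⁻¹ : Kˣ) : K) : L) :=
        (IntermediateField.mem_fixedField_iff _ _).1 ((y⁻¹ : Kˣ) : K).2 σ σ.2
      rw [map_mul, h1, hβ σ, mul_assoc]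
  -- injectivity
  refine Set.Finite.of_injOn (f := fun χ : U →* ℤˣ =>
    if h : OpenKer U χ ∧ UnramifiedOutside U S χ then (hdata χ h.1 h.2).choose else 1)
    (t := (T : Set Kˣ) ∪ {1}) ?_ ?_ (by exact (T.finite_toSet.union (Set.finite_singleton 1)))
  · intro χ hχ
    rw [Set.mem_ofPred_eq] at hχ
    dsimp only
    rw [dif_pos hχ]
    exact Or.inl (hdata χ hχ.1 hχ.2).choose_spec.1
  · intro χ hχ χ' hχ' heq
    rw [Set.mem_ofPred_eq] at hχ hχ'
    dsimp only at heq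
    rw [dif_pos hχ, dif_pos hχ'] at heq
    obtain ⟨-, γ, hγ0, hγ2, hγ⟩ := (hdata χ hχ.1 hχ.2).choose_spec
    obtain ⟨-, γ', hγ0', hγ2', hγ'⟩ := (hdata χ' hχ'.1 hχ'.2).choose_spec
    have h1 : γ ^ 2 = γ' ^ 2 := by rw [hγ2, hγ2', heq]
    have h2 : ∀ σ : U, (σ : L ≃ₐ[ℚ] L) γ = (((χ' σ : ℤˣ) : ℤ) : L) * γ := by
      intro σ
      rcases sq_eq_sq_iff_eq_or_eq_neg.1 h1 with h | h
      · rw [h, hγ' σ]
      · rw [h, map_neg, hγ' σ, mul_neg]
    ext σ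
    have h3 := (hγ σ).symm.trans (h2 σ)
    have h4 := mul_right_cancel₀ hγ0 h3
    exact_mod_cast h4

end Fermat.Agent.MW.QuadFinite
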