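import Fermat.Agent.MW.Basic

/-!
# Points and ideals of a curve algebra (over an algebraically closed field)
-/

set_option autoImplicit false

open Module

namespace Fermat.Agent.MW

/-! ### multiplicativity of the colength -/

section ColMul

variable {k A : Type*} [Field k] [CommRing A] [Algebra k A] (C : CurveAlg k A)

include C in
theorem col_mul [IsDedekindDomain A] {I J : Ideal A} (hI : I ≠ ⊥) (hJ : J ≠ ⊥) :
    col k (I * J) = col k I + col k J := by
  have hIJ : I * J ≠ ⊥ := by
    rw [Ne, ← Ideal.zero_eq_bot] at *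
    exact mul_ne_zero hI hJ
  have hle : I * J ≤ I := Ideal.mul_le_left
  obtain ⟨a, ha⟩ := IsDedekindDomain.exists_sup_span_eq hle (by rwa [Ideal.zero_eq_bot])
  have haI : a ∈ I := by
    rw [← ha]
    exact Ideal.mem_sup_right (Ideal.subset_span rfl)
  have f1 := C.finite_quotient hI
  have f2 := C.finite_quotient hJ
  have f3 := C.finite_quotient hIJ
  -- the map `A/J → A/IJ`, mult by `a`
  let μ : (A ⧸ J) →ₗ[A] (A ⧸ (I * J)) :=
    J.mapQ (I * J) (LinearMap.mulLeft A a) (by
      intro x hx
      rw [Submodule.mem_comap, LinearMap.mulLeft_apply]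
      exact Ideal.mul_mem_mul haI hx)
  let ψ : (A ⧸ (I * J)) →ₗ[A] (A ⧸ I) := (I * J).mapQ I LinearMap.id hle
  have hψs : Function.Surjective ψ := by
    intro y
    obtain ⟨x, rfl⟩ := Submodule.mkQ_surjective _ y
    exact ⟨Submodule.Quotient.mk x, rfl⟩
  have hμi : Function.Injective μ := by
    rw [← LinearMap.ker_eq_bot, Submodule.eq_bot_iff]
    intro y hy
    obtain ⟨x, rfl⟩ := Submodule.mkQ_surjective _ y
    rw [LinearMap.mem_ker] at hy
    have hax : a * x ∈ I * J := by
      have : (Submodule.Quotient.mk (a * x) : A ⧸ (I * J)) = 0 := hy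
      rwa [Submodule.Quotient.mk_eq_zero] at this
    rw [Submodule.mkQ_apply, Submodule.Quotient.mk_eq_zero]
    -- I * span{x} ≤ I * J
    have h0 : (I * J ⊔ Ideal.span {a}) * Ideal.span {x} ≤ I * J := by
      rw [Ideal.sup_mul, sup_le_iff]
      constructor
      · exact Ideal.mul_le_left
      · rw [Ideal.span_singleton_mul_span_singleton, Ideal.span_singleton_le_iff_mem]
        exact hax
    have h1 : I * Ideal.span {x} ≤ I * J := by
      rwa [ha] at h0
    rw [← Ideal.dvd_iff_le] at h1
    have h2 := (mul_dvd_mul_iff_left (by rwa [Ideal.zero_eq_bot] : I ≠ 0)).mp h1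
    exact Ideal.dvd_span_singleton.mp h2
  have hex : LinearMap.range μ = LinearMap.ker ψ := by
    apply le_antisymm
    · rintro _ ⟨y, rfl⟩
      obtain ⟨x, rfl⟩ := Submodule.mkQ_surjective _ y
      rw [LinearMap.mem_ker]
      show (Submodule.Quotient.mk (a * x) : A ⧸ I) = 0
      rw [Submodule.Quotient.mk_eq_zero]
      exact Ideal.mul_mem_right _ _ haI
    · intro y hy
      obtain ⟨x, rfl⟩ := Submodule.mkQ_surjective _ y
      rw [LinearMap.mem_ker] at hy
      have hx : x ∈ I := by
        have : (Submodule.Quotient.mk x : A ⧸ I) = 0 := hy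
        rwa [Submodule.Quotient.mk_eq_zero] at this
      rw [← ha] at hx
      obtain ⟨u, hu, v, hv, rfl⟩ := Submodule.mem_sup.mp hx
      obtain ⟨z, rfl⟩ := Ideal.mem_span_singleton.mp hv
      refine ⟨Submodule.Quotient.mk z, ?_⟩
      show (Submodule.Quotient.mk (a * z) : A ⧸ (I * J)) = Submodule.Quotient.mk (u + a * z)
      rw [Submodule.Quotient.eq]
      have : a * z - (u + a * z) = -u := by ring
      rw [this]
      exact neg_mem hu
  have e1 := LinearMap.finrank_range_add_finrank_ker (ψ.restrictScalars k)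
  have e2 := LinearMap.finrank_range_of_inj (f := μ.restrictScalars k) hμi
  have e3 : LinearMap.range (μ.restrictScalars k) = LinearMap.ker (ψ.restrictScalars k) := by
    ext y
    have := congrArg (fun (N : Submodule A (A ⧸ (I * J))) => y ∈ N) hex
    simpa using this
  have e4 : LinearMap.range (ψ.restrictScalars k) = ⊤ := LinearMap.range_eq_top.mpr hψs
  rw [← e3, e2, e4, finrank_top] at e1
  unfold col
  exact e1.symm

end ColMul

section Points

variable {k A : Type*} [Field k] [CommRing A] [Algebra k A] (C : CurveAlg k A)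

/-- the ideal of a multiset of points -/
noncomputable def idl (D : Multiset (A →ₐ[k] k)) : Ideal A := (D.map fun P => RingHom.ker P).prod

@[simp] theorem idl_zero : idl (0 : Multiset (A →ₐ[k] k)) = ⊤ := by
  simp [idl]

theorem idl_add (D E : Multiset (A →ₐ[k] k)) : idl (D + E) = idl D * idl E := by
  simp [idl]

theorem idl_cons (P : A →ₐ[k] k) (D : Multiset (A →ₐ[k] k)) :
    idl (P ::ₘ D) = RingHom.ker P * idl D := by
  simp [idl]

@[simp] theorem idl_singleton (P : A →ₐ[k] k) : idl ({P} : Multiset (A →ₐ[k] k)) = RingHom.ker P := by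
  simp [idl]

theorem pt_surjective (P : A →ₐ[k] k) : Function.Surjective P := fun x =>
  ⟨algebraMap k A x, by simp⟩

theorem sub_algebraMap_mem_ker (P : A →ₐ[k] k) (a : A) :
    a - algebraMap k A (P a) ∈ RingHom.ker P := by
  rw [RingHom.mem_ker, map_sub, AlgHom.commutes]
  simp

theorem pt_ext_of_ker_le {P Q : A →ₐ[k] k} (h : RingHom.ker P ≤ RingHom.ker Q) : P = Q := by
  ext a
  have := h (sub_algebraMap_mem_ker P a)
  rw [RingHom.mem_ker, map_sub, AlgHom.commutes] at this
  simpa using (sub_eq_zero.mp this).symm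

theorem ker_injective :
    Function.Injective (fun P : A →ₐ[k] k => (RingHom.ker P : Ideal A)) :=
  fun _ _ h => pt_ext_of_ker_le (le_of_eq h)

instance ker_isMaximal (P : A →ₐ[k] k) : (RingHom.ker P).IsMaximal :=
  RingHom.ker_isMaximal_of_surjective P (pt_surjective P)

theorem col_ker (P : A →ₐ[k] k) : col k (RingHom.ker P) = 1 := by
  unfold col
  rw [(Ideal.quotientKerAlgEquivOfSurjective (pt_surjective P)).toLinearEquiv.finrank_eq]
  exact finrank_self k

include C in
theorem exists_pos_deg : ∃ l : C.S, 0 < (l : ℕ) :=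
  ⟨⟨C.cond + 1, C.mem_of_cond_le (by omega)⟩, by simp⟩

include C in
theorem ker_ne_bot (P : A →ₐ[k] k) : RingHom.ker P ≠ ⊥ := by
  obtain ⟨l, hl⟩ := exists_pos_deg C
  intro h
  have h1 := sub_algebraMap_mem_ker P (C.b l)
  rw [h, Ideal.mem_bot, sub_eq_zero] at h1
  have h2 : C.coef l (C.b l) = C.coef l (algebraMap k A (P (C.b l))) := by rw [← h1]
  rw [C.coef_b, if_pos rfl, Algebra.algebraMap_eq_smul_one, map_smul, ← C.b_zero, C.coef_b,
    if_neg (by simpa using hl.ne), smul_zero] at h2
  exact one_ne_zero h2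

theorem ker_prime [IsDedekindDomain A] (hker : ∀ P : A →ₐ[k] k, RingHom.ker P ≠ ⊥) (P : A →ₐ[k] k) :
    Prime (RingHom.ker P : Ideal A) :=
  Ideal.prime_of_isPrime (hker P) inferInstance

include C in
theorem idl_ne_bot (D : Multiset (A →ₐ[k] k)) : idl D ≠ ⊥ := by
  have := C.isDomain
  unfold idl
  rw [← Ideal.zero_eq_bot]
  apply Multiset.prod_ne_zero
  intro h
  obtain ⟨P, _, hP⟩ := Multiset.mem_map.mp h
  exact ker_ne_bot C P (by rwa [Ideal.zero_eq_bot] at hP)

include C in
theorem col_idl [IsDedekindDomain A] (D : Multiset (A →ₐ[k] k)) : col k (idl D) = D.card := by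
  induction D using Multiset.induction_on with
  | empty =>
    rw [idl_zero, (C.col_eq_zero_iff (by
      have := C.nontrivial
      exact top_ne_bot)).mpr rfl, Multiset.card_zero]
  | cons P D ih =>
    rw [idl_cons, col_mul C (ker_ne_bot C P) (idl_ne_bot C D), ih, col_ker, Multiset.card_cons,
      add_comm]

include C in
/-- every maximal ideal is the kernel of a point -/
theorem exists_pt_of_isMaximal [IsAlgClosed k] (M : Ideal A) [hM : M.IsMaximal] :
    ∃ P : A →ₐ[k] k, M = RingHom.ker P := by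
  have hM0 : M ≠ ⊥ := by
    rintro rfl
    obtain ⟨l, hl⟩ := exists_pos_deg C
    have hfield : IsField A := by
      have := C.nontrivial
      exact Ring.isField_iff_maximal_bot.mpr hM
    obtain ⟨y, hy⟩ := hfield.mul_inv_cancel (C.b.ne_zero l)
    have hdom := C.isDomain
    have hy0 : y ≠ 0 := by
      rintro rfl
      rw [mul_zero] at hy
      exact zero_ne_one hy
    have := C.deg_mul (C.b.ne_zero l) hy0
    rw [hy, ← C.b_zero, C.deg_b, C.deg_b] at this
    simp only at this
    omega
  have hfin := C.finite_quotient hM0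
  let : Field (A ⧸ M) := Ideal.Quotient.field M
  have hint : Algebra.IsIntegral k (A ⧸ M) := Algebra.IsIntegral.of_finite k _
  have hb := IsAlgClosed.algebraMap_bijective_of_isIntegral (k := k) (K := A ⧸ M)
  let e : k ≃ₐ[k] (A ⧸ M) := AlgEquiv.ofBijective (Algebra.ofId k (A ⧸ M)) hb
  refine ⟨(e.symm : (A ⧸ M) →ₐ[k] k).comp (Ideal.Quotient.mkₐ k M), ?_⟩
  ext a
  rw [RingHom.mem_ker, AlgHom.comp_apply]
  simp only [AlgEquiv.coe_toAlgHom, Ideal.Quotient.mkₐ_eq_mk, EmbeddingLike.map_eq_zero_iff]
  exact Ideal.Quotient.eq_zero_iff_mem.symm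

include C in
theorem exists_eq_idl [IsAlgClosed k] [IsDedekindDomain A] {I : Ideal A} (hI : I ≠ ⊥) :
    ∃ D : Multiset (A →ₐ[k] k), I = idl D := by
  induction I using UniqueFactorizationMonoid.induction_on_prime with
  | h₁ => exact absurd rfl hI
  | h₂ x hx =>
    refine ⟨0, ?_⟩
    rw [idl_zero]
    exact (Ideal.isUnit_iff).mp hx
  | h₃ a p ha hp ih =>
    obtain ⟨D, hD⟩ := ih (by rwa [← Ideal.zero_eq_bot])
    have hp' : p.IsMaximal := (Ideal.isPrime_of_prime hp).isMaximal
      (by rw [← Ideal.zero_eq_bot]; exact hp.ne_zero)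
    obtain ⟨P, hP⟩ := exists_pt_of_isMaximal C p
    exact ⟨P ::ₘ D, by rw [idl_cons, ← hP, ← hD]⟩

open UniqueFactorizationMonoid in
include C in
theorem normalizedFactors_idl [IsDedekindDomain A] (D : Multiset (A →ₐ[k] k)) :
    normalizedFactors (idl D) = D.map fun P => (RingHom.ker P : Ideal A) := by
  unfold idl
  rw [normalizedFactors_prod_eq]
  · rw [Multiset.map_map]
    apply Multiset.map_congr rfl
    intro P _
    simp
  · intro I hI
    obtain ⟨P, _, rfl⟩ := Multiset.mem_map.mp hI
    exact (ker_prime (ker_ne_bot C) P).irreducible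

include C in
theorem idl_dvd_idl_iff [IsDedekindDomain A] {D E : Multiset (A →ₐ[k] k)} :
    idl D ∣ idl E ↔ D ≤ E := by
  rw [UniqueFactorizationMonoid.dvd_iff_normalizedFactors_le_normalizedFactors
    (by rw [Ideal.zero_eq_bot]; exact idl_ne_bot C D)
    (by rw [Ideal.zero_eq_bot]; exact idl_ne_bot C E), normalizedFactors_idl C,
    normalizedFactors_idl C]
  exact Multiset.map_le_map_iff ker_injective

include C in
theorem idl_le_idl_iff [IsDedekindDomain A] {D E : Multiset (A →ₐ[k] k)} :
    idl E ≤ idl D ↔ D ≤ E := by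
  rw [← Ideal.dvd_iff_le, idl_dvd_idl_iff C]

include C in
theorem idl_injective [IsDedekindDomain A] :
    Function.Injective (idl : Multiset (A →ₐ[k] k) → Ideal A) := by
  intro D E h
  apply le_antisymm
  · rw [← idl_le_idl_iff C, h]
  · rw [← idl_le_idl_iff C, h]

include C in
theorem exists_div [IsAlgClosed k] [IsDedekindDomain A] {a : A} (ha : a ≠ 0) :
    ∃ D : Multiset (A →ₐ[k] k), Ideal.span {a} = idl D :=
  exists_eq_idl C (by rwa [Ne, Ideal.span_singleton_eq_bot])

/-- the divisor of zeros of `a` (`0` if `a = 0`) -/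
noncomputable def dv [IsAlgClosed k] [IsDedekindDomain A] (a : A) : Multiset (A →ₐ[k] k) :=
  open Classical in if ha : a ≠ 0 then (exists_div C ha).choose else 0

theorem span_eq_idl_dv [IsAlgClosed k] [IsDedekindDomain A] {a : A} (ha : a ≠ 0) :
    Ideal.span {a} = idl (dv C a) := by
  rw [dv, dif_pos ha]
  exact (exists_div C ha).choose_spec

theorem dv_eq_of [IsAlgClosed k] [IsDedekindDomain A] {a : A} {D : Multiset (A →ₐ[k] k)}
    (h : Ideal.span {a} = idl D) : dv C a = D := by
  have ha : a ≠ 0 := by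
    rintro rfl
    rw [Ideal.span_singleton_eq_bot.mpr rfl] at h
    exact idl_ne_bot C D h.symm
  apply idl_injective C
  rw [← span_eq_idl_dv C ha, h]

theorem card_dv [IsAlgClosed k] [IsDedekindDomain A] (a : A) (ha : a ≠ 0) :
    (dv C a).card = C.deg a := by
  rw [← col_idl C, ← span_eq_idl_dv C ha, C.col_span ha]

theorem dv_mul [IsAlgClosed k] [IsDedekindDomain A] {a b : A} (ha : a ≠ 0) (hb : b ≠ 0) :
    dv C (a * b) = dv C a + dv C b := by
  apply dv_eq_of
  rw [idl_add, ← span_eq_idl_dv C ha, ← span_eq_idl_dv C hb,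
    Ideal.span_singleton_mul_span_singleton]

theorem mem_idl_iff [IsAlgClosed k] [IsDedekindDomain A] {a : A} (ha : a ≠ 0)
    {D : Multiset (A →ₐ[k] k)} : a ∈ idl D ↔ D ≤ dv C a := by
  rw [← idl_le_idl_iff C, ← span_eq_idl_dv C ha, Ideal.span_singleton_le_iff_mem]

theorem mem_ker_iff_mem_dv [IsAlgClosed k] [IsDedekindDomain A] {a : A} (ha : a ≠ 0)
    {P : A →ₐ[k] k} : P a = 0 ↔ P ∈ dv C a := by
  rw [← Multiset.singleton_le, ← mem_idl_iff C ha, idl_singleton, RingHom.mem_ker]

/-- factorization of an element of `idl D` -/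
theorem exists_rest [IsAlgClosed k] [IsDedekindDomain A] {a : A} (ha : a ≠ 0)
    {D : Multiset (A →ₐ[k] k)} (haD : a ∈ idl D) :
    ∃ R : Multiset (A →ₐ[k] k), Ideal.span {a} = idl (D + R) ∧ D.card + R.card = C.deg a := by
  rw [mem_idl_iff C ha] at haD
  obtain ⟨R, hR⟩ := Multiset.le_iff_exists_add.mp haD
  refine ⟨R, ?_, ?_⟩
  · rw [← hR, span_eq_idl_dv C ha]
  · rw [← card_dv C a ha, hR, Multiset.card_add]

/-- Riemann for divisors of points -/
theorem finrank_L_idl [IsDedekindDomain A] (D : Multiset (A →ₐ[k] k)) {m : ℕ}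
    (hm : D.card + C.cc ≤ m) :
    finrank k (C.L (idl D) m) + D.card + C.genus = m + 1 := by
  have h := C.finrank_L (idl_ne_bot C D) (m := m) (by rwa [col_idl C])
  rwa [col_idl C] at h

/-- **avoidance**: an element of `L(D,m)` of exact degree `m` with no zeros at the given points
beyond `D`. -/
theorem exists_avoid [IsAlgClosed k] [IsDedekindDomain A] (D : Multiset (A →ₐ[k] k))
    (T : Finset (A →ₐ[k] k)) {m : ℕ} (hm : D.card + C.cc + 1 ≤ m) :
    ∃ a ∈ C.L (idl D) m, C.deg a = m ∧ a ≠ 0 ∧ ∀ P ∈ T, a ∉ idl (P ::ₘ D) := by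
  have : Infinite k := IsAlgClosed.instInfinite
  let V := C.L (idl D) m
  let p : Option T → Submodule k V := fun o => match o with
    | none => (C.L (idl D) (m - 1)).comap V.subtype
    | some P => (C.L (idl (P.1 ::ₘ D)) m).comap V.subtype
  have hV := finrank_L_idl C D (m := m) (by omega)
  have hp : ∀ o, p o ≠ ⊤ := by
    intro o h
    cases o with
    | none =>
      have hle : V ≤ C.L (idl D) (m - 1) := by
        intro x hx
        have : (⟨x, hx⟩ : V) ∈ p none := by rw [h]; trivial
        exact this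
      have h1 := Submodule.finrank_mono hle
      have h2 := finrank_L_idl C D (m := m - 1) (by omega)
      have h3 : finrank k V = finrank k (C.L (idl D) m) := rfl
      omega
    | some P =>
      have hle : V ≤ C.L (idl (P.1 ::ₘ D)) m := by
        intro x hx
        have : (⟨x, hx⟩ : V) ∈ p (some P) := by rw [h]; trivial
        exact this
      have h1 := Submodule.finrank_mono hle
      have h2 := finrank_L_idl C (P.1 ::ₘ D) (m := m) (by rw [Multiset.card_cons]; omega)
      rw [Multiset.card_cons] at h2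
      have h3 : finrank k V = finrank k (C.L (idl D) m) := rfl
      omega
  obtain ⟨⟨a, haV⟩, ha⟩ := Submodule.exists_forall_notMem_of_forall_ne_top p hp
  have hdeg : C.deg a = m := by
    have h1 := ha none
    have h2 := C.mem_Fil_iff_deg_le.mp (C.mem_L.mp haV).2
    by_contra hne
    apply h1
    show a ∈ C.L (idl D) (m - 1)
    rw [C.mem_L, C.mem_Fil_iff_deg_le]
    exact ⟨(C.mem_L.mp haV).1, by omega⟩
  refine ⟨a, haV, hdeg, ?_, ?_⟩
  · rintro rfl
    exact ha none (Submodule.zero_mem _)
  · intro P hP haP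
    apply ha (some ⟨P, hP⟩)
    show a ∈ C.L (idl (P ::ₘ D)) m
    rw [C.mem_L]
    exact ⟨haP, (C.mem_L.mp haV).2⟩

theorem cons_mem_idl_of [IsDedekindDomain A] {P : A →ₐ[k] k} {D : Multiset (A →ₐ[k] k)} {a b : A}
    (ha : a ∈ idl D) (hb : P b = 0) : b * a ∈ idl (P ::ₘ D) := by
  rw [idl_cons]
  exact Ideal.mul_mem_mul hb ha

include C in
/-- if `d` does not vanish at the points of `D` then `d u ∈ idl D ↔ u ∈ idl D` -/
theorem mem_idl_of_mul_mem [IsAlgClosed k] [IsDedekindDomain A] {D : Multiset (A →ₐ[k] k)}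
    {d u : A} (hd : ∀ P ∈ D, P d ≠ 0) (h : d * u ∈ idl D) : u ∈ idl D := by
  by_cases hu : u = 0
  · rw [hu]; exact Submodule.zero_mem _
  by_cases hd0 : d = 0
  · have hD : D = 0 := by
      rw [Multiset.eq_zero_iff_forall_notMem]
      intro P hP
      exact hd P hP (by rw [hd0, map_zero])
    rw [hD, idl_zero]; trivial
  rw [mem_idl_iff C hu]
  rw [mem_idl_iff C (mul_ne_zero hd0 hu), dv_mul C hd0 hu] at h
  classical
  have hdisj : ∀ P ∈ D, P ∉ dv C d := by
    intro P hP h
    exact hd P hP ((mem_ker_iff_mem_dv C hd0).mpr h)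
  rw [Multiset.le_iff_count]
  intro P
  by_cases hP : P ∈ D
  · have h1 := Multiset.le_iff_count.mp h P
    rw [Multiset.count_add, Multiset.count_eq_zero_of_notMem (hdisj P hP), zero_add] at h1
    exact h1
  · rw [Multiset.count_eq_zero_of_notMem hP]
    exact Nat.zero_le _

end Points

end Fermat.Agent.MW
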