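import Mathlib

/-!
# Curve algebras

`CurveAlg k A`: a `k`-algebra `A` with a `k`-basis `b_l` indexed by a numerical semigroup `S`
with finite complement, such that `b_i b_j = c b_{i+j} + lower`, `c ≠ 0`.  This is the algebra of
functions on a (projective) curve which are regular away from one rational point `O`,
`deg` = pole order at `O`.
-/

set_option autoImplicit false

open Module

namespace Fermat.Agent.MW

structure CurveAlg (k A : Type*) [Field k] [CommRing A] [Algebra k A] where
  S : Set ℕ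
  b : Basis S k A
  zero_mem : 0 ∈ S
  b_zero : b ⟨0, zero_mem⟩ = 1
  finite_compl : Sᶜ.Finite
  add_mem : ∀ {i j : ℕ}, i ∈ S → j ∈ S → i + j ∈ S
  repr_mul_of_lt : ∀ i j l : S, (i : ℕ) + j < l → b.repr (b i * b j) l = 0
  repr_mul_top : ∀ i j : S, b.repr (b i * b j) ⟨i + j, add_mem i.2 j.2⟩ ≠ 0

namespace CurveAlg

variable {k A : Type*} [Field k] [CommRing A] [Algebra k A] (C : CurveAlg k A)

/-- coefficient of `b_m` (zero if `m ∉ S`). -/
noncomputable def coef (m : ℕ) : A →ₗ[k] k :=
  open Classical in if h : m ∈ C.S then C.b.coord ⟨m, h⟩ else 0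

theorem coef_of_mem {m : ℕ} (h : m ∈ C.S) (a : A) : C.coef m a = C.b.repr a ⟨m, h⟩ := by
  simp [coef, h]

theorem coef_of_notMem {m : ℕ} (h : m ∉ C.S) (a : A) : C.coef m a = 0 := by
  simp [coef, h]

theorem coef_coe (l : C.S) (a : A) : C.coef (l : ℕ) a = C.b.repr a l :=
  C.coef_of_mem l.2 a

theorem ext_coef {a b : A} (h : ∀ m, C.coef m a = C.coef m b) : a = b := by
  apply C.b.repr.injective
  ext l
  rw [← C.coef_coe, ← C.coef_coe, h]

theorem coef_b (m : ℕ) (l : C.S) : C.coef m (C.b l) = if (l : ℕ) = m then 1 else 0 := by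
  by_cases h : m ∈ C.S
  · rw [C.coef_of_mem h, C.b.repr_self, Finsupp.single_apply]
    simp only [Subtype.ext_iff]
  · rw [C.coef_of_notMem h, if_neg]
    rintro rfl
    exact h l.2

/-- elements of pole order `≤ m`. -/
def Fil (m : ℕ) : Submodule k A where
  carrier := {a | ∀ l : ℕ, m < l → C.coef l a = 0}
  zero_mem' := fun l _ => by simp
  add_mem' := fun ha hb l hl => by simp [ha l hl, hb l hl]
  smul_mem' := fun c a ha l hl => by simp [ha l hl]

theorem mem_Fil {m : ℕ} {a : A} : a ∈ C.Fil m ↔ ∀ l : ℕ, m < l → C.coef l a = 0 := Iff.rfl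

theorem Fil_mono {m n : ℕ} (h : m ≤ n) : C.Fil m ≤ C.Fil n :=
  fun _ ha l hl => ha l (lt_of_le_of_lt h hl)

theorem b_mem_Fil (l : C.S) : C.b l ∈ C.Fil l := by
  intro m hm
  rw [C.coef_b, if_neg (ne_of_lt hm)]

/-- pole order of `a` at the point at infinity (`0` for `a = 0`). -/
noncomputable def deg (a : A) : ℕ := (C.b.repr a).support.sup fun l => (l : ℕ)

theorem coef_eq_zero_of_deg_lt {a : A} {l : ℕ} (h : C.deg a < l) : C.coef l a = 0 := by
  by_contra hne
  have hl : l ∈ C.S := by
    by_contra hl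
    exact hne (C.coef_of_notMem hl a)
  rw [C.coef_of_mem hl] at hne
  have : (l : ℕ) ≤ C.deg a :=
    Finset.le_sup (f := fun l : C.S => (l : ℕ)) (Finsupp.mem_support_iff.mpr hne)
  omega

theorem mem_Fil_iff_deg_le {m : ℕ} {a : A} : a ∈ C.Fil m ↔ C.deg a ≤ m := by
  constructor
  · intro h
    apply Finset.sup_le
    intro l hl
    by_contra hlt
    push Not at hlt
    rw [Finsupp.mem_support_iff, ← C.coef_coe] at hl
    exact hl (h l hlt)
  · intro h l hl
    exact C.coef_eq_zero_of_deg_lt (lt_of_le_of_lt h hl)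

theorem mem_Fil_deg (a : A) : a ∈ C.Fil (C.deg a) := C.mem_Fil_iff_deg_le.mpr le_rfl

theorem coef_deg_ne_zero {a : A} (ha : a ≠ 0) : C.coef (C.deg a) a ≠ 0 := by
  have hne : (C.b.repr a).support.Nonempty := by
    rw [Finsupp.support_nonempty_iff]
    simpa using ha
  obtain ⟨l, hl, hl'⟩ := Finset.exists_mem_eq_sup _ hne (fun l : C.S => (l : ℕ))
  have : C.deg a = l := hl'
  rw [this, C.coef_coe]
  exact Finsupp.mem_support_iff.mp hl

theorem deg_mem {a : A} (ha : a ≠ 0) : C.deg a ∈ C.S := by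
  by_contra h
  exact C.coef_deg_ne_zero ha (C.coef_of_notMem h a)

theorem deg_eq_of {a : A} {m : ℕ} (h1 : a ∈ C.Fil m) (h2 : C.coef m a ≠ 0) : C.deg a = m := by
  apply le_antisymm (C.mem_Fil_iff_deg_le.mp h1)
  by_contra h
  push Not at h
  exact h2 (C.coef_eq_zero_of_deg_lt h)

theorem deg_b (l : C.S) : C.deg (C.b l) = l :=
  C.deg_eq_of (C.b_mem_Fil l) (by rw [C.coef_b]; simp)

@[simp] theorem deg_zero : C.deg 0 = 0 := by simp [deg]

theorem coef_mul (m : ℕ) (a b : A) :
    C.coef m (a * b) = ∑ i ∈ (C.b.repr a).support, ∑ j ∈ (C.b.repr b).support,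
      C.b.repr a i * (C.b.repr b j * C.coef m (C.b i * C.b j)) := by
  conv_lhs => rw [← C.b.linearCombination_repr a, ← C.b.linearCombination_repr b,
    Finsupp.linearCombination_apply, Finsupp.linearCombination_apply, Finsupp.sum, Finsupp.sum,
    Finset.sum_mul_sum]
  rw [map_sum]
  refine Finset.sum_congr rfl fun i _ => ?_
  rw [map_sum]
  refine Finset.sum_congr rfl fun j _ => ?_
  rw [smul_mul_smul_comm, map_smul, smul_eq_mul, mul_assoc]

theorem coef_b_mul_b_of_lt {m : ℕ} {i j : C.S} (h : (i : ℕ) + j < m) :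
    C.coef m (C.b i * C.b j) = 0 := by
  by_cases hm : m ∈ C.S
  · rw [C.coef_of_mem hm]
    exact C.repr_mul_of_lt i j ⟨m, hm⟩ h
  · exact C.coef_of_notMem hm _

theorem coef_b_mul_b_add (i j : C.S) : C.coef (i + j) (C.b i * C.b j) ≠ 0 := by
  rw [C.coef_of_mem (C.add_mem i.2 j.2)]
  exact C.repr_mul_top i j

theorem mul_mem_Fil {m n : ℕ} {a b : A} (ha : a ∈ C.Fil m) (hb : b ∈ C.Fil n) :
    a * b ∈ C.Fil (m + n) := by
  intro l hl
  rw [C.coef_mul]
  refine Finset.sum_eq_zero fun i hi => Finset.sum_eq_zero fun j hj => ?_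
  have hi' : (i : ℕ) ≤ m := by
    by_contra h
    push Not at h
    rw [Finsupp.mem_support_iff, ← C.coef_coe] at hi
    exact hi (ha _ h)
  have hj' : (j : ℕ) ≤ n := by
    by_contra h
    push Not at h
    rw [Finsupp.mem_support_iff, ← C.coef_coe] at hj
    exact hj (hb _ h)
  rw [C.coef_b_mul_b_of_lt (by omega)]
  ring

/-- leading structure constant -/
noncomputable def lcst (m n : ℕ) : k :=
  open Classical in if h : m ∈ C.S ∧ n ∈ C.S then C.coef (m + n) (C.b ⟨m, h.1⟩ * C.b ⟨n, h.2⟩) else 1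

theorem lcst_ne_zero (m n : ℕ) : C.lcst m n ≠ 0 := by
  unfold lcst
  split_ifs with h
  · exact C.coef_b_mul_b_add ⟨m, h.1⟩ ⟨n, h.2⟩
  · exact one_ne_zero

theorem coef_add_mul {m n : ℕ} {a b : A} (ha : a ∈ C.Fil m) (hb : b ∈ C.Fil n) :
    C.coef (m + n) (a * b) = C.lcst m n * (C.coef m a * C.coef n b) := by
  rw [C.coef_mul]
  by_cases hm : m ∈ C.S
  · by_cases hn : n ∈ C.S
    · rw [Finset.sum_eq_single (⟨m, hm⟩ : C.S), Finset.sum_eq_single (⟨n, hn⟩ : C.S)]
      · rw [C.coef_of_mem hm, C.coef_of_mem hn, lcst, dif_pos ⟨hm, hn⟩]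
        ring
      · intro j hj hj'
        have hj1 : (j : ℕ) ≤ n := by
          by_contra h
          push Not at h
          rw [Finsupp.mem_support_iff, ← C.coef_coe] at hj
          exact hj (hb _ h)
        have hj2 : (j : ℕ) ≠ n := fun h => hj' (Subtype.ext h)
        rw [C.coef_b_mul_b_of_lt (by simp only; omega)]
        ring
      · intro h
        rw [Finsupp.notMem_support_iff.mp h]
        ring
      · intro i hi hi'
        refine Finset.sum_eq_zero fun j hj => ?_
        have hi1 : (i : ℕ) ≤ m := by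
          by_contra h
          push Not at h
          rw [Finsupp.mem_support_iff, ← C.coef_coe] at hi
          exact hi (ha _ h)
        have hj1 : (j : ℕ) ≤ n := by
          by_contra h
          push Not at h
          rw [Finsupp.mem_support_iff, ← C.coef_coe] at hj
          exact hj (hb _ h)
        have hi2 : (i : ℕ) ≠ m := fun h => hi' (Subtype.ext h)
        rw [C.coef_b_mul_b_of_lt (by omega)]
        ring
      · intro h
        refine Finset.sum_eq_zero fun j hj => ?_
        rw [Finsupp.notMem_support_iff.mp h]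
        ring
    · rw [C.coef_of_notMem hn, mul_zero, mul_zero]
      refine Finset.sum_eq_zero fun i hi => Finset.sum_eq_zero fun j hj => ?_
      have hi1 : (i : ℕ) ≤ m := by
        by_contra h
        push Not at h
        rw [Finsupp.mem_support_iff, ← C.coef_coe] at hi
        exact hi (ha _ h)
      have hj1 : (j : ℕ) ≤ n := by
        by_contra h
        push Not at h
        rw [Finsupp.mem_support_iff, ← C.coef_coe] at hj
        exact hj (hb _ h)
      have hj2 : (j : ℕ) ≠ n := fun h => hn (h ▸ j.2)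
      rw [C.coef_b_mul_b_of_lt (by omega)]
      ring
  · rw [C.coef_of_notMem hm, zero_mul, mul_zero]
    refine Finset.sum_eq_zero fun i hi => Finset.sum_eq_zero fun j hj => ?_
    have hi1 : (i : ℕ) ≤ m := by
      by_contra h
      push Not at h
      rw [Finsupp.mem_support_iff, ← C.coef_coe] at hi
      exact hi (ha _ h)
    have hj1 : (j : ℕ) ≤ n := by
      by_contra h
      push Not at h
      rw [Finsupp.mem_support_iff, ← C.coef_coe] at hj
      exact hj (hb _ h)
    have hi2 : (i : ℕ) ≠ m := fun h => hm (h ▸ i.2)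
    rw [C.coef_b_mul_b_of_lt (by omega)]
    ring

theorem coef_deg_mul {a b : A} (ha : a ≠ 0) (hb : b ≠ 0) :
    C.coef (C.deg a + C.deg b) (a * b) ≠ 0 := by
  rw [C.coef_add_mul (C.mem_Fil_deg a) (C.mem_Fil_deg b)]
  exact mul_ne_zero (C.lcst_ne_zero _ _)
    (mul_ne_zero (C.coef_deg_ne_zero ha) (C.coef_deg_ne_zero hb))

include C in
theorem mul_ne_zero' {a b : A} (ha : a ≠ 0) (hb : b ≠ 0) : a * b ≠ 0 := by
  intro h
  apply C.coef_deg_mul ha hb
  rw [h, map_zero]

include C in
theorem nontrivial : Nontrivial A := by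
  refine ⟨⟨1, 0, ?_⟩⟩
  rw [← C.b_zero]
  exact C.b.ne_zero _

include C in
theorem isDomain : IsDomain A := by
  have := C.nontrivial
  have : NoZeroDivisors A := ⟨fun {a b} h => by
    by_contra hc
    push Not at hc
    exact C.mul_ne_zero' hc.1 hc.2 h⟩
  exact NoZeroDivisors.to_isDomain A

theorem deg_mul {a b : A} (ha : a ≠ 0) (hb : b ≠ 0) : C.deg (a * b) = C.deg a + C.deg b :=
  C.deg_eq_of (C.mul_mem_Fil (C.mem_Fil_deg a) (C.mem_Fil_deg b)) (C.coef_deg_mul ha hb)

/-- number of gaps = genus -/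
noncomputable def genus : ℕ := C.Sᶜ.ncard

/-- every `l ≥ C.cond` is in `S` -/
noncomputable def cond : ℕ := C.finite_compl.toFinset.sup (fun l => l + 1)

theorem mem_of_cond_le {l : ℕ} (h : C.cond ≤ l) : l ∈ C.S := by
  by_contra hl
  have : l + 1 ≤ C.cond := by
    apply Finset.le_sup (f := fun l : ℕ => l + 1)
    simpa using hl
  omega

theorem Fil_eq_supported (m : ℕ) :
    C.Fil m = (Finsupp.supported k k {l : C.S | (l : ℕ) ≤ m}).comap C.b.repr.toLinearMap := by
  ext a
  rw [mem_Fil, Submodule.mem_comap, Finsupp.mem_supported]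
  constructor
  · intro h l hl
    simp only [LinearEquiv.coe_coe, Finset.mem_coe, Finsupp.mem_support_iff] at hl
    by_contra hlt
    simp only [Set.mem_ofPred_eq, not_le] at hlt
    rw [← C.coef_coe] at hl
    exact hl (h l hlt)
  · intro h l hl
    by_contra hne
    have hlS : l ∈ C.S := by
      by_contra hlS
      exact hne (C.coef_of_notMem hlS a)
    rw [C.coef_of_mem hlS] at hne
    have : (⟨l, hlS⟩ : C.S) ∈ ((C.b.repr.toLinearMap a).support : Set C.S) := by
      simpa using hne
    have h2 := h this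
    simp only [Set.mem_ofPred_eq] at h2
    omega

/-- `Fil m` has a basis indexed by `{l ∈ S | l ≤ m}` -/
noncomputable def filEquiv (m : ℕ) : C.Fil m ≃ₗ[k] ({l : C.S | (l : ℕ) ≤ m} →₀ k) :=
  (LinearEquiv.ofEq _ _ (C.Fil_eq_supported m)).trans
    ((C.b.repr.submoduleMap _).trans
      ((LinearEquiv.ofEq _ _ (Submodule.map_comap_eq_of_surjective C.b.repr.surjective _)).trans
        (Finsupp.supportedEquivFinsupp _)))

theorem finite_le (m : ℕ) : {l : C.S | (l : ℕ) ≤ m}.Finite := by
  apply Set.Finite.of_finite_image (f := fun l : C.S => (l : ℕ))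
  · apply (Set.finite_Iic m).subset
    rintro _ ⟨l, hl, rfl⟩
    exact hl
  · exact Subtype.val_injective.injOn

instance finite_Fil (m : ℕ) : Module.Finite k (C.Fil m) := by
  have : Finite {l : C.S | (l : ℕ) ≤ m} := C.finite_le m
  exact Module.Finite.equiv (C.filEquiv m).symm

theorem finrank_Fil_eq_ncard (m : ℕ) :
    finrank k (C.Fil m) = {l : C.S | (l : ℕ) ≤ m}.ncard := by
  have : Fintype {l : C.S | (l : ℕ) ≤ m} := (C.finite_le m).fintype
  rw [(C.filEquiv m).finrank_eq, finrank_finsupp_self, Set.ncard_eq_toFinset_card',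
    Set.toFinset_card]

theorem ncard_le (m : ℕ) :
    {l : C.S | (l : ℕ) ≤ m}.ncard + {l : ℕ | l ∉ C.S ∧ l ≤ m}.ncard = m + 1 := by
  have h1 : {l : C.S | (l : ℕ) ≤ m}.ncard = {l : ℕ | l ∈ C.S ∧ l ≤ m}.ncard := by
    rw [← Set.ncard_image_of_injective _ Subtype.val_injective]
    congr 1
    ext l
    simp only [Set.mem_image, Set.mem_ofPred_eq, Subtype.exists, exists_and_left, exists_prop,
      exists_eq_right_right]
    tauto
  have f1 : Finite ↑{l : ℕ | l ∈ C.S ∧ l ≤ m} :=
    ((Set.finite_Iic m).subset fun l hl => hl.2).to_subtype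
  have f2 : Finite ↑{l : ℕ | l ∉ C.S ∧ l ≤ m} :=
    ((Set.finite_Iic m).subset fun l hl => hl.2).to_subtype
  rw [h1, ← Set.ncard_union_eq]
  · have : {l : ℕ | l ∈ C.S ∧ l ≤ m} ∪ {l : ℕ | l ∉ C.S ∧ l ≤ m} = Set.Iic m := by
      ext l
      simp only [Set.mem_union, Set.mem_ofPred_eq, Set.mem_Iic]
      tauto
    rw [this, Set.ncard_eq_toFinset_card']
    simp
  · rw [Set.disjoint_left]
    rintro l ⟨h1, _⟩ ⟨h2, _⟩
    exact h2 h1

theorem finrank_Fil_add_genus {m : ℕ} (h : C.cond ≤ m + 1) :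
    finrank k (C.Fil m) + C.genus = m + 1 := by
  rw [C.finrank_Fil_eq_ncard, ← C.ncard_le m, genus]
  congr 2
  ext l
  simp only [Set.mem_compl_iff, Set.mem_ofPred_eq]
  constructor
  · intro hl
    refine ⟨hl, ?_⟩
    by_contra hlt
    exact hl (C.mem_of_cond_le (by omega))
  · exact fun hl => hl.1

theorem le_finrank_Fil_add_genus (m : ℕ) : m + 1 ≤ finrank k (C.Fil m) + C.genus := by
  rw [C.finrank_Fil_eq_ncard, ← C.ncard_le m, genus]
  gcongr
  · exact C.finite_compl
  · intro l hl
    exact hl.1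

/-! ### colength -/

/-- `dim_k A/I` -/
noncomputable def _root_.Fermat.Agent.MW.col (k : Type*) {A : Type*} [Field k] [CommRing A]
    [Algebra k A] (I : Ideal A) : ℕ := finrank k (A ⧸ I)

theorem Fil_sup_span {a : A} (ha : a ≠ 0) {m : ℕ} (hm : C.deg a + C.cond ≤ m + 1) :
    C.Fil m ⊔ (Ideal.span {a}).restrictScalars k = ⊤ := by
  have key : ∀ n, m ≤ n → C.Fil n ≤ C.Fil m ⊔ (Ideal.span {a}).restrictScalars k := by
    intro n hn
    induction n, hn using Nat.le_induction with
    | base => exact le_sup_left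
    | succ n hn ih =>
      intro x hx
      have hjS : n + 1 - C.deg a ∈ C.S := C.mem_of_cond_le (by omega)
      set j : C.S := ⟨n + 1 - C.deg a, hjS⟩ with hj
      have hsum : C.deg a + (j : ℕ) = n + 1 := by simp only [hj]; omega
      have hbne : C.b j ≠ 0 := C.b.ne_zero j
      have hdeg : C.deg (a * C.b j) = n + 1 := by rw [C.deg_mul ha hbne, C.deg_b, hsum]
      have hab : a * C.b j ≠ 0 := C.mul_ne_zero' ha hbne
      have hlam : C.coef (n + 1) (a * C.b j) ≠ 0 := by
        have := C.coef_deg_ne_zero hab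
        rwa [hdeg] at this
      set lam := C.coef (n + 1) (a * C.b j)
      have hy : x - (C.coef (n + 1) x / lam) • (a * C.b j) ∈ C.Fil n := by
        intro l hl
        rcases Nat.lt_or_ge (n + 1) l with h | h
        · have h0 : C.coef l (a * C.b j) = 0 := C.coef_eq_zero_of_deg_lt (by rw [hdeg]; exact h)
          rw [map_sub, map_smul, hx l h, h0]
          simp
        · have : l = n + 1 := by omega
          subst this
          rw [map_sub, map_smul, smul_eq_mul, div_mul_cancel₀ _ hlam, sub_self]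
      have : x = (x - (C.coef (n + 1) x / lam) • (a * C.b j))
          + (C.coef (n + 1) x / lam) • (a * C.b j) := by ring
      rw [this]
      refine Submodule.add_mem _ (ih hy) (Submodule.mem_sup_right ?_)
      apply Submodule.smul_mem
      exact Ideal.mul_mem_right _ _ (Ideal.subset_span rfl)
  rw [eq_top_iff]
  intro x _
  exact key (max m (C.deg x)) (le_max_left _ _)
    (C.Fil_mono (le_max_right _ _) (C.mem_Fil_deg x))

theorem mkQ_surjective_of_mem {I : Ideal A} {a : A} (ha : a ≠ 0) (haI : a ∈ I) {m : ℕ}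
    (hm : C.deg a + C.cond ≤ m + 1) :
    Function.Surjective (((Ideal.Quotient.mkₐ k I).toLinearMap).domRestrict (C.Fil m)) := by
  intro y
  obtain ⟨x, rfl⟩ := Ideal.Quotient.mk_surjective y
  have hx : x ∈ C.Fil m ⊔ (Ideal.span {a}).restrictScalars k := by
    rw [C.Fil_sup_span ha hm]; trivial
  obtain ⟨u, hu, v, hv, rfl⟩ := Submodule.mem_sup.mp hx
  refine ⟨⟨u, hu⟩, ?_⟩
  have hvI : v ∈ I := by
    rw [Submodule.restrictScalars_mem] at hv
    exact (Ideal.span_singleton_le_iff_mem I).mpr haI hv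
  simp only [LinearMap.domRestrict_apply, AlgHom.toLinearMap_apply, Ideal.Quotient.mkₐ_eq_mk]
  rw [map_add, Ideal.Quotient.eq_zero_iff_mem.mpr hvI, add_zero]

include C in
theorem finite_quotient {I : Ideal A} (hI : I ≠ ⊥) : Module.Finite k (A ⧸ I) := by
  obtain ⟨a, haI, ha⟩ := Submodule.exists_mem_ne_zero_of_ne_bot hI
  exact Module.Finite.of_surjective _
    (C.mkQ_surjective_of_mem ha haI (m := C.deg a + C.cond) (by omega))

/-- `L(I, m) = I ∩ Fil m` -/
def L (I : Ideal A) (m : ℕ) : Submodule k A := I.restrictScalars k ⊓ C.Fil m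

theorem mem_L {I : Ideal A} {m : ℕ} {a : A} : a ∈ C.L I m ↔ a ∈ I ∧ a ∈ C.Fil m := by
  simp [L]

theorem L_le_Fil (I : Ideal A) (m : ℕ) : C.L I m ≤ C.Fil m := inf_le_right

theorem L_mono {I J : Ideal A} (h : I ≤ J) {m n : ℕ} (hm : m ≤ n) : C.L I m ≤ C.L J n := by
  intro a ha
  rw [mem_L] at ha ⊢
  exact ⟨h ha.1, C.Fil_mono hm ha.2⟩

instance finite_L (I : Ideal A) (m : ℕ) : Module.Finite k (C.L I m) :=
  Submodule.finiteDimensional_of_le (C.L_le_Fil I m)

/-- rank-nullity for `Fil m → A/I` -/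
theorem finrank_range_add_finrank_L (I : Ideal A) (m : ℕ) :
    finrank k (LinearMap.range (((Ideal.Quotient.mkₐ k I).toLinearMap).domRestrict (C.Fil m)))
      + finrank k (C.L I m) = finrank k (C.Fil m) := by
  rw [← LinearMap.finrank_range_add_finrank_ker
    (((Ideal.Quotient.mkₐ k I).toLinearMap).domRestrict (C.Fil m))]
  congr 1
  have : LinearMap.ker (((Ideal.Quotient.mkₐ k I).toLinearMap).domRestrict (C.Fil m))
      = (C.L I m).comap (C.Fil m).subtype := by
    ext x
    simp only [LinearMap.mem_ker, LinearMap.domRestrict_apply, AlgHom.toLinearMap_apply,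
      Ideal.Quotient.mkₐ_eq_mk, Ideal.Quotient.eq_zero_iff_mem, Submodule.mem_comap,
      Submodule.subtype_apply, mem_L]
    exact ⟨fun h => ⟨h, x.2⟩, fun h => h.1⟩
  rw [this]
  exact (Submodule.comapSubtypeEquivOfLe (C.L_le_Fil I m)).finrank_eq.symm

/-- the multiples of `a` of degree `≤ m`. -/
theorem L_span_eq {a : A} (ha : a ≠ 0) {m : ℕ} (hm : C.deg a ≤ m) :
    C.L (Ideal.span {a}) m = (C.Fil (m - C.deg a)).map (LinearMap.mulLeft k a) := by
  ext x
  rw [mem_L, Submodule.mem_map]
  constructor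
  · rintro ⟨h1, h2⟩
    obtain ⟨y, rfl⟩ := Ideal.mem_span_singleton.mp h1
    refine ⟨y, ?_, rfl⟩
    by_cases hy : y = 0
    · simp [hy]
    · rw [C.mem_Fil_iff_deg_le, C.deg_mul ha hy] at h2
      rw [C.mem_Fil_iff_deg_le]
      omega
  · rintro ⟨y, hy, rfl⟩
    refine ⟨Ideal.mem_span_singleton.mpr ⟨y, rfl⟩, ?_⟩
    have := C.mul_mem_Fil (C.mem_Fil_deg a) hy
    rwa [Nat.add_sub_cancel' hm] at this

theorem finrank_L_span {a : A} (ha : a ≠ 0) {m : ℕ} (hm : C.deg a ≤ m) :
    finrank k (C.L (Ideal.span {a}) m) = finrank k (C.Fil (m - C.deg a)) := by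
  have := C.isDomain
  rw [C.L_span_eq ha hm]
  exact (Submodule.equivMapOfInjective (LinearMap.mulLeft k a) (by
    intro x y hxy
    exact mul_left_cancel₀ ha hxy) _).finrank_eq.symm

theorem col_span {a : A} (ha : a ≠ 0) : col k (Ideal.span {a}) = C.deg a := by
  have hs := C.mkQ_surjective_of_mem (k := k) (I := Ideal.span {a}) ha
    (Ideal.subset_span rfl) (m := C.deg a + C.cond) (by omega)
  have h1 := C.finrank_range_add_finrank_L (Ideal.span {a}) (C.deg a + C.cond)
  rw [LinearMap.range_eq_top.mpr hs, finrank_top, C.finrank_L_span ha (by omega)] at h1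
  have h2 := C.finrank_Fil_add_genus (m := C.deg a + C.cond) (by omega)
  have h3 := C.finrank_Fil_add_genus (m := C.deg a + C.cond - C.deg a) (by omega)
  unfold col
  omega

/-- Riemann's inequality (trivial direction) -/
theorem le_finrank_L {I : Ideal A} (hI : I ≠ ⊥) (m : ℕ) :
    m + 1 ≤ finrank k (C.L I m) + col k I + C.genus := by
  have h1 := C.finrank_range_add_finrank_L I m
  have h2 := C.le_finrank_Fil_add_genus m
  have := C.finite_quotient hI
  have h3 := Submodule.finrank_le
    (LinearMap.range (((Ideal.Quotient.mkₐ k I).toLinearMap).domRestrict (C.Fil m)))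
  unfold col
  omega

/-- the constant in Riemann's theorem -/
noncomputable def cc : ℕ := C.cond + C.genus

theorem exists_ne_zero_mem_L {I : Ideal A} (hI : I ≠ ⊥) {m : ℕ} (hm : col k I + C.genus ≤ m) :
    ∃ a ∈ C.L I m, a ≠ 0 := by
  have h := C.le_finrank_L hI m
  have h2 : 0 < finrank k (C.L I m) := by omega
  obtain ⟨⟨a, ha⟩, ha0⟩ := Module.finrank_pos_iff_exists_ne_zero.mp h2
  exact ⟨a, ha, fun h => ha0 (Subtype.ext h)⟩

/-- **Riemann's theorem** -/
theorem finrank_L {I : Ideal A} (hI : I ≠ ⊥) {m : ℕ} (hm : col k I + C.cc ≤ m) :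
    finrank k (C.L I m) + col k I + C.genus = m + 1 := by
  apply le_antisymm _ (C.le_finrank_L hI m)
  obtain ⟨f, hf, hf0⟩ := C.exists_ne_zero_mem_L hI (m := m - C.cond) (by unfold cc at hm; omega)
  rw [mem_L, C.mem_Fil_iff_deg_le] at hf
  have hcm : C.cond ≤ m := by unfold cc at hm; omega
  -- the map `L I m → A/(f)`
  set J : Ideal A := Ideal.span {f} with hJ
  have hJI : J ≤ I := (Ideal.span_singleton_le_iff_mem I).mpr hf.1
  have hJ0 : J ≠ ⊥ := by
    rw [hJ, Ne, Ideal.span_singleton_eq_bot]; exact hf0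
  have := C.finite_quotient hJ0
  have := C.finite_quotient hI
  let φ : C.L I m →ₗ[k] (A ⧸ J) := ((Ideal.Quotient.mkₐ k J).toLinearMap).domRestrict (C.L I m)
  have hφ := LinearMap.finrank_range_add_finrank_ker φ
  have hker : finrank k (LinearMap.ker φ) = finrank k (C.L J m) := by
    have : LinearMap.ker φ = (C.L J m).comap (C.L I m).subtype := by
      ext x
      simp only [φ, LinearMap.mem_ker, LinearMap.domRestrict_apply, AlgHom.toLinearMap_apply,
        Ideal.Quotient.mkₐ_eq_mk, Ideal.Quotient.eq_zero_iff_mem, Submodule.mem_comap,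
        Submodule.subtype_apply, mem_L]
      exact ⟨fun h => ⟨h, (C.mem_L.mp x.2).2⟩, fun h => h.1⟩
    rw [this]
    exact (Submodule.comapSubtypeEquivOfLe (C.L_mono hJI le_rfl)).finrank_eq
  have hrange : finrank k (LinearMap.range φ) + col k I ≤ col k J := by
    -- the quotient map `A/J → A/I`
    let ψ : (A ⧸ J) →ₗ[k] (A ⧸ I) := (Ideal.Quotient.factorₐ k hJI).toLinearMap
    have hψs : Function.Surjective ψ := Ideal.Quotient.factor_surjective hJI
    have hψ := LinearMap.finrank_range_add_finrank_ker ψ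
    rw [LinearMap.range_eq_top.mpr hψs, finrank_top] at hψ
    have hle : LinearMap.range φ ≤ LinearMap.ker ψ := by
      rintro _ ⟨x, rfl⟩
      rw [LinearMap.mem_ker]
      show Ideal.Quotient.factor hJI (Ideal.Quotient.mk J x.1) = 0
      rw [Ideal.Quotient.factor_mk, Ideal.Quotient.eq_zero_iff_mem]
      exact (C.mem_L.mp x.2).1
    have := Submodule.finrank_mono hle
    unfold col
    omega
  have h1 : col k J = C.deg f := C.col_span hf0
  have h2 : finrank k (C.L J m) = finrank k (C.Fil (m - C.deg f)) := C.finrank_L_span hf0 (by omega)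
  have h3 := C.finrank_Fil_add_genus (m := m - C.deg f) (by omega)
  omega

/-- surjectivity of `Fil m → A/I` -/
theorem mkQ_surjective {I : Ideal A} (hI : I ≠ ⊥) {m : ℕ} (hm : col k I + C.cc ≤ m) :
    Function.Surjective (((Ideal.Quotient.mkₐ k I).toLinearMap).domRestrict (C.Fil m)) := by
  have h1 := C.finrank_range_add_finrank_L I m
  have h2 := C.finrank_L hI hm
  have h3 := C.finrank_Fil_add_genus (m := m) (by unfold cc at hm; omega)
  have := C.finite_quotient hI
  rw [← LinearMap.range_eq_top]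
  apply Submodule.eq_top_of_finrank_eq
  unfold col at h2
  omega

include C in
theorem col_eq_zero_iff {I : Ideal A} (hI : I ≠ ⊥) : col k I = 0 ↔ I = ⊤ := by
  have := C.finite_quotient hI
  unfold col
  rw [Module.finrank_zero_iff, Ideal.Quotient.subsingleton_iff]

theorem L_mul {I J : Ideal A} {m n : ℕ} {a b : A} (ha : a ∈ C.L I m) (hb : b ∈ C.L J n) :
    a * b ∈ C.L (I * J) (m + n) := by
  rw [mem_L] at *
  exact ⟨Ideal.mul_mem_mul ha.1 hb.1, C.mul_mem_Fil ha.2 hb.2⟩

end CurveAlg
end Fermat.Agent.MW
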