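import Mathlib

/-!
# Ultrapowers of a field, bounded valuation subrings (team MW, helper39)

`Ult k U` is the ultrapower of the field `k` along an ultrafilter `U` on `ℕ`.
For a sequence `w` of absolute values on `k` (possibly raised to powers), the germs which are
bounded form a valuation subring `bdd w U`.
-/

set_option autoImplicit false

open Filter

namespace Fermat.Agent.MW.Ultra

universe u v

/-- The ultrapower of `k` along `U`. -/
def Ult (k : Type u) (U : Ultrafilter ℕ) : Type u := Filter.Germ (U : Filter ℕ) k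

variable {k : Type u} [Field k] {U : Ultrafilter ℕ}

noncomputable instance : Field (Ult k U) :=
  inferInstanceAs (Field (Filter.Germ (U : Filter ℕ) k))

/-- The class of a sequence. -/
noncomputable def mk (U : Ultrafilter ℕ) : (ℕ → k) →+* Ult k U :=
  Filter.Germ.coeRingHom (U : Filter ℕ)

theorem mk_surjective : Function.Surjective (mk (k := k) U) := by
  intro x
  induction x using Filter.Germ.inductionOn with
  | _ f => exact ⟨f, rfl⟩

theorem mk_eq_mk {f g : ℕ → k} : mk U f = mk U g ↔ ∀ᶠ i in (U : Filter ℕ), f i = g i :=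
  Filter.Germ.coe_eq

theorem mk_eq_zero {f : ℕ → k} : mk U f = 0 ↔ ∀ᶠ i in (U : Filter ℕ), f i = 0 := by
  rw [← map_zero (mk U), mk_eq_mk]; rfl

theorem mk_ne_zero {f : ℕ → k} : mk U f ≠ 0 ↔ ∀ᶠ i in (U : Filter ℕ), f i ≠ 0 := by
  rw [Ne, mk_eq_zero, ← Ultrafilter.eventually_not]

/-- A representative of an element of the ultrapower. -/
noncomputable def rep (x : Ult k U) : ℕ → k := (mk_surjective x).choose

@[simp]
theorem mk_rep (x : Ult k U) : mk U (rep x) = x := (mk_surjective x).choose_spec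

theorem mk_inv (f : ℕ → k) : mk U (fun i => (f i)⁻¹) = (mk U f)⁻¹ := rfl

theorem mk_zpow (f : ℕ → k) (n : ℤ) : mk U (fun i => (f i) ^ n) = (mk U f) ^ n := by
  cases n with
  | ofNat n =>
    simp only [Int.ofNat_eq_natCast, zpow_natCast]
    rw [← map_pow]; rfl
  | negSucc n =>
    simp only [zpow_negSucc]
    rw [mk_inv (fun i => (f i) ^ (n + 1)), ← map_pow]; rfl

theorem mk_prod {J : Type*} (s : Finset J) (f : J → ℕ → k) :
    mk U (fun i => ∏ j ∈ s, f j i) = ∏ j ∈ s, mk U (f j) := by
  rw [← map_prod]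
  congr 1
  ext i
  simp

theorem mk_sum {J : Type*} (s : Finset J) (f : J → ℕ → k) :
    mk U (fun i => ∑ j ∈ s, f j i) = ∑ j ∈ s, mk U (f j) := by
  rw [← map_sum]
  congr 1
  ext i
  simp

/-! ### Algebra structure -/

section Algebra

variable {R : Type v} [CommSemiring R] [Algebra R k]

noncomputable instance : Algebra R (Ult k U) :=
  RingHom.toAlgebra ((mk (k := k) U).comp
    ((RingHom.pi fun _ : ℕ => algebraMap R k) : R →+* (ℕ → k)))

theorem algebraMap_eq (r : R) :
    algebraMap R (Ult k U) r = mk U (fun _ => algebraMap R k r) := rfl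

theorem algebraMap_self_eq (r : k) :
    algebraMap k (Ult k U) r = mk U (fun _ => r) := rfl

theorem smul_mk (r : R) (f : ℕ → k) : r • mk U f = mk U (fun i => r • f i) := by
  rw [Algebra.smul_def, algebraMap_eq, ← map_mul]
  congr 1
  ext i
  simp [Algebra.smul_def]

instance : IsScalarTower R k (Ult k U) :=
  IsScalarTower.of_algebraMap_eq fun _ => rfl

instance {S : Type*} [CommSemiring S] [Algebra S k] [Algebra R S] [IsScalarTower R S k] :
    IsScalarTower R S (Ult k U) :=
  IsScalarTower.of_algebraMap_eq fun r => by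
    rw [algebraMap_eq, algebraMap_eq]
    congr 1
    ext i
    exact IsScalarTower.algebraMap_apply R S k r

end Algebra

instance [CharZero k] : CharZero (Ult k U) :=
  charZero_of_injective_algebraMap (algebraMap k (Ult k U)).injective

instance [IsAlgClosed k] : IsAlgClosed (Ult k U) := by
  refine IsAlgClosed.of_exists_root _ fun p hp hirr => ?_
  have hdeg : 0 < p.natDegree := hirr.natDegree_pos
  set n := p.natDegree with hn
  -- lift of `p` to the level `i`
  let q : ℕ → Polynomial k := fun i =>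
    Polynomial.X ^ n + ∑ j ∈ Finset.range n, Polynomial.C (rep (p.coeff j) i) * Polynomial.X ^ j
  have hlt : ∀ i, (∑ j ∈ Finset.range n,
      Polynomial.C (rep (p.coeff j) i) * Polynomial.X ^ j).degree < (n : WithBot ℕ) := by
    intro i
    rw [← Polynomial.mem_degreeLT]
    refine Submodule.sum_mem _ fun j hj => ?_
    rw [Polynomial.mem_degreeLT]
    refine (Polynomial.degree_C_mul_X_pow_le _ _).trans_lt ?_
    exact_mod_cast Finset.mem_range.mp hj
  have hqdeg : ∀ i, (q i).degree = n := by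
    intro i
    show (Polynomial.X ^ n + _).degree = _
    rw [Polynomial.degree_add_eq_left_of_degree_lt]
    · simp
    · simpa using hlt i
  have hroot : ∀ i, ∃ x, (q i).eval x = 0 := by
    intro i
    have : (q i).degree ≠ 0 := by
      rw [hqdeg i]
      exact_mod_cast hdeg.ne'
    exact IsAlgClosed.exists_root _ this
  choose x hx using hroot
  refine ⟨mk U x, ?_⟩
  have h1 : p.eval (mk U x) = mk U (fun i => (q i).eval (x i)) := by
    rw [hp.as_sum]
    simp only [Polynomial.eval_add, Polynomial.eval_pow, Polynomial.eval_X,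
      Polynomial.eval_finsetSum, Polynomial.eval_mul, Polynomial.eval_C]
    have : (fun i => (q i).eval (x i)) = x ^ n + ∑ j ∈ Finset.range n, rep (p.coeff j) * x ^ j := by
      ext i
      simp [q, Polynomial.eval_finsetSum]
    rw [this, map_add, map_pow, map_sum]
    simp [map_mul, map_pow, ← hn]
  rw [h1]
  simp only [hx]
  exact map_zero (mk U)

/-! ### The bounded valuation subring -/

section Bdd

variable (w : ℕ → AbsoluteValue k ℝ)

/-- The valuation subring of bounded germs. -/
def bdd (U : Ultrafilter ℕ) : ValuationSubring (Ult k U) where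
  carrier := {x | ∃ f : ℕ → k, mk U f = x ∧ ∃ B : ℝ, ∀ᶠ i in (U : Filter ℕ), w i (f i) ≤ B}
  mul_mem' := by
    rintro _ _ ⟨f, rfl, B, hB⟩ ⟨g, rfl, C, hC⟩
    refine ⟨f * g, map_mul _ _ _, |B| * |C|, ?_⟩
    filter_upwards [hB, hC] with i h1 h2
    rw [Pi.mul_apply, map_mul]
    exact mul_le_mul (h1.trans (le_abs_self _)) (h2.trans (le_abs_self _)) ((w i).nonneg _)
      (abs_nonneg _)
  one_mem' := ⟨1, map_one _, 1, Eventually.of_forall fun i => by simp⟩
  add_mem' := by
    rintro _ _ ⟨f, rfl, B, hB⟩ ⟨g, rfl, C, hC⟩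
    refine ⟨f + g, map_add _ _ _, B + C, ?_⟩
    filter_upwards [hB, hC] with i h1 h2
    rw [Pi.add_apply]
    exact ((w i).add_le _ _).trans (add_le_add h1 h2)
  zero_mem' := ⟨0, map_zero _, 0, Eventually.of_forall fun i => by simp⟩
  neg_mem' := by
    rintro _ ⟨f, rfl, B, hB⟩
    refine ⟨-f, map_neg _ _, B, ?_⟩
    filter_upwards [hB] with i h1
    rw [Pi.neg_apply, (w i).map_neg]
    exact h1
  mem_or_inv_mem' := by
    intro x
    by_cases hx : ∃ f : ℕ → k, mk U f = x ∧ ∃ B : ℝ, ∀ᶠ i in (U : Filter ℕ), w i (f i) ≤ B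
    · exact Or.inl hx
    · refine Or.inr ⟨fun i => (rep x i)⁻¹, by rw [mk_inv, mk_rep], 1, ?_⟩
      have h1 : ¬ ∀ᶠ i in (U : Filter ℕ), w i (rep x i) ≤ 1 := fun h =>
        hx ⟨rep x, mk_rep x, 1, h⟩
      rw [← Ultrafilter.eventually_not] at h1
      filter_upwards [h1] with i hi
      rw [map_inv₀]
      exact inv_le_one_of_one_le₀ (not_le.mp hi).le

variable {w}

theorem mk_mem_bdd {f : ℕ → k} :
    mk U f ∈ bdd w U ↔ ∃ B : ℝ, ∀ᶠ i in (U : Filter ℕ), w i (f i) ≤ B := by
  constructor
  · rintro ⟨g, hg, B, hB⟩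
    refine ⟨B, ?_⟩
    filter_upwards [mk_eq_mk.mp hg, hB] with i h1 h2
    rwa [← h1]
  · rintro ⟨B, hB⟩
    exact ⟨f, rfl, B, hB⟩

theorem algebraMap_mem_bdd {R : Type v} [CommSemiring R] [Algebra R k]
    (h : ∀ a : R, ∃ B : ℝ, ∀ᶠ i in (U : Filter ℕ), w i (algebraMap R k a) ≤ B) (a : R) :
    algebraMap R (Ult k U) a ∈ bdd w U := by
  rw [algebraMap_eq, mk_mem_bdd]
  exact h a

/-- valuation of an element is one iff it is bounded and bounded away from zero. -/
theorem valuation_mk_eq_one {f : ℕ → k} (hf : (bdd w U).valuation (mk U f) = 1) :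
    ∃ B : ℝ, ∀ᶠ i in (U : Filter ℕ), |Real.log (w i (f i))| ≤ B := by
  have h0 : mk U f ≠ 0 := by
    intro h; rw [h, map_zero] at hf; exact zero_ne_one hf
  have h1 : mk U f ∈ bdd w U := (ValuationSubring.valuation_le_one_iff _ _).mp hf.le
  have h2 : (mk U f)⁻¹ ∈ bdd w U := by
    rw [← ValuationSubring.valuation_le_one_iff, map_inv₀, hf, inv_one]
  rw [← mk_inv] at h2
  obtain ⟨B, hB⟩ := mk_mem_bdd.mp h1
  obtain ⟨C, hC⟩ := mk_mem_bdd.mp h2
  refine ⟨max (Real.log B) (Real.log C), ?_⟩
  filter_upwards [hB, hC, mk_ne_zero.mp h0] with i h1 h2 h3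
  have h4 : 0 < w i (f i) := (w i).pos h3
  rw [abs_le']
  constructor
  · exact (Real.log_le_log h4 h1).trans (le_max_left _ _)
  · rw [map_inv₀] at h2
    rw [← Real.log_inv]
    exact (Real.log_le_log (inv_pos.mpr h4) h2).trans (le_max_right _ _)

end Bdd

/-! ### Norms of vectors -/

/-- The valuation of a vector: maximum of the valuations of the coordinates. -/
noncomputable def vval {K : Type*} [Field K] (O : ValuationSubring K) {ι : Type*} [Fintype ι]
    (x : ι → K) : O.ValueGroup :=
  Finset.univ.sup fun a => O.valuation (x a)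

theorem exists_vval_eq {K : Type*} [Field K] (O : ValuationSubring K) {ι : Type*} [Fintype ι]
    [Nonempty ι] (x : ι → K) : ∃ a, vval O x = O.valuation (x a) := by
  obtain ⟨a, -, ha⟩ := Finset.exists_mem_eq_sup (Finset.univ : Finset ι) Finset.univ_nonempty
    (fun a => O.valuation (x a))
  exact ⟨a, ha⟩

theorem le_vval {K : Type*} [Field K] (O : ValuationSubring K) {ι : Type*} [Fintype ι]
    (x : ι → K) (a : ι) : O.valuation (x a) ≤ vval O x :=
  Finset.le_sup (f := fun a => O.valuation (x a)) (Finset.mem_univ a)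

theorem vval_eq_of_forall_le {K : Type*} [Field K] (O : ValuationSubring K) {ι : Type*} [Fintype ι]
    (x : ι → K) (a : ι) (h : ∀ b, O.valuation (x b) ≤ O.valuation (x a)) :
    vval O x = O.valuation (x a) :=
  le_antisymm (Finset.sup_le fun b _ => h b) (le_vval O x a)

/-- sup norm of a vector w.r.t. an absolute value -/
noncomputable def nrm (w : AbsoluteValue k ℝ) {ι : Type*} (x : ι → k) : ℝ := ⨆ a, w (x a)

theorem exists_nrm_eq (w : AbsoluteValue k ℝ) {ι : Type*} [Finite ι] [Nonempty ι] (x : ι → k) :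
    ∃ a, w (x a) = nrm w x := exists_eq_ciSup_of_finite

theorem le_nrm (w : AbsoluteValue k ℝ) {ι : Type*} [Finite ι] (x : ι → k) (a : ι) :
    w (x a) ≤ nrm w x :=
  le_ciSup (f := fun a => w (x a)) (Set.finite_range _).bddAbove a

theorem nrm_pos (w : AbsoluteValue k ℝ) {ι : Type*} [Finite ι] {x : ι → k} (hx : x ≠ 0) :
    0 < nrm w x := by
  obtain ⟨a, ha⟩ := Function.ne_iff.mp hx
  exact (w.pos ha).trans_le (le_nrm w x a)

/-- **Pivot**: for a sequence of vectors there is a fixed coordinate which computes the norm for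
almost all `i`. -/
theorem exists_pivot (w : ℕ → AbsoluteValue k ℝ) {ι : Type*} [Fintype ι] [Nonempty ι]
    (x : ℕ → ι → k) : ∃ a, (∀ᶠ i in (U : Filter ℕ), w i (x i a) = nrm (w i) (x i)) ∧
      vval (bdd w U) (fun b => mk U fun i => x i b) =
        (bdd w U).valuation (mk U fun i => x i a) := by
  have h1 : ∀ᶠ i in (U : Filter ℕ), ∃ a, w i (x i a) = nrm (w i) (x i) :=
    Eventually.of_forall fun i => exists_nrm_eq (w i) (x i)
  rw [Ultrafilter.eventually_exists_iff] at h1
  obtain ⟨a, ha⟩ := h1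
  refine ⟨a, ha, vval_eq_of_forall_le _ _ a fun b => ?_⟩
  by_cases h0 : mk U (fun i => x i a) = 0
  · have hb : mk U (fun i => x i b) = 0 := by
      rw [mk_eq_zero] at h0 ⊢
      filter_upwards [h0, ha] with i h1 h2
      rw [h1, map_zero] at h2
      have := le_nrm (w i) (x i) b
      rw [← h2] at this
      exact (w i).eq_zero.mp (le_antisymm this ((w i).nonneg _))
    rw [hb, h0]
  · rw [← div_le_one₀ (by simpa [zero_lt_iff] using h0), ← map_div₀,
      ValuationSubring.valuation_le_one_iff, div_eq_mul_inv, ← mk_inv, ← map_mul, mk_mem_bdd]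
    refine ⟨1, ?_⟩
    filter_upwards [ha, mk_ne_zero.mp h0] with i h1 h2
    rw [Pi.mul_apply, map_mul, map_inv₀, h1]
    have h3 : 0 < nrm (w i) (x i) := by rw [← h1]; exact (w i).pos h2
    rw [mul_inv_le_iff₀ h3, one_mul]
    exact le_nrm (w i) (x i) b

/-- **Transfer of exact identities.** If the product of powers of the valuations of some vectors
over the ultrapower is one, then the corresponding combination of logarithms of norms is
bounded along the ultrafilter. -/
theorem transfer (w : ℕ → AbsoluteValue k ℝ) {J : Type*} [Fintype J] (n : J → ℤ)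
    {ι : J → Type*} [∀ j, Fintype (ι j)] [∀ j, Nonempty (ι j)] (x : ∀ j, ℕ → ι j → k)
    (h : ∏ j, (vval (bdd w U) (fun b => mk U fun i => x j i b)) ^ (n j) = 1) :
    ∃ B : ℝ, ∀ᶠ i in (U : Filter ℕ), |∑ j, n j * Real.log (nrm (w i) (x j i))| ≤ B := by
  choose a ha hv using fun j => exists_pivot (U := U) w (x j)
  have h1 : (bdd w U).valuation (mk U fun i => ∏ j, (x j i (a j)) ^ (n j)) = 1 := by
    rw [mk_prod, map_prod, ← h]
    refine Finset.prod_congr rfl fun j _ => ?_
    rw [hv j, mk_zpow, map_zpow₀]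
  obtain ⟨B, hB⟩ := valuation_mk_eq_one h1
  have h0 : ∀ᶠ i in (U : Filter ℕ), (∏ j, (x j i (a j)) ^ (n j)) ≠ 0 := by
    refine mk_ne_zero.mp fun h2 => ?_
    rw [h2, map_zero] at h1
    exact zero_ne_one h1
  refine ⟨B, ?_⟩
  have ha' : ∀ᶠ i in (U : Filter ℕ), ∀ j, w i (x j i (a j)) = nrm (w i) (x j i) := by
    rw [eventually_all]
    exact ha
  filter_upwards [hB, ha', h0] with i h2 h3 h4
  rw [map_prod, Real.log_prod] at h2
  · have h5 : ∑ j, (n j : ℝ) * Real.log (nrm (w i) (x j i)) =
        ∑ j, Real.log (w i (x j i (a j) ^ n j)) := by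
      refine Finset.sum_congr rfl fun j _ => ?_
      rw [map_zpow₀, Real.log_zpow, h3 j]
    rw [h5]
    exact h2
  · intro j _ h5
    exact (Finset.prod_ne_zero_iff.mp h4) j (Finset.mem_univ j) ((w i).eq_zero.mp h5)

/-! ### Powers of nonarchimedean absolute values -/

/-- The `n`-th power of a nonarchimedean absolute value (`n ≠ 0`). -/
def powAbv (w : AbsoluteValue k ℝ) (hw : IsNonarchimedean w) (n : ℕ) (hn : n ≠ 0) :
    AbsoluteValue k ℝ where
  toFun x := w x ^ n
  map_mul' x y := by rw [map_mul, mul_pow]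
  nonneg' x := pow_nonneg (w.nonneg x) n
  eq_zero' x := by rw [pow_eq_zero_iff hn, w.eq_zero]
  add_le' x y := by
    rcases le_max_iff.mp (hw x y) with h | h
    · exact (pow_le_pow_left₀ (w.nonneg _) h n).trans
        (le_add_of_nonneg_right (pow_nonneg (w.nonneg _) n))
    · exact (pow_le_pow_left₀ (w.nonneg _) h n).trans
        (le_add_of_nonneg_left (pow_nonneg (w.nonneg _) n))

@[simp]
theorem powAbv_apply (w : AbsoluteValue k ℝ) (hw : IsNonarchimedean w) (n : ℕ) (hn : n ≠ 0)
    (x : k) : powAbv w hw n hn x = w x ^ n := rfl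

theorem nrm_powAbv (w : AbsoluteValue k ℝ) (hw : IsNonarchimedean w) (n : ℕ) (hn : n ≠ 0)
    {ι : Type*} [Finite ι] [Nonempty ι] (x : ι → k) :
    nrm (powAbv w hw n hn) x = nrm w x ^ n := by
  obtain ⟨a, ha⟩ := exists_nrm_eq w x
  apply le_antisymm
  · refine ciSup_le fun b => ?_
    rw [powAbv_apply]
    exact pow_le_pow_left₀ (w.nonneg _) (le_nrm w x b) n
  · rw [← ha, ← powAbv_apply w hw n hn]
    exact le_nrm _ x a

end Fermat.Agent.MW.Ultra
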