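import Mathlib
import Fermat.Agent.MW.Ultra

/-!
# Negligible families of functions on places, uniform bounds, global bound
(team MW, helper39)
-/

set_option autoImplicit false

open Filter Height Height.AdmissibleAbsValues
open Fermat.Agent.MW.Ultra

namespace Fermat.Agent.MW.Negl

universe u v

/-- An absolute value (on a field) whose restriction to a subfield is nonarchimedean is
nonarchimedean. -/
theorem isNonarchimedean_of_natCast_le_one {k : Type u} [Field k] (w : AbsoluteValue k ℝ)
    (h : ∀ n : ℕ, w n ≤ 1) : IsNonarchimedean w := by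
  intro x y
  by_contra hcon
  push Not at hcon
  set M := max (w x) (w y) with hM
  have hM0 : 0 ≤ M := le_max_of_le_left (w.nonneg x)
  have hs : 0 < w (x + y) := hM0.trans_lt hcon
  have key : ∀ n : ℕ, w (x + y) ^ n ≤ (n + 1) * M ^ n := by
    intro n
    rw [← map_pow, add_pow]
    refine (w.sum_le _ _).trans ?_
    have : ∀ i ∈ Finset.range (n + 1), w (x ^ i * y ^ (n - i) * (n.choose i)) ≤ M ^ n := by
      intro i hi
      rw [map_mul, map_mul, map_pow, map_pow]
      have hi' : i ≤ n := Nat.lt_succ_iff.mp (Finset.mem_range.mp hi)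
      calc w x ^ i * w y ^ (n - i) * w (n.choose i)
          ≤ M ^ i * M ^ (n - i) * 1 := by
            refine mul_le_mul (mul_le_mul (pow_le_pow_left₀ (w.nonneg _) (le_max_left _ _) _)
              (pow_le_pow_left₀ (w.nonneg _) (le_max_right _ _) _) (pow_nonneg (w.nonneg _) _)
              (pow_nonneg hM0 _)) (h _) (w.nonneg _) (by positivity)
        _ = M ^ n := by rw [mul_one, ← pow_add]; congr 1; omega
    refine (Finset.sum_le_sum this).trans ?_
    simp
  rcases hM0.eq_or_lt with h0 | h0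
  · have := key 1
    rw [← h0] at this
    simp only [pow_one, mul_zero] at this
    linarith
  · set t := w (x + y) / M with ht
    have ht1 : 1 < t := by rw [ht, one_lt_div h0]; exact hcon
    have key' : ∀ n : ℕ, t ^ n ≤ n + 1 := by
      intro n
      rw [ht, div_pow, div_le_iff₀ (pow_pos h0 n)]
      exact key n
    have hlim := tendsto_pow_const_div_const_pow_of_one_lt 1 ht1
    have h2 : ∀ᶠ n : ℕ in atTop, ((n : ℝ) ^ 1 / t ^ n) < 1 / 3 :=
      hlim.eventually_lt_const (by norm_num)
    obtain ⟨n, hn, hn1⟩ := (h2.and (eventually_ge_atTop 1)).exists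
    have ht0 : 0 < t ^ n := by positivity
    rw [div_lt_iff₀ ht0] at hn
    have hn1' : (1 : ℝ) ≤ n := by exact_mod_cast hn1
    have := key' n
    simp only [pow_one] at hn
    linarith

section Defs

variable (K₀ : Type v) [Field K₀] (k : Type u) [Field k] [Algebra K₀ k]

variable {k} in
/-- Restriction of an absolute value to the base field. -/
def res (w : AbsoluteValue k ℝ) : AbsoluteValue K₀ ℝ := w.comp (algebraMap K₀ k).injective

variable {k} in
@[simp]
theorem res_apply (w : AbsoluteValue k ℝ) (a : K₀) : res K₀ w a = w (algebraMap K₀ k a) := rfl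

variable [AdmissibleAbsValues K₀]

/-- The places of `k`: absolute values extending one of the chosen absolute values of `K₀`. -/
def Pl : Type u :=
  {w : AbsoluteValue k ℝ // res K₀ w ∈ archAbsVal (K := K₀) ∨ res K₀ w ∈ nonarchAbsVal (K := K₀)}

/-- A bound on places of `K₀` which is zero for almost all of them. -/
def IsErr (C : AbsoluteValue K₀ ℝ → ℝ) : Prop :=
  {v : AbsoluteValue K₀ ℝ | v ∈ nonarchAbsVal (K := K₀) ∧ C v ≠ 0}.Finite

variable {K₀} in
theorem IsErr.add {C C' : AbsoluteValue K₀ ℝ → ℝ} (h : IsErr K₀ C) (h' : IsErr K₀ C') :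
    IsErr K₀ (fun v => C v + C' v) := by
  refine (h.union h').subset ?_
  rintro v ⟨hv, hne⟩
  by_cases h0 : C v = 0
  · refine Or.inr ⟨hv, fun h1 => hne ?_⟩
    show C v + C' v = 0
    rw [h0, h1, add_zero]
  · exact Or.inl ⟨hv, h0⟩

variable {K₀ k}

/-- A family of functions on the places is negligible if it is uniformly `O(1)` up to principal
functions `w ↦ log |c|_w`. -/
def IsNegl {D : Type*} (f : D → Pl K₀ k → ℝ) : Prop :=
  ∃ c : D → k, (∀ d, c d ≠ 0) ∧ ∃ C : AbsoluteValue K₀ ℝ → ℝ, IsErr K₀ C ∧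
    ∀ d (w : Pl K₀ k), |f d w - Real.log (w.1 (c d))| ≤ C (res K₀ w.1)

variable (K₀ k) in
/-- The subgroup of negligible families. -/
def NEGL (D : Type*) : AddSubgroup (D → Pl K₀ k → ℝ) where
  carrier := {f | IsNegl f}
  zero_mem' := ⟨fun _ => 1, fun _ => one_ne_zero, fun _ => 0, by simp [IsErr], fun d w => by simp⟩
  add_mem' := by
    rintro f g ⟨c, hc, C, hC, h⟩ ⟨c', hc', C', hC', h'⟩
    refine ⟨fun d => c d * c' d, fun d => mul_ne_zero (hc d) (hc' d), fun v => C v + C' v,
      hC.add hC', fun d w => ?_⟩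
    rw [map_mul, Real.log_mul (w.1.ne_zero (hc d)) (w.1.ne_zero (hc' d))]
    calc |(f + g) d w - (Real.log (w.1 (c d)) + Real.log (w.1 (c' d)))|
        = |(f d w - Real.log (w.1 (c d))) + (g d w - Real.log (w.1 (c' d)))| := by
          congr 1
          simp only [Pi.add_apply]
          ring
      _ ≤ _ := (abs_add_le _ _).trans (add_le_add (h d w) (h' d w))
  neg_mem' := by
    rintro f ⟨c, hc, C, hC, h⟩
    refine ⟨fun d => (c d)⁻¹, fun d => inv_ne_zero (hc d), C, hC, fun d w => ?_⟩
    rw [map_inv₀, Real.log_inv]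
    calc |(-f) d w - -Real.log (w.1 (c d))| = |-(f d w - Real.log (w.1 (c d)))| := by
          congr 1
          simp only [Pi.neg_apply]
          ring
      _ ≤ _ := by rw [abs_neg]; exact h d w

theorem mem_NEGL {D : Type*} {f : D → Pl K₀ k → ℝ} : f ∈ NEGL K₀ k D ↔ IsNegl f := Iff.rfl

/-- principal functions are negligible. -/
theorem principal_mem {D : Type*} (c : D → k) (hc : ∀ d, c d ≠ 0) :
    (fun d (w : Pl K₀ k) => Real.log (w.1 (c d))) ∈ NEGL K₀ k D :=
  ⟨c, hc, fun _ => 0, by simp [IsErr], fun d w => by simp⟩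

theorem bounded_mem {D : Type*} {f : D → Pl K₀ k → ℝ} (C : AbsoluteValue K₀ ℝ → ℝ)
    (hC : IsErr K₀ C) (h : ∀ d (w : Pl K₀ k), |f d w| ≤ C (res K₀ w.1)) :
    f ∈ NEGL K₀ k D :=
  ⟨fun _ => 1, fun _ => one_ne_zero, C, hC, fun d w => by simpa using h d w⟩

/-- pulling back families. -/
theorem comp_mem {D D' : Type*} (φ : D' → D) {f : D → Pl K₀ k → ℝ} (h : f ∈ NEGL K₀ k D) :
    (fun d' => f (φ d')) ∈ NEGL K₀ k D' := by
  obtain ⟨c, hc, C, hC, h⟩ := h
  exact ⟨fun d' => c (φ d'), fun d' => hc _, C, hC, fun d' w => h _ w⟩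

end Defs

section Uniform

variable {K₀ : Type v} [Field K₀] [AdmissibleAbsValues K₀] {k : Type u} [Field k] [Algebra K₀ k]

/-- The combination of logarithms of norms attached to a datum. -/
noncomputable def comb {D J : Type*} [Fintype J] (n : J → ℤ) {ι : J → Type*}
    (F : ∀ j, D → ι j → k) (d : D) (w : AbsoluteValue k ℝ) : ℝ :=
  ∑ j, n j * Real.log (nrm w (F j d))

/-- A sequence of absolute values is *bounded on `K₀`*. -/
def BddOn (K₀ : Type v) [Field K₀] [Algebra K₀ k] (w : ℕ → AbsoluteValue k ℝ) : Prop :=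
  ∀ a : K₀, ∃ B : ℝ, ∀ i, w i (algebraMap K₀ k a) ≤ B

theorem Pl.isNonarchimedean (w : Pl K₀ k) (h : res K₀ w.1 ∈ nonarchAbsVal (K := K₀)) :
    IsNonarchimedean w.1 := by
  apply isNonarchimedean_of_natCast_le_one
  intro n
  have h1 := AdmissibleAbsValues.isNonarchimedean _ h
  have h2 : res K₀ w.1 (n : K₀) ≤ 1 := by
    have := IsNonarchimedean.apply_intCast_le_one h1 (n := (n : ℤ))
    simpa using this
  simpa using h2

/-- **Uniform bounds from exact identities over ultrapowers.** -/
theorem uniform_of_exact {D J : Type*} [Fintype J] (n : J → ℤ) {ι : J → Type*}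
    [∀ j, Fintype (ι j)] [∀ j, Nonempty (ι j)] (F : ∀ j, D → ι j → k)
    (H : ∀ (d : ℕ → D) (w : ℕ → AbsoluteValue k ℝ), BddOn K₀ w →
      ∏ j, (vval (bdd w (hyperfilter ℕ)) (fun b => mk (hyperfilter ℕ) fun i => F j (d i) b))
        ^ (n j) = 1) :
    ∃ C : AbsoluteValue K₀ ℝ → ℝ, IsErr K₀ C ∧
      ∀ d (w : Pl K₀ k), |comb n F d w.1| ≤ C (res K₀ w.1) := by
  classical
  -- Step 1: boundedness at every place
  have h1 : ∀ v : AbsoluteValue K₀ ℝ, ∃ B : ℝ, ∀ d (w : Pl K₀ k), res K₀ w.1 = v →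
      |comb n F d w.1| ≤ B := by
    intro v
    by_contra hcon
    push Not at hcon
    choose d w hw hlt using fun i : ℕ => hcon i
    have hb : BddOn K₀ (fun i => (w i).1) := by
      intro a
      refine ⟨v a, fun i => le_of_eq ?_⟩
      rw [← hw i, res_apply]
    obtain ⟨B, hB⟩ := transfer (U := hyperfilter ℕ) (fun i => (w i).1) n (fun j i => F j (d i))
      (H d _ hb)
    have h2 : ∀ᶠ i : ℕ in (hyperfilter ℕ : Filter ℕ), B < i := by
      have h3 : ∀ᶠ i : ℕ in atTop, B < i := by
        obtain ⟨N, hN⟩ := exists_nat_gt B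
        filter_upwards [eventually_ge_atTop N] with i hi
        exact hN.trans_le (by exact_mod_cast hi)
      exact (Nat.hyperfilter_le_atTop) h3
    obtain ⟨i, hi1, hi2⟩ := (hB.and h2).exists
    have := hlt i
    rw [comb] at this
    linarith
  choose B hB using h1
  -- Step 2: zero for almost all nonarchimedean places
  have h2 : {v : AbsoluteValue K₀ ℝ | v ∈ nonarchAbsVal (K := K₀) ∧
      ∃ (d : D) (w : Pl K₀ k), res K₀ w.1 = v ∧ comb n F d w.1 ≠ 0}.Finite := by
    by_contra hcon
    have hinf : {v : AbsoluteValue K₀ ℝ | v ∈ nonarchAbsVal (K := K₀) ∧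
      ∃ (d : D) (w : Pl K₀ k), res K₀ w.1 = v ∧ comb n F d w.1 ≠ 0}.Infinite := hcon
    let v := hinf.natEmbedding
    have hv : ∀ i, (v i : AbsoluteValue K₀ ℝ) ∈ nonarchAbsVal (K := K₀) := fun i => (v i).2.1
    choose d w hw hne using fun i => (v i).2.2
    have hna : ∀ i, IsNonarchimedean (w i).1 := fun i =>
      (w i).isNonarchimedean (by rw [hw i]; exact hv i)
    let l : ℕ → ℕ := fun i => ⌈(i : ℝ) / |comb n F (d i) (w i).1|⌉₊ + 1
    have hl : ∀ i, l i ≠ 0 := fun i => by simp [l]
    let w' : ℕ → AbsoluteValue k ℝ := fun i => powAbv (w i).1 (hna i) (l i) (hl i)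
    have hb : BddOn K₀ w' := by
      intro a
      by_cases ha : a = 0
      · refine ⟨0, fun i => ?_⟩
        subst ha
        simp [w']
      · have hfin := AdmissibleAbsValues.hasFiniteMulSupport (K := K₀) ha
        -- finitely many `i` with `v i a ≠ 1`
        have hfin2 : {i : ℕ | (v i : AbsoluteValue K₀ ℝ) a ≠ 1}.Finite := by
          refine Set.Finite.of_finite_image (f := fun i : ℕ =>
            (⟨(v i : AbsoluteValue K₀ ℝ), hv i⟩ : nonarchAbsVal (K := K₀)))
            (hfin.subset ?_) ?_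
          · rintro _ ⟨i, hi, rfl⟩
            exact hi
          · intro i _ j _ hij
            have h3 : (v i : AbsoluteValue K₀ ℝ) = v j :=
              congrArg (fun z : nonarchAbsVal (K := K₀) => (z : AbsoluteValue K₀ ℝ)) hij
            exact v.injective (Subtype.ext h3)
        have h4 : ∀ i, i ∉ {i : ℕ | (v i : AbsoluteValue K₀ ℝ) a ≠ 1} →
            w' i (algebraMap K₀ k a) = 1 := by
          intro i hi
          simp only [Set.mem_ofPred_eq, not_not] at hi
          have h5 : (w i).1 (algebraMap K₀ k a) = 1 := by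
            rw [← res_apply, hw i, hi]
          show (w i).1 (algebraMap K₀ k a) ^ l i = 1
          rw [h5, one_pow]
        refine ⟨1 + ∑ i ∈ hfin2.toFinset, w' i (algebraMap K₀ k a), fun i => ?_⟩
        by_cases hi : i ∈ {i : ℕ | (v i : AbsoluteValue K₀ ℝ) a ≠ 1}
        · have h6 : w' i (algebraMap K₀ k a) ≤ ∑ i ∈ hfin2.toFinset, w' i (algebraMap K₀ k a) :=
            Finset.single_le_sum (f := fun i => w' i (algebraMap K₀ k a))
              (fun j _ => (w' j).nonneg _) (hfin2.mem_toFinset.mpr hi)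
          linarith
        · rw [h4 i hi]
          have h6 : 0 ≤ ∑ i ∈ hfin2.toFinset, w' i (algebraMap K₀ k a) :=
            Finset.sum_nonneg fun j _ => (w' j).nonneg _
          linarith
    obtain ⟨B', hB'⟩ := transfer (U := hyperfilter ℕ) w' n (fun j i => F j (d i)) (H d _ hb)
    have h3 : ∀ i : ℕ, (i : ℝ) ≤ |∑ j, n j * Real.log (nrm (w' i) (F j (d i)))| := by
      intro i
      have h4 : ∑ j, n j * Real.log (nrm (w' i) (F j (d i))) =
          (l i : ℝ) * comb n F (d i) (w i).1 := by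
        rw [comb, Finset.mul_sum]
        refine Finset.sum_congr rfl fun j _ => ?_
        rw [nrm_powAbv, Real.log_pow]
        ring
      rw [h4, abs_mul, Nat.abs_cast]
      have h5 : 0 < |comb n F (d i) (w i).1| := abs_pos.mpr (hne i)
      have h6 : (i : ℝ) / |comb n F (d i) (w i).1| ≤ l i :=
        (Nat.le_ceil _).trans (by exact_mod_cast Nat.le_succ _)
      exact (div_le_iff₀ h5).mp h6
    have h4 : ∀ᶠ i : ℕ in (hyperfilter ℕ : Filter ℕ), B' < i := by
      have h3 : ∀ᶠ i : ℕ in atTop, B' < i := by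
        obtain ⟨N, hN⟩ := exists_nat_gt B'
        filter_upwards [eventually_ge_atTop N] with i hi
        exact hN.trans_le (by exact_mod_cast hi)
      exact (Nat.hyperfilter_le_atTop) h3
    obtain ⟨i, hi1, hi2⟩ := (hB'.and h4).exists
    have := h3 i
    linarith
  -- Step 3: combine
  refine ⟨fun v => if v ∈ nonarchAbsVal (K := K₀) ∧
      ¬ ∃ (d : D) (w : Pl K₀ k), res K₀ w.1 = v ∧ comb n F d w.1 ≠ 0 then 0 else B v, ?_, ?_⟩
  · refine h2.subset ?_
    rintro v ⟨hv, hne⟩
    refine ⟨hv, ?_⟩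
    by_contra hcon
    exact hne (if_pos ⟨hv, hcon⟩)
  · intro d w
    show _ ≤ ite _ _ _
    split_ifs with h
    · have h3 := h.2
      push Not at h3
      rw [h3 d w rfl, abs_zero]
    · exact hB _ d w rfl

theorem comb_mem_NEGL {D J : Type*} [Fintype J] (n : J → ℤ) {ι : J → Type*}
    [∀ j, Fintype (ι j)] [∀ j, Nonempty (ι j)] (F : ∀ j, D → ι j → k)
    (H : ∀ (d : ℕ → D) (w : ℕ → AbsoluteValue k ℝ), BddOn K₀ w →
      ∏ j, (vval (bdd w (hyperfilter ℕ)) (fun b => mk (hyperfilter ℕ) fun i => F j (d i) b))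
        ^ (n j) = 1) :
    (fun d (w : Pl K₀ k) => comb n F d w.1) ∈ NEGL K₀ k D := by
  obtain ⟨C, hC, h⟩ := uniform_of_exact n F H
  exact bounded_mem C hC h

end Uniform

end Fermat.Agent.MW.Negl
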