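import Mathlib
import Fermat.Agent.MW.Negl

/-!
# From negligible families to bounded heights (team MW, helper39)
-/

set_option autoImplicit false

open Filter Height Height.AdmissibleAbsValues
open Fermat.Agent.MW.Ultra Fermat.Agent.MW.Negl

namespace Fermat.Agent.MW.Global

universe u v

variable {K₀ : Type v} [Field K₀] [AdmissibleAbsValues K₀]

/-- Sum of a function over all places of `K₀`. -/
noncomputable def tot (φ : AbsoluteValue K₀ ℝ → ℝ) : ℝ :=
  ((archAbsVal (K := K₀)).map φ).sum + ∑ᶠ v : nonarchAbsVal (K := K₀), φ v.val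

/-- Finite support at the nonarchimedean places. -/
def FS (φ : AbsoluteValue K₀ ℝ → ℝ) : Prop :=
  Function.HasFiniteSupport fun v : nonarchAbsVal (K := K₀) => φ v.val

theorem FS.of_isErr {C : AbsoluteValue K₀ ℝ → ℝ} (h : IsErr K₀ C) : FS C := by
  have : (Subtype.val '' (Function.support fun v : nonarchAbsVal (K := K₀) => C v.val)).Finite := by
    refine h.subset ?_
    rintro _ ⟨v, hv, rfl⟩
    exact ⟨v.2, hv⟩
  exact this.of_finite_image Subtype.val_injective.injOn

theorem FS.of_le {C φ : AbsoluteValue K₀ ℝ → ℝ} (h : FS C)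
    (hle : ∀ v ∈ nonarchAbsVal (K := K₀), |φ v| ≤ C v) : FS φ := by
  refine h.subset ?_
  intro v hv hC
  apply hv
  have h1 := hle v.1 v.2
  have h2 : C v.val = 0 := hC
  rw [h2] at h1
  exact abs_eq_zero.mp (le_antisymm h1 (abs_nonneg _))

theorem tot_add {φ ψ : AbsoluteValue K₀ ℝ → ℝ} (hφ : FS φ) (hψ : FS ψ) :
    tot (fun v => φ v + ψ v) = tot φ + tot ψ := by
  rw [tot, tot, tot, Multiset.sum_map_add, finsum_add_distrib hφ hψ]
  ring

theorem tot_smul (c : ℝ) {φ : AbsoluteValue K₀ ℝ → ℝ} (hφ : FS φ) :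
    tot (fun v => c * φ v) = c * tot φ := by
  rw [tot, tot, Multiset.sum_map_mul_left, mul_add, mul_finsum' _ _ hφ]

theorem tot_mono {φ ψ : AbsoluteValue K₀ ℝ → ℝ} (hφ : FS φ) (hψ : FS ψ)
    (h : ∀ v, v ∈ archAbsVal (K := K₀) ∨ v ∈ nonarchAbsVal (K := K₀) → φ v ≤ ψ v) :
    tot φ ≤ tot ψ := by
  rw [tot, tot]
  exact add_le_add (Multiset.sum_map_le_sum_map _ _ fun v hv => h v (Or.inl hv))
    (finsum_le_finsum' hφ hψ fun v => h v.1 (Or.inr v.2))

theorem FS.neg {φ : AbsoluteValue K₀ ℝ → ℝ} (hφ : FS φ) : FS (fun v => -1 * φ v) := by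
  refine hφ.subset fun v hv h0 => hv ?_
  show -1 * φ v.val = 0
  rw [show φ v.val = 0 from h0, mul_zero]

theorem abs_tot_le {φ C : AbsoluteValue K₀ ℝ → ℝ} (hC : FS C)
    (h : ∀ v, v ∈ archAbsVal (K := K₀) ∨ v ∈ nonarchAbsVal (K := K₀) → |φ v| ≤ C v) :
    |tot φ| ≤ tot C := by
  have hφ : FS φ := FS.of_le hC fun v hv => h v (Or.inr hv)
  rw [abs_le']
  refine ⟨tot_mono hφ hC fun v hv => (le_abs_self _).trans (h v hv), ?_⟩
  have h1 : -tot φ = tot (fun v => -1 * φ v) := by rw [tot_smul _ hφ]; ring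
  rw [h1]
  refine tot_mono hφ.neg hC fun v hv => ?_
  have := (neg_le_abs (φ v)).trans (h v hv)
  linarith

theorem FS_log {a : K₀} (ha : a ≠ 0) : FS (fun v => Real.log (v a)) := by
  have h1 := AdmissibleAbsValues.hasFiniteMulSupport (K := K₀) ha
  refine h1.subset ?_
  intro v hv h2
  apply hv
  show Real.log (v.val a) = 0
  rw [show v.val a = 1 from h2, Real.log_one]

/-- The product formula. -/
theorem tot_log {a : K₀} (ha : a ≠ 0) : tot (fun v : AbsoluteValue K₀ ℝ => Real.log (v a)) = 0 := by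
  have h := AdmissibleAbsValues.product_formula (K := K₀) ha
  have h1 := congrArg Real.log h
  rw [Real.log_one, Real.log_mul, Real.log_multiset_prod, Real.log_finprod,
    Multiset.map_map] at h1
  · exact h1
  · intro v; exact v.1.pos ha
  · intro x hx
    obtain ⟨v, -, rfl⟩ := Multiset.mem_map.mp hx
    exact v.ne_zero ha
  · intro h2
    rw [h2, zero_mul] at h
    exact zero_ne_one h
  · intro h2
    rw [h2, mul_zero] at h
    exact zero_ne_one h

theorem FS_nrm {ι : Type*} [Finite ι] {x : ι → K₀} (hx : x ≠ 0) :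
    FS (fun v => Real.log (nrm v x)) := by
  have : Nonempty {j // x j ≠ 0} := nonempty_subtype.mpr <| Function.ne_iff.mp hx
  have h1 : Function.HasFiniteMulSupport (fun v : nonarchAbsVal (K := K₀) =>
      ⨆ i : {j // x j ≠ 0}, v.val (x i)) :=
    Function.HasFiniteMulSupport.iSup fun i => AdmissibleAbsValues.hasFiniteMulSupport i.2
  refine h1.subset ?_
  intro v hv h2
  apply hv
  show Real.log (nrm v.val x) = 0
  have h3 : nrm v.val x = ⨆ i : {j // x j ≠ 0}, v.val (x i) := by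
    obtain ⟨i, hi⟩ : ∃ j, x j ≠ 0 := Function.ne_iff.mp hx
    have : Nonempty ι := .intro i
    refine le_antisymm (ciSup_le fun j ↦ ?_) (ciSup_le fun ⟨j, hj⟩ ↦ le_nrm v.val x j)
    rcases eq_or_ne (x j) 0 with h | h
    · rw [h, v.val.map_zero]
      exact Real.iSup_nonneg' ⟨⟨i, hi⟩, v.val.nonneg ..⟩
    · exact Finite.le_ciSup_of_le (f := fun i : {j // x j ≠ 0} => v.val (x i)) ⟨j, h⟩ le_rfl
  rw [h3, show (⨆ i : {j // x j ≠ 0}, v.val (x i)) = 1 from h2, Real.log_one]

/-- The logarithmic height as a sum over places. -/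
theorem logHeight_eq_tot {ι : Type*} [Finite ι] {x : ι → K₀} (hx : x ≠ 0) :
    logHeight x = tot (fun v => Real.log (nrm v x)) := by
  have h0 : ∀ v : AbsoluteValue K₀ ℝ, 0 < ⨆ i, v (x i) := fun v => nrm_pos v hx
  have h1 := mulHeight_ne_zero x
  rw [logHeight_eq_log_mulHeight, mulHeight_eq hx] at *
  rw [Real.log_mul (left_ne_zero_of_mul h1) (right_ne_zero_of_mul h1), Real.log_multiset_prod,
    Real.log_finprod, Multiset.map_map]
  · rfl
  · intro v; exact h0 _
  · intro y hy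
    obtain ⟨v, -, rfl⟩ := Multiset.mem_map.mp hy
    exact (h0 v).ne'

section Bound

variable {k : Type u} [Field k] [Algebra K₀ k]

/-- conjugating a place -/
def conjPl (σ : k ≃ₐ[K₀] k) (w : Pl K₀ k) : Pl K₀ k :=
  ⟨w.1.comp (f := (σ : k →+* k)) σ.injective, by
    have h : res K₀ (w.1.comp (f := (σ : k →+* k)) σ.injective) = res K₀ w.1 := by
      ext a
      show w.1 (σ (algebraMap K₀ k a)) = w.1 (algebraMap K₀ k a)
      rw [σ.commutes]
    rw [h]
    exact w.2⟩

theorem conjPl_apply (σ : k ≃ₐ[K₀] k) (w : Pl K₀ k) (x : k) : (conjPl σ w).1 x = w.1 (σ x) := rfl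

theorem res_conjPl (σ : k ≃ₐ[K₀] k) (w : Pl K₀ k) : res K₀ (conjPl σ w).1 = res K₀ w.1 := by
  ext a
  show w.1 (σ (algebraMap K₀ k a)) = w.1 (algebraMap K₀ k a)
  rw [σ.commutes]

/-- **Norm trick.** -/
theorem norm_trick [Normal K₀ k] {C φ : AbsoluteValue K₀ ℝ → ℝ}
    {c : k} (hc : c ≠ 0)
    (h : ∀ w : Pl K₀ k, |φ (res K₀ w.1) - Real.log (w.1 c)| ≤ C (res K₀ w.1)) :
    ∃ (n : ℕ) (a : K₀), n ≠ 0 ∧ a ≠ 0 ∧
      ∀ w : Pl K₀ k, |φ (res K₀ w.1) - (n : ℝ)⁻¹ * Real.log (res K₀ w.1 a)| ≤ C (res K₀ w.1) := by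
  classical
  have hint : IsIntegral K₀ c := Normal.isIntegral inferInstance c
  set P := minpoly K₀ c with hP
  have hmonic : P.Monic := minpoly.monic hint
  have hsplit : (P.map (algebraMap K₀ k)).Splits := Normal.splits inferInstance c
  have hn0 : P.natDegree ≠ 0 := (minpoly.natDegree_pos hint).ne'
  have ha0 : P.coeff 0 ≠ 0 := by
    rw [hP]
    exact minpoly.coeff_zero_ne_zero hint hc
  refine ⟨P.natDegree, P.coeff 0, hn0, ha0, fun w => ?_⟩
  have hcoef := hsplit.coeff_zero_eq_prod_roots_of_monic (hmonic.map _)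
  rw [Polynomial.coeff_map] at hcoef
  set R := (P.map (algebraMap K₀ k)).roots with hR
  have hcard : Multiset.card R = P.natDegree := by
    rw [hR, ← hsplit.natDegree_eq_card_roots, Polynomial.natDegree_map]
  have hroot : ∀ r ∈ R, r ≠ 0 ∧ |φ (res K₀ w.1) - Real.log (w.1 r)| ≤ C (res K₀ w.1) := by
    intro r hr
    have h1 : Polynomial.aeval r P = 0 := by
      rw [hR, Polynomial.mem_roots (hmonic.map _).ne_zero, Polynomial.IsRoot.def,
        Polynomial.eval_map_algebraMap] at hr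
      exact hr
    obtain ⟨σ, hσ⟩ := minpoly.exists_algEquiv_of_root hint.isAlgebraic h1
    -- `σ r = c`
    have hr' : r = σ.symm c := by rw [← hσ]; simp
    refine ⟨?_, ?_⟩
    · rw [hr']
      simpa using hc
    · have h2 := h (conjPl σ.symm w)
      rw [conjPl_apply, res_conjPl, ← hr'] at h2
      exact h2
  have hlog : Real.log (res K₀ w.1 (P.coeff 0)) = (R.map fun r => Real.log (w.1 r)).sum := by
    rw [res_apply, hcoef, map_mul, map_pow]
    have h1 : w.1 (-1 : k) = 1 := by rw [w.1.map_neg, map_one]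
    rw [h1, one_pow, one_mul]
    have h2 : w.1 R.prod = (R.map fun r => w.1 r).prod := by
      rw [map_multiset_prod]
    rw [h2, Real.log_multiset_prod, Multiset.map_map]
    · rfl
    · intro y hy
      obtain ⟨r, hr, rfl⟩ := Multiset.mem_map.mp hy
      exact w.1.ne_zero (hroot r hr).1
  have hsum : (P.natDegree : ℝ) * φ (res K₀ w.1) - Real.log (res K₀ w.1 (P.coeff 0)) =
      (R.map fun r => φ (res K₀ w.1) - Real.log (w.1 r)).sum := by
    rw [hlog, Multiset.sum_map_sub]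
    simp [hcard]
  have hle : |(P.natDegree : ℝ) * φ (res K₀ w.1) - Real.log (res K₀ w.1 (P.coeff 0))| ≤
      P.natDegree * C (res K₀ w.1) := by
    rw [hsum]
    refine (Multiset.abs_sum_le_sum_abs).trans ?_
    rw [Multiset.map_map, ← hcard, ← nsmul_eq_mul]
    refine (Multiset.sum_le_card_nsmul _ (C (res K₀ w.1)) ?_).trans ?_
    · intro y hy
      obtain ⟨r, hr, rfl⟩ := Multiset.mem_map.mp hy
      exact (hroot r hr).2
    · rw [Multiset.card_map]
  have hnpos : (0 : ℝ) < P.natDegree := by exact_mod_cast Nat.pos_of_ne_zero hn0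
  have h3 : φ (res K₀ w.1) - (P.natDegree : ℝ)⁻¹ * Real.log (res K₀ w.1 (P.coeff 0)) =
      (P.natDegree : ℝ)⁻¹ *
        ((P.natDegree : ℝ) * φ (res K₀ w.1) - Real.log (res K₀ w.1 (P.coeff 0))) := by
    field_simp
  rw [h3, abs_mul, abs_of_pos (inv_pos.mpr hnpos), inv_mul_le_iff₀ hnpos]
  exact hle

/-- **Global bound**: a negligible family whose members only depend on the place of the base field
has bounded total sum. -/
theorem global_bound [Normal K₀ k]
    (hext : ∀ v : AbsoluteValue K₀ ℝ, v ∈ archAbsVal (K := K₀) ∨ v ∈ nonarchAbsVal (K := K₀) →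
      ∃ w : Pl K₀ k, res K₀ w.1 = v)
    {D : Type*} {f : D → Pl K₀ k → ℝ} (hf : f ∈ NEGL K₀ k D) :
    ∃ Ct : ℝ, ∀ (d : D) (φ : AbsoluteValue K₀ ℝ → ℝ), (∀ w : Pl K₀ k, f d w = φ (res K₀ w.1)) →
      |tot φ| ≤ Ct := by
  obtain ⟨c, hc, C, hC, h⟩ := hf
  refine ⟨tot C, fun d φ hφ => ?_⟩
  obtain ⟨n, a, hn, ha, h1⟩ := norm_trick (C := C) (φ := φ) (hc d) (fun w => by
    rw [← hφ w]; exact h d w)
  have h2 : |tot (fun v => φ v + (-(n : ℝ)⁻¹) * Real.log (v a))| ≤ tot C := by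
    refine abs_tot_le (FS.of_isErr hC) fun v hv => ?_
    obtain ⟨w, rfl⟩ := hext v hv
    have := h1 w
    rwa [sub_eq_add_neg, ← neg_mul] at this
  have hFSlog : FS (fun v : AbsoluteValue K₀ ℝ => (-(n : ℝ)⁻¹) * Real.log (v a)) := by
    refine (FS_log ha).subset fun v hv h0 => hv ?_
    show (-(n : ℝ)⁻¹) * Real.log (v.val a) = 0
    rw [show Real.log (v.val a) = 0 from h0, mul_zero]
  have hFSφ : FS φ := by
    have h3 : FS (fun v => φ v + (-(n : ℝ)⁻¹) * Real.log (v a)) := by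
      refine FS.of_le (FS.of_isErr hC) fun v hv => ?_
      obtain ⟨w, rfl⟩ := hext v (Or.inr hv)
      have := h1 w
      rwa [sub_eq_add_neg, ← neg_mul] at this
    have h4 : FS (fun v => (φ v + (-(n : ℝ)⁻¹) * Real.log (v a)) +
        -1 * ((-(n : ℝ)⁻¹) * Real.log (v a))) := h3.add hFSlog.neg
    have h5 : (fun v : AbsoluteValue K₀ ℝ => (φ v + (-(n : ℝ)⁻¹) * Real.log (v a)) +
        -1 * ((-(n : ℝ)⁻¹) * Real.log (v a))) = φ := by
      ext v; ring
    rwa [h5] at h4
  rw [tot_add hFSφ hFSlog, tot_smul _ (FS_log ha), tot_log ha, mul_zero, add_zero] at h2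
  exact h2

end Bound

end Fermat.Agent.MW.Global
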