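import Mathlib
import Fermat.Agent.MW.Global

/-!
# Existence of extensions of absolute values (team MW, helper39)
-/

set_option autoImplicit false

open Height Height.AdmissibleAbsValues NumberField IsDedekindDomain
open Fermat.Agent.MW.Negl

namespace Fermat.Agent.MW.ExtAbs

universe u v

/-- Extension of an absolute value through an embedding into a complete nonarchimedean field. -/
theorem exists_extension_of_complete {K₀ : Type v} [Field K₀] {k : Type u} [Field k] [Algebra K₀ k]
    [Algebra.IsAlgebraic K₀ k] {E : Type v} [NontriviallyNormedField E] [IsUltrametricDist E]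
    [CompleteSpace E] (f : K₀ →+* E) : ∃ w : AbsoluteValue k ℝ, ∀ x, w (algebraMap K₀ k x) = ‖f x‖ := by
  let _ : Algebra K₀ E := f.toAlgebra
  let L := AlgebraicClosure E
  let ι : k →ₐ[K₀] L := IsAlgClosed.lift
  refine ⟨⟨⟨fun x => spectralMulAlgNorm E L (ι x), fun x y => by simp⟩, fun x => ?_, fun x => ?_,
    fun x y => ?_⟩, fun x => ?_⟩
  · exact apply_nonneg _ _
  · show spectralMulAlgNorm E L (ι x) = 0 ↔ _
    rw [map_eq_zero_iff_eq_zero]
    exact map_eq_zero_iff ι ι.injective
  · show spectralMulAlgNorm E L (ι (x + y)) ≤ _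
    rw [map_add]
    exact map_add_le_add _ _ _
  · show spectralMulAlgNorm E L (ι (algebraMap K₀ k x)) = _
    rw [ι.commutes, IsScalarTower.algebraMap_apply K₀ E L]
    exact spectralAlgNorm_extends _

variable {K₀ : Type v} [Field K₀] [NumberField K₀] {k : Type u} [Field k] [Algebra K₀ k]
    [Algebra.IsAlgebraic K₀ k]

theorem exists_pl (v : AbsoluteValue K₀ ℝ)
    (hv : v ∈ archAbsVal (K := K₀) ∨ v ∈ nonarchAbsVal (K := K₀)) :
    ∃ w : Pl K₀ k, res K₀ w.1 = v := by
  suffices ∃ w : AbsoluteValue k ℝ, ∀ x, w (algebraMap K₀ k x) = v x by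
    obtain ⟨w, hw⟩ := this
    have h : res K₀ w = v := by ext a; exact hw a
    exact ⟨⟨w, by rw [h]; exact hv⟩, h⟩
  rcases hv with hv | hv
  · have hv' : v ∈ multisetInfinitePlace K₀ := hv
    rw [mem_multisetInfinitePlace] at hv'
    obtain ⟨φ, rfl⟩ := hv'
    let _ : Algebra K₀ ℂ := φ.toAlgebra
    let ι : k →ₐ[K₀] ℂ := IsAlgClosed.lift
    refine ⟨(place (ι : k →+* ℂ)), fun x => ?_⟩
    rw [place_apply, place_apply]
    congr 1
    exact ι.commutes x
  · have hv' : IsFinitePlace v := hv
    obtain ⟨P, rfl⟩ := hv'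
    let _ : NontriviallyNormedField (P.adicCompletion K₀) :=
      { non_trivial := by
          obtain ⟨y, hy, hy0⟩ := Submodule.exists_mem_ne_zero_of_ne_bot P.ne_bot
          have h1 := (FinitePlace.norm_lt_one_iff_mem K₀ P y).mpr hy
          have h2 : FinitePlace.embedding P (algebraMap (𝓞 K₀) K₀ y) ≠ 0 := by
            rw [map_ne_zero]
            simpa using hy0
          refine ⟨(FinitePlace.embedding P (algebraMap (𝓞 K₀) K₀ y))⁻¹, ?_⟩
          rw [norm_inv]
          exact (one_lt_inv₀ (norm_pos_iff.mpr h2)).mpr h1 }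
    obtain ⟨w, hw⟩ := exists_extension_of_complete (k := k)
      (FinitePlace.embedding P : K₀ →+* P.adicCompletion K₀)
    exact ⟨w, fun x => by rw [hw]; rfl⟩

end Fermat.Agent.MW.ExtAbs
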