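import Fermat.Agent.MW.DVec

/-!
# Galois descent of the determinant vector, height of a rational class, Northcott property
-/

set_option autoImplicit false
set_option linter.style.haveILetI false
set_option linter.unusedSectionVars false

open Module
open scoped nonZeroDivisors

namespace Fermat.Agent.MW.DV

section ClsMap

variable {A : Type*} [CommRing A] [IsDedekindDomain A]

/-- image of a nonzero ideal under a ring automorphism. -/
noncomputable def mapNZ (σ : A ≃+* A) (I : (Ideal A)⁰) : (Ideal A)⁰ :=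
  ⟨(I : Ideal A).map (σ : A →+* A), by
    rw [mem_nonZeroDivisors_iff_ne_zero, Ideal.zero_eq_bot]
    intro h
    have h1 := nonZeroDivisors.ne_zero I.2
    rw [Ideal.zero_eq_bot] at h1
    exact h1 ((Ideal.map_eq_bot_iff_of_injective σ.injective).mp h)⟩

theorem mapNZ_mul (σ : A ≃+* A) (I J : (Ideal A)⁰) : mapNZ σ (I * J) = mapNZ σ I * mapNZ σ J := by
  apply Subtype.ext
  simp [mapNZ, Ideal.map_mul]

theorem mk0_mapNZ_congr (σ : A ≃+* A) {I J : (Ideal A)⁰}
    (h : ClassGroup.mk0 I = ClassGroup.mk0 J) :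
    ClassGroup.mk0 (mapNZ σ I) = ClassGroup.mk0 (mapNZ σ J) := by
  rw [ClassGroup.mk0_eq_mk0_iff] at h ⊢
  obtain ⟨x, y, hx, hy, h⟩ := h
  refine ⟨σ x, σ y, (map_ne_zero_iff σ σ.injective).mpr hx,
    (map_ne_zero_iff σ σ.injective).mpr hy, ?_⟩
  have := congrArg (Ideal.map (σ : A →+* A)) h
  rw [Ideal.map_mul, Ideal.map_mul, Ideal.map_span, Ideal.map_span, Set.image_singleton,
    Set.image_singleton] at this
  exact this

theorem mk0_surjInv (x : ClassGroup A) :
    ClassGroup.mk0 (Function.surjInv ClassGroup.mk0_surjective x) = x :=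
  Function.surjInv_eq _ _

/-- the action of a ring automorphism on the class group. -/
noncomputable def clsMap (σ : A ≃+* A) : ClassGroup A →* ClassGroup A where
  toFun x := ClassGroup.mk0 (mapNZ σ (Function.surjInv ClassGroup.mk0_surjective x))
  map_one' := by
    rw [mk0_mapNZ_congr σ (J := 1)]
    · have : mapNZ σ (1 : (Ideal A)⁰) = 1 := by
        apply Subtype.ext
        show Ideal.map (σ : A →+* A) ((1 : (Ideal A)⁰) : Ideal A) = ((1 : (Ideal A)⁰) : Ideal A)
        rw [Submonoid.coe_one, Ideal.one_eq_top, Ideal.map_top]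
      rw [this, map_one]
    · rw [mk0_surjInv, map_one]
  map_mul' x y := by
    rw [← map_mul, ← mapNZ_mul]
    apply mk0_mapNZ_congr
    rw [map_mul, mk0_surjInv, mk0_surjInv, mk0_surjInv]

theorem clsMap_mk0 (σ : A ≃+* A) (I : (Ideal A)⁰) :
    clsMap σ (ClassGroup.mk0 I) = ClassGroup.mk0 (mapNZ σ I) := by
  show ClassGroup.mk0 (mapNZ σ _) = _
  apply mk0_mapNZ_congr
  rw [mk0_surjInv]

end ClsMap

section Semi

variable {k A : Type*} [Field k] [CommRing A] [Algebra k A]

/-- a semilinear ring automorphism fixing the basis. -/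
structure SemiAut (C : CurveAlg k A) (s : k ≃+* k) where
  σ : A ≃+* A
  map_algebraMap : ∀ c, σ (algebraMap k A c) = algebraMap k A (s c)
  map_b : ∀ l, σ (C.b l) = C.b l

namespace SemiAut

variable {C : CurveAlg k A} {s : k ≃+* k} (S : SemiAut C s)

theorem map_smul (c : k) (a : A) : S.σ (c • a) = s c • S.σ a := by
  rw [Algebra.smul_def, Algebra.smul_def, map_mul, S.map_algebraMap]

theorem repr_map (a : A) (l : C.S) : C.b.repr (S.σ a) l = s (C.b.repr a l) := by
  conv_lhs => rw [← C.b.linearCombination_repr a, Finsupp.linearCombination_apply, Finsupp.sum,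
    map_sum]
  rw [map_sum, Finsupp.finsetSum_apply]
  have : ∀ i ∈ (C.b.repr a).support, (C.b.repr (S.σ ((C.b.repr a) i • C.b i))) l =
      if i = l then s (C.b.repr a l) else 0 := by
    intro i _
    rw [S.map_smul, S.map_b, _root_.map_smul, C.b.repr_self, Finsupp.smul_single,
      Finsupp.single_apply]
    split_ifs with h
    · rw [h]; simp
    · rfl
  rw [Finset.sum_congr rfl this, Finset.sum_ite_eq']
  split_ifs with h
  · rfl
  · rw [Finsupp.notMem_support_iff.mp h, map_zero]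

theorem coef_map (a : A) (m : ℕ) : C.coef m (S.σ a) = s (C.coef m a) := by
  by_cases h : m ∈ C.S
  · rw [C.coef_of_mem h, C.coef_of_mem h, S.repr_map]
  · rw [C.coef_of_notMem h, C.coef_of_notMem h, map_zero]

theorem mem_Fil_map {a : A} {m : ℕ} (h : a ∈ C.Fil m) : S.σ a ∈ C.Fil m := by
  intro l hl
  rw [S.coef_map, h l hl, map_zero]

/-- action on points. -/
noncomputable def pt (P : A →ₐ[k] k) : A →ₐ[k] k where
  toRingHom := (s : k →+* k).comp ((P : A →+* k).comp (S.σ.symm : A →+* A))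
  commutes' := fun c => by
    show s (P (S.σ.symm (algebraMap k A c))) = c
    have : S.σ.symm (algebraMap k A c) = algebraMap k A (s.symm c) := by
      rw [RingEquiv.symm_apply_eq, S.map_algebraMap, RingEquiv.apply_symm_apply]
    rw [this, AlgHom.commutes]
    simp

theorem pt_apply (P : A →ₐ[k] k) (a : A) : S.pt P (S.σ a) = s (P a) := by
  show s (P (S.σ.symm (S.σ a))) = _
  rw [RingEquiv.symm_apply_apply]

theorem ker_pt (P : A →ₐ[k] k) : RingHom.ker (S.pt P) = (RingHom.ker P).map (S.σ : A →+* A) := by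
  apply le_antisymm
  · intro a ha
    rw [RingHom.mem_ker] at ha
    have h1 : S.σ.symm a ∈ RingHom.ker P := by
      rw [RingHom.mem_ker]
      rw [← S.σ.apply_symm_apply a, S.pt_apply] at ha
      simpa using ha
    have h2 := Ideal.mem_map_of_mem (S.σ : A →+* A) h1
    simpa using h2
  · rw [Ideal.map_le_iff_le_comap]
    intro a ha
    rw [RingHom.mem_ker] at ha
    rw [Ideal.mem_comap, RingHom.mem_ker]
    show S.pt P (S.σ a) = 0
    rw [S.pt_apply, ha, map_zero]

theorem idl_pt (D : Multiset (A →ₐ[k] k)) :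
    idl (D.map S.pt) = (idl D).map (S.σ : A →+* A) := by
  induction D using Multiset.induction_on with
  | empty => simp [Ideal.map_top]
  | cons P D ih => rw [Multiset.map_cons, idl_cons, idl_cons, Ideal.map_mul, ih, S.ker_pt]

theorem cls_pt [IsDedekindDomain A] (D : Multiset (A →ₐ[k] k)) :
    cls C (D.map S.pt) = clsMap S.σ (cls C D) := by
  unfold cls
  rw [clsMap_mk0]
  congr 1
  apply Subtype.ext
  exact S.idl_pt D

theorem lin_map {m : ℕ} (z : Idx C m → ℕ) (a : A) :
    lin C m (fun l => (z l : k)) (S.σ a) = s (lin C m (fun l => (z l : k)) a) := by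
  rw [lin_apply, lin_apply, map_sum]
  refine Finset.sum_congr rfl fun l _ => ?_
  rw [S.repr_map, map_mul, map_natCast]

end SemiAut

end Semi

section GaloisData

variable {k A : Type*} [Field k] [CommRing A] [Algebra k A] [IsDedekindDomain A]
  {C : CurveAlg k A} {n : ℕ}

theorem finrank_L_rk (hn : C.cc ≤ n) (D : Multiset (A →ₐ[k] k)) :
    finrank k (C.L (idl D) (n + D.card)) = rk C n := by
  have := finrank_L_idl C D (m := n + D.card) (by omega)
  unfold rk
  omega

theorem rk_pos (hn : C.cc ≤ n) : 0 < rk C n := by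
  unfold rk CurveAlg.cc at *
  omega

theorem exists_basis_of (hn : C.cc ≤ n) (D : Multiset (A →ₐ[k] k)) {w : Fin (rk C n) → A}
    (hw : ∀ i, w i ∈ C.L (idl D) (n + D.card)) (hli : LinearIndependent k w) :
    ∃ u : Basis (Fin (rk C n)) k (C.L (idl D) (n + D.card)), ∀ i, (u i : A) = w i := by
  haveI : Nonempty (Fin (rk C n)) := ⟨⟨0, rk_pos hn⟩⟩
  have hli' : LinearIndependent k (fun i => (⟨w i, hw i⟩ : C.L (idl D) (n + D.card))) := by
    apply LinearIndependent.of_comp (Submodule.subtype _)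
    exact hli
  refine ⟨basisOfLinearIndependentOfCardEqFinrank hli' ?_, fun i => ?_⟩
  · rw [finrank_L_rk hn, Fintype.card_fin]
  · rw [coe_basisOfLinearIndependentOfCardEqFinrank]

variable {s : k ≃+* k} (S : SemiAut C s)

theorem SemiAut.linearIndependent {r : ℕ} {w : Fin r → A} (h : LinearIndependent k w) :
    LinearIndependent k (fun i => S.σ (w i)) := by
  rw [Fintype.linearIndependent_iff] at h ⊢
  intro g hg i
  have h1 : S.σ (∑ i, s.symm (g i) • w i) = 0 := by
    rw [map_sum, ← hg]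
    refine Finset.sum_congr rfl fun i _ => ?_
    rw [S.map_smul, RingEquiv.apply_symm_apply]
  have h2 : ∑ i, s.symm (g i) • w i = 0 := by
    rwa [map_eq_zero_iff S.σ S.σ.injective] at h1
  have h3 := h _ h2 i
  simpa using h3

/-- (G) the conjugate data. -/
theorem HData.exists_conj (hn : C.cc ≤ n) (d : HData C n) :
    ∃ d' : HData C n, cls C d'.E = clsMap S.σ (cls C d.E) ∧ ∀ z, d'.dvec z = s (d.dvec z) := by
  have hLmem : ∀ (D : Multiset (A →ₐ[k] k)) (a : A), a ∈ C.L (idl D) (n + D.card) →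
      S.σ a ∈ C.L (idl (D.map S.pt)) (n + (D.map S.pt).card) := by
    intro D a ha
    rw [C.mem_L] at ha ⊢
    rw [S.idl_pt, Multiset.card_map]
    exact ⟨Ideal.mem_map_of_mem _ ha.1, S.mem_Fil_map ha.2⟩
  obtain ⟨u, hu⟩ := exists_basis_of hn (d.E.map S.pt) (w := fun i => S.σ (d.u i))
    (fun i => hLmem _ _ (d.u i).2) (S.linearIndependent
      (d.u.linearIndependent.map' (Submodule.subtype _) (Submodule.ker_subtype _)))
  obtain ⟨v, hv⟩ := exists_basis_of hn (d.E'.map S.pt) (w := fun i => S.σ (d.v i))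
    (fun i => hLmem _ _ (d.v i).2) (S.linearIndependent
      (d.v.linearIndependent.map' (Submodule.subtype _) (Submodule.ker_subtype _)))
  refine ⟨{ E := d.E.map S.pt
            E' := d.E'.map S.pt
            f := S.σ d.f
            f_ne := (map_ne_zero_iff S.σ S.σ.injective).mpr d.f_ne
            hf := ?_
            u := u
            v := v
            c := d.c.map S.σ
            hc := fun i j => ?_ }, S.cls_pt _, fun z => ?_⟩
  · rw [← Multiset.map_add, S.idl_pt, ← d.hf, Ideal.map_span, Set.image_singleton]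
    rfl
  · rw [hu, hv, ← map_mul, d.hc, map_mul, Matrix.map_apply]
  · show ((d.c.map S.σ).map (lin C (2 * n) fun l => ((z l : ℕ) : k))).det = _
    unfold HData.dvec
    have h1 := RingHom.map_det (s : k →+* k) (d.c.map (lin C (2 * n) fun l => ((z l : ℕ) : k)))
    rw [RingHom.coe_coe] at h1
    rw [h1]
    congr 1
    ext i j
    simp only [Matrix.map_apply, RingHom.mapMatrix_apply]
    exact S.lin_map (fun l => (z l : ℕ)) (d.c i j)

end GaloisData

section Rat

variable {K₀ k A : Type*} [Field K₀] [Field k] [Algebra K₀ k] [CommRing A] [Algebra k A]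
  [IsDedekindDomain A] {C : CurveAlg k A} {n : ℕ}
  (act : ∀ τ : k ≃ₐ[K₀] k, SemiAut C (τ : k ≃+* k))

/-- rational classes. -/
def RatCls : Subgroup (ClassGroup A) where
  carrier := {x | ∀ τ, clsMap (act τ).σ x = x}
  mul_mem' := fun hx hy τ => by rw [map_mul, hx, hy]
  one_mem' := fun τ => map_one _
  inv_mem' := fun {x} hx τ => by
    show clsMap (act τ).σ x⁻¹ = x⁻¹
    rw [map_inv, hx]

theorem mem_RatCls {x : ClassGroup A} : x ∈ RatCls act ↔ ∀ τ, clsMap (act τ).σ x = x := Iff.rfl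

/-- descent of the determinant vector of a rational class. -/
theorem HData.exists_descent [IsGalois K₀ k] (hn : C.cc ≤ n) (d : HData C n)
    (hd : cls C d.E ∈ RatCls act) {z₀ : Idx C (2 * n) → Fin (rk C n + 1)} (hz₀ : d.dvec z₀ ≠ 0) :
    ∃ D : (Idx C (2 * n) → Fin (rk C n + 1)) → K₀, D z₀ = 1 ∧
      ∀ z, algebraMap K₀ k (D z) = (d.dvec z₀)⁻¹ * d.dvec z := by
  have key : ∀ z, ∃ c : K₀, algebraMap K₀ k c = (d.dvec z₀)⁻¹ * d.dvec z := by
    intro z
    apply (InfiniteGalois.mem_range_algebraMap_iff_fixed _).mpr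
    intro τ
    obtain ⟨d', hd', hz⟩ := d.exists_conj (act τ) hn
    rw [hd] at hd'
    obtain ⟨lam, hlam, hrel⟩ := exists_dvec_rel d' d hd'
    have h1 : ∀ z, τ (d.dvec z) = lam * d.dvec z := by
      intro z
      have h2 := congrFun hrel z
      rw [hz z] at h2
      exact h2
    rw [map_mul, map_inv₀, h1, h1]
    field_simp
  choose D hD using key
  refine ⟨D, ?_, hD⟩
  apply (algebraMap K₀ k).injective
  rw [hD, inv_mul_cancel₀ hz₀, map_one]

/-- for a rational class there is a normalized vector over `K₀`. -/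
theorem exists_ratVec [IsAlgClosed k] [CharZero k] [IsGalois K₀ k] (hn : C.cc ≤ n)
    {x : ClassGroup A} (hx : x ∈ RatCls act) :
    ∃ D : (Idx C (2 * n) → Fin (rk C n + 1)) → K₀, (∃ z₀, D z₀ = 1) ∧
      ∀ d : HData C n, cls C d.E = x → ∃ μ : k, μ ≠ 0 ∧ ∀ z, algebraMap K₀ k (D z) = μ * d.dvec z
    := by
  obtain ⟨d, hd⟩ := exists_hdata_cls hn x
  obtain ⟨z₀, hz₀⟩ := Function.ne_iff.mp d.dvec_ne_zero
  obtain ⟨D, hD1, hD2⟩ := d.exists_descent act hn (by rw [hd]; exact hx) hz₀
  refine ⟨D, ⟨z₀, hD1⟩, fun d' hd' => ?_⟩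
  obtain ⟨lam, hlam, hrel⟩ := exists_dvec_rel d d' (by rw [hd, hd'])
  refine ⟨(d.dvec z₀)⁻¹ * lam, mul_ne_zero (inv_ne_zero hz₀) hlam, fun z => ?_⟩
  have h1 : d.dvec z = lam * d'.dvec z := congrFun hrel z
  rw [hD2, h1, mul_assoc]

variable [IsAlgClosed k] [CharZero k] [IsGalois K₀ k]

open Classical in
/-- a vector over `K₀` proportional to the determinant vector of a rational class. -/
noncomputable def ratVec (hn : C.cc ≤ n) (x : ClassGroup A) :
    (Idx C (2 * n) → Fin (rk C n + 1)) → K₀ :=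
  if hx : x ∈ RatCls act then (exists_ratVec act hn hx).choose else 0

theorem ratVec_spec (hn : C.cc ≤ n) {x : ClassGroup A} (hx : x ∈ RatCls act) :
    (∃ z₀, ratVec act hn x z₀ = 1) ∧ ∀ d : HData C n, cls C d.E = x →
      ∃ μ : k, μ ≠ 0 ∧ ∀ z, algebraMap K₀ k (ratVec act hn x z) = μ * d.dvec z := by
  unfold ratVec
  rw [dif_pos hx]
  exact (exists_ratVec act hn hx).choose_spec

theorem ratVec_ne_zero (hn : C.cc ≤ n) {x : ClassGroup A} (hx : x ∈ RatCls act) :
    ratVec act hn x ≠ 0 := by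
  obtain ⟨⟨z₀, hz₀⟩, _⟩ := ratVec_spec act hn hx
  intro h
  rw [h, Pi.zero_apply] at hz₀
  exact zero_ne_one hz₀

theorem ratVec_inv (hn : C.cc ≤ n) {x : ClassGroup A} (hx : x ∈ RatCls act) :
    ∃ c : K₀, c ≠ 0 ∧ ratVec act hn x⁻¹ = c • ratVec act hn x := by
  obtain ⟨⟨z₀, hz₀⟩, h1⟩ := ratVec_spec act hn hx
  obtain ⟨⟨z₁, hz₁⟩, h2⟩ := ratVec_spec act hn ((RatCls act).inv_mem hx)
  obtain ⟨d, hd⟩ := exists_hdata_cls hn x
  obtain ⟨μ, hμ, h3⟩ := h1 d hd
  obtain ⟨ν, hν, h4⟩ := h2 d.swap (by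
    show cls C d.E' = x⁻¹
    rw [← hd, eq_comm]
    exact (mul_eq_one_iff_inv_eq.mp d.cls_mul))
  rw [d.dvec_swap] at h4
  have h5 : ∀ z, algebraMap K₀ k (ratVec act hn x⁻¹ z) =
      ν * μ⁻¹ * algebraMap K₀ k (ratVec act hn x z) := by
    intro z
    rw [h4, h3]
    field_simp
  have h6 := h5 z₀
  rw [hz₀, map_one, mul_one] at h6
  have h7 : ∀ z, ratVec act hn x⁻¹ z = ratVec act hn x⁻¹ z₀ * ratVec act hn x z := by
    intro z
    apply (algebraMap K₀ k).injective
    rw [map_mul, h5, ← h6]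
  refine ⟨ratVec act hn x⁻¹ z₀, ?_, funext h7⟩
  intro h8
  have h9 := h7 z₁
  rw [h8, zero_mul, hz₁] at h9
  exact one_ne_zero h9

/-- classes with proportional vectors. -/
theorem finite_ratVec (hn : C.cc ≤ n) (D : (Idx C (2 * n) → Fin (rk C n + 1)) → K₀) :
    {x : ClassGroup A | x ∈ RatCls act ∧ ∃ c : K₀, ratVec act hn x = c • D}.Finite := by
  by_cases hne : {x : ClassGroup A | x ∈ RatCls act ∧ ∃ c : K₀, ratVec act hn x = c • D}.Nonempty
  · obtain ⟨x₀, hx₀, c₀, hc₀⟩ := hne
    obtain ⟨d₀, hd₀⟩ := exists_hdata_cls hn x₀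
    obtain ⟨μ₀, hμ₀, h0⟩ := (ratVec_spec act hn hx₀).2 d₀ hd₀
    have hc₀0 : c₀ ≠ 0 := by
      rintro rfl
      rw [zero_smul] at hc₀
      exact ratVec_ne_zero act hn hx₀ hc₀
    refine (finite_cls hn d₀).subset ?_
    rintro x ⟨hx, c, hc⟩
    obtain ⟨d, hd⟩ := exists_hdata_cls hn x
    obtain ⟨μ, hμ, h1⟩ := (ratVec_spec act hn hx).2 d hd
    refine ⟨d, hd, μ⁻¹ * algebraMap K₀ k (c * c₀⁻¹) * μ₀, funext fun z => ?_⟩
    have h2 : algebraMap K₀ k (ratVec act hn x z) =
        algebraMap K₀ k (c * c₀⁻¹) * algebraMap K₀ k (ratVec act hn x₀ z) := by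
      rw [← map_mul, hc, hc₀, Pi.smul_apply, Pi.smul_apply, smul_eq_mul, smul_eq_mul]
      congr 1
      field_simp
    rw [h1, h0] at h2
    rw [Pi.smul_apply, smul_eq_mul]
    calc d.dvec z = μ⁻¹ * (μ * d.dvec z) := by rw [inv_mul_cancel_left₀ hμ]
      _ = _ := by rw [h2]; ring
  · rw [Set.not_nonempty_iff_eq_empty.mp hne]
    exact Set.finite_empty

end Rat

section Height

open Height

variable {K₀ k A : Type*} [Field K₀] [AdmissibleAbsValues K₀] [Field k] [Algebra K₀ k]
  [CommRing A] [Algebra k A] [IsDedekindDomain A] {C : CurveAlg k A} {n : ℕ}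
  (act : ∀ τ : k ≃ₐ[K₀] k, SemiAut C (τ : k ≃+* k)) [IsAlgClosed k] [CharZero k] [IsGalois K₀ k]

/-- the height of a rational class. -/
noncomputable def ht (hn : C.cc ≤ n) (x : ClassGroup A) : ℝ := logHeight (ratVec act hn x)

theorem ht_nonneg (hn : C.cc ≤ n) (x : ClassGroup A) : 0 ≤ ht act hn x := logHeight_nonneg _

theorem ht_inv (hn : C.cc ≤ n) {x : ClassGroup A} (hx : x ∈ RatCls act) :
    ht act hn x⁻¹ = ht act hn x := by
  obtain ⟨c, hc, h⟩ := ratVec_inv act hn hx
  unfold ht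
  rw [h, logHeight_smul_eq_logHeight _ hc]

/-- **Northcott** for rational classes. -/
theorem finite_ht_le [Northcott (mulHeight₁ (K := K₀))] (hn : C.cc ≤ n) (B : ℝ) :
    {x : ClassGroup A | x ∈ RatCls act ∧ ht act hn x ≤ B}.Finite := by
  have hB := Northcott.finite_le (h := logHeight₁ (K := K₀)) B
  let s : Set K₀ := {c | logHeight₁ c ≤ B}
  -- the finite set of possible vectors
  let T : Set ((Idx C (2 * n) → Fin (rk C n + 1)) → K₀) := {D | ∀ z, D z ∈ s}
  have hT : T.Finite := Set.Finite.pi' (fun _ : Idx C (2 * n) → Fin (rk C n + 1) => hB)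
  have hsub : {x : ClassGroup A | x ∈ RatCls act ∧ ht act hn x ≤ B} ⊆
      ⋃ D ∈ T, {x : ClassGroup A | x ∈ RatCls act ∧ ∃ c : K₀, ratVec act hn x = c • D} := by
    rintro x ⟨hx, hxB⟩
    rw [Set.mem_iUnion₂]
    refine ⟨ratVec act hn x, ?_, hx, 1, (one_smul _ _).symm⟩
    intro z
    obtain ⟨⟨z₀, hz₀⟩, _⟩ := ratVec_spec act hn hx
    have h1 := logHeight_comp_le ![z, z₀] (ratVec act hn x)
    have h2 : ratVec act hn x ∘ ![z, z₀] = ![ratVec act hn x z, 1] := by
      funext i
      fin_cases i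
      · rfl
      · exact hz₀
    rw [h2, ← logHeight₁_eq_logHeight] at h1
    exact h1.trans hxB
  exact (hT.biUnion fun D _ => finite_ratVec act hn D).subset hsub

end Height

end Fermat.Agent.MW.DV
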