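import Fermat.Agent.MW.HeightLaw
import Fermat.Agent.MW.ExtAbs
import Fermat.Agent.MW.Northcott

/-!
# Finite generation of rational classes from weak Mordell-Weil (team MW, helper39)
-/

set_option autoImplicit false
set_option linter.unusedSectionVars false

open Module Height

namespace Fermat.Agent.MW.LH

open Fermat.Agent.MW.DV Fermat.Agent.MW.Negl

universe u v w

/-- **Mordell-Weil** for the rational classes, given weak Mordell-Weil and the exact identities. -/
theorem fg_ratCls {K₀ : Type w} [Field K₀] [NumberField K₀] {k : Type u} {A : Type v} [Field k]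
    [CommRing A] [Algebra k A] [Algebra K₀ k] [IsDedekindDomain A] [IsAlgClosed k] [CharZero k]
    [IsGalois K₀ k] {C : CurveAlg k A} (hex : ExactH C)
    (act : ∀ τ : k ≃ₐ[K₀] k, SemiAut C (τ : k ≃+* k))
    (hweak : (powMonoidHom 2 : RatCls act →* RatCls act).range.FiniteIndex) :
    Group.FG (RatCls act) := by
  have hn : C.cc ≤ C.cc + 1 := by omega
  obtain ⟨B, hB⟩ := law_global K₀ (k := k) (C := C) (fun v hv => ExtAbs.exists_pl v hv) hex
    (n := C.cc + 1) le_rfl (RatCls act : Set (ClassGroup A))
    (fun x hx y hy => (RatCls act).mul_mem hx hy) (fun x hx y hy => (RatCls act).div_mem hx hy)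
    (ratVec act hn) (fun d hd => by
      obtain ⟨μ, hμ, h⟩ := (ratVec_spec act hn hd).2 d rfl
      exact ⟨μ, hμ, funext h⟩)
  have hN : Northcott fun x : RatCls act => ht act hn x := by
    refine ⟨fun b => ?_⟩
    have h1 := finite_ht_le act hn b
    refine Set.Finite.of_finite_image (f := Subtype.val) (h1.subset ?_)
      Subtype.val_injective.injOn
    rintro _ ⟨x, hx, rfl⟩
    exact ⟨x.2, hx⟩
  exact CommGroup.fg_of_descent' (h := fun x : RatCls act => ht act hn x) (C := B) hweak
    (fun x => ht_nonneg act hn x) (fun x y => hB x x.2 y y.2)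

end Fermat.Agent.MW.LH
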