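import Fermat.Agent.MW.Exact
import Fermat.Agent.MW.Descent

/-!
# Finite generation of rational classes from weak Mordell-Weil (unconditional form)
-/

set_option autoImplicit false

open Filter

namespace Fermat.Agent.MW.LH

open Fermat.Agent.MW.Ultra

/-- The exact identities over ultrapowers hold for every curve algebra. -/
theorem exactH {k A : Type*} [Field k] [CommRing A] [Algebra k A] [IsAlgClosed k] [CharZero k]
    [IsDedekindDomain A] (C : CurveAlg k A) : ExactH C :=
  fun O hO => exact_of_forall_mem C O hO

universe u v w

/-- **Mordell-Weil** for the rational classes, given weak Mordell-Weil. -/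
theorem fg_ratCls_of_weak {K₀ : Type w} [Field K₀] [NumberField K₀] {k : Type u} {A : Type v}
    [Field k] [CommRing A] [Algebra k A] [Algebra K₀ k] [IsDedekindDomain A] [IsAlgClosed k]
    [CharZero k] [IsGalois K₀ k] {C : CurveAlg k A}
    (act : ∀ τ : k ≃ₐ[K₀] k, DV.SemiAut C (τ : k ≃+* k))
    (hweak : (powMonoidHom 2 : DV.RatCls act →* DV.RatCls act).range.FiniteIndex) :
    Group.FG (DV.RatCls act) :=
  fg_ratCls (exactH C) act hweak

end Fermat.Agent.MW.LH
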