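/-
Abstract weak Mordell--Weil theorem: a `2`-divisible abelian group with a smooth action of `G_ℚ`,
finite `2`-torsion, "good reduction" outside a finite set of primes.
-/
import Mathlib
import Fermat.Agent.MW.QuadFinite

set_option autoImplicit false

open Pointwise

namespace Fermat.Agent.MW.Kummer

open Fermat.Agent.MW.QuadFinite

variable {L : Type} [Field L] [Algebra ℚ L] [IsGalois ℚ L]

/-- characters with values in `±1` separate the points of an elementary abelian `2`-group. -/
theorem exists_sign_ne_one {M : Type*} [AddCommGroup M] (hM : ∀ m : M, 2 • m = 0) {m : M}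
    (hm : m ≠ 0) : ∃ f : Multiplicative M →* ℤˣ, f (Multiplicative.ofAdd m) ≠ 1 := by
  let _ : Module (ZMod 2) M := AddCommGroup.zmodModule hM
  obtain ⟨φ, hφ⟩ : ∃ φ : Module.Dual (ZMod 2) M, φ m ≠ 0 := by
    by_contra hcon
    push Not at hcon
    exact hm ((Module.forall_dual_apply_eq_zero_iff (ZMod 2) m).1 hcon)
  have hcard : Nat.card (Multiplicative (ZMod 2)) = 2 := by
    rw [Nat.card_eq_fintype_card]; rfl
  have hcard' : Nat.card ℤˣ = 2 := by
    rw [Nat.card_eq_fintype_card]; rfl
  let e : Multiplicative (ZMod 2) ≃* ℤˣ :=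
    mulEquivOfPrimeCardEq (p := 2) hcard hcard'
  refine ⟨e.toMonoidHom.comp (AddMonoidHom.toMultiplicative φ.toAddMonoidHom), fun h => hφ ?_⟩
  have h1 : e (Multiplicative.ofAdd (φ m)) = 1 := h
  rw [map_eq_one_iff e e.injective] at h1
  exact Multiplicative.ofAdd.injective h1

/-- **Finiteness of homomorphisms to a finite elementary `2`-group unramified outside `S`.** -/
theorem finite_homs (U : Subgroup (L ≃ₐ[ℚ] L)) (hU : IsOpen (U : Set (L ≃ₐ[ℚ] L)))
    (S : Set ℕ) (hS : S.Finite) {M : Type*} [AddCommGroup M] [Finite M]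
    (hM : ∀ m : M, 2 • m = 0) :
    {φ : U →* Multiplicative M | OpenKer U φ ∧ UnramifiedOutside U S φ}.Finite := by
  have hfinC : Finite (Multiplicative M →* ℤˣ) :=
    Finite.of_injective (fun f => (f : Multiplicative M → ℤˣ)) DFunLike.coe_injective
  have hfin := finite_quadratic U hU S hS
  refine Set.Finite.of_injOn
    (f := fun φ : U →* Multiplicative M => fun c : (Multiplicative M →* ℤˣ) => c.comp φ)
    (t := Set.univ.pi fun _ => {χ : U →* ℤˣ | OpenKer U χ ∧ UnramifiedOutside U S χ})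
    ?_ ?_ (Set.Finite.pi fun _ => hfin)
  · rintro φ ⟨h1, h2⟩ c -
    refine ⟨?_, fun ℓ hℓ hℓS A hA σ hσ => ?_⟩
    · refine Subgroup.isOpen_mono (H₁ := φ.ker.map U.subtype) (Subgroup.map_mono ?_) h1
      intro σ hσ
      change c (φ σ) = 1
      rw [show φ σ = 1 from hσ, map_one]
    · change c (φ σ) = 1
      rw [h2 ℓ hℓ hℓS A hA σ hσ, map_one]
  · intro φ _ φ' _ h
    ext σ
    by_contra hne
    have hne' : Multiplicative.toAdd (φ σ) - Multiplicative.toAdd (φ' σ) ≠ 0 := by
      intro h0
      exact hne (Multiplicative.toAdd.injective (sub_eq_zero.1 h0))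
    obtain ⟨c, hc⟩ := exists_sign_ne_one hM hne'
    apply hc
    have h1 : c (φ σ) = c (φ' σ) := DFunLike.congr_fun (congrFun h c) σ
    have h2 : Multiplicative.ofAdd (Multiplicative.toAdd (φ σ) - Multiplicative.toAdd (φ' σ)) =
        φ σ / φ' σ := rfl
    rw [h2, map_div, h1, div_self']

section AddGroup

lemma finiteIndex_of_finite {G : Type*} [AddGroup G] (H : AddSubgroup G) {α : Type*} [Finite α]
    (f : G → α) (hf : ∀ x y : G, f x = f y → -x + y ∈ H) : H.FiniteIndex := by
  have : Finite (G ⧸ H) := by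
    refine Finite.of_injective (fun q : G ⧸ H => f q.out) fun q q' hq => ?_
    have := hf _ _ hq
    rw [← q.out_eq', ← q'.out_eq']
    exact QuotientAddGroup.eq.2 this
  exact AddSubgroup.finiteIndex_of_finite_quotient

end AddGroup

/-- **Abstract weak Mordell--Weil.** -/
theorem weak_mordell_weil {J : Type*} [AddCommGroup J] [DistribMulAction (L ≃ₐ[ℚ] L) J]
    (hsmooth : ∀ x : J, IsOpen (MulAction.stabilizer (L ≃ₐ[ℚ] L) x : Set (L ≃ₐ[ℚ] L)))
    (hdiv : ∀ x : J, ∃ y : J, 2 • y = x)
    (hfin : {x : J | 2 • x = 0}.Finite)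
    (S : Set ℕ) (hS : S.Finite)
    (hunr : ∀ ℓ : ℕ, ℓ.Prime → ℓ ∉ S → ∀ A : ValuationSubring L, A.LiesOverPrime ℓ →
      ∀ σ ∈ A.inertiaSubgroupIn ℚ, ∀ y : J, σ • (2 • y) = 2 • y → σ • y = y) :
    (nsmulAddMonoidHom (α := FixedPoints.addSubgroup (L ≃ₐ[ℚ] L) J) 2).range.FiniteIndex := by
  classical
  -- the `2`-torsion
  let M : AddSubgroup J := (nsmulAddMonoidHom (α := J) 2).ker
  have hMmem : ∀ x : J, x ∈ M ↔ 2 • x = 0 := fun x => Iff.rfl
  have hMfin : Finite M := hfin
  have hM2 : ∀ m : M, 2 • m = 0 := fun m => Subtype.ext m.2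
  -- an open subgroup acting trivially on the `2`-torsion
  let U : Subgroup (L ≃ₐ[ℚ] L) := ⨅ m : M, MulAction.stabilizer (L ≃ₐ[ℚ] L) (m : J)
  have hU : IsOpen (U : Set (L ≃ₐ[ℚ] L)) := by
    rw [Subgroup.coe_iInf]
    exact isOpen_iInter_of_finite fun m => hsmooth _
  have hUM : ∀ σ ∈ U, ∀ m ∈ M, σ • m = m := fun σ hσ m hm =>
    (Subgroup.mem_iInf.1 hσ) ⟨m, hm⟩
  have hsn : ∀ (σ : L ≃ₐ[ℚ] L) (x : J), σ • (2 • x) = 2 • (σ • x) := fun σ x =>
    map_nsmul (DistribSMul.toAddMonoidHom J σ) 2 x
  have hsmulM : ∀ (σ : L ≃ₐ[ℚ] L) (m : J), m ∈ M → σ • m ∈ M := fun σ m hm => by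
    rw [hMmem] at hm ⊢
    rw [← hsn, hm, smul_zero]
  -- halves
  choose half hhalf using hdiv
  let G := L ≃ₐ[ℚ] L
  let H := FixedPoints.addSubgroup G J
  have hHfix : ∀ (x : H) (σ : G), σ • (x : J) = x := fun x σ => x.2 σ
  have hdiff : ∀ (x : H) (σ : G), σ • half x - half x ∈ M := fun x σ => by
    rw [hMmem, smul_sub, ← hsn, hhalf, hHfix, sub_self]
  -- the Kummer homomorphism
  let φ : H → (U →* Multiplicative M) := fun x =>
    { toFun := fun σ => Multiplicative.ofAdd ⟨(σ : G) • half x - half x, hdiff x σ⟩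
      map_one' := by
        apply Multiplicative.toAdd.injective
        apply Subtype.ext
        change ((1 : U) : G) • half x - half x = 0
        rw [OneMemClass.coe_one, one_smul, sub_self]
      map_mul' := fun σ τ => by
        apply Multiplicative.toAdd.injective
        apply Subtype.ext
        change ((σ * τ : U) : G) • half x - half x =
          ((σ : G) • half x - half x) + ((τ : G) • half x - half x)
        have h1 := hUM σ σ.2 _ (hdiff x τ)
        rw [smul_sub] at h1
        rw [Subgroup.coe_mul, mul_smul]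
        have h2 : (σ : G) • (τ : G) • half x =
            ((τ : G) • half x - half x) + (σ : G) • half x := by
          rw [← h1]; abel
        rw [h2]; abel }
  have hφapp : ∀ (x : H) (σ : U), ((Multiplicative.toAdd (φ x σ) : M) : J) =
      (σ : G) • half x - half x := fun x σ => rfl
  have hφmem : ∀ x : H, OpenKer U (φ x) ∧ UnramifiedOutside U S (φ x) := by
    intro x
    constructor
    · refine Subgroup.isOpen_mono (H₁ := U ⊓ MulAction.stabilizer G (half (x : J))) ?_
        (hU.inter (hsmooth _))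
      rintro σ ⟨hσU, hσ⟩
      refine ⟨⟨σ, hσU⟩, ?_, rfl⟩
      change φ x ⟨σ, hσU⟩ = 1
      apply Multiplicative.toAdd.injective
      apply Subtype.ext
      rw [hφapp]
      change σ • half (x : J) - half (x : J) = 0
      rw [show σ • half (x : J) = half (x : J) from hσ, sub_self]
    · intro ℓ hℓ hℓS A hA σ hσ
      apply Multiplicative.toAdd.injective
      apply Subtype.ext
      rw [hφapp]
      change (σ : G) • half (x : J) - half (x : J) = 0
      rw [hunr ℓ hℓ hℓS A hA σ hσ (half x) (by rw [hhalf]; exact hHfix x σ), sub_self]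
  have hF := finite_homs U hU S hS (M := M) hM2
  have hFfin : Finite {φ : U →* Multiplicative M | OpenKer U φ ∧ UnramifiedOutside U S φ} := hF
  have hGU : Finite (G ⧸ U) := by
    have := Subgroup.quotient_finite_of_isOpen U hU
    exact this
  -- the invariants
  refine finiteIndex_of_finite _
    (α := {φ : U →* Multiplicative M | OpenKer U φ ∧ UnramifiedOutside U S φ} × (G ⧸ U → M))
    (fun x => (⟨φ x, hφmem x⟩, fun q => ⟨q.out • half x - half x, hdiff x q.out⟩)) ?_
  intro x y hxy
  obtain ⟨h1, h2⟩ := Prod.ext_iff.1 hxy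
  have h1' : φ x = φ y := congrArg Subtype.val h1
  have h1'' : ∀ σ ∈ U, σ • half (x : J) - half (x : J) = σ • half (y : J) - half (y : J) := by
    intro σ hσ
    have := DFunLike.congr_fun h1' ⟨σ, hσ⟩
    exact congrArg (fun z => ((Multiplicative.toAdd z : M) : J)) this
  have h2' : ∀ q : G ⧸ U, q.out • half (x : J) - half (x : J) =
      q.out • half (y : J) - half (y : J) := fun q =>
    congrArg Subtype.val (congrFun h2 q)
  -- the difference of the halves is fixed
  have hfixed : ∀ σ : G, σ • (half (y : J) - half (x : J)) = half (y : J) - half (x : J) := by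
    intro σ
    obtain ⟨u, hu⟩ := QuotientGroup.mk_out_eq_mul U σ
    have hσ : σ = (QuotientGroup.mk σ : G ⧸ U).out * ((u⁻¹ : U) : G) := by
      rw [hu]; simp
    have h3 := h1'' _ (u⁻¹ : U).2
    have h4 := h2' (QuotientGroup.mk σ : G ⧸ U)
    rw [hσ]
    set g := (QuotientGroup.mk σ : G ⧸ U).out with hg
    rw [mul_smul]
    have h5 : ((u⁻¹ : U) : G) • (half (y : J) - half (x : J)) = half (y : J) - half (x : J) := by
      rw [smul_sub]
      rw [sub_eq_sub_iff_sub_eq_sub] at h3
      rw [← neg_sub, h3, neg_sub]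
    rw [h5, smul_sub]
    rw [sub_eq_sub_iff_sub_eq_sub] at h4
    rw [← neg_sub, h4, neg_sub]
  refine ⟨⟨half (y : J) - half (x : J), fun σ => hfixed σ⟩, ?_⟩
  apply Subtype.ext
  change 2 • (half (y : J) - half (x : J)) = -(x : J) + (y : J)
  rw [nsmul_sub, hhalf, hhalf]
  abel

end Fermat.Agent.MW.Kummer
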