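import Fermat.Agent.MW.LocalHeight
import Fermat.Agent.MW.Global

/-!
# The approximate parallelogram law for the height of divisor classes (team MW, helper39)
-/

set_option autoImplicit false
set_option linter.unusedSectionVars false
set_option linter.overlappingInstances false

open Filter Module TensorProduct Height Height.AdmissibleAbsValues

namespace Fermat.Agent.MW.LH

open Fermat.Agent.MW.Ultra Fermat.Agent.MW.Negl Fermat.Agent.MW.UltCurve Fermat.Agent.MW.Quad
open Fermat.Agent.MW.Global Fermat.Agent.MW.DV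

universe u v w

/-- a family of multisets with constant cardinality comes from a multiset of families. -/
theorem exists_sp {k : Type u} {A : Type v} [Field k] [CommRing A] [Algebra k A] {D : Type*}
    {e : ℕ} (F : D → Multiset (A →ₐ[k] k)) (hF : ∀ d, (F d).card = e) :
    ∃ E : Multiset (D → (A →ₐ[k] k)), E.card = e ∧ ∀ d, sp E d = F d := by
  have hl : ∀ d, (F d).toList.length = e := fun d => by rw [Multiset.length_toList, hF]
  refine ⟨((List.ofFn fun (i : Fin e) (d : D) => (F d).toList.get (i.cast (hl d).symm) :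
    List (D → (A →ₐ[k] k))) : Multiset (D → (A →ₐ[k] k))), ?_, fun d => ?_⟩
  · rw [Multiset.coe_card, List.length_ofFn]
  · rw [sp, Multiset.map_coe, List.map_ofFn]
    have h1 : List.ofFn ((fun P : D → (A →ₐ[k] k) => P d) ∘ fun (i : Fin e) (d : D) =>
        (F d).toList.get (i.cast (hl d).symm)) = (F d).toList := by
      have h2 := List.ofFn_get (F d).toList
      rw [List.ofFn_congr (hl d)] at h2
      exact h2
    rw [h1, Multiset.coe_toList]

section Data

variable {k : Type u} {A : Type v} [Field k] [CommRing A] [Algebra k A] [IsAlgClosed k]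
  [IsDedekindDomain A] (C : CurveAlg k A)

/-- every class is represented by effective divisors of a given large cardinality. -/
theorem exists_cls_card {e : ℕ} (he : C.cc + 1 ≤ e) (x : ClassGroup A) :
    ∃ E : Multiset (A →ₐ[k] k), cls C E = x ∧ E.card = e := by
  obtain ⟨D, hD⟩ := exists_cls_eq C x⁻¹
  obtain ⟨f, hfL, hfdeg, hf0, -⟩ := exists_avoid C D ∅ (m := D.card + e) (by omega)
  obtain ⟨R, hR, hcard⟩ := exists_rest C hf0 (C.mem_L.mp hfL).1
  refine ⟨R, ?_, by omega⟩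
  have h1 := cls_eq_one_of_span C hR
  rw [cls_add, hD] at h1
  exact (inv_mul_eq_one.mp h1).symm

theorem exists_compl {e : ℕ} (he : C.cc + 1 ≤ e) (E : Multiset (A →ₐ[k] k)) (hE : E.card = e) :
    ∃ (E' : Multiset (A →ₐ[k] k)) (f : A), f ≠ 0 ∧ Ideal.span {f} = idl (E + E') ∧
      E'.card = e := by
  obtain ⟨f, hfL, hfdeg, hf0, -⟩ := exists_avoid C E ∅ (m := E.card + e) (by omega)
  obtain ⟨R, hR, hcard⟩ := exists_rest C hf0 (C.mem_L.mp hfL).1
  exact ⟨R, f, hf0, hR, by omega⟩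

theorem exists_good_hdata {n e : ℕ} (hn : C.cc ≤ n) (he : C.cc + 1 ≤ e) (x : ClassGroup A) :
    ∃ d : HData C n, cls C d.E = x ∧ d.E.card = e ∧ d.E'.card = e := by
  obtain ⟨E, hE, hcard⟩ := exists_cls_card C he x
  obtain ⟨E', f, hf0, hf, hcard'⟩ := exists_compl C he E hcard
  obtain ⟨d, h1, h2, -⟩ := exists_hdata hn hf0 hf
  exact ⟨d, by rw [h1, hE], by rw [h1, hcard], by rw [h2, hcard']⟩

theorem exists_principal {E : Multiset (A →ₐ[k] k)} (h : cls C E = 1) :
    ∃ f : A, f ≠ 0 ∧ Ideal.span {f} = idl E := by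
  unfold cls at h
  rw [ClassGroup.mk0_eq_one_iff] at h
  obtain ⟨f, hf⟩ := h
  rw [Ideal.submodule_span_eq] at hf
  refine ⟨f, ?_, hf.symm⟩
  rintro rfl
  apply idl_ne_bot C E
  show idl E = ⊥
  simpa using hf

end Data

section Law

variable (K₀ : Type w) [Field K₀] [AdmissibleAbsValues K₀] {k : Type u} {A : Type v} [Field k]
  [CommRing A] [Algebra k A] [Algebra K₀ k] [IsDedekindDomain A] [IsAlgClosed k] [CharZero k]
  [Algebra.IsAlgebraic K₀ k] {C : CurveAlg k A}

/-- **The local parallelogram law.** -/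
theorem law_local (hex : ExactH C) {n e : ℕ} (hn : C.cc + 1 ≤ n)
    (hd : ClassGroup A → HData C n) (hcls : ∀ x, cls C (hd x).E = x)
    (hcard : ∀ x, (hd x).E.card = e) (hcard' : ∀ x, (hd x).E'.card = e) :
    (2 : ℤ) • ((dT fun p : ClassGroup A × ClassGroup A => hd (p.1 * p.2)).lg K₀ +
      (dT fun p : ClassGroup A × ClassGroup A => hd (p.1 / p.2)).lg K₀ -
      (2 : ℤ) • (dT fun p : ClassGroup A × ClassGroup A => hd p.1).lg K₀ -
      (2 : ℤ) • (dT fun p : ClassGroup A × ClassGroup A => hd p.2).lg K₀) ∈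
      NEGL K₀ k (ClassGroup A × ClassGroup A) := by
  have hcls' : ∀ x, cls C (hd x).E' = x⁻¹ := fun x => by
    have h1 := (hd x).cls_mul
    rw [hcls] at h1
    exact (inv_eq_of_mul_eq_one_right h1).symm
  -- families
  have hfam : ∀ φ : ClassGroup A × ClassGroup A → ClassGroup A,
      ∃ E E' : Multiset (ClassGroup A × ClassGroup A → (A →ₐ[k] k)), E.card = e ∧ E'.card = e ∧
        (∀ p, (hd (φ p)).E = sp E p) ∧ ∀ p, (hd (φ p)).E' = sp E' p := by
    intro φ
    obtain ⟨E, hE, h1⟩ := exists_sp (fun p => (hd (φ p)).E) fun p => hcard _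
    obtain ⟨E', hE', h1'⟩ := exists_sp (fun p => (hd (φ p)).E') fun p => hcard' _
    exact ⟨E, E', hE, hE', fun p => (h1 p).symm, fun p => (h1' p).symm⟩
  obtain ⟨E₁, E₁', c₁, c₁', s₁, s₁'⟩ := hfam fun p => p.1
  obtain ⟨E₂, E₂', c₂, c₂', s₂, s₂'⟩ := hfam fun p => p.2
  obtain ⟨E₃, E₃', c₃, c₃', s₃, s₃'⟩ := hfam fun p => p.1 * p.2
  obtain ⟨E₄, E₄', c₄, c₄', s₄, s₄'⟩ := hfam fun p => p.1 / p.2
  -- principal divisors
  have hp : ∀ (φ : ClassGroup A × ClassGroup A → ClassGroup A)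
      (E E' : Multiset (ClassGroup A × ClassGroup A → (A →ₐ[k] k))),
      (∀ p, (hd (φ p)).E = sp E p) → (∀ p, (hd (φ p)).E' = sp E' p) →
      (sys K₀ (ClassGroup A × ClassGroup A) hex).Prin C.genus (E + E')
        ((cT C (E + E').card fun p => (hd (φ p)).f).cl K₀) := by
    intro φ E E' h1 h2
    apply prin hex (fun p => (hd (φ p)).f_ne)
    intro p
    rw [sp_add, ← h1, ← h2]
    exact (hd (φ p)).hf
  have hp' : ∀ (F : Multiset (ClassGroup A × ClassGroup A → (A →ₐ[k] k))),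
      (∀ p, cls C (sp F p) = 1) → ∃ η, (sys K₀ (ClassGroup A × ClassGroup A) hex).Prin C.genus F η
      := by
    intro F hF
    choose f hf0 hf using fun p => exists_principal C (hF p)
    exact ⟨_, prin hex hf0 hf⟩
  obtain ⟨η₅, p₅⟩ := hp' (E₁ + E₂ + E₃') fun p => by
    rw [sp_add, sp_add, cls_add, cls_add, ← s₁, ← s₂, ← s₃', hcls, hcls, hcls', mul_inv_cancel]
  obtain ⟨η₆, p₆⟩ := hp' (E₁ + E₂' + E₄') fun p => by
    rw [sp_add, sp_add, cls_add, cls_add, ← s₁, ← s₂', ← s₄', hcls, hcls', hcls', div_eq_mul_inv,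
      mul_inv_cancel]
  have main := HSystem.parallelogram (sys K₀ (ClassGroup A × ClassGroup A) hex) (g := C.genus)
    (n := n) (e := e) hn c₁ c₁' c₂ c₂' c₃ c₃' c₄ c₄' (hp _ _ _ s₁ s₁') (hp _ _ _ s₂ s₂')
    (hp _ _ _ s₃ s₃') (hp _ _ _ s₄ s₄') p₅ p₆
  have hK : ∀ (φ : ClassGroup A × ClassGroup A → ClassGroup A)
      (E E' : Multiset (ClassGroup A × ClassGroup A → (A →ₐ[k] k))), E.card = e → E'.card = e →
      (∀ p, (hd (φ p)).E = sp E p) → (∀ p, (hd (φ p)).E' = sp E' p) →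
      (sys K₀ (ClassGroup A × ClassGroup A) hex).K C.genus n e E E'
        ((cT C (E + E').card fun p => (hd (φ p)).f).cl K₀) = (dT fun p => hd (φ p)).cl K₀ := by
    intro φ E E' h1 h2 h3 h4
    have h5 := kum (K₀ := K₀) hex (n := n) (by omega) (fun p => hd (φ p)) h1 h2 h3 h4
    rw [h5]
    have h6 : ((n : ℤ) + 1 - C.genus) = (rk C n : ℤ) := by
      have hcc : C.genus ≤ C.cc := by unfold CurveAlg.cc; omega
      unfold rk
      omega
    have h7 : (E + E').card = e + e := by rw [Multiset.card_add, h1, h2]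
    rw [HSystem.K, h6, h7]
    rfl
  rw [hK _ _ _ c₁ c₁' s₁ s₁', hK _ _ _ c₂ c₂' s₂ s₂', hK _ _ _ c₃ c₃' s₃ s₃',
    hK _ _ _ c₄ c₄' s₄ s₄'] at main
  rw [← QuotientAddGroup.eq_zero_iff, ← main]
  rfl

/-- **The global approximate parallelogram law.** -/
theorem law_global [Normal K₀ k]
    (hext : ∀ v : AbsoluteValue K₀ ℝ, v ∈ archAbsVal (K := K₀) ∨ v ∈ nonarchAbsVal (K := K₀) →
      ∃ w : Pl K₀ k, res K₀ w.1 = v)
    (hex : ExactH C) {n : ℕ} (hn : C.cc + 1 ≤ n) (G : Set (ClassGroup A))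
    (hGmul : ∀ x ∈ G, ∀ y ∈ G, x * y ∈ G) (hGdiv : ∀ x ∈ G, ∀ y ∈ G, x / y ∈ G)
    (q : ClassGroup A → (Idx C (2 * n) → Fin (rk C n + 1)) → K₀)
    (hq : ∀ (d : HData C n), cls C d.E ∈ G → ∃ μ : k, μ ≠ 0 ∧
      (fun z => algebraMap K₀ k (q (cls C d.E) z)) = μ • d.dvec) :
    ∃ B : ℝ, ∀ x ∈ G, ∀ y ∈ G,
      |logHeight (q (x * y)) + logHeight (q (x / y)) - 2 * (logHeight (q x) + logHeight (q y))|
        ≤ B := by
  choose hd hcls hcard hcard' using fun x => exists_good_hdata C (n := n) (e := C.cc + 1)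
    (by omega) le_rfl x
  have hloc := law_local K₀ hex hn hd hcls hcard hcard'
  have hloc' := comp_mem (fun p : G × G => ((p.1 : ClassGroup A), (p.2 : ClassGroup A))) hloc
  have hq' : ∀ x : G, ∃ μ : k, μ ≠ 0 ∧
      (fun z => algebraMap K₀ k (q x z)) = μ • (hd x).dvec := fun x => by
    have := hq (hd x) (by rw [hcls]; exact x.2)
    rwa [hcls] at this
  choose μ hμ0 hμ using hq'
  have hqne : ∀ x : G, q x ≠ 0 := by
    intro x h0
    apply (hd x).dvec_ne_zero
    have h1 := hμ x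
    have h2 : μ x • (hd x).dvec = 0 := by
      rw [← h1, h0]
      funext z
      simp
    exact (smul_eq_zero.mp h2).resolve_left (hμ0 x)
  -- norms
  have hnrm : ∀ (x : G) (w : Pl K₀ k), Real.log (nrm w.1 (hd x).dvec) =
      Real.log (nrm (res K₀ w.1) (q x)) - Real.log (w.1 (μ x)) := by
    intro x w
    have h1 : nrm (res K₀ w.1) (q x) = nrm w.1 (fun z => algebraMap K₀ k (q x z)) := rfl
    rw [h1, hμ x, nrm_smul, Real.log_mul (w.1.ne_zero (hμ0 x))
      (nrm_pos w.1 (hd x).dvec_ne_zero).ne']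
    ring
  let m : G × G → G := fun p => ⟨p.1 * p.2, hGmul _ p.1.2 _ p.2.2⟩
  let s : G × G → G := fun p => ⟨p.1 / p.2, hGdiv _ p.1.2 _ p.2.2⟩
  let c : G × G → k := fun p => μ (m p) ^ 2 * μ (s p) ^ 2 * (μ p.1 ^ 4)⁻¹ * (μ p.2 ^ 4)⁻¹
  have hc : ∀ p, c p ≠ 0 := fun p =>
    mul_ne_zero (mul_ne_zero (mul_ne_zero (pow_ne_zero _ (hμ0 _)) (pow_ne_zero _ (hμ0 _)))
      (inv_ne_zero (pow_ne_zero _ (hμ0 _)))) (inv_ne_zero (pow_ne_zero _ (hμ0 _)))
  have hsum := (NEGL K₀ k (G × G)).add_mem hloc' (principal_mem (K₀ := K₀) c hc)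
  obtain ⟨Ct, hCt⟩ := global_bound hext hsum
  refine ⟨Ct / 2, fun x hx y hy => ?_⟩
  have h1 := hCt (⟨x, hx⟩, ⟨y, hy⟩) (fun v => 2 * (Real.log (nrm v (q (x * y))) +
    Real.log (nrm v (q (x / y))) - 2 * (Real.log (nrm v (q x)) + Real.log (nrm v (q y))))) (by
    intro w
    set p : G × G := (⟨x, hx⟩, ⟨y, hy⟩) with hp
    have e1 := hnrm (m p) w
    have e2 := hnrm (s p) w
    have e3 := hnrm p.1 w
    have e4 := hnrm p.2 w
    have e5 : Real.log (w.1 (c p)) = 2 * Real.log (w.1 (μ (m p))) + 2 * Real.log (w.1 (μ (s p))) -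
        4 * Real.log (w.1 (μ p.1)) - 4 * Real.log (w.1 (μ p.2)) := by
      have n1 := w.1.ne_zero (hμ0 (m p))
      have n2 := w.1.ne_zero (hμ0 (s p))
      have n3 := w.1.ne_zero (hμ0 p.1)
      have n4 := w.1.ne_zero (hμ0 p.2)
      simp only [c]
      rw [map_mul, map_mul, map_mul, map_inv₀, map_inv₀, map_pow, map_pow, map_pow, map_pow,
        Real.log_mul (by positivity) (by positivity), Real.log_mul (by positivity) (by positivity),
        Real.log_mul (by positivity) (by positivity), Real.log_inv, Real.log_inv, Real.log_pow,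
        Real.log_pow, Real.log_pow, Real.log_pow]
      push_cast
      ring
    show (2 : ℤ) • (Real.log (nrm w.1 (hd (m p)).dvec) + Real.log (nrm w.1 (hd (s p)).dvec) -
      (2 : ℤ) • Real.log (nrm w.1 (hd p.1).dvec) - (2 : ℤ) • Real.log (nrm w.1 (hd p.2).dvec)) +
      Real.log (w.1 (c p)) = _
    rw [e1, e2, e3, e4, e5]
    simp only [zsmul_eq_mul]
    push_cast
    show _ = 2 * (Real.log (nrm (res K₀ w.1) (q (m p))) +
      Real.log (nrm (res K₀ w.1) (q (s p))) - 2 * (Real.log (nrm (res K₀ w.1) (q p.1)) +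
        Real.log (nrm (res K₀ w.1) (q p.2))))
    ring)
  have fs : ∀ x : G, FS (fun v => Real.log (nrm v (q x))) := fun x => FS_nrm (hqne x)
  have f1 := fs ⟨x * y, hGmul _ hx _ hy⟩
  have f2 := fs ⟨x / y, hGdiv _ hx _ hy⟩
  have f3 := fs ⟨x, hx⟩
  have f4 := fs ⟨y, hy⟩
  have t1 := logHeight_eq_tot (hqne ⟨x * y, hGmul _ hx _ hy⟩)
  have t2 := logHeight_eq_tot (hqne ⟨x / y, hGdiv _ hx _ hy⟩)
  have t3 := logHeight_eq_tot (hqne ⟨x, hx⟩)
  have t4 := logHeight_eq_tot (hqne ⟨y, hy⟩)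
  have FSadd : ∀ {φ ψ : AbsoluteValue K₀ ℝ → ℝ}, FS φ → FS ψ → FS (fun v => φ v + ψ v) :=
    fun h h' => h.add h'
  have FSmul : ∀ (c : ℝ) {φ : AbsoluteValue K₀ ℝ → ℝ}, FS φ → FS (fun v => c * φ v) := by
    intro c φ h
    refine h.subset fun v hv h0 => hv ?_
    show c * φ v.val = 0
    rw [show φ v.val = 0 from h0, mul_zero]
  have htot : tot (fun v => 2 * (Real.log (nrm v (q (x * y))) +
      Real.log (nrm v (q (x / y))) - 2 * (Real.log (nrm v (q x)) + Real.log (nrm v (q y))))) =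
      2 * (logHeight (q (x * y)) + logHeight (q (x / y)) -
        2 * (logHeight (q x) + logHeight (q y))) := by
    have e : (fun v : AbsoluteValue K₀ ℝ => 2 * (Real.log (nrm v (q (x * y))) +
      Real.log (nrm v (q (x / y))) - 2 * (Real.log (nrm v (q x)) + Real.log (nrm v (q y))))) =
      fun v => 2 * ((Real.log (nrm v (q (x * y))) + Real.log (nrm v (q (x / y)))) +
        (-2) * (Real.log (nrm v (q x)) + Real.log (nrm v (q y)))) := by
      funext v; ring
    rw [e, tot_smul _ (FSadd (FSadd f1 f2) (FSmul _ (FSadd f3 f4))),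
      tot_add (FSadd f1 f2) (FSmul _ (FSadd f3 f4)), tot_smul _ (FSadd f3 f4), tot_add f1 f2,
      tot_add f3 f4, t1, t2, t3, t4]
    ring
  rw [htot, abs_mul, abs_two] at h1
  rw [le_div_iff₀ (by norm_num)]
  linarith

end Law

end Fermat.Agent.MW.LH
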