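import Fermat.Agent.MW.Ultra
import Fermat.Prelude.Def_FLTPrelim_Ramification

/-!
# Ultraproducts of valuation subrings (team MW, helper39)
-/

set_option autoImplicit false
set_option linter.unusedSectionVars false

open Filter Pointwise

namespace Fermat.Agent.MW.UltVal

open Fermat.Agent.MW.Ultra

universe u

variable {L : Type u} [Field L]

/-- Ultraproduct of valuation subrings. -/
def uval (V : ℕ → ValuationSubring L) (U : Ultrafilter ℕ) : ValuationSubring (Ult L U) where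
  carrier := {x | ∃ f : ℕ → L, mk U f = x ∧ ∀ᶠ n in (U : Filter ℕ), f n ∈ V n}
  mul_mem' := by
    rintro _ _ ⟨f, rfl, hf⟩ ⟨g, rfl, hg⟩
    refine ⟨f * g, map_mul _ _ _, ?_⟩
    filter_upwards [hf, hg] with n h1 h2
    exact (V n).mul_mem _ _ h1 h2
  one_mem' := ⟨1, map_one _, Eventually.of_forall fun n => (V n).one_mem⟩
  add_mem' := by
    rintro _ _ ⟨f, rfl, hf⟩ ⟨g, rfl, hg⟩
    refine ⟨f + g, map_add _ _ _, ?_⟩
    filter_upwards [hf, hg] with n h1 h2
    exact (V n).add_mem _ _ h1 h2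
  zero_mem' := ⟨0, map_zero _, Eventually.of_forall fun n => (V n).zero_mem⟩
  neg_mem' := by
    rintro _ ⟨f, rfl, hf⟩
    refine ⟨-f, map_neg _ _, ?_⟩
    filter_upwards [hf] with n h1
    exact (V n).neg_mem _ h1
  mem_or_inv_mem' := by
    intro x
    obtain ⟨f, rfl⟩ := mk_surjective x
    rcases Ultrafilter.eventually_or.mp (Eventually.of_forall (f := (U : Filter ℕ))
      fun n => (V n).mem_or_inv_mem (f n)) with h | h
    · exact Or.inl ⟨f, rfl, h⟩
    · exact Or.inr ⟨fun n => (f n)⁻¹, mk_inv f, h⟩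

variable {V : ℕ → ValuationSubring L} {U : Ultrafilter ℕ}

theorem mk_mem_uval {f : ℕ → L} : mk U f ∈ uval V U ↔ ∀ᶠ n in (U : Filter ℕ), f n ∈ V n := by
  constructor
  · rintro ⟨g, hg, h⟩
    filter_upwards [mk_eq_mk.mp hg, h] with n h1 h2
    rwa [← h1]
  · intro h
    exact ⟨f, rfl, h⟩

theorem mk_mem_nonunits {f : ℕ → L} (h : ∀ᶠ n in (U : Filter ℕ), f n ∈ (V n).nonunits) :
    mk U f ∈ (uval V U).nonunits := by
  rw [ValuationSubring.mem_nonunits_iff_or]
  by_cases h0 : mk U f = 0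
  · exact Or.inl h0
  · right
    rw [← mk_inv, mk_mem_uval]
    intro h1
    obtain ⟨n, hn1, hn2, hn3⟩ := (h.and (h1.and (mk_ne_zero.mp h0))).exists
    rw [ValuationSubring.mem_nonunits_iff_or] at hn1
    rcases hn1 with h2 | h2
    · exact hn3 h2
    · exact h2 hn2

section Inertia

variable {K : Type*} [Field K] [Algebra K L]

theorem mem_iff_of_inertia {W : ValuationSubring L} {σ : L ≃ₐ[K] L}
    (hσ : σ ∈ W.inertiaSubgroupIn K) (x : L) : σ x ∈ W ↔ x ∈ W := by
  obtain ⟨τ, -, rfl⟩ := hσ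
  have h1 : (τ : L ≃ₐ[K] L) • W = W := τ.2
  have h2 := ValuationSubring.smul_mem_pointwise_smul_iff (g := (τ : L ≃ₐ[K] L)) (S := W) (x := x)
  rw [h1] at h2
  exact h2

theorem sub_mem_of_inertia {W : ValuationSubring L} {σ : L ≃ₐ[K] L}
    (hσ : σ ∈ W.inertiaSubgroupIn K) {x : L} (hx : x ∈ W) : σ x - x ∈ W.nonunits := by
  obtain ⟨τ, hτ, rfl⟩ := hσ
  have h1 : τ • (IsLocalRing.residue W ⟨x, hx⟩) = IsLocalRing.residue W ⟨x, hx⟩ := by
    have h2 : MulSemiringAction.toRingAut (W.decompositionSubgroup K)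
      (IsLocalRing.ResidueField W) τ = 1 := hτ
    exact DFunLike.congr_fun h2 (IsLocalRing.residue W ⟨x, hx⟩)
  rw [← IsLocalRing.ResidueField.residue_smul, ← sub_eq_zero, ← map_sub,
    IsLocalRing.residue_eq_zero_iff] at h1
  exact ValuationSubring.coe_mem_nonunits_iff.mpr h1

end Inertia

section Const

variable [Algebra ℚ L] [Algebra.IsAlgebraic ℚ L]

theorem natCast_notMem_nonunits {W : ValuationSubring L} {ℓ N : ℕ} (hℓ : ℓ.Prime)
    (hW : W.LiesOverPrime ℓ) (hN : ¬ ℓ ∣ N) : (N : L) ∉ W.nonunits := by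
  intro h
  have hcop : Nat.Coprime ℓ N := (Nat.Prime.coprime_iff_not_dvd hℓ).mpr hN
  have h1 : (1 : ℤ) = ℓ * Nat.gcdA ℓ N + N * Nat.gcdB ℓ N := by
    have := Nat.gcd_eq_gcd_ab ℓ N
    rw [hcop] at this
    exact_mod_cast this
  have h2 : (1 : L) = ℓ * (Nat.gcdA ℓ N : ℤ) + N * (Nat.gcdB ℓ N : ℤ) := by
    exact_mod_cast congrArg (Int.cast : ℤ → L) h1
  have hmul : ∀ (a : L) (z : ℤ), a ∈ W.nonunits → a * (z : L) ∈ W.nonunits := by
    intro a z ha
    rw [ValuationSubring.mem_nonunits_iff] at ha ⊢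
    rw [map_mul]
    have hz : W.valuation (z : L) ≤ 1 := by
      rw [ValuationSubring.valuation_le_one_iff]
      exact intCast_mem W z
    calc W.valuation a * W.valuation (z : L) ≤ W.valuation a * 1 := by gcongr
      _ = W.valuation a := mul_one _
      _ < 1 := ha
  have h3 := hmul _ (Nat.gcdA ℓ N) hW
  have h4 := hmul _ (Nat.gcdB ℓ N) h
  have h5 := W.nonunits.add_mem h3 h4
  rw [← h2, ValuationSubring.mem_nonunits_iff, map_one] at h5
  exact lt_irrefl _ h5

/-- algebraic numbers are integral at almost all primes. -/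
theorem exists_forall_mem (x : L) : ∃ N : ℕ, N ≠ 0 ∧ ∀ (ℓ : ℕ) (W : ValuationSubring L),
    ℓ.Prime → ¬ ℓ ∣ N → W.LiesOverPrime ℓ → x ∈ W := by
  have hch : CharZero L := charZero_of_injective_algebraMap (algebraMap ℚ L).injective
  have halg : IsAlgebraic ℤ x := by
    have h1 : IsAlgebraic ℚ x := Algebra.IsAlgebraic.isAlgebraic x
    exact (IsFractionRing.isAlgebraic_iff ℤ ℚ L).mpr h1
  obtain ⟨d, hd, hint⟩ := halg.exists_integral_multiple
  refine ⟨d.natAbs, Int.natAbs_ne_zero.mpr hd, fun ℓ W hℓ hN hW => ?_⟩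
  have h1 : d • x ∈ W := by
    have h2 : IsIntegral W (d • x) := hint.tower_top
    obtain ⟨y, hy⟩ := IsIntegrallyClosed.isIntegral_iff.mp h2
    rw [← hy]
    exact y.2
  have h3 : ((d.natAbs : ℕ) : L) ∉ W.nonunits := natCast_notMem_nonunits hℓ hW hN
  have h4 : (d : L) ∉ W.nonunits := by
    intro h5
    apply h3
    rcases Int.natAbs_eq d with h6 | h6
    · rw [h6] at h5
      simpa using h5
    · rw [h6] at h5
      have := W.nonunits.neg_mem h5
      simpa using this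
  rw [ValuationSubring.mem_nonunits_iff_or, not_or, not_not] at h4
  have h5 := W.mul_mem _ _ h4.2 h1
  rwa [zsmul_eq_mul, inv_mul_cancel_left₀ h4.1] at h5

theorem algebraMap_mem_uval {ℓ : ℕ → ℕ} (hinj : Function.Injective ℓ) (hp : ∀ n, (ℓ n).Prime)
    (hV : ∀ n, (V n).LiesOverPrime (ℓ n)) (x : L) :
    algebraMap L (Ult L (hyperfilter ℕ)) x ∈ uval V (hyperfilter ℕ) := by
  rw [algebraMap_self_eq, mk_mem_uval]
  obtain ⟨N, hN, h⟩ := exists_forall_mem x
  have hfin : {n : ℕ | ℓ n ∣ N}.Finite := by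
    refine Set.Finite.of_finite_image (f := ℓ) ?_ hinj.injOn
    refine (N.divisors.finite_toSet).subset ?_
    rintro _ ⟨n, hn, rfl⟩
    exact Nat.mem_divisors.mpr ⟨hn, hN⟩
  have h1 : ∀ᶠ n in (hyperfilter ℕ : Filter ℕ), ¬ ℓ n ∣ N := hfin.compl_mem_hyperfilter
  filter_upwards [h1] with n hn
  exact h (ℓ n) (V n) (hp n) hn (hV n)

end Const

end Fermat.Agent.MW.UltVal
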