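import Fermat.Agent.MW.BCInj
import Fermat.Agent.MW.UltVal
import Fermat.Agent.MW.HeightLaw
import Fermat.Agent.MW.Northcott

/-!
# Kummer classes are unramified outside a finite set (team MW, helper39)

Ultraproduct proof: no good reduction needed.
-/

set_option autoImplicit false
set_option linter.unusedSectionVars false
set_option linter.style.haveILetI false

open Filter Module TensorProduct

namespace Fermat.Agent.MW.Unram

open Fermat.Agent.MW.Ultra Fermat.Agent.MW.UltCurve Fermat.Agent.MW.DV Fermat.Agent.MW.LH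
open Fermat.Agent.MW.BCInj Fermat.Agent.MW.UltVal

universe u v

section Prim

variable {k : Type*} {A : Type*} [Field k] [CommRing A] [Algebra k A] (C : CurveAlg k A)
  {Ω : Type*} [Field Ω] [Algebra k Ω] (O : ValuationSubring Ω) [Algebra k O]
  [IsScalarTower k O Ω]

include C in
/-- scaling to a primitive element. -/
theorem exists_primitive {x : Ω ⊗[k] A} (hx : x ≠ 0) : ∃ (c : Ω) (a : O ⊗[k] A), c ≠ 0 ∧
    bc A (IsScalarTower.toAlgHom k O Ω) a = c • x ∧
    bc A (IsScalarTower.toAlgHom k O (IsLocalRing.ResidueField O)) a ≠ 0 := by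
  classical
  set B := C.b.baseChange Ω with hB
  set s := (B.repr x).support with hs
  have hsne : s.Nonempty := by
    rw [hs, Finsupp.support_nonempty_iff]
    intro h
    exact hx (B.repr.map_eq_zero_iff.mp h)
  obtain ⟨l₀, hl₀, hmax⟩ := Finset.exists_max_image s (fun l => O.valuation (B.repr x l)) hsne
  have hne : B.repr x l₀ ≠ 0 := Finsupp.mem_support_iff.mp hl₀
  set c := (B.repr x l₀)⁻¹ with hc
  have hmem : ∀ l, c * B.repr x l ∈ O := by
    intro l
    rw [← ValuationSubring.valuation_le_one_iff, map_mul, hc, map_inv₀]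
    by_cases hl : l ∈ s
    · have h1 := hmax l hl
      have h2 : O.valuation (B.repr x l₀) ≠ 0 := (Valuation.ne_zero_iff _).mpr hne
      exact (inv_mul_le_one₀ (zero_lt_iff.mpr h2)).mpr h1
    · rw [Finsupp.notMem_support_iff.mp hl, map_zero, mul_zero]
      exact zero_le_one
  refine ⟨c, ∑ l ∈ s, (⟨c * B.repr x l, hmem l⟩ : O) ⊗ₜ[k] C.b l, inv_ne_zero hne, ?_, ?_⟩
  · rw [map_sum]
    have h1 : x = ∑ l ∈ s, B.repr x l • B l := by
      conv_lhs => rw [← B.linearCombination_repr x, Finsupp.linearCombination_apply, Finsupp.sum]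
    conv_rhs => rw [h1, Finset.smul_sum]
    refine Finset.sum_congr rfl fun l _ => ?_
    have hBl : B l = (1 : Ω) ⊗ₜ[k] C.b l := Basis.baseChange_apply _ _ _
    rw [bc, Algebra.TensorProduct.map_tmul, smul_smul, hBl,
      TensorProduct.smul_tmul', smul_eq_mul, mul_one]
    rfl
  · intro h0
    have h1 := congrArg (fun y => (C.b.baseChange (IsLocalRing.ResidueField O)).repr y l₀) h0
    simp only [map_sum, map_zero] at h1
    rw [Finsupp.finsetSum_apply, Finset.sum_eq_single l₀] at h1
    · rw [bc, Algebra.TensorProduct.map_tmul, Basis.baseChange_repr_tmul] at h1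
      simp only [AlgHom.coe_id, id_eq, Basis.repr_self, Finsupp.single_eq_same, one_smul,
        Finsupp.coe_zero, Pi.zero_apply] at h1
      have h2 : (⟨c * B.repr x l₀, hmem l₀⟩ : O) = 1 := by
        apply Subtype.ext
        show c * B.repr x l₀ = 1
        rw [hc, inv_mul_cancel₀ hne]
      rw [h2, map_one] at h1
      exact one_ne_zero h1
    · intro l _ hl
      rw [bc, Algebra.TensorProduct.map_tmul, Basis.baseChange_repr_tmul]
      simp only [AlgHom.coe_id, id_eq, Basis.repr_self]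
      rw [Finsupp.single_apply, if_neg hl, zero_smul]
    · intro h; exact absurd hl₀ h

theorem span_smul {c : Ω} (hc : c ≠ 0) (x : Ω ⊗[k] A) :
    Ideal.span {c • x} = Ideal.span {x} := by
  rw [Algebra.smul_def]
  exact Ideal.span_singleton_mul_left_unit
    (IsUnit.map (algebraMap Ω (Ω ⊗[k] A)) (IsUnit.mk0 c hc)) x

theorem ptRes_mem_iff (Q : Ω ⊗[k] A →ₐ[Ω] Ω) :
    (∀ a : A, ptRes Q a ∈ O) ↔ ∀ l, Q (1 ⊗ₜ C.b l) ∈ O := by
  constructor
  · intro h l
    exact h (C.b l)
  · intro h a
    rw [← C.b.linearCombination_repr a, Finsupp.linearCombination_apply, Finsupp.sum, map_sum]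
    refine O.toSubring.sum_mem fun l _ => ?_
    rw [map_smul, Algebra.smul_def, IsScalarTower.algebraMap_apply k O Ω]
    exact O.mul_mem _ _ (algebraMap k O _).2 (h l)

include C in
theorem redPt_congr {Q Q' : Ω ⊗[k] A →ₐ[Ω] Ω}
    (h1 : ∀ l, Q (1 ⊗ₜ C.b l) ∈ O ↔ Q' (1 ⊗ₜ C.b l) ∈ O)
    (h2 : ∀ l, Q (1 ⊗ₜ C.b l) ∈ O → Q (1 ⊗ₜ C.b l) - Q' (1 ⊗ₜ C.b l) ∈ O.nonunits) :
    redPt O Q = redPt O Q' := by
  have h3 : (∀ a : A, ptRes Q a ∈ O) ↔ ∀ a : A, ptRes Q' a ∈ O := by
    rw [ptRes_mem_iff C O, ptRes_mem_iff C O]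
    exact forall_congr' h1
  unfold redPt
  by_cases h : ∀ a : A, ptRes Q a ∈ O
  · have h' := h3.mp h
    rw [dif_pos h, dif_pos h']
    congr 2
    have h4 : (redHom O (ptRes Q) h).toLinearMap = (redHom O (ptRes Q') h').toLinearMap := by
      apply C.b.ext
      intro l
      show redHom O (ptRes Q) h (C.b l) = redHom O (ptRes Q') h' (C.b l)
      rw [redHom_apply, redHom_apply, ← sub_eq_zero, ← map_sub, IsLocalRing.residue_eq_zero_iff,
        ← ValuationSubring.coe_mem_nonunits_iff]
      exact h2 l (h (C.b l))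
    exact AlgHom.toLinearMap_injective h4
  · rw [dif_neg h, dif_neg fun h' => h (h3.mpr h')]

theorem redPt_const (P : A →ₐ[k] k) {Q : Ω ⊗[k] A →ₐ[Ω] Ω}
    (hQ : ∀ a : A, Q (1 ⊗ₜ a) = algebraMap k Ω (P a)) :
    redPt O Q = some (extPt (cPt (IsLocalRing.ResidueField O) P)) := by
  have h : ∀ a : A, ptRes Q a ∈ O := by
    intro a
    rw [ptRes_apply, hQ, IsScalarTower.algebraMap_apply k O Ω]
    exact (algebraMap k O _).2
  unfold redPt
  rw [dif_pos h]
  congr 1
  apply pt_ext
  intro a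
  rw [ptExt_tmul, extPt_tmul, one_mul, one_mul, redHom_apply, cPt_apply,
    IsScalarTower.algebraMap_apply k O (IsLocalRing.ResidueField O)]
  have : (⟨ptRes Q a, h a⟩ : O) = algebraMap k O (P a) := by
    apply Subtype.ext
    show Q (1 ⊗ₜ a) = _
    rw [hQ, IsScalarTower.algebraMap_apply k O Ω]
    rfl
  rw [this]
  rfl

end Prim

section Main

variable {L : Type u} {A : Type v} [Field L] [Algebra ℚ L] [Algebra.IsAlgebraic ℚ L]
  [IsAlgClosed L] [CommRing A] [Algebra L A] [IsDedekindDomain A] {C : CurveAlg L A}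
  (act : ∀ τ : L ≃ₐ[ℚ] L, SemiAut C (τ : L ≃+* L))

/-- the bad primes for a class `t`: some inertia element at `ℓ` translates some class by `t`. -/
def Bad (t : ClassGroup A) : Set ℕ :=
  {ℓ | ℓ.Prime ∧ ∃ V : ValuationSubring L, V.LiesOverPrime ℓ ∧ ∃ σ ∈ V.inertiaSubgroupIn ℚ,
    ∃ y : ClassGroup A, clsMap (act σ).σ y = t * y}

theorem eq_one_of_infinite {t : ClassGroup A} (ht : (Bad act t).Infinite) : t = 1 := by
  have hch : CharZero L := charZero_of_injective_algebraMap (algebraMap ℚ L).injective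
  obtain ⟨D₀, hD₀⟩ := exists_cls_eq C t
  let ℓ' := ht.natEmbedding
  have hinj : Function.Injective fun n => (ℓ' n : ℕ) := fun a b h =>
    ℓ'.injective (Subtype.ext h)
  have hp : ∀ n, ((ℓ' n : ℕ)).Prime := fun n => (ℓ' n).2.1
  choose V hV σ hσ y hy using fun n => (ℓ' n).2.2
  choose E₀ hE₀ hE₀c using fun n => exists_cls_card C (e := C.cc + 1) le_rfl (y n)
  choose F₀ f hf0 hf hF₀c using fun n => exists_compl C (e := C.cc + 1 + D₀.card) (by omega)
    (E₀ n + D₀) (by rw [Multiset.card_add, hE₀c])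
  obtain ⟨E, hEc, hE⟩ := exists_sp E₀ hE₀c
  obtain ⟨F, hFc, hF⟩ := exists_sp F₀ hF₀c
  let Dc : Multiset (ℕ → (A →ₐ[L] L)) := D₀.map fun P _ => P
  have hDc : ∀ n, sp Dc n = D₀ := by
    intro n
    show (D₀.map fun P _ => P).map _ = D₀
    rw [Multiset.map_map]
    exact Multiset.map_id' D₀
  let sE : Multiset (ℕ → (A →ₐ[L] L)) := E.map fun P n => (act (σ n)).pt (P n)
  have hsE : ∀ n, sp sE n = (sp E n).map (act (σ n)).pt := by
    intro n
    show (E.map fun P n => (act (σ n)).pt (P n)).map _ = (E.map _).map _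
    rw [Multiset.map_map, Multiset.map_map]
    rfl
  have hcls : ∀ n, cls C (sp (sE + F) n) = 1 := by
    intro n
    have h1 := cls_eq_one_of_span C (hf n)
    rw [cls_add, cls_add, hE₀, hD₀] at h1
    rw [sp_add, cls_add, hsE, (act (σ n)).cls_pt, hE, hE₀, hy, hF, mul_comm t, h1]
  choose g hg0 hg using fun n => exists_principal C (hcls n)
  -- the ultrapower
  have hC := isBC_baseChange C (hyperfilter ℕ)
  have hded : IsDedekindDomain (Ult L (hyperfilter ℕ) ⊗[L] A) := isDedekindDomain_baseChange C _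
  obtain ⟨f', hf', hf'0, hf's⟩ := exists_lift_span (U := hyperfilter ℕ) (F := E + Dc + F) hC id
    hf0 (fun n => by rw [sp_add, sp_add, hE, hDc, hF]; exact hf n)
  obtain ⟨g', hg', hg'0, hg's⟩ := exists_lift_span (U := hyperfilter ℕ) (F := sE + F) hC id
    hg0 hg
  -- the valuation ring
  let O := uval V (hyperfilter ℕ)
  have hO : ∀ x : L, algebraMap L (Ult L (hyperfilter ℕ)) x ∈ O :=
    algebraMap_mem_uval hinj hp hV
  letI : Algebra L O := valAlgebra L O hO
  haveI : IsScalarTower L O (Ult L (hyperfilter ℕ)) := valAlgebra_isScalarTower L O hO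
  haveI : IsAlgClosed (IsLocalRing.ResidueField O) := isAlgClosed_residueField O
  haveI : IsDedekindDomain (IsLocalRing.ResidueField O ⊗[L] A) :=
    isDedekindDomain_baseChange C _
  obtain ⟨c, a, hc, ha, ha'⟩ := exists_primitive C O hf'0
  obtain ⟨c₂, b, hc₂, hb, hb'⟩ := exists_primitive C O hg'0
  have e1 := span_bc_eq_idl O C (C.baseChange (Ult L (hyperfilter ℕ)))
    (C.baseChange (IsLocalRing.ResidueField O)) a ha' (D := up (hyperfilter ℕ) (E + Dc + F) id)
    (by rw [ha, span_smul hc, hf's])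
  have e2 := span_bc_eq_idl O C (C.baseChange (Ult L (hyperfilter ℕ)))
    (C.baseChange (IsLocalRing.ResidueField O)) b hb' (D := up (hyperfilter ℕ) (sE + F) id)
    (by rw [hb, span_smul hc₂, hg's])
  have hpt : ∀ (P : ℕ → (A →ₐ[L] L)) (a : A), pt (hyperfilter ℕ) P (1 ⊗ₜ a) =
      Ultra.mk (hyperfilter ℕ) fun i => P i a := by
    intro P a
    rw [UltCurve.pt_tmul, one_mul]
  -- reductions of points
  have hred : ∀ P : ℕ → (A →ₐ[L] L), redPt O (pt (hyperfilter ℕ) fun i => (act (σ i)).pt (P i)) =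
      redPt O (pt (hyperfilter ℕ) P) := by
    intro P
    have hval : ∀ l i, (act (σ i)).pt (P i) (C.b l) = σ i (P i (C.b l)) := by
      intro l i
      have := (act (σ i)).pt_apply (P i) (C.b l)
      rwa [(act (σ i)).map_b] at this
    apply redPt_congr C O
    · intro l
      rw [hpt, hpt]
      show Ultra.mk _ _ ∈ uval V _ ↔ Ultra.mk _ _ ∈ uval V _
      rw [mk_mem_uval, mk_mem_uval]
      simp_rw [hval]
      refine eventually_congr (Eventually.of_forall fun i => ?_)
      exact mem_iff_of_inertia (hσ i) _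
    · intro l hl
      rw [hpt] at hl
      have hl' : ∀ᶠ i in (hyperfilter ℕ : Filter ℕ), (act (σ i)).pt (P i) (C.b l) ∈ V i :=
        mk_mem_uval.mp hl
      rw [hpt, hpt, ← map_sub]
      apply mk_mem_nonunits
      filter_upwards [hl'] with i hi
      rw [hval, mem_iff_of_inertia (hσ i)] at hi
      have := sub_mem_of_inertia (hσ i) hi
      rw [← hval] at this
      exact this
  have hredc : ∀ P : A →ₐ[L] L, redPt O (pt (hyperfilter ℕ) fun _ => P) =
      some (extPt (cPt (IsLocalRing.ResidueField O) P)) := by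
    intro P
    apply redPt_const O P
    intro a
    rw [hpt, algebraMap_self_eq]
  have r1 : (up (hyperfilter ℕ) sE id).filterMap (redPt O) =
      (up (hyperfilter ℕ) E id).filterMap (redPt O) := by
    show ((E.map fun P n => (act (σ n)).pt (P n)).map _).filterMap _ = (E.map _).filterMap _
    rw [Multiset.map_map, Multiset.filterMap_map, Multiset.filterMap_map]
    congr 1
    funext P
    exact hred P
  have r2 : (up (hyperfilter ℕ) Dc id).filterMap (redPt O) =
      cDiv (IsLocalRing.ResidueField O) D₀ := by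
    show ((D₀.map fun P _ => P).map _).filterMap _ = D₀.map _
    rw [Multiset.map_map, Multiset.filterMap_map, ← Multiset.filterMap_eq_map]
    congr 1
    funext P
    exact hredc P
  rw [up_add, up_add, Multiset.filterMap_add, Multiset.filterMap_add, r2] at e1
  rw [up_add, Multiset.filterMap_add, r1] at e2
  set r := (up (hyperfilter ℕ) E id).filterMap (redPt O)
  set r' := (up (hyperfilter ℕ) F id).filterMap (redPt O)
  set a' := bc A (IsScalarTower.toAlgHom L O (IsLocalRing.ResidueField O)) a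
  set b' := bc A (IsScalarTower.toAlgHom L O (IsLocalRing.ResidueField O)) b
  have e3 : Ideal.span {a'} = Ideal.span {b'} * idl (cDiv (IsLocalRing.ResidueField O) D₀) := by
    rw [e1, e2, ← idl_add]
    congr 1
    abel
  obtain ⟨h, hh⟩ : b' ∣ a' := by
    rw [← Ideal.mem_span_singleton]
    have h1 : a' ∈ Ideal.span {a'} := Ideal.mem_span_singleton_self _
    rw [e3] at h1
    exact Ideal.mul_le_left h1
  have hh0 : h ≠ 0 := by
    rintro rfl
    rw [mul_zero] at hh
    exact ha' hh
  have e4 : Ideal.span {h} = idl (cDiv (IsLocalRing.ResidueField O) D₀) := by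
    rw [hh, ← Ideal.span_singleton_mul_span_singleton] at e3
    refine mul_left_cancel₀ ?_ e3
    rw [Ne, Ideal.zero_eq_bot, Ideal.span_singleton_eq_bot]
    exact hb'
  obtain ⟨F', hF'0, hF'⟩ := principal_of_baseChange C hh0 e4
  rw [← hD₀]
  exact cls_eq_one_of_span C hF'

/-- **Kummer classes are unramified outside a finite set of primes.** -/
theorem unramified (hfin : {x : ClassGroup A | x ^ 2 = 1}.Finite) :
    ∃ S : Set ℕ, S.Finite ∧ ∀ ℓ : ℕ, ℓ.Prime → ℓ ∉ S → ∀ V : ValuationSubring L,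
      V.LiesOverPrime ℓ → ∀ σ ∈ V.inertiaSubgroupIn ℚ, ∀ y : ClassGroup A,
        clsMap (act σ).σ (y ^ 2) = y ^ 2 → clsMap (act σ).σ y = y := by
  refine ⟨⋃ t ∈ {x : ClassGroup A | x ^ 2 = 1} \ {1}, Bad act t,
    (hfin.subset Set.sdiff_subset).biUnion fun t ht => ?_, fun ℓ hℓ hS V hV σ hσ y hy => ?_⟩
  · by_contra hinf
    exact ht.2 (eq_one_of_infinite act hinf)
  · by_contra hne
    apply hS
    simp only [Set.mem_iUnion]
    refine ⟨clsMap (act σ).σ y * y⁻¹, ⟨?_, ?_⟩, hℓ, V, hV, σ, hσ, y, ?_⟩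
    · show (clsMap (act σ).σ y * y⁻¹) ^ 2 = 1
      rw [mul_pow, ← map_pow, hy, inv_pow, mul_inv_cancel]
    · rw [Set.mem_singleton_iff, mul_inv_eq_one]
      exact hne
    · rw [inv_mul_cancel_right]

end Main

end Fermat.Agent.MW.Unram
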