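import Fermat.Agent.MW.Descent
import Fermat.Agent.MW.Kummer
import Fermat.Agent.RR.HoloModular
import Fermat.Agent.GAL.Smooth
import Fermat.Agent.S27D.Divisible
import Fermat.Agent.MW.ExactFinal
import Fermat.Agent.MW.Unram

/-!
# S17: assembly of the Mordell-Weil theorem for `J₀(N)`
-/

set_option autoImplicit false
set_option linter.unusedSectionVars false

open ModularCurve AlgebraicCurve
open Fermat.Agent.MW.DV Fermat.Agent.MW.LH

namespace Fermat.Agent.MW.Assembly

local notation "Qb" => AlgebraicClosure ℚ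
local notation "GQ" => AlgebraicClosure ℚ ≃ₐ[ℚ] AlgebraicClosure ℚ

section transfer

/-- Transfer of the weak Mordell-Weil statement and of finite generation along an equivariant
isomorphism. -/
theorem fg_of_equiv {G : Type*} [Group G] {J : Type*} [AddCommGroup J] [DistribMulAction G J]
    {M : Type*} [CommGroup M] (R : Subgroup M) (φ : J ≃+ Additive M)
    (h : ∀ x : J, x ∈ FixedPoints.addSubgroup G J ↔ (φ x).toMul ∈ R)
    (hweak : (nsmulAddMonoidHom (α := FixedPoints.addSubgroup G J) 2).range.FiniteIndex)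
    (hfg : (powMonoidHom (α := R) 2).range.FiniteIndex → Group.FG R) :
    AddGroup.FG (FixedPoints.addSubgroup G J) := by
  let ψ : FixedPoints.addSubgroup G J ≃+ Additive R :=
    { toFun := fun x => Additive.ofMul ⟨(φ x).toMul, (h x).1 x.2⟩
      invFun := fun y => ⟨φ.symm (Additive.ofMul ((y.toMul : R) : M)), (h _).2 (by
        rw [AddEquiv.apply_symm_apply]; exact (y.toMul : R).2)⟩
      left_inv := fun x => Subtype.ext (by
        change φ.symm (φ x) = x
        rw [AddEquiv.symm_apply_apply])
      right_inv := fun y => by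
        apply Additive.toMul.injective
        apply Subtype.ext
        change (φ (φ.symm (Additive.ofMul ((y.toMul : R) : M)))).toMul = _
        rw [AddEquiv.apply_symm_apply]
        rfl
      map_add' := fun x y => by
        apply Additive.toMul.injective
        apply Subtype.ext
        change (φ ((x : J) + y)).toMul = (φ x).toMul * (φ y).toMul
        rw [map_add]
        rfl }
  have hR : (powMonoidHom (α := R) 2).range.FiniteIndex := by
    have h1 : (nsmulAddMonoidHom (α := Additive R) 2).range =
        (nsmulAddMonoidHom (α := FixedPoints.addSubgroup G J) 2).range.map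
          (ψ : FixedPoints.addSubgroup G J →+ Additive R) := by
      ext y
      constructor
      · rintro ⟨z, rfl⟩
        refine ⟨2 • ψ.symm z, ⟨ψ.symm z, rfl⟩, ?_⟩
        change ψ (2 • ψ.symm z) = 2 • z
        rw [map_nsmul, AddEquiv.apply_symm_apply]
      · rintro ⟨_, ⟨z, rfl⟩, rfl⟩
        refine ⟨ψ z, ?_⟩
        change 2 • ψ z = ψ (2 • z)
        rw [map_nsmul]
    have h2 : (nsmulAddMonoidHom (α := Additive R) 2).range.FiniteIndex := by
      rw [h1]
      constructor
      rw [AddSubgroup.index_map_of_bijective ψ.bijective]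
      exact hweak.index_ne_zero
    constructor
    have h3 := h2.index_ne_zero
    intro h4
    apply h3
    rw [← h4]
    have h5 : (nsmulAddMonoidHom (α := Additive R) 2).range =
        Subgroup.toAddSubgroup (powMonoidHom (α := R) 2).range := by
      ext y
      exact Iff.rfl
    rw [h5]
    rfl
  have h6 : Group.FG R := hfg hR
  have h7 : AddGroup.FG (Additive R) := by
    rw [← GroupFG.iff_add_fg]
    exact h6
  exact AddGroup.fg_of_surjective (f := (ψ.symm : Additive R →+ FixedPoints.addSubgroup G J))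
    ψ.symm.surjective

end transfer

section weak

variable (N : ℕ) [NeZero N]

/-- Weak Mordell-Weil for `J₀(N)`, given that half-points are unramified outside a finite set. -/
theorem weak (hunr : ∃ S : Set ℕ, S.Finite ∧ ∀ ℓ : ℕ, ℓ.Prime → ℓ ∉ S →
      ∀ B : ValuationSubring Qb, B.LiesOverPrime ℓ → ∀ σ ∈ B.inertiaSubgroupIn ℚ,
        ∀ y : JZero N, σ • (2 • y) = 2 • y → σ • y = y) :
    (nsmulAddMonoidHom (α := FixedPoints.addSubgroup GQ (JZero N)) 2).range.FiniteIndex := by
  obtain ⟨S, hS, hunr⟩ := hunr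
  refine Kummer.weak_mordell_weil (L := Qb) (J := JZero N) ?_ ?_ ?_ S hS hunr
  · intro x
    obtain ⟨L, hL, h⟩ := Fermat.Agent.GAL.Smooth.smooth_JZero N x
    refine Subgroup.isOpen_mono (H₁ := L.fixingSubgroup) (fun g hg => ?_)
      (IntermediateField.fixingSubgroup_isOpen L)
    exact h g ((IntermediateField.mem_fixingSubgroup_iff L g).1 hg)
  · intro x
    exact Fermat.Agent.S27D.pic0_divisible Qb (modularFunctionFieldBar N) 2 two_ne_zero x
  · have := Fermat.Agent.S27D.finite_torsion Qb (modularFunctionFieldBar N) 2 1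
    simpa using this

end weak

theorem mulEquiv_eq_clsMap {A : Type*} [CommRing A] [IsDedekindDomain A] (σ : A ≃+* A)
    (x : ClassGroup A) : ClassGroup.mulEquiv σ x = clsMap σ x := by
  obtain ⟨I, rfl⟩ := ClassGroup.mk0_surjective x
  rw [clsMap_mk0, Fermat.Agent.RR.mulEquiv_mk0]
  rfl

/-- **Mordell-Weil theorem for `J₀(N)`.** -/
theorem fg_JZero (N : ℕ) [NeZero N] :
    AddGroup.FG (FixedPoints.addSubgroup GQ (JZero N)) := by
  obtain ⟨A, _, _, _, C, gal, φ, h1, h2, -, -, -, -, h3⟩ :=
    Fermat.Agent.RR.exists_curveAlg_JZero N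
  let act : ∀ τ : GQ, SemiAut C (τ : Qb ≃+* Qb) := fun τ => ⟨gal τ, h1 τ, h2 τ⟩
  have hφ : ∀ (σ : GQ) (x : JZero N), (φ (σ • x)).toMul = clsMap (act σ).σ (φ x).toMul := by
    intro σ x
    rw [h3, mulEquiv_eq_clsMap]
    rfl
  have hinj : ∀ x y : JZero N, (φ x).toMul = (φ y).toMul → x = y := fun x y h =>
    φ.injective (Additive.toMul.injective h)
  have hfix : ∀ (σ : GQ) (x : JZero N), σ • x = x ↔ clsMap (act σ).σ (φ x).toMul = (φ x).toMul := by
    intro σ x
    rw [← hφ]
    exact ⟨fun h => by rw [h], fun h => hinj _ _ h⟩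
  have hsq : ∀ y : JZero N, (φ (2 • y)).toMul = (φ y).toMul ^ 2 := by
    intro y
    rw [map_nsmul]
    rfl
  have hfin : {x : ClassGroup A | x ^ 2 = 1}.Finite := by
    have h4 := Fermat.Agent.S27D.finite_torsion Qb (modularFunctionFieldBar N) 2 1
    refine Set.Finite.subset (Set.Finite.image (fun x : JZero N => (φ x).toMul) h4) ?_
    intro x hx
    refine ⟨φ.symm (Additive.ofMul x), ?_, ?_⟩
    · have h5 : 2 • φ.symm (Additive.ofMul x) = 0 := by
        apply φ.injective
        rw [map_nsmul, AddEquiv.apply_symm_apply, map_zero]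
        exact congrArg Additive.ofMul hx
      simpa using h5
    · change (φ (φ.symm (Additive.ofMul x))).toMul = x
      rw [AddEquiv.apply_symm_apply]
      rfl
  have hweak : (nsmulAddMonoidHom (α := FixedPoints.addSubgroup GQ (JZero N)) 2).range.FiniteIndex := by
    apply weak
    obtain ⟨S, hS, hS'⟩ := Unram.unramified act hfin
    refine ⟨S, hS, fun ℓ hℓ hℓS B hB σ hσ y hy => ?_⟩
    rw [hfix] at hy ⊢
    apply hS' ℓ hℓ hℓS B hB σ hσ
    rw [← hsq]
    exact hy
  refine fg_of_equiv (RatCls act) φ (fun x => ?_) hweak (fg_ratCls (exactH C) act)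
  rw [mem_RatCls]
  exact forall_congr' fun σ => hfix σ x

end Fermat.Agent.MW.Assembly
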