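import Fermat.Agent.MW.Points

/-!
# The determinant vector of a divisor class

For a class `x = [idl E]`, `-x = [idl E']`, `idl E * idl E' = (f)`, `u` a basis of
`L(E, n + |E|)`, `v` a basis of `L(E', n + |E'|)`: `u_i v_j = f c_ij` with `c_ij ∈ Fil (2n)`.
`Δ(T) = det (ℓ_T (c_ij))`, evaluated on a finite grid of linear forms `ℓ_z`.
-/

set_option autoImplicit false
set_option linter.style.haveILetI false
set_option linter.unusedSectionVars false

open Module

namespace Fermat.Agent.MW.DV

section Lin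

variable {k A : Type*} [Field k] [CommRing A] [Algebra k A] (C : CurveAlg k A)

/-- index set of the monomials of degree `≤ m`. -/
abbrev Idx (m : ℕ) : Type := {l : C.S // (l : ℕ) ≤ m}

noncomputable instance instFintypeIdx (m : ℕ) : Fintype (Idx C m) := (C.finite_le m).fintype

/-- the linear form with coefficients `T`. -/
noncomputable def lin (m : ℕ) (T : Idx C m → k) : A →ₗ[k] k := ∑ l, T l • C.b.coord l.1

theorem lin_apply (m : ℕ) (T : Idx C m → k) (a : A) :
    lin C m T a = ∑ l, T l * C.b.repr a l.1 := by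
  simp [lin]

/-- on `Fil m` every linear form is of the form `lin`. -/
theorem eq_lin {M : Type*} [AddCommGroup M] [Module k M] (φ : A →ₗ[k] M) {m : ℕ} {a : A}
    (ha : a ∈ C.Fil m) : φ a = ∑ l : Idx C m, C.b.repr a l.1 • φ (C.b l.1) := by
  classical
  conv_lhs => rw [← C.b.linearCombination_repr a, Finsupp.linearCombination_apply, Finsupp.sum,
    map_sum]
  rw [Finset.sum_subset (s₂ := (C.finite_le m).toFinset)]
  · rw [← Finset.sum_coe_sort]
    refine Fintype.sum_equiv (Equiv.subtypeEquivRight fun l => by simp) _ _ fun l => ?_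
    rw [map_smul]
    rfl
  · intro l hl
    rw [Set.Finite.mem_toFinset]
    by_contra hlt
    simp only [Set.mem_ofPred_eq, not_le] at hlt
    rw [Finsupp.mem_support_iff, ← C.coef_coe] at hl
    exact hl (ha l hlt)
  · intro l _ hl
    rw [Finsupp.notMem_support_iff.mp hl, zero_smul, map_zero]

theorem pt_eq_lin (P : A →ₐ[k] k) {m : ℕ} {a : A} (ha : a ∈ C.Fil m) :
    P a = lin C m (fun l => P (C.b l.1)) a := by
  rw [lin_apply]
  have := eq_lin C P.toLinearMap ha
  simp only [AlgHom.toLinearMap_apply, smul_eq_mul] at this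
  rw [this]
  exact Finset.sum_congr rfl fun l _ => mul_comm _ _

theorem lin_add (m : ℕ) (T T' : Idx C m → k) : lin C m (T + T') = lin C m T + lin C m T' := by
  simp [lin, add_smul, Finset.sum_add_distrib]

theorem lin_sum {ι : Type*} (s : Finset ι) (m : ℕ) (T : ι → Idx C m → k) :
    lin C m (∑ i ∈ s, T i) = ∑ i ∈ s, lin C m (T i) := by
  classical
  induction s using Finset.induction_on with
  | empty => simp [lin]
  | insert i s hi ih => rw [Finset.sum_insert hi, lin_add, ih, Finset.sum_insert hi]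

/-- the polynomial whose evaluations are `lin T a`. -/
noncomputable def linPoly (m : ℕ) (a : A) : MvPolynomial (Idx C m) k :=
  ∑ l, MvPolynomial.C (C.b.repr a l.1) * MvPolynomial.X l

theorem eval_linPoly (m : ℕ) (a : A) (T : Idx C m → k) :
    MvPolynomial.eval T (linPoly C m a) = lin C m T a := by
  rw [lin_apply, linPoly, map_sum]
  refine Finset.sum_congr rfl fun l _ => ?_
  simp [mul_comm]

theorem degreeOf_linPoly (m : ℕ) (a : A) (l : Idx C m) :
    (linPoly C m a).degreeOf l ≤ 1 := by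
  classical
  unfold linPoly
  refine (MvPolynomial.degreeOf_sum_le _ _ _).trans ?_
  apply Finset.sup_le
  intro i _
  refine (MvPolynomial.degreeOf_C_mul_le _ _ _).trans ?_
  by_cases h : l = i
  · subst h
    simp
  · rw [MvPolynomial.degreeOf_X_of_ne h]
    omega

/-- the determinant polynomial of a matrix of elements of `A`. -/
noncomputable def detPoly (m : ℕ) {r : ℕ} (c : Matrix (Fin r) (Fin r) A) :
    MvPolynomial (Idx C m) k := (c.map (linPoly C m)).det

theorem eval_detPoly (m : ℕ) {r : ℕ} (c : Matrix (Fin r) (Fin r) A) (T : Idx C m → k) :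
    MvPolynomial.eval T (detPoly C m c) = (c.map (lin C m T)).det := by
  rw [detPoly, RingHom.map_det, RingHom.mapMatrix_apply, Matrix.map_map]
  congr 2
  funext a
  exact eval_linPoly C m a T

theorem degreeOf_detPoly (m : ℕ) {r : ℕ} (c : Matrix (Fin r) (Fin r) A) (l : Idx C m) :
    (detPoly C m c).degreeOf l ≤ r := by
  classical
  unfold detPoly
  rw [Matrix.det_apply']
  refine (MvPolynomial.degreeOf_sum_le _ _ _).trans ?_
  apply Finset.sup_le
  intro σ _
  have h1 : ((Equiv.Perm.sign σ : ℤ) : MvPolynomial (Idx C m) k) =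
      MvPolynomial.C ((Equiv.Perm.sign σ : ℤ) : k) := by simp
  rw [h1]
  refine (MvPolynomial.degreeOf_C_mul_le _ _ _).trans ?_
  refine (MvPolynomial.degreeOf_prod_le _ _ _).trans ?_
  refine (Finset.sum_le_card_nsmul _ _ 1 fun i _ => ?_).trans ?_
  · exact degreeOf_linPoly C m _ l
  · simp

/-- **interpolation**: a relation of determinants on the grid `{0,…,r}` holds everywhere. -/
theorem det_lin_eq_of_grid [CharZero k] {m r : ℕ} (c₁ c₂ : Matrix (Fin r) (Fin r) A) (lam : k)
    (h : ∀ z : Idx C m → Fin (r + 1), (c₁.map (lin C m fun l => ((z l : ℕ) : k))).det =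
      lam * (c₂.map (lin C m fun l => ((z l : ℕ) : k))).det) (T : Idx C m → k) :
    (c₁.map (lin C m T)).det = lam * (c₂.map (lin C m T)).det := by
  classical
  have key : detPoly C m c₁ - MvPolynomial.C lam * detPoly C m c₂ = 0 := by
    apply MvPolynomial.eq_zero_of_eval_zero_at_prod_finset _
      (fun _ => Finset.image (fun j : Fin (r + 1) => ((j : ℕ) : k)) Finset.univ)
    · intro l
      rw [Finset.card_image_of_injective, Finset.card_univ, Fintype.card_fin, Nat.lt_succ_iff]
      · refine (MvPolynomial.degreeOf_sub_le _ _ _).trans ?_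
        apply max_le
        · exact degreeOf_detPoly C m c₁ l
        · exact (MvPolynomial.degreeOf_C_mul_le _ _ _).trans (degreeOf_detPoly C m c₂ l)
      · intro i j hij
        exact Fin.ext (Nat.cast_injective hij)
    · intro x hx
      choose z hz using fun l => Finset.mem_image.mp (hx l)
      have hx' : x = fun l => ((z l : ℕ) : k) := by
        funext l
        exact (hz l).2.symm
      rw [map_sub, map_mul, MvPolynomial.eval_C, eval_detPoly, eval_detPoly, sub_eq_zero, hx']
      exact h z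
  have := congrArg (MvPolynomial.eval T) key
  rwa [map_sub, map_mul, MvPolynomial.eval_C, eval_detPoly, eval_detPoly, map_zero,
    sub_eq_zero] at this

end Lin

section Cls

variable {k A : Type*} [Field k] [CommRing A] [Algebra k A] [IsDedekindDomain A]

/-- class of a multiset of points. -/
noncomputable def cls (C : CurveAlg k A) (D : Multiset (A →ₐ[k] k)) : ClassGroup A :=
  ClassGroup.mk0 ⟨idl D, mem_nonZeroDivisors_iff_ne_zero.mpr
    (by rw [Ideal.zero_eq_bot]; exact idl_ne_bot C D)⟩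

variable (C : CurveAlg k A)

theorem cls_add (D E : Multiset (A →ₐ[k] k)) : cls C (D + E) = cls C D * cls C E := by
  unfold cls
  rw [← map_mul]
  congr 1
  apply Subtype.ext
  exact idl_add D E

theorem cls_zero : cls C 0 = 1 := by
  unfold cls
  rw [ClassGroup.mk0_eq_one_iff]
  simp only [idl_zero]
  exact ⟨1, by simp⟩

theorem cls_eq_one_of_span {f : A} {D : Multiset (A →ₐ[k] k)} (h : Ideal.span {f} = idl D) :
    cls C D = 1 := by
  unfold cls
  rw [ClassGroup.mk0_eq_one_iff]
  exact ⟨f, by simp only [← h, Ideal.submodule_span_eq]⟩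

theorem cls_eq_iff {D E : Multiset (A →ₐ[k] k)} : cls C D = cls C E ↔
    ∃ a b : A, a ≠ 0 ∧ b ≠ 0 ∧ Ideal.span {a} * idl D = Ideal.span {b} * idl E := by
  unfold cls
  rw [ClassGroup.mk0_eq_mk0_iff]
  constructor
  · rintro ⟨a, b, ha, hb, h⟩
    exact ⟨a, b, ha, hb, h⟩
  · rintro ⟨a, b, ha, hb, h⟩
    exact ⟨a, b, ha, hb, h⟩

theorem exists_cls_eq [IsAlgClosed k] (x : ClassGroup A) :
    ∃ D : Multiset (A →ₐ[k] k), cls C D = x := by
  obtain ⟨I, rfl⟩ := ClassGroup.mk0_surjective x
  obtain ⟨D, hD⟩ := exists_eq_idl C (I := I.1) (by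
    have := nonZeroDivisors.ne_zero I.2
    rwa [Ideal.zero_eq_bot] at this)
  refine ⟨D, ?_⟩
  unfold cls
  congr 1
  exact Subtype.ext hD.symm

theorem deg_eq_card {f : A} (hf0 : f ≠ 0) {D : Multiset (A →ₐ[k] k)}
    (h : Ideal.span {f} = idl D) : C.deg f = D.card := by
  rw [← C.col_span hf0, h, col_idl C]

theorem deg_add_card {a b : A} (ha : a ≠ 0) (hb : b ≠ 0) {D E : Multiset (A →ₐ[k] k)}
    (h : Ideal.span {a} * idl D = Ideal.span {b} * idl E) :
    C.deg a + D.card = C.deg b + E.card := by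
  have h1 := congrArg (col k) h
  rw [col_mul C (by rwa [Ne, Ideal.span_singleton_eq_bot]) (idl_ne_bot C D),
    col_mul C (by rwa [Ne, Ideal.span_singleton_eq_bot]) (idl_ne_bot C E), C.col_span ha,
    C.col_span hb, col_idl C, col_idl C] at h1
  exact h1

/-- multiplication by `a/b` maps `L(D, n + |D|)` to `L(E, n + |E|)`. -/
theorem exists_transfer {a b : A} (ha : a ≠ 0) (hb : b ≠ 0) {D E : Multiset (A →ₐ[k] k)}
    (h : Ideal.span {a} * idl D = Ideal.span {b} * idl E) (n : ℕ) (w : A)
    (hw : w ∈ C.L (idl D) (n + D.card)) : ∃ w' ∈ C.L (idl E) (n + E.card), a * w = b * w' := by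
  rw [C.mem_L] at hw
  have h1 : a * w ∈ Ideal.span {b} * idl E := by
    rw [← h]
    exact Ideal.mul_mem_mul (Ideal.mem_span_singleton_self a) hw.1
  obtain ⟨w', hw', hbw⟩ := Ideal.mem_span_singleton_mul.mp h1
  refine ⟨w', C.mem_L.mpr ⟨hw', ?_⟩, hbw.symm⟩
  by_cases hw0 : w' = 0
  · rw [hw0]; exact Submodule.zero_mem _
  · have haw : w ≠ 0 := by
      rintro rfl
      rw [mul_zero] at hbw
      exact C.mul_ne_zero' hb hw0 hbw
    have h2 := congrArg C.deg hbw
    rw [C.deg_mul hb hw0, C.deg_mul ha haw] at h2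
    have h3 := deg_add_card C ha hb h
    have h4 := C.mem_Fil_iff_deg_le.mp hw.2
    rw [C.mem_Fil_iff_deg_le]
    omega

/-- the linear equivalence `L(D, n + |D|) ≃ L(E, n + |E|)`. -/
theorem exists_transferEquiv {a b : A} (ha : a ≠ 0) (hb : b ≠ 0) {D E : Multiset (A →ₐ[k] k)}
    (h : Ideal.span {a} * idl D = Ideal.span {b} * idl E) (n : ℕ) :
    ∃ θ : C.L (idl D) (n + D.card) ≃ₗ[k] C.L (idl E) (n + E.card),
      ∀ w : C.L (idl D) (n + D.card), a * (w : A) = b * (θ w : A) := by
  choose t ht1 ht2 using exists_transfer C ha hb h n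
  choose t' ht1' ht2' using exists_transfer C hb ha h.symm n
  have hca : ∀ {x y : A}, a * x = a * y → x = y := fun h => mul_left_cancel₀ ha h
  have hcb : ∀ {x y : A}, b * x = b * y → x = y := fun h => mul_left_cancel₀ hb h
  refine ⟨LinearEquiv.ofBijective
    { toFun := fun w => ⟨t w.1 w.2, ht1 w.1 w.2⟩
      map_add' := fun x y => by
        apply Subtype.ext
        apply hcb
        simp only [Submodule.coe_add, ← ht2, mul_add]
      map_smul' := fun c x => by
        apply Subtype.ext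
        apply hcb
        simp only [Submodule.coe_smul, RingHom.id_apply, ← ht2, mul_smul_comm] } ⟨?_, ?_⟩, ?_⟩
  · intro x y hxy
    have h1 : t x.1 x.2 = t y.1 y.2 := congrArg Subtype.val hxy
    apply Subtype.ext
    apply hca
    rw [ht2 x.1 x.2, ht2 y.1 y.2, h1]
  · intro y
    refine ⟨⟨t' y.1 y.2, ht1' y.1 y.2⟩, ?_⟩
    apply Subtype.ext
    apply hcb
    show b * t (t' y.1 y.2) _ = b * y.1
    rw [← ht2, ← ht2']
  · intro w
    exact ht2 w.1 w.2

end Cls

section Data

variable {k A : Type*} [Field k] [CommRing A] [Algebra k A]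

/-- the dimension `r = n + 1 - g`. -/
noncomputable def rk (C : CurveAlg k A) (n : ℕ) : ℕ := n + 1 - C.genus

/-- data representing a divisor class. -/
structure HData (C : CurveAlg k A) (n : ℕ) where
  E : Multiset (A →ₐ[k] k)
  E' : Multiset (A →ₐ[k] k)
  f : A
  f_ne : f ≠ 0
  hf : Ideal.span {f} = idl (E + E')
  u : Basis (Fin (rk C n)) k (C.L (idl E) (n + E.card))
  v : Basis (Fin (rk C n)) k (C.L (idl E') (n + E'.card))
  c : Matrix (Fin (rk C n)) (Fin (rk C n)) A
  hc : ∀ i j, (u i : A) * (v j : A) = f * c i j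

/-- the determinant vector. -/
noncomputable def HData.dvec {C : CurveAlg k A} {n : ℕ} (d : HData C n) :
    (Idx C (2 * n) → Fin (rk C n + 1)) → k :=
  fun z => (d.c.map (lin C (2 * n) fun l => ((z l : ℕ) : k))).det

variable [IsDedekindDomain A] {C : CurveAlg k A} {n : ℕ}

theorem HData.mem_Fil (d : HData C n) (i j : Fin (rk C n)) : d.c i j ∈ C.Fil (2 * n) := by
  by_cases h0 : d.c i j = 0
  · rw [h0]; exact Submodule.zero_mem _
  have h1 := d.hc i j
  have h2 : (d.u i : A) * (d.v j : A) ≠ 0 := by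
    rw [h1]; exact C.mul_ne_zero' d.f_ne h0
  have h3 : (d.u i : A) ≠ 0 := left_ne_zero_of_mul h2
  have h4 : (d.v j : A) ≠ 0 := right_ne_zero_of_mul h2
  have h5 := congrArg C.deg h1
  rw [C.deg_mul h3 h4, C.deg_mul d.f_ne h0, deg_eq_card C d.f_ne d.hf, Multiset.card_add] at h5
  have h6 := C.mem_Fil_iff_deg_le.mp (C.mem_L.mp (d.u i).2).2
  have h7 := C.mem_Fil_iff_deg_le.mp (C.mem_L.mp (d.v j).2).2
  rw [C.mem_Fil_iff_deg_le]
  omega

theorem HData.cls_mul (d : HData C n) : cls C d.E * cls C d.E' = 1 := by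
  rw [← cls_add, cls_eq_one_of_span C d.hf]

/-- (H) existence of data with given ideals. -/
theorem exists_hdata (hn : C.cc ≤ n) {E E' : Multiset (A →ₐ[k] k)} {f : A} (f_ne : f ≠ 0)
    (hf : Ideal.span {f} = idl (E + E')) :
    ∃ d : HData C n, d.E = E ∧ d.E' = E' ∧ d.f = f := by
  have hr : ∀ D : Multiset (A →ₐ[k] k), finrank k (C.L (idl D) (n + D.card)) = rk C n := by
    intro D
    have := finrank_L_idl C D (m := n + D.card) (by omega)
    unfold rk
    omega
  let u : Basis (Fin (rk C n)) k (C.L (idl E) (n + E.card)) := Module.finBasisOfFinrankEq _ _ (hr E)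
  let v : Basis (Fin (rk C n)) k (C.L (idl E') (n + E'.card)) :=
    Module.finBasisOfFinrankEq _ _ (hr E')
  have hc : ∀ i j, ∃ c : A, (u i : A) * (v j : A) = f * c := by
    intro i j
    have : (u i : A) * (v j : A) ∈ Ideal.span {f} := by
      rw [hf, idl_add]
      exact Ideal.mul_mem_mul (C.mem_L.mp (u i).2).1 (C.mem_L.mp (v j).2).1
    exact Ideal.mem_span_singleton.mp this
  choose c hc using hc
  exact ⟨⟨E, E', f, f_ne, hf, u, v, c, hc⟩, rfl, rfl, rfl⟩

/-- (H) every class has data. -/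
theorem exists_hdata_cls [IsAlgClosed k] (hn : C.cc ≤ n) (x : ClassGroup A) :
    ∃ d : HData C n, cls C d.E = x := by
  obtain ⟨D, hD⟩ := exists_cls_eq C x
  obtain ⟨f, hf, hf0⟩ := C.exists_ne_zero_mem_L (idl_ne_bot C D) le_rfl
  obtain ⟨R, hR, _⟩ := exists_rest C hf0 (C.mem_L.mp hf).1
  obtain ⟨d, hd, _, _⟩ := exists_hdata hn hf0 hR
  exact ⟨d, by rw [hd, hD]⟩

/-- (S) swapping. -/
def HData.swap (d : HData C n) : HData C n where
  E := d.E'
  E' := d.E
  f := d.f
  f_ne := d.f_ne
  hf := by rw [add_comm]; exact d.hf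
  u := d.v
  v := d.u
  c := d.c.transpose
  hc := fun i j => by rw [mul_comm, d.hc]; rfl

/-- a unit of `A` is a constant. -/
theorem exists_const_of_span_eq (C : CurveAlg k A) {a b : A}
    (h : Ideal.span {a} = Ideal.span {b}) : ∃ ε : k, ε ≠ 0 ∧ b = algebraMap k A ε * a := by
  obtain ⟨w, hw⟩ := Ideal.span_singleton_eq_span_singleton.mp h
  have hw0 : (w : A) ≠ 0 := w.ne_zero
  have hw1 : ((w⁻¹ : Aˣ) : A) ≠ 0 := (w⁻¹).ne_zero
  have h1 : (w : A) * ((w⁻¹ : Aˣ) : A) = 1 := by simp
  have h2 := congrArg C.deg h1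
  rw [C.deg_mul hw0 hw1, ← C.b_zero, C.deg_b] at h2
  have h3 : (w : A) ∈ C.Fil 0 := by
    rw [C.mem_Fil_iff_deg_le]
    simp only at h2
    omega
  have h4 : (w : A) = algebraMap k A (C.coef 0 w) := by
    apply C.ext_coef
    intro m
    rw [Algebra.algebraMap_eq_smul_one, ← C.b_zero, map_smul, C.coef_b]
    rcases Nat.eq_zero_or_pos m with rfl | hm
    · simp
    · rw [h3 m hm]
      simp [hm.ne]
  refine ⟨C.coef 0 w, ?_, ?_⟩
  · intro h0
    rw [h0, map_zero] at h4
    exact hw0 h4
  · rw [← hw, h4, mul_comm]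
    simp [← h4]

/-- (W) matrices of equivalent data are related by constant matrices. -/
theorem exists_rel (d₁ d₂ : HData C n) (h : cls C d₁.E = cls C d₂.E) :
    ∃ (ε : k) (G H : Matrix (Fin (rk C n)) (Fin (rk C n)) k), ε ≠ 0 ∧ G.det ≠ 0 ∧ H.det ≠ 0 ∧
      ∀ i j, d₁.c i j = ∑ p, ∑ q, (ε * (G p i * H q j)) • d₂.c p q := by
  have h' : cls C d₁.E' = cls C d₂.E' := by
    have h1 := d₁.cls_mul
    have h2 := d₂.cls_mul
    rw [h] at h1
    exact mul_left_cancel (h1.trans h2.symm)
  obtain ⟨a, b, ha, hb, hab⟩ := (cls_eq_iff C).mp h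
  obtain ⟨a', b', ha', hb', hab'⟩ := (cls_eq_iff C).mp h'
  obtain ⟨θ, hθ⟩ := exists_transferEquiv C ha hb hab n
  obtain ⟨θ', hθ'⟩ := exists_transferEquiv C ha' hb' hab' n
  -- the constant
  have hspan : Ideal.span {b * b' * d₂.f} = Ideal.span {a * a' * d₁.f} := by
    rw [← Ideal.span_singleton_mul_span_singleton, ← Ideal.span_singleton_mul_span_singleton,
      ← Ideal.span_singleton_mul_span_singleton, ← Ideal.span_singleton_mul_span_singleton,
      d₁.hf, d₂.hf, idl_add, idl_add]
    calc Ideal.span {b} * Ideal.span {b'} * (idl d₂.E * idl d₂.E')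
        = (Ideal.span {b} * idl d₂.E) * (Ideal.span {b'} * idl d₂.E') := by ring
      _ = (Ideal.span {a} * idl d₁.E) * (Ideal.span {a'} * idl d₁.E') := by rw [hab, hab']
      _ = Ideal.span {a} * Ideal.span {a'} * (idl d₁.E * idl d₁.E') := by ring
  have hne : a * a' * d₁.f ≠ 0 := mul_ne_zero (mul_ne_zero ha ha') d₁.f_ne
  obtain ⟨ε, hε, hεeq⟩ := exists_const_of_span_eq C hspan.symm
  let β := d₁.u.map θ
  let β' := d₁.v.map θ'
  have hG : (d₂.u.toMatrix β).det ≠ 0 := by
    rw [← Basis.det_apply]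
    exact (d₂.u.isUnit_det β).ne_zero
  have hH : (d₂.v.toMatrix β').det ≠ 0 := by
    rw [← Basis.det_apply]
    exact (d₂.v.isUnit_det β').ne_zero
  have hu : ∀ i, a * (d₁.u i : A) = b * ∑ p, (d₂.u.toMatrix β p i) • (d₂.u p : A) := by
    intro i
    rw [hθ]
    congr 1
    have h1 := d₂.u.sum_toMatrix_smul_self β i
    have h2 := congrArg (Subtype.val) h1
    rw [Submodule.coe_sum] at h2
    simp only [Submodule.coe_smul] at h2
    rw [h2]
    rfl
  have hv : ∀ j, a' * (d₁.v j : A) = b' * ∑ q, (d₂.v.toMatrix β' q j) • (d₂.v q : A) := by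
    intro j
    rw [hθ']
    congr 1
    have h1 := d₂.v.sum_toMatrix_smul_self β' j
    have h2 := congrArg (Subtype.val) h1
    rw [Submodule.coe_sum] at h2
    simp only [Submodule.coe_smul] at h2
    rw [h2]
    rfl
  refine ⟨ε, d₂.u.toMatrix β, d₂.v.toMatrix β', hε, hG, hH, fun i j => ?_⟩
  apply mul_left_cancel₀ hne
  calc a * a' * d₁.f * d₁.c i j = (a * (d₁.u i : A)) * (a' * (d₁.v j : A)) := by
        rw [mul_assoc (a * a'), ← d₁.hc]; ring
    _ = (b * ∑ p, (d₂.u.toMatrix β p i) • (d₂.u p : A)) *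
        (b' * ∑ q, (d₂.v.toMatrix β' q j) • (d₂.v q : A)) := by rw [hu, hv]
    _ = b * b' * ((∑ p, (d₂.u.toMatrix β p i) • (d₂.u p : A)) *
        (∑ q, (d₂.v.toMatrix β' q j) • (d₂.v q : A))) := by ring
    _ = b * b' * (d₂.f * ∑ p, ∑ q, (d₂.u.toMatrix β p i * d₂.v.toMatrix β' q j) • d₂.c p q) := by
        congr 1
        rw [Finset.sum_mul_sum, Finset.mul_sum]
        refine Finset.sum_congr rfl fun p _ => ?_
        rw [Finset.mul_sum]
        refine Finset.sum_congr rfl fun q _ => ?_
        rw [smul_mul_smul_comm, d₂.hc, mul_smul_comm]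
    _ = (b * b' * d₂.f) * ∑ p, ∑ q, (d₂.u.toMatrix β p i * d₂.v.toMatrix β' q j) • d₂.c p q := by
        ring
    _ = _ := by
        rw [hεeq, mul_comm (algebraMap k A ε), mul_assoc]
        congr 1
        rw [← Algebra.smul_def, Finset.smul_sum]
        refine Finset.sum_congr rfl fun p _ => ?_
        rw [Finset.smul_sum]
        refine Finset.sum_congr rfl fun q _ => ?_
        rw [smul_smul]

/-- (W) determinants of equivalent data are proportional. -/
theorem exists_det_rel (d₁ d₂ : HData C n) (h : cls C d₁.E = cls C d₂.E) :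
    ∃ lam : k, lam ≠ 0 ∧ ∀ φ : A →ₗ[k] k, (d₁.c.map φ).det = lam * (d₂.c.map φ).det := by
  obtain ⟨ε, G, H, hε, hG, hH, hrel⟩ := exists_rel d₁ d₂ h
  refine ⟨ε ^ (rk C n) * G.det * H.det, mul_ne_zero (mul_ne_zero (pow_ne_zero _ hε) hG) hH,
    fun φ => ?_⟩
  have hmat : d₁.c.map φ = ε • (G.transpose * (d₂.c.map φ) * H) := by
    ext i j
    rw [Matrix.map_apply, hrel, map_sum, Matrix.smul_apply, Matrix.mul_apply, smul_eq_mul,
      Finset.mul_sum]
    simp_rw [map_sum]
    rw [Finset.sum_comm]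
    refine Finset.sum_congr rfl fun q _ => ?_
    rw [Matrix.mul_apply, Finset.sum_mul, Finset.mul_sum]
    refine Finset.sum_congr rfl fun p _ => ?_
    rw [map_smul, smul_eq_mul, Matrix.transpose_apply, Matrix.map_apply]
    ring
  rw [hmat, Matrix.det_smul, Matrix.det_mul, Matrix.det_mul, Matrix.det_transpose, Fintype.card_fin]
  ring

/-- (W) -/
theorem exists_dvec_rel (d₁ d₂ : HData C n) (h : cls C d₁.E = cls C d₂.E) :
    ∃ lam : k, lam ≠ 0 ∧ d₁.dvec = lam • d₂.dvec := by
  obtain ⟨lam, hlam, h⟩ := exists_det_rel d₁ d₂ h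
  exact ⟨lam, hlam, funext fun z => h _⟩

omit [IsDedekindDomain A] in
theorem HData.dvec_swap (d : HData C n) : d.swap.dvec = d.dvec := by
  funext z
  unfold HData.dvec
  rw [← Matrix.det_transpose]
  rfl

end Data

section Nonvanishing

variable {k A : Type*} [Field k] [IsAlgClosed k] [CommRing A] [Algebra k A] [IsDedekindDomain A]
  {C : CurveAlg k A} {n : ℕ}

theorem exists_pt_ne_zero (C : CurveAlg k A) {h : A} (hh : h ≠ 0) :
    ∃ P : A →ₐ[k] k, P h ≠ 0 := by
  classical
  obtain ⟨a, haL, hdeg, ha0, ha⟩ := exists_avoid C 0 (dv C h).toFinset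
    (m := C.cc + 1) (by simp)
  have hcard : (dv C a).card = C.cc + 1 := by rw [card_dv C a ha0, hdeg]
  obtain ⟨P, hP⟩ := Multiset.card_pos_iff_exists_mem.mp (by omega : 0 < (dv C a).card)
  refine ⟨P, fun h0 => ?_⟩
  have h1 : P ∈ dv C h := (mem_ker_iff_mem_dv C hh).mp h0
  apply ha P (Multiset.mem_toFinset.mpr h1)
  have h2 : P a = 0 := (mem_ker_iff_mem_dv C ha0).mpr hP
  rw [idl_cons, idl_zero, Ideal.mul_top]
  exact h2

/-- the vector of values of a basis at a point. -/
noncomputable def vals {r : ℕ} (u : Fin r → A) (P : A →ₐ[k] k) : Fin r → k := fun i => P (u i)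

theorem exists_functional {r : ℕ} {u : Fin r → A} (hu : LinearIndependent k u)
    (W : Submodule k (Fin r → k)) (hW : W ≠ ⊤) :
    ∃ h : A, h ≠ 0 ∧ ∀ P : A →ₐ[k] k, P h ≠ 0 → vals u P ∉ W := by
  classical
  obtain ⟨φ, hφ0, hφ⟩ := Submodule.exists_le_ker_of_lt_top W (lt_top_iff_ne_top.mpr hW)
  refine ⟨∑ i, φ (Pi.single i 1) • u i, ?_, ?_⟩
  · intro h0
    apply hφ0
    have := Fintype.linearIndependent_iff.mp hu _ h0
    apply LinearMap.pi_ext'
    intro i
    ext
    simpa using this i
  · intro P hP hPW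
    apply hP
    have h1 : φ (vals u P) = 0 := hφ hPW
    rw [← h1, map_sum]
    have h2 : vals u P = ∑ i, P (u i) • (Pi.single i (1 : k) : Fin r → k) := by
      funext j
      rw [Finset.sum_apply]
      simp [Pi.single_apply, vals]
    rw [h2, map_sum]
    refine Finset.sum_congr rfl fun i _ => ?_
    rw [map_smul, map_smul, smul_eq_mul, smul_eq_mul, mul_comm]

theorem exists_points_aux (C : CurveAlg k A) {r : ℕ} {u v : Fin r → A} (hu : LinearIndependent k u)
    (hv : LinearIndependent k v) {f : A} (hf : f ≠ 0) (s : ℕ) (hs : s ≤ r) :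
    ∃ P : Fin s → (A →ₐ[k] k), LinearIndependent k (fun j => vals u (P j)) ∧
      LinearIndependent k (fun j => vals v (P j)) ∧ ∀ j, P j f ≠ 0 := by
  induction s with
  | zero => exact ⟨Fin.elim0, linearIndependent_empty_type, linearIndependent_empty_type,
      fun j => j.elim0⟩
  | succ s ih =>
    obtain ⟨P, h1, h2, h3⟩ := ih (by omega)
    have hne : ∀ w : Fin s → (Fin r → k), Submodule.span k (Set.range w) ≠ ⊤ := by
      intro w h
      have h4 := finrank_range_le_card (R := k) w
      unfold Set.finrank at h4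
      rw [h, finrank_top, Fintype.card_fin, Module.finrank_fin_fun] at h4
      omega
    obtain ⟨g1, hg1, hg1'⟩ := exists_functional hu _ (hne fun j => vals u (P j))
    obtain ⟨g2, hg2, hg2'⟩ := exists_functional hv _ (hne fun j => vals v (P j))
    obtain ⟨Q, hQ⟩ := exists_pt_ne_zero C (mul_ne_zero (mul_ne_zero hg1 hg2) hf)
    rw [map_mul, map_mul] at hQ
    refine ⟨Fin.cons Q P, ?_, ?_, ?_⟩
    · have : (fun j => vals u ((Fin.cons Q P : Fin (s + 1) → (A →ₐ[k] k)) j)) =
          Fin.cons (vals u Q) fun j => vals u (P j) := by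
        funext j
        refine Fin.cases ?_ (fun i => ?_) j <;> simp
      rw [this, linearIndependent_finCons]
      exact ⟨h1, hg1' Q (left_ne_zero_of_mul (left_ne_zero_of_mul hQ))⟩
    · have : (fun j => vals v ((Fin.cons Q P : Fin (s + 1) → (A →ₐ[k] k)) j)) =
          Fin.cons (vals v Q) fun j => vals v (P j) := by
        funext j
        refine Fin.cases ?_ (fun i => ?_) j <;> simp
      rw [this, linearIndependent_finCons]
      exact ⟨h2, hg2' Q (right_ne_zero_of_mul (left_ne_zero_of_mul hQ))⟩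
    · intro j
      refine Fin.cases ?_ (fun i => ?_) j
      · exact right_ne_zero_of_mul hQ
      · exact h3 i

theorem HData.linearIndependent_u (d : HData C n) :
    LinearIndependent k (fun i => (d.u i : A)) :=
  d.u.linearIndependent.map' (Submodule.subtype _) (Submodule.ker_subtype _)

theorem HData.linearIndependent_v (d : HData C n) :
    LinearIndependent k (fun i => (d.v i : A)) :=
  d.v.linearIndependent.map' (Submodule.subtype _) (Submodule.ker_subtype _)

/-- (N') -/
theorem HData.exists_points (d : HData C n) : ∃ P : Fin (rk C n) → (A →ₐ[k] k),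
    (d.c.map (∑ j, (P j).toLinearMap : A →ₗ[k] k)).det ≠ 0 := by
  classical
  obtain ⟨P, h1, h2, h3⟩ := exists_points_aux C d.linearIndependent_u d.linearIndependent_v
    d.f_ne (rk C n) le_rfl
  refine ⟨P, ?_⟩
  let U : Matrix (Fin (rk C n)) (Fin (rk C n)) k := fun j => vals (fun i => (d.u i : A)) (P j)
  let V : Matrix (Fin (rk C n)) (Fin (rk C n)) k := fun j => vals (fun i => (d.v i : A)) (P j)
  have hU : U.det ≠ 0 := by
    have : IsUnit U := Matrix.linearIndependent_rows_iff_isUnit.mp h1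
    exact ((Matrix.isUnit_iff_isUnit_det U).mp this).ne_zero
  have hV : V.det ≠ 0 := by
    have : IsUnit V := Matrix.linearIndependent_rows_iff_isUnit.mp h2
    exact ((Matrix.isUnit_iff_isUnit_det V).mp this).ne_zero
  have hmat : d.c.map (∑ j, (P j).toLinearMap : A →ₗ[k] k) =
      U.transpose * Matrix.diagonal (fun j => (P j d.f)⁻¹) * V := by
    ext i i'
    rw [Matrix.map_apply, Matrix.mul_apply, LinearMap.sum_apply]
    refine Finset.sum_congr rfl fun j _ => ?_
    rw [Matrix.mul_diagonal, Matrix.transpose_apply, AlgHom.toLinearMap_apply]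
    have h4 := congrArg (P j) (d.hc i i')
    rw [map_mul, map_mul] at h4
    have h5 : P j (d.c i i') = (P j d.f)⁻¹ * (P j (d.u i) * P j (d.v i')) := by
      rw [h4, inv_mul_cancel_left₀ (h3 j)]
    rw [h5]
    show _ = P j (d.u i) * (P j d.f)⁻¹ * P j (d.v i')
    ring
  rw [hmat, Matrix.det_mul, Matrix.det_mul, Matrix.det_transpose, Matrix.det_diagonal]
  exact mul_ne_zero (mul_ne_zero hU (Finset.prod_ne_zero_iff.mpr fun j _ => inv_ne_zero (h3 j))) hV

omit [IsAlgClosed k] in
theorem HData.map_eq_lin (d : HData C n) (φ : A →ₗ[k] k) :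
    d.c.map φ = d.c.map (lin C (2 * n) fun l => φ (C.b l.1)) := by
  ext i j
  rw [Matrix.map_apply, Matrix.map_apply, lin_apply, eq_lin C φ (d.mem_Fil i j)]
  exact Finset.sum_congr rfl fun l _ => by rw [smul_eq_mul, mul_comm]

omit [IsAlgClosed k] in
theorem det_eq_of_dvec [CharZero k] {d₁ d₂ : HData C n} {lam : k} (h : d₁.dvec = lam • d₂.dvec)
    (φ : A →ₗ[k] k) : (d₁.c.map φ).det = lam * (d₂.c.map φ).det := by
  rw [d₁.map_eq_lin φ, d₂.map_eq_lin φ]
  exact det_lin_eq_of_grid C d₁.c d₂.c lam (fun z => congrFun h z) _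

/-- (N) the determinant vector does not vanish. -/
theorem HData.dvec_ne_zero [CharZero k] (d : HData C n) : d.dvec ≠ 0 := by
  intro h
  obtain ⟨P, hP⟩ := d.exists_points
  apply hP
  rw [det_eq_of_dvec (d₁ := d) (d₂ := d) (lam := 0) (by rw [h, smul_zero]), zero_mul]

omit [IsAlgClosed k] in
/-- the matrix `c` has rank one. -/
theorem HData.rank_one (d : HData C n) (i j i' j' : Fin (rk C n)) :
    d.c i j * d.c i' j' = d.c i j' * d.c i' j := by
  have h : d.f * d.f ≠ 0 := mul_ne_zero d.f_ne d.f_ne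
  apply mul_left_cancel₀ h
  calc d.f * d.f * (d.c i j * d.c i' j') = (d.f * d.c i j) * (d.f * d.c i' j') := by ring
    _ = (d.f * d.c i j') * (d.f * d.c i' j) := by
        rw [← d.hc, ← d.hc, ← d.hc, ← d.hc]; ring
    _ = _ := by ring

omit [IsAlgClosed k] in
/-- one linear condition for `wᵀ c(P) = 0`. -/
theorem HData.exists_cond (d : HData C n) (P : A →ₐ[k] k) :
    ∃ ψ : (Fin (rk C n) → k) →ₗ[k] k, ∀ w, ψ w = 0 → ∀ j, ∑ i, w i * P (d.c i j) = 0 := by
  by_cases h : ∀ i j, P (d.c i j) = 0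
  · exact ⟨0, fun w _ j => by simp [h]⟩
  · push Not at h
    obtain ⟨i₀, j₀, h0⟩ := h
    refine ⟨∑ i, P (d.c i j₀) • LinearMap.proj i, fun w hw j => ?_⟩
    apply mul_left_cancel₀ h0
    rw [mul_zero]
    have h1 : ∑ i, w i * P (d.c i j₀) = 0 := by
      rw [← hw, LinearMap.sum_apply]
      refine Finset.sum_congr rfl fun i _ => ?_
      simp [mul_comm]
    rw [Finset.mul_sum]
    calc ∑ i, P (d.c i₀ j₀) * (w i * P (d.c i j))
        = ∑ i, P (d.c i₀ j) * (w i * P (d.c i j₀)) := by
          refine Finset.sum_congr rfl fun i _ => ?_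
          have h2 : P (d.c i₀ j₀) * P (d.c i j) = P (d.c i₀ j) * P (d.c i j₀) := by
            rw [← map_mul, ← map_mul, d.rank_one]
          calc P (d.c i₀ j₀) * (w i * P (d.c i j)) = w i * (P (d.c i₀ j₀) * P (d.c i j)) := by ring
            _ = _ := by rw [h2]; ring
      _ = 0 := by rw [← Finset.mul_sum, h1, mul_zero]

end Nonvanishing

section Finiteness

variable {k A : Type*} [Field k] [IsAlgClosed k] [CommRing A] [Algebra k A] [IsDedekindDomain A]
  {C : CurveAlg k A} {n : ℕ}

/-- a nonzero section of the class vanishing at `r - 1` points. -/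
theorem HData.exists_section (d : HData C n) {ι : Type*} [Fintype ι] (hι : Fintype.card ι < rk C n)
    (P : ι → (A →ₐ[k] k)) : ∃ w : Fin (rk C n) → k, w ≠ 0 ∧
      ∀ t j, ∑ i, w i * P t (d.c i j) = 0 := by
  choose ψ hψ using fun t => d.exists_cond (P t)
  let Ψ : (Fin (rk C n) → k) →ₗ[k] (ι → k) := LinearMap.pi ψ
  have hker : LinearMap.ker Ψ ≠ ⊥ := by
    apply LinearMap.ker_ne_bot_of_finrank_lt
    simpa using hι
  obtain ⟨w, hw, hw0⟩ := Submodule.exists_mem_ne_zero_of_ne_bot hker
  refine ⟨w, hw0, fun t j => hψ t w ?_ j⟩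
  exact congrFun (LinearMap.mem_ker.mp hw) t

/-- the residual divisor of a section. -/
theorem HData.exists_residual (d : HData C n) {w : Fin (rk C n) → k} (hw : w ≠ 0) :
    ∃ R : Multiset (A →ₐ[k] k), cls C d.E * cls C R = 1 ∧ R.card ≤ n ∧
      ∀ Q ∈ R, ∀ j, ∑ i, w i * Q (d.c i j) = 0 := by
  set us : A := ∑ i, w i • (d.u i : A) with hus
  have hus0 : us ≠ 0 := by
    intro h0
    apply hw
    funext i
    exact Fintype.linearIndependent_iff.mp d.linearIndependent_u w h0 i
  have husL : us ∈ C.L (idl d.E) (n + d.E.card) :=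
    (C.L (idl d.E) (n + d.E.card)).sum_mem fun i _ =>
      (C.L (idl d.E) (n + d.E.card)).smul_mem _ (d.u i).2
  obtain ⟨R, hR, hcard⟩ := exists_rest C hus0 (C.mem_L.mp husL).1
  refine ⟨R, ?_, ?_, ?_⟩
  · rw [← cls_add, cls_eq_one_of_span C hR]
  · have := C.mem_Fil_iff_deg_le.mp (C.mem_L.mp husL).2
    omega
  · intro Q hQ j
    have h1 : us * (d.v j : A) = d.f * ∑ i, w i • d.c i j := by
      rw [hus, Finset.sum_mul, Finset.mul_sum]
      refine Finset.sum_congr rfl fun i _ => ?_
      rw [smul_mul_assoc, d.hc, mul_smul_comm]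
    have h2 : us * (d.v j : A) ∈ Ideal.span {d.f} * idl R := by
      rw [d.hf, idl_add]
      have h3 : us ∈ idl (d.E + R) := by
        rw [← hR]; exact Ideal.mem_span_singleton_self us
      rw [idl_add] at h3
      have h4 := Ideal.mul_mem_mul h3 (C.mem_L.mp (d.v j).2).1
      have h5 : idl d.E * idl R * idl d.E' = idl d.E * idl d.E' * idl R := by ring
      rwa [h5] at h4
    obtain ⟨y, hy, hyeq⟩ := Ideal.mem_span_singleton_mul.mp h2
    have h6 : y = ∑ i, w i • d.c i j := by
      apply mul_left_cancel₀ d.f_ne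
      rw [hyeq, h1]
    have h7 : idl R ≤ RingHom.ker Q := by
      obtain ⟨R', hR'⟩ := Multiset.exists_cons_of_mem hQ
      rw [hR', idl_cons]
      exact Ideal.mul_le_left
    have h8 : Q y = 0 := h7 hy
    rw [h6, map_sum] at h8
    rw [← h8]
    refine Finset.sum_congr rfl fun i _ => ?_
    rw [map_smul, smul_eq_mul]

/-- (F) **finiteness**: only finitely many classes have a given determinant vector. -/
theorem finite_cls [CharZero k] (hn : C.cc ≤ n) (d₀ : HData C n) :
    {x : ClassGroup A | ∃ d : HData C n, cls C d.E = x ∧ ∃ lam : k, d.dvec = lam • d₀.dvec}.Finite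
    := by
  classical
  have hr : 0 < rk C n := by
    unfold rk CurveAlg.cc at *
    omega
  obtain ⟨P, hP⟩ := d₀.exists_points
  let j₀ : Fin (rk C n) := ⟨0, hr⟩
  let φ' : A →ₗ[k] k := ∑ t : {j : Fin (rk C n) // j ≠ j₀}, (P t.1).toLinearMap
  have hsplit : (∑ j, (P j).toLinearMap : A →ₗ[k] k) = (P j₀).toLinearMap + φ' :=
    Fintype.sum_eq_add_sum_subtype_ne (fun j => (P j).toLinearMap) j₀
  -- the function `G`
  let M : Matrix (Fin (rk C n)) (Fin (rk C n)) A :=
    fun i j => d₀.c i j + algebraMap k A (φ' (d₀.c i j))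
  have hM : ∀ Q : A →ₐ[k] k, Q M.det = (d₀.c.map (Q.toLinearMap + φ')).det := by
    intro Q
    rw [AlgHom.map_det]
    congr 1
    ext i j
    show Q (d₀.c i j + algebraMap k A (φ' (d₀.c i j))) = Q (d₀.c i j) + φ' (d₀.c i j)
    rw [map_add, AlgHom.commutes]
    rfl
  have hG : M.det ≠ 0 := by
    intro h0
    apply hP
    rw [hsplit, ← hM, h0, map_zero]
  let X : Multiset (A →ₐ[k] k) := n • (dv C M.det).dedup
  let S : Set (ClassGroup A) := (fun R => (cls C R)⁻¹) '' {R | R ∈ X.powerset}
  have hS : S.Finite := by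
    apply Set.Finite.image
    exact (X.powerset.toFinset.finite_toSet).subset fun R hR => by
      simpa using hR
  refine hS.subset ?_
  rintro x ⟨d, rfl, lam, hlam⟩
  have hlam0 : lam ≠ 0 := by
    rintro rfl
    exact d.dvec_ne_zero (by rw [hlam, zero_smul])
  obtain ⟨w, hw0, hw⟩ := d.exists_section
    (ι := {j : Fin (rk C n) // j ≠ j₀}) (by
      rw [Fintype.card_subtype_compl, Fintype.card_fin]
      simp only [Fintype.card_unique]
      omega) (fun t => P t.1)
  obtain ⟨R, hR1, hR2, hR3⟩ := d.exists_residual hw0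
  refine ⟨R, ?_, ?_⟩
  · show R ∈ X.powerset
    rw [Multiset.mem_powerset, Multiset.le_iff_count]
    intro Q
    by_cases hQ : Q ∈ R
    · have hQ0 : Q M.det = 0 := by
        have h1 : (d.c.map (Q.toLinearMap + φ')).det = 0 := by
          rw [← Matrix.exists_vecMul_eq_zero_iff]
          refine ⟨w, hw0, ?_⟩
          funext j
          rw [Matrix.vecMul, dotProduct, Pi.zero_apply]
          simp only [Matrix.map_apply, LinearMap.add_apply, AlgHom.toLinearMap_apply, φ',
            LinearMap.sum_apply, mul_add, Finset.sum_add_distrib, Finset.mul_sum]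
          rw [hR3 Q hQ j, zero_add, Finset.sum_comm]
          exact Finset.sum_eq_zero fun t _ => hw t j
        rw [det_eq_of_dvec hlam, ← hM] at h1
        exact (mul_eq_zero.mp h1).resolve_left hlam0
      have hQmem : Q ∈ dv C M.det := (mem_ker_iff_mem_dv C hG).mp hQ0
      have h2 : Multiset.count Q X = n := by
        rw [Multiset.count_nsmul, Multiset.count_dedup, if_pos hQmem, mul_one]
      rw [h2]
      exact (Multiset.count_le_card Q R).trans hR2
    · rw [Multiset.count_eq_zero_of_notMem hQ]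
      exact Nat.zero_le _
  · show (cls C R)⁻¹ = cls C d.E
    exact (mul_eq_one_iff_eq_inv.mp hR1).symm

end Finiteness

end Fermat.Agent.MW.DV
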