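import Fermat.Agent.MW.BaseChange
import Fermat.Agent.MW.DVec

/-!
# Injectivity of the base change of class groups (team MW, helper39)
-/

set_option autoImplicit false
set_option linter.unusedSectionVars false

open Module TensorProduct

namespace Fermat.Agent.MW.BCInj

variable {k A : Type*} [Field k] [CommRing A] [Algebra k A] (C : CurveAlg k A)
  {κ : Type*} [Field κ] [Algebra k κ]

/-- evaluation of the coefficients through a linear form. -/
noncomputable def ψ (φ : κ →ₗ[k] k) : κ ⊗[k] A →ₗ[k] A :=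
  TensorProduct.lift ((LinearMap.lsmul k A).comp φ)

@[simp] theorem ψ_tmul (φ : κ →ₗ[k] k) (z : κ) (a : A) : ψ φ (z ⊗ₜ a) = φ z • a := by
  simp [ψ]

theorem ψ_mem (φ : κ →ₗ[k] k) (I : Ideal A) {x : κ ⊗[k] A}
    (hx : x ∈ I.map (Algebra.TensorProduct.includeRight : A →ₐ[k] κ ⊗[k] A)) : ψ φ x ∈ I := by
  have h1 : I.map (Algebra.TensorProduct.includeRight : A →ₐ[k] κ ⊗[k] A) =
      Ideal.span ((Algebra.TensorProduct.includeRight : A →ₐ[k] κ ⊗[k] A) '' I) := rfl
  rw [h1] at hx
  suffices h : ∀ c : κ ⊗[k] A, ψ φ (c * x) ∈ I by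
    have := h 1
    rwa [one_mul] at this
  refine Submodule.span_induction (p := fun x _ => ∀ c : κ ⊗[k] A, ψ φ (c * x) ∈ I)
    ?_ ?_ ?_ ?_ hx
  · rintro _ ⟨a, ha, rfl⟩ c
    induction c using TensorProduct.induction_on with
    | zero => rw [zero_mul, map_zero]; exact I.zero_mem
    | add c c' h h' => rw [add_mul, map_add]; exact I.add_mem h h'
    | tmul z b =>
      rw [Algebra.TensorProduct.includeRight_apply, Algebra.TensorProduct.tmul_mul_tmul, ψ_tmul,
        mul_one]
      exact Submodule.smul_of_tower_mem I _ (I.mul_mem_left _ ha)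
  · intro c
    rw [mul_zero, map_zero]; exact I.zero_mem
  · intro x y _ _ h h' c
    rw [mul_add, map_add]; exact I.add_mem (h c) (h' c)
  · intro c x _ h c'
    rw [smul_eq_mul, ← mul_assoc]
    exact h _

theorem coef_ψ (φ : κ →ₗ[k] k) (l : ℕ) (x : κ ⊗[k] A) :
    C.coef l (ψ φ x) = φ ((C.baseChange κ).coef l x) := by
  induction x using TensorProduct.induction_on with
  | zero => simp
  | add x y h h' => rw [map_add, map_add, map_add, map_add, h, h']
  | tmul z a => rw [ψ_tmul, C.coef_tmul, map_smul, map_smul, smul_eq_mul, smul_eq_mul, mul_comm]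

/-- constant divisors -/
noncomputable def cDiv (κ : Type*) [Field κ] [Algebra k κ] (D : Multiset (A →ₐ[k] k)) :
    Multiset (κ ⊗[k] A →ₐ[κ] κ) := D.map fun P => extPt (cPt κ P)

theorem ker_le (P : A →ₐ[k] k) : RingHom.ker (extPt (cPt κ P)) ≤
    (RingHom.ker P).map (Algebra.TensorProduct.includeRight : A →ₐ[k] κ ⊗[k] A) := by
  intro x hx
  have h1 := sub_mem_of_tmul
    ((RingHom.ker P).map (Algebra.TensorProduct.includeRight : A →ₐ[k] κ ⊗[k] A))
    (extPt (cPt κ P)) (fun a => by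
      have h2 : (1 ⊗ₜ a : κ ⊗[k] A) - algebraMap κ (κ ⊗[k] A) (extPt (cPt κ P) (1 ⊗ₜ a)) =
          (Algebra.TensorProduct.includeRight : A →ₐ[k] κ ⊗[k] A) (a - algebraMap k A (P a)) := by
        rw [extPt_tmul, one_mul, cPt_apply, map_sub, Algebra.TensorProduct.includeRight_apply,
          AlgHom.commutes, ← IsScalarTower.algebraMap_apply]
      rw [h2]
      exact Ideal.mem_map_of_mem _ (sub_algebraMap_mem_ker P a)) x
  rwa [RingHom.mem_ker.mp hx, map_zero, sub_zero] at h1

theorem idl_cDiv_le (D : Multiset (A →ₐ[k] k)) : idl (cDiv κ D) ≤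
    (idl D).map (Algebra.TensorProduct.includeRight : A →ₐ[k] κ ⊗[k] A) := by
  induction D using Multiset.induction_on with
  | empty =>
    have h1 : (⊤ : Ideal A).map (Algebra.TensorProduct.includeRight : A →ₐ[k] κ ⊗[k] A) = ⊤ :=
      Ideal.map_top _
    show idl (0 : Multiset _) ≤ (idl (0 : Multiset _)).map _
    rw [idl_zero, idl_zero, h1]
  | cons P D ih =>
    have h1 : cDiv κ (P ::ₘ D) = extPt (cPt κ P) ::ₘ cDiv κ D := Multiset.map_cons _ _ _
    rw [h1, idl_cons, idl_cons, Ideal.map_mul]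
    exact Ideal.mul_mono (ker_le P) ih

include C in
/-- **Injectivity of base change.** -/
theorem principal_of_baseChange [IsAlgClosed k] [IsDedekindDomain A]
    [IsDedekindDomain (κ ⊗[k] A)] {D : Multiset (A →ₐ[k] k)} {h : κ ⊗[k] A} (h0 : h ≠ 0)
    (hD : Ideal.span {h} = idl (cDiv κ D)) : ∃ f : A, f ≠ 0 ∧ Ideal.span {f} = idl D := by
  have hdeg : (C.baseChange κ).deg h = D.card := by
    rw [DV.deg_eq_card (C.baseChange κ) h0 hD, cDiv, Multiset.card_map]
  have hmem : h ∈ (idl D).map (Algebra.TensorProduct.includeRight : A →ₐ[k] κ ⊗[k] A) := by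
    apply idl_cDiv_le D
    rw [← hD]
    exact Ideal.mem_span_singleton_self h
  have hc := (C.baseChange κ).coef_deg_ne_zero h0
  obtain ⟨φ, hφ⟩ : ∃ φ : Module.Dual k κ, φ ((C.baseChange κ).coef
      ((C.baseChange κ).deg h) h) ≠ 0 := by
    by_contra hcon
    push Not at hcon
    exact hc ((Module.forall_dual_apply_eq_zero_iff k _).1 hcon)
  have hf0 : ψ φ h ≠ 0 := by
    intro h1
    apply hφ
    rw [← coef_ψ, h1, map_zero]
  have hfI : ψ φ h ∈ idl D := ψ_mem φ _ hmem
  have hfdeg : C.deg (ψ φ h) ≤ D.card := by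
    rw [← C.mem_Fil_iff_deg_le]
    intro l hl
    rw [coef_ψ, (C.baseChange κ).coef_eq_zero_of_deg_lt (by omega), map_zero]
  obtain ⟨R, hR, hcard⟩ := exists_rest C hf0 hfI
  have hR0 : R = 0 := Multiset.card_eq_zero.mp (by omega)
  rw [hR0, add_zero] at hR
  exact ⟨_, hf0, hR⟩

end Fermat.Agent.MW.BCInj
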