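import Fermat.Agent.MW.Finite

/-!
# Base change of curve algebras to an algebraically closed extension
-/

set_option autoImplicit false

open Module TensorProduct

namespace Fermat.Agent.MW

section Uniform

variable {B K : Type*} [CommRing B] [IsNoetherianRing B] [CommRing K] [IsDomain K]

theorem exists_uniform (Q : B →+* K) (t : B)
    (h : ∀ x, Q x = 0 → ∃ h, Q h ≠ 0 ∧ t ∣ h * x) :
    ∃ d, Q d ≠ 0 ∧ ∀ x, Q x = 0 → t ∣ d * x := by
  classical
  have key : ∀ S : Finset B, (∀ x ∈ S, Q x = 0) → ∃ d, Q d ≠ 0 ∧ ∀ x ∈ S, t ∣ d * x := by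
    intro S
    induction S using Finset.induction_on with
    | empty => exact fun _ => ⟨1, by simp, by simp⟩
    | insert x S _ ih =>
      intro hS
      obtain ⟨d, hd, hd'⟩ := ih fun y hy => hS y (Finset.mem_insert_of_mem hy)
      obtain ⟨e, he, he'⟩ := h x (hS x (Finset.mem_insert_self _ _))
      refine ⟨d * e, by rw [map_mul]; exact mul_ne_zero hd he, ?_⟩
      intro y hy
      rcases Finset.mem_insert.mp hy with rfl | hy
      · rw [mul_assoc]
        exact Dvd.dvd.mul_left he' _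
      · rw [mul_comm d e, mul_assoc]
        exact Dvd.dvd.mul_left (hd' y hy) _
  obtain ⟨S, hS⟩ := (inferInstance : IsNoetherian B B).noetherian (RingHom.ker Q)
  obtain ⟨d, hd, hd'⟩ := key S fun x hx => by
    rw [← RingHom.mem_ker, ← hS]
    exact Submodule.subset_span hx
  refine ⟨d, hd, fun x hx => ?_⟩
  rw [← RingHom.mem_ker, ← hS] at hx
  induction hx using Submodule.span_induction with
  | mem x hx => exact hd' x hx
  | zero => simp
  | add x y _ _ hx hy => rw [mul_add]; exact dvd_add hx hy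
  | smul a x _ hx => rw [smul_eq_mul, mul_left_comm]; exact Dvd.dvd.mul_left hx _

end Uniform

variable {k A : Type*} [Field k] [CommRing A] [Algebra k A] (C : CurveAlg k A)
  (Ω : Type*) [Field Ω] [Algebra k Ω]

namespace CurveAlg

/-- base change of a curve algebra -/
noncomputable def baseChange : CurveAlg Ω (Ω ⊗[k] A) where
  S := C.S
  b := C.b.baseChange Ω
  zero_mem := C.zero_mem
  b_zero := by rw [Basis.baseChange_apply, C.b_zero, Algebra.TensorProduct.one_def]
  finite_compl := C.finite_compl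
  add_mem := C.add_mem
  repr_mul_of_lt := fun i j l h => by
    rw [Basis.baseChange_apply, Basis.baseChange_apply, Algebra.TensorProduct.tmul_mul_tmul,
      Basis.baseChange_repr_tmul, C.repr_mul_of_lt i j l h, zero_smul]
  repr_mul_top := fun i j => by
    rw [Basis.baseChange_apply, Basis.baseChange_apply, Algebra.TensorProduct.tmul_mul_tmul,
      Basis.baseChange_repr_tmul, mul_one, Algebra.smul_def, mul_one]
    exact (map_ne_zero _).mpr (C.repr_mul_top i j)

theorem coef_tmul (m : ℕ) (ω : Ω) (a : A) :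
    (C.baseChange Ω).coef m (ω ⊗ₜ a) = C.coef m a • ω := by
  by_cases hm : m ∈ C.S
  · rw [C.coef_of_mem hm, (C.baseChange Ω).coef_of_mem hm]
    exact Basis.baseChange_repr_tmul (S := Ω) C.b ω a ⟨m, hm⟩
  · rw [C.coef_of_notMem hm, (C.baseChange Ω).coef_of_notMem hm, zero_smul]

theorem genus_baseChange : (C.baseChange Ω).genus = C.genus := rfl

theorem baseChange_b (l : C.S) : (C.baseChange Ω).b l = (1 : Ω) ⊗ₜ[k] C.b l := by
  show (C.b.baseChange Ω) l = _
  rw [Basis.baseChange_apply]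

theorem deg_one_tmul (a : A) : (C.baseChange Ω).deg ((1 : Ω) ⊗ₜ[k] a) = C.deg a := by
  by_cases ha : a = 0
  · rw [ha, tmul_zero, deg_zero, deg_zero]
  · apply deg_eq_of
    · intro l hl
      rw [coef_tmul, C.coef_eq_zero_of_deg_lt hl, zero_smul]
    · rw [coef_tmul, Algebra.smul_def, mul_one]
      exact (map_ne_zero _).mpr (C.coef_deg_ne_zero ha)

end CurveAlg

variable {Ω}

/-- points of the base change -/
noncomputable def extPt (p : A →ₐ[k] Ω) : Ω ⊗[k] A →ₐ[Ω] Ω :=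
  Algebra.TensorProduct.lift (AlgHom.id Ω Ω) p (fun _ _ => mul_comm _ _)

@[simp] theorem extPt_tmul (p : A →ₐ[k] Ω) (ω : Ω) (a : A) : extPt p (ω ⊗ₜ a) = ω * p a :=
  Algebra.TensorProduct.lift_tmul _ _ _ _ _

theorem pt_tmul (Q : Ω ⊗[k] A →ₐ[Ω] Ω) (ω : Ω) (a : A) : Q (ω ⊗ₜ a) = ω * Q (1 ⊗ₜ a) := by
  have h : (ω ⊗ₜ[k] a : Ω ⊗[k] A) = ω • (1 ⊗ₜ a) := by
    rw [smul_tmul', smul_eq_mul, mul_one]
  rw [h, map_smul, smul_eq_mul]

/-- restriction of a point -/
noncomputable def resPt (Q : Ω ⊗[k] A →ₐ[Ω] Ω) : A →ₐ[k] Ω :=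
  (Q.restrictScalars k).comp Algebra.TensorProduct.includeRight

@[simp] theorem resPt_apply (Q : Ω ⊗[k] A →ₐ[Ω] Ω) (a : A) : resPt Q a = Q (1 ⊗ₜ a) := rfl

@[simp] theorem extPt_resPt (Q : Ω ⊗[k] A →ₐ[Ω] Ω) : extPt (resPt Q) = Q := by
  apply Algebra.TensorProduct.ext
  · ext
  · ext a
    simp

@[simp] theorem resPt_extPt (p : A →ₐ[k] Ω) : resPt (extPt p) = p := by
  ext a
  simp

theorem extPt_injective : Function.Injective (extPt : (A →ₐ[k] Ω) → (Ω ⊗[k] A →ₐ[Ω] Ω)) :=
  Function.LeftInverse.injective resPt_extPt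

theorem resPt_injective : Function.Injective (resPt : (Ω ⊗[k] A →ₐ[Ω] Ω) → (A →ₐ[k] Ω)) :=
  Function.LeftInverse.injective extPt_resPt

/-- points and the base change -/
noncomputable def ptEquiv : (A →ₐ[k] Ω) ≃ (Ω ⊗[k] A →ₐ[Ω] Ω) where
  toFun := extPt
  invFun := resPt
  left_inv := resPt_extPt
  right_inv := extPt_resPt

/-- constant point -/
noncomputable def cPt (Ω : Type*) [Field Ω] [Algebra k Ω] (P : A →ₐ[k] k) : A →ₐ[k] Ω :=
  (Algebra.ofId k Ω).comp P

@[simp] theorem cPt_apply (P : A →ₐ[k] k) (a : A) : cPt Ω P a = algebraMap k Ω (P a) := rfl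

theorem cPt_injective : Function.Injective (cPt Ω : (A →ₐ[k] k) → (A →ₐ[k] Ω)) := by
  intro P Q h
  ext a
  exact FaithfulSMul.algebraMap_injective k Ω (DFunLike.congr_fun h a)

include C in
/-- a point with nonzero kernel is constant -/
theorem exists_eq_cPt [IsAlgClosed k] (p : A →ₐ[k] Ω) (hp : ¬ Function.Injective p) :
    ∃ P : A →ₐ[k] k, p = cPt Ω P := by
  have h1 : RingHom.ker p ≠ ⊥ := by
    intro h
    exact hp ((RingHom.injective_iff_ker_eq_bot (p : A →+* Ω)).mpr h)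
  have h2 : (RingHom.ker p).IsPrime := RingHom.ker_isPrime _
  have h3 := C.isMaximal_of_isPrime h1 h2
  obtain ⟨P, hP⟩ := exists_pt_of_isMaximal C (RingHom.ker p)
  refine ⟨P, ?_⟩
  ext a
  have h4 : a - algebraMap k A (P a) ∈ RingHom.ker p := by
    rw [hP]
    exact sub_algebraMap_mem_ker P a
  rw [RingHom.mem_ker, map_sub, AlgHom.commutes, sub_eq_zero] at h4
  exact h4

theorem sub_mem_of_tmul (J : Ideal (Ω ⊗[k] A)) (Q : Ω ⊗[k] A →ₐ[Ω] Ω)
    (h : ∀ a : A, (1 ⊗ₜ a : Ω ⊗[k] A) - algebraMap Ω (Ω ⊗[k] A) (Q (1 ⊗ₜ a)) ∈ J)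
    (y : Ω ⊗[k] A) : y - algebraMap Ω (Ω ⊗[k] A) (Q y) ∈ J := by
  induction y using TensorProduct.induction_on with
  | zero => simp
  | tmul ω a =>
    have h1 : (ω ⊗ₜ[k] a : Ω ⊗[k] A) = ω • (1 ⊗ₜ a) := by
      rw [smul_tmul', smul_eq_mul, mul_one]
    have h2 : (ω ⊗ₜ[k] a : Ω ⊗[k] A) - algebraMap Ω (Ω ⊗[k] A) (Q (ω ⊗ₜ a)) =
        algebraMap Ω (Ω ⊗[k] A) ω *
          ((1 ⊗ₜ a : Ω ⊗[k] A) - algebraMap Ω (Ω ⊗[k] A) (Q (1 ⊗ₜ a))) := by
      rw [h1, map_smul, smul_eq_mul, map_mul, mul_sub, Algebra.smul_def]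
    rw [h2]
    exact J.mul_mem_left _ (h a)
  | add x y hx hy =>
    have : x + y - algebraMap Ω (Ω ⊗[k] A) (Q (x + y)) =
      (x - algebraMap Ω (Ω ⊗[k] A) (Q x)) + (y - algebraMap Ω (Ω ⊗[k] A) (Q y)) := by
      rw [map_add, map_add]; ring
    rw [this]
    exact J.add_mem hx hy

include C in
theorem aeval_injective [IsAlgClosed k] {x : A} (hx : 0 < C.deg x) :
    Function.Injective (Polynomial.aeval x : Polynomial k →ₐ[k] A) := by
  have hdom := C.isDomain
  rw [← transcendental_iff_injective]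
  intro halg
  have hint : IsIntegral k x := halg.isIntegral
  have h1 := IsAlgClosed.degree_eq_one_of_irreducible k (minpoly.irreducible hint)
  obtain ⟨c, hc⟩ := minpoly.mem_range_of_degree_eq_one k x h1
  have h2 : C.deg x = 0 := by
    have h3 : x ∈ C.Fil 0 := by
      intro l hl
      rw [← hc, Algebra.algebraMap_eq_smul_one, map_smul, ← C.b_zero, C.coef_b,
        if_neg (by simp only; omega), smul_zero]
    have h4 := C.mem_Fil_iff_deg_le.mp h3
    omega
  omega

open Polynomial in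
include C in
theorem exists_minimal_relation [IsAlgClosed k] [CharZero k] {x : A} (hx : 0 < C.deg x) (y : A) :
    ∃ f : k[X][X], eval₂ ((aeval x : k[X] →ₐ[k] A) : k[X] →+* A) y f = 0 ∧
      eval₂ ((aeval x : k[X] →ₐ[k] A) : k[X] →+* A) y (derivative f) ≠ 0 := by
  classical
  set φ : k[X] →+* A := ((aeval x : k[X] →ₐ[k] A) : k[X] →+* A) with hφ
  have hfin : φ.Finite := C.finite_aeval hx
  have hint : φ.IsIntegralElem y := hfin.to_isIntegral y
  obtain ⟨f0, hf0m, hf0⟩ := hint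
  have hex : ∃ n, ∃ f : k[X][X], f ≠ 0 ∧ eval₂ φ y f = 0 ∧ f.natDegree = n :=
    ⟨_, f0, hf0m.ne_zero, hf0, rfl⟩
  obtain ⟨f, hf, hf', hn⟩ := Nat.find_spec hex
  have hmin := fun m hm => Nat.find_min hex (m := m) hm
  rw [← hn] at hmin
  have hpos : 0 < f.natDegree := by
    by_contra h0
    have h1 : f.natDegree = 0 := by omega
    rw [Polynomial.eq_C_of_natDegree_eq_zero h1, eval₂_C] at hf'
    have h2 : f.coeff 0 = 0 := aeval_injective C hx (by rw [map_zero]; exact hf')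
    rw [Polynomial.eq_C_of_natDegree_eq_zero h1, h2, C_0] at hf
    exact hf rfl
  refine ⟨f, hf', fun h => ?_⟩
  refine hmin _ (natDegree_derivative_lt (by omega)) ⟨derivative f, ?_, h, rfl⟩
  intro h0
  have := Polynomial.derivative_eq_zero.mp h0
  omega

include C in
/-- in case of a nonconstant point -/
theorem exists_local_param_of_injective [IsAlgClosed k] [CharZero k]
    (Q : Ω ⊗[k] A →ₐ[Ω] Ω) (hQ : Function.Injective (resPt Q)) :
    ∃ t d, Q t = 0 ∧ Q d ≠ 0 ∧ ∀ x, Q x = 0 → t ∣ d * x := by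
  have hnoeth := (C.baseChange Ω).isNoetherianRing
  obtain ⟨l, hl⟩ := exists_pos_deg C
  have hx : 0 < C.deg (C.b l) := by rwa [C.deg_b]
  set x : A := C.b l with hxdef
  set B := Ω ⊗[k] A with hB
  let t : B := 1 ⊗ₜ x - algebraMap Ω B (Q (1 ⊗ₜ x))
  have ht : Q t = 0 := by
    show Q (1 ⊗ₜ x - algebraMap Ω B (Q (1 ⊗ₜ x))) = 0
    rw [map_sub, AlgHom.commutes, Algebra.algebraMap_self_apply, sub_self]
  suffices h : ∀ z, Q z = 0 → ∃ h, Q h ≠ 0 ∧ t ∣ h * z by
    obtain ⟨d, hd, hd'⟩ := exists_uniform (Q : B →+* Ω) t h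
    exact ⟨t, d, ht, hd, hd'⟩
  let T : Ideal B :=
    { carrier := {z | ∃ h, Q h ≠ 0 ∧ t ∣ h * z}
      zero_mem' := ⟨1, by simp, by simp⟩
      add_mem' := by
        rintro a b ⟨h, hh, hh'⟩ ⟨h₁, hh₁, hh₁'⟩
        refine ⟨h * h₁, by rw [map_mul]; exact mul_ne_zero hh hh₁, ?_⟩
        rw [mul_add]
        refine dvd_add ?_ ?_
        · rw [mul_comm h, mul_assoc]
          exact Dvd.dvd.mul_left hh' _
        · rw [mul_assoc]
          exact Dvd.dvd.mul_left hh₁' _
      smul_mem' := by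
        rintro c a ⟨h, hh, hh'⟩
        refine ⟨h, hh, ?_⟩
        rw [smul_eq_mul, mul_left_comm]
        exact Dvd.dvd.mul_left hh' _ }
  intro z hz
  have h1 := sub_mem_of_tmul T Q ?_ z
  · rw [hz, map_zero, sub_zero] at h1
    exact h1
  intro y
  show ∃ h, Q h ≠ 0 ∧ t ∣ h * _
  obtain ⟨f, hf, hf'⟩ := exists_minimal_relation C hx y
  set φ : Polynomial k →+* A :=
    ((Polynomial.aeval x : Polynomial k →ₐ[k] A) : Polynomial k →+* A) with hφ
  let q : A →+* Ω := (resPt Q : A →+* Ω)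
  let ψ : Polynomial k →+* Ω := q.comp φ
  let ι : A →+* B := (Algebra.TensorProduct.includeRight : A →ₐ[k] B).toRingHom
  let mk : B →+* B ⧸ Ideal.span {t} := Ideal.Quotient.mk _
  have hcomp : (mk.comp ι).comp φ = (mk.comp (algebraMap Ω B)).comp ψ := by
    apply Polynomial.ringHom_ext
    · intro c
      simp only [RingHom.comp_apply, hφ, ψ, RingHom.coe_coe, Polynomial.aeval_C]
      congr 1
      have h2 : q (algebraMap k A c) = algebraMap k Ω c := AlgHom.commutes (resPt Q) c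
      have h3 : ι (algebraMap k A c) = algebraMap k B c :=
        AlgHom.commutes (Algebra.TensorProduct.includeRight : A →ₐ[k] B) c
      rw [h2, h3]
      exact IsScalarTower.algebraMap_apply k Ω B c
    · simp only [RingHom.comp_apply, hφ, ψ, RingHom.coe_coe, Polynomial.aeval_X]
      rw [← sub_eq_zero, ← map_sub]
      exact Ideal.Quotient.eq_zero_iff_mem.mpr (Ideal.mem_span_singleton_self t)
  let g : Polynomial Ω := f.map ψ
  have hg0 : g.eval (q y) = 0 := by
    rw [Polynomial.eval_map]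
    have := congrArg q hf
    rwa [Polynomial.hom_eval₂, map_zero] at this
  have hg1 : (Polynomial.derivative g).eval (q y) ≠ 0 := by
    rw [Polynomial.derivative_map, Polynomial.eval_map]
    intro h0
    apply hf'
    apply hQ
    rw [map_zero, ← h0]
    exact Polynomial.hom_eval₂ (Polynomial.derivative f) φ q y
  obtain ⟨G, hG⟩ := Polynomial.dvd_iff_isRoot.mpr hg0
  have hG1 : G.eval (q y) ≠ 0 := by
    rw [hG] at hg1
    simpa using hg1
  refine ⟨Polynomial.aeval (1 ⊗ₜ y : B) G, ?_, ?_⟩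
  · rw [← Polynomial.aeval_algHom_apply, Polynomial.aeval_def]
    exact hG1
  · have h2 : Polynomial.aeval (1 ⊗ₜ y : B) g =
        (1 ⊗ₜ y - algebraMap Ω B (Q (1 ⊗ₜ y))) * Polynomial.aeval (1 ⊗ₜ y : B) G := by
      rw [hG, map_mul, map_sub, Polynomial.aeval_X, Polynomial.aeval_C]
      rfl
    rw [mul_comm, ← h2, ← Ideal.mem_span_singleton, ← Ideal.Quotient.eq_zero_iff_mem]
    show mk _ = 0
    have h3 : mk (Polynomial.aeval (1 ⊗ₜ y : B) g) =
        Polynomial.eval₂ ((mk.comp (algebraMap Ω B)).comp ψ) (mk (1 ⊗ₜ y)) f := by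
      rw [Polynomial.aeval_def, Polynomial.eval₂_map, Polynomial.hom_eval₂]
      rfl
    rw [h3, ← hcomp]
    have h4 := congrArg (mk.comp ι) hf
    rw [map_zero, Polynomial.hom_eval₂] at h4
    exact h4

variable (Ω) in
include C in
theorem isDedekindDomain_baseChange [IsAlgClosed k] [CharZero k] [IsAlgClosed Ω]
    [IsDedekindDomain A] : IsDedekindDomain (Ω ⊗[k] A) := by
  apply (C.baseChange Ω).isDedekindDomain_of
  intro Q
  by_cases hQ : Function.Injective (resPt Q)
  · exact exists_local_param_of_injective C Q hQ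
  · obtain ⟨P, hP⟩ := exists_eq_cPt C (resPt Q) hQ
    have hPQ : ∀ a : A, Q (1 ⊗ₜ a) = algebraMap k Ω (P a) := fun a => DFunLike.congr_fun hP a
    obtain ⟨t, d, ht, hd, h⟩ := exists_local_param C P
    refine ⟨1 ⊗ₜ t, 1 ⊗ₜ d, by rw [hPQ, ht, map_zero], by rw [hPQ]; exact (map_ne_zero _).mpr hd,
      fun x hx => ?_⟩
    let J : Ideal (Ω ⊗[k] A) :=
      { carrier := {x | (1 ⊗ₜ t : Ω ⊗[k] A) ∣ 1 ⊗ₜ d * x}
        zero_mem' := by simp
        add_mem' := fun {a b} ha hb => by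
          simp only [Set.mem_ofPred_eq] at *
          rw [mul_add]
          exact dvd_add ha hb
        smul_mem' := fun c a ha => by
          simp only [Set.mem_ofPred_eq, smul_eq_mul] at *
          rw [mul_left_comm]
          exact Dvd.dvd.mul_left ha _ }
    have h1 := sub_mem_of_tmul J Q (fun a => by
      show (1 ⊗ₜ t : Ω ⊗[k] A) ∣ 1 ⊗ₜ d * _
      obtain ⟨c, hc⟩ := h (a - algebraMap k A (P a)) (by simp)
      refine ⟨1 ⊗ₜ c, ?_⟩
      have h2 : (1 ⊗ₜ a : Ω ⊗[k] A) - algebraMap Ω (Ω ⊗[k] A) (Q (1 ⊗ₜ a)) =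
          1 ⊗ₜ (a - algebraMap k A (P a)) := by
        rw [hPQ, tmul_sub, Algebra.TensorProduct.algebraMap_apply, Algebra.algebraMap_self_apply]
        congr 1
        rw [Algebra.algebraMap_eq_smul_one, Algebra.algebraMap_eq_smul_one, smul_tmul]
      rw [h2, Algebra.TensorProduct.tmul_mul_tmul, Algebra.TensorProduct.tmul_mul_tmul, hc]) x
    rw [hx, map_zero, sub_zero] at h1
    exact h1

end Fermat.Agent.MW
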