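import Mathlib

/-!
# Norms to `K[X]` and divisors of zeros

`K` algebraically closed, `S` a Dedekind domain which is a finite torsion-free `K[X]`-algebra.
If `(a) = ∏ ker Pᵢ` then `N(a) ~ ∏ (X - x(Pᵢ))`.
-/

set_option autoImplicit false

open Polynomial

namespace Fermat.Agent.MW.NormDiv

section Aux

variable {R S : Type*} [CommRing R] [CommRing S] [Algebra R S] [IsDedekindDomain R]
  [IsDedekindDomain S] [Module.Finite R S] [Module.IsTorsionFree R S]
  [PerfectField (FractionRing R)]

lemma relNorm_eq_of_residue (P : Ideal S) (p : Ideal R) (hover : P.LiesOver p)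
    (hp : p.IsMaximal) (hP : P.IsMaximal)
    (hs : ∀ s : S, ∃ r : R, s - algebraMap R S r ∈ P) :
    Ideal.relNorm R P = p := by
  have hdeg : Module.finrank (R ⧸ p) (S ⧸ P) = 1 := by
    let : Field (R ⧸ p) := Ideal.Quotient.field p
    have hnt : Nontrivial (S ⧸ P) := Ideal.Quotient.nontrivial_iff.mpr hP.ne_top
    apply le_antisymm
    · refine finrank_le_one (1 : S ⧸ P) fun w => ?_
      obtain ⟨s, rfl⟩ := Ideal.Quotient.mk_surjective w
      obtain ⟨c, hc⟩ := hs s
      refine ⟨Ideal.Quotient.mk _ c, ?_⟩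
      rw [Algebra.smul_def, mul_one, Ideal.Quotient.algebraMap_mk_of_liesOver]
      exact (Ideal.Quotient.eq.mpr hc).symm
    · have : Module.Finite (R ⧸ p) (S ⧸ P) := by
        refine Module.Finite.of_surjective
          (LinearMap.toSpanSingleton (R ⧸ p) (S ⧸ P) 1) fun w => ?_
        obtain ⟨s, rfl⟩ := Ideal.Quotient.mk_surjective w
        obtain ⟨c, hc⟩ := hs s
        refine ⟨Ideal.Quotient.mk _ c, ?_⟩
        rw [LinearMap.toSpanSingleton_apply, Algebra.smul_def, mul_one,
          Ideal.Quotient.algebraMap_mk_of_liesOver]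
        exact (Ideal.Quotient.eq.mpr hc).symm
      exact Nat.one_le_iff_ne_zero.mpr (Module.finrank_pos (R := R ⧸ p) (M := S ⧸ P)).ne'
  rw [Ideal.relNorm_eq_pow_of_isMaximal P p, Ideal.inertiaDeg_eq_of_isMaximal p, hdeg, pow_one]

end Aux

section Norm

variable {K : Type*} [Field K] {S : Type*} [CommRing S] [Algebra K S] [Algebra K[X] S]
  [IsScalarTower K K[X] S]

/-- The `x`-coordinate of a point. -/
noncomputable def xval (P : S →ₐ[K] K) : K := P (algebraMap K[X] S X)

lemma apply_algebraMap (P : S →ₐ[K] K) (f : K[X]) :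
    P (algebraMap K[X] S f) = f.eval (xval P) := by
  have : (P.comp (IsScalarTower.toAlgHom K K[X] S)) = aeval (xval P) := by
    apply Polynomial.algHom_ext
    simp [xval]
  have h := congrArg (fun φ : K[X] →ₐ[K] K => φ f) this
  simpa [aeval_def] using h

lemma under_ker (P : S →ₐ[K] K) :
    (RingHom.ker P).under K[X] = Ideal.span {X - C (xval P)} := by
  ext f
  rw [Ideal.under_def, Ideal.mem_comap, RingHom.mem_ker, apply_algebraMap,
    Ideal.mem_span_singleton, dvd_iff_isRoot, IsRoot.def]

omit [Algebra K[X] S] [IsScalarTower K K[X] S] in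
lemma isMaximal_ker (P : S →ₐ[K] K) : (RingHom.ker P).IsMaximal := by
  apply RingHom.ker_isMaximal_of_surjective P
  intro c
  exact ⟨algebraMap K S c, by simp⟩

omit [CommRing S] [Algebra K S] [Algebra K[X] S] [IsScalarTower K K[X] S] in
lemma isMaximal_span (c : K) : (Ideal.span {X - C c} : Ideal K[X]).IsMaximal := by
  have h := Polynomial.irreducible_X_sub_C c
  exact PrincipalIdealRing.isMaximal_of_irreducible h

variable [CharZero K] [IsDedekindDomain S] [Module.Finite K[X] S]
  [Module.IsTorsionFree K[X] S]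

lemma relNorm_ker (P : S →ₐ[K] K) :
    Ideal.relNorm K[X] (RingHom.ker P) = Ideal.span {X - C (xval P)} := by
  refine relNorm_eq_of_residue (RingHom.ker P) _ ⟨(under_ker P).symm⟩ (isMaximal_span _)
    (isMaximal_ker P) fun s => ⟨C (P s), ?_⟩
  rw [RingHom.mem_ker, map_sub, apply_algebraMap, eval_C, sub_self]

/-- The norm of an element is, up to a unit, the product of `X - x(P)` over its zeros `P`. -/
theorem norm_associated [Module.Free K[X] S] (a : S) (D : Multiset (S →ₐ[K] K))
    (h : Ideal.span {a} = (D.map fun P => RingHom.ker P).prod) :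
    Associated (Algebra.norm K[X] a) (D.map fun P => X - C (xval P)).prod := by
  rw [← Ideal.span_singleton_eq_span_singleton, ← Algebra.intNorm_eq_norm,
    ← Ideal.relNorm_singleton, h, map_multiset_prod, Multiset.map_map]
  clear h
  induction D using Multiset.induction_on with
  | empty => simp
  | cons P D ih =>
    rw [Multiset.map_cons, Multiset.prod_cons, Multiset.map_cons, Multiset.prod_cons, ih,
      Function.comp_apply, relNorm_ker, Ideal.span_singleton_mul_span_singleton]

theorem roots_norm [Module.Free K[X] S] (a : S) (D : Multiset (S →ₐ[K] K))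
    (h : Ideal.span {a} = (D.map fun P => RingHom.ker P).prod) :
    (Algebra.norm K[X] a).roots = D.map xval := by
  have e : (D.map fun P => X - C (xval P)) = (D.map xval).map fun c => X - C c := by
    rw [Multiset.map_map]; rfl
  rw [(norm_associated a D h).roots_eq, e, roots_multiset_prod_X_sub_C]

end Norm

section NormMap

/-- Compatibility of norms with maps of free algebras respecting bases. -/
theorem norm_map {R₀ R₁ S₀ S₁ : Type*} [CommRing R₀] [CommRing R₁] [CommRing S₀] [CommRing S₁]
    [Algebra R₀ S₀] [Algebra R₁ S₁] (ψ : R₀ →+* R₁) (φ : S₀ →+* S₁)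
    (h : ∀ r, φ (algebraMap R₀ S₀ r) = algebraMap R₁ S₁ (ψ r)) {ι : Type*} [Fintype ι]
    (b₀ : Module.Basis ι R₀ S₀) (b₁ : Module.Basis ι R₁ S₁) (hb : ∀ i, b₁ i = φ (b₀ i)) (a : S₀) :
    Algebra.norm R₁ (φ a) = ψ (Algebra.norm R₀ a) := by
  classical
  rw [Algebra.norm_eq_matrix_det b₁, Algebra.norm_eq_matrix_det b₀, RingHom.map_det]
  congr 1
  ext i j
  rw [Algebra.leftMulMatrix_eq_repr_mul, hb, ← map_mul, RingHom.mapMatrix_apply, Matrix.map_apply,
    Algebra.leftMulMatrix_eq_repr_mul]
  have hsum : φ (a * b₀ j) = ∑ l, ψ (b₀.repr (a * b₀ j) l) • b₁ l := by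
    conv_lhs => rw [← b₀.sum_repr (a * b₀ j)]
    rw [map_sum]
    refine Finset.sum_congr rfl fun l _ => ?_
    rw [Algebra.smul_def, map_mul, h, Algebra.smul_def, hb]
  rw [hsum]
  simp [Finsupp.single_apply]

end NormMap

section Primitive

variable {Ω : Type*} [Field Ω] (O : ValuationSubring Ω)

open IsLocalRing

lemma inv_mem_of_notMem {r : Ω} (hr : r ∉ O) : r⁻¹ ∈ O := by
  rcases O.mem_or_inv_mem r with h | h
  · exact absurd h hr
  · exact h

lemma residue_inv_eq_zero {r : Ω} (hr : r ∉ O) :
    residue O ⟨r⁻¹, inv_mem_of_notMem O hr⟩ = 0 := by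
  rw [residue_eq_zero_iff, mem_maximalIdeal, mem_nonunits_iff]
  intro hu
  obtain ⟨u, hu⟩ := hu
  apply hr
  have h1 : ((u⁻¹ : Oˣ) : O) * (u : O) = 1 := u.inv_mul
  rw [hu] at h1
  have h2 : (((u⁻¹ : Oˣ) : O) : Ω) * r⁻¹ = 1 := by
    have := congrArg (fun z : O => (z : Ω)) h1
    simpa using this
  have hr0 : r ≠ 0 := by rintro rfl; exact hr O.zero_mem
  have h3 : (((u⁻¹ : Oˣ) : O) : Ω) = r := by
    field_simp at h2
    exact h2
  rw [← h3]
  exact ((u⁻¹ : Oˣ) : O).2

open Classical in
/-- A primitive linear polynomial with root `r`. -/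
noncomputable def lin (r : Ω) : O[X] :=
  if h : r ∈ O then X - C ⟨r, h⟩ else C ⟨r⁻¹, inv_mem_of_notMem O h⟩ * X - 1

open Classical in
/-- Reduction of elements of `Ω`, with `none` for non-integral ones. -/
noncomputable def redElt (r : Ω) : Option (ResidueField O) :=
  if h : r ∈ O then some (residue O ⟨r, h⟩) else none

lemma lin_map_roots (r : Ω) : ((lin O r).map (algebraMap O Ω)).roots = {r} := by
  unfold lin
  split_ifs with h
  · simp
  · have hr0 : r ≠ 0 := by rintro rfl; exact h O.zero_mem
    have e : (C (⟨r⁻¹, inv_mem_of_notMem O h⟩ : O) * X - 1).map (algebraMap O Ω) =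
        C r⁻¹ * (X - C r) := by
      rw [mul_sub, ← C_mul, inv_mul_cancel₀ hr0]
      simp
    rw [e, roots_C_mul _ (inv_ne_zero hr0), roots_X_sub_C]

lemma lin_map_ne_zero (r : Ω) : (lin O r).map (algebraMap O Ω) ≠ 0 := by
  intro h
  have := lin_map_roots O r
  rw [h] at this
  simp at this

lemma lin_red (r : Ω) : ((lin O r).map (residue O)).roots = (Multiset.filterMap (redElt O) {r}) ∧
    (lin O r).map (residue O) ≠ 0 := by
  by_cases h : r ∈ O
  · have e : (lin O r).map (residue O) = X - C (residue O ⟨r, h⟩) := by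
      simp [lin, h]
    have e2 : redElt O r = some (residue O ⟨r, h⟩) := by simp [redElt, h]
    rw [e]
    refine ⟨?_, X_sub_C_ne_zero _⟩
    rw [roots_X_sub_C, ← Multiset.cons_zero r, Multiset.filterMap_cons_some _ _ _ e2]
    simp
  · have e : (lin O r).map (residue O) = -1 := by
      simp only [lin, h, dite_false, Polynomial.map_sub, Polynomial.map_mul, map_C, map_X,
        Polynomial.map_one, residue_inv_eq_zero O h, C_0, zero_mul, zero_sub]
    have e2 : redElt O r = none := by simp [redElt, h]
    rw [e]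
    refine ⟨?_, by simp⟩
    rw [← Multiset.cons_zero r, Multiset.filterMap_cons_none _ _ e2]
    simp

lemma prod_lin_red (R : Multiset Ω) :
    (((R.map (lin O)).prod).map (residue O)).roots = R.filterMap (redElt O) ∧
    ((R.map (lin O)).prod).map (residue O) ≠ 0 := by
  induction R using Multiset.induction_on with
  | empty => simp
  | cons r R ih =>
    obtain ⟨h1, h2⟩ := lin_red O r
    obtain ⟨h3, h4⟩ := ih
    have hne : (lin O r).map (residue O) * ((R.map (lin O)).prod).map (residue O) ≠ 0 :=
      mul_ne_zero h2 h4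
    rw [Multiset.map_cons, Multiset.prod_cons, Polynomial.map_mul]
    refine ⟨?_, hne⟩
    rw [roots_mul hne, h1, h3, ← Multiset.singleton_add, Multiset.filterMap_add]

lemma prod_lin_map (R : Multiset Ω) :
    (((R.map (lin O)).prod).map (algebraMap O Ω)).roots = R ∧
    ((R.map (lin O)).prod).map (algebraMap O Ω) ≠ 0 := by
  induction R using Multiset.induction_on with
  | empty => simp
  | cons r R ih =>
    obtain ⟨h3, h4⟩ := ih
    have hne : (lin O r).map (algebraMap O Ω) * ((R.map (lin O)).prod).map (algebraMap O Ω) ≠ 0 :=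
      mul_ne_zero (lin_map_ne_zero O r) h4
    rw [Multiset.map_cons, Multiset.prod_cons, Polynomial.map_mul]
    refine ⟨?_, hne⟩
    rw [roots_mul hne, lin_map_roots, h3, Multiset.singleton_add]

/-- Roots of a primitive polynomial over a valuation ring of an algebraically closed field reduce
to the roots of the reduction. -/
theorem roots_reduction [IsAlgClosed Ω] (f : O[X]) (hf : f.map (residue O) ≠ 0) :
    (f.map (residue O)).roots = ((f.map (algebraMap O Ω)).roots).filterMap (redElt O) := by
  set R := (f.map (algebraMap O Ω)).roots with hR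
  set g := (R.map (lin O)).prod with hg
  obtain ⟨h1, h2⟩ := prod_lin_red O R
  obtain ⟨h3, h4⟩ := prod_lin_map O R
  rw [← hg] at h1 h2 h3 h4
  have hinj : Function.Injective (algebraMap O Ω) := Subtype.val_injective
  have hf0 : f.map (algebraMap O Ω) ≠ 0 := by
    rw [Polynomial.map_ne_zero_iff hinj]
    rintro rfl
    simp at hf
  have hass : Associated (f.map (algebraMap O Ω)) (g.map (algebraMap O Ω)) :=
    (IsAlgClosed.associated_iff_roots_eq_roots hf0 h4).mpr (by rw [h3])
  rw [← h1]
  obtain ⟨u, hu⟩ := hass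
  obtain ⟨c, hc, hcu⟩ := Polynomial.isUnit_iff.mp u.isUnit
  rw [← hcu] at hu
  rcases O.mem_or_inv_mem c with h | h
  · -- `g = C c * f`
    have e : g = C ⟨c, h⟩ * f := by
      apply Polynomial.map_injective _ hinj
      rw [← hu, Polynomial.map_mul, map_C, mul_comm]
      rfl
    have e2 := congrArg (Polynomial.map (residue O)) e
    rw [Polynomial.map_mul, map_C] at e2
    have hc0 : residue O ⟨c, h⟩ ≠ 0 := by
      intro h0
      rw [h0, C_0, zero_mul] at e2
      exact h2 e2
    rw [e2, roots_C_mul _ hc0]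
  · have hc0 : c ≠ 0 := hc.ne_zero
    have e : f = C ⟨c⁻¹, h⟩ * g := by
      apply Polynomial.map_injective _ hinj
      rw [Polynomial.map_mul, map_C, ← hu]
      change _ = C c⁻¹ * (_ * C c)
      rw [mul_comm _ (C c), ← mul_assoc, ← C_mul, inv_mul_cancel₀ hc0, C_1, one_mul]
    have e2 := congrArg (Polynomial.map (residue O)) e
    rw [Polynomial.map_mul, map_C] at e2
    have hc1 : residue O ⟨c⁻¹, h⟩ ≠ 0 := by
      intro h0
      rw [h0, C_0, zero_mul] at e2
      exact hf e2
    rw [e2, roots_C_mul _ hc1]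

end Primitive

end Fermat.Agent.MW.NormDiv
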