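import Mathlib
import Fermat.Agent.MW.NormRoots

/-!
# `B ⊗[k] A` as a `B[X]`-algebra, where `X` acts through an element `x : A`
-/

set_option autoImplicit false
set_option linter.style.haveILetI false

open Polynomial TensorProduct

namespace Fermat.Agent.MW.PolyBC

variable {k A : Type*} [CommRing k] [CommRing A] [Algebra k A] (x : A)

/-- `A` as a `k[X]`-algebra via `X ↦ x`. -/
@[reducible] noncomputable def algX : Algebra k[X] A := (aeval (R := k) x).toRingHom.toAlgebra

/-- `B ⊗ A` as a `B[X]`-algebra via `X ↦ 1 ⊗ x`. -/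
@[reducible] noncomputable def algBX (B : Type*) [CommRing B] [Algebra k B] :
    Algebra B[X] (B ⊗[k] A) :=
  (aeval (R := B) ((1 : B) ⊗ₜ[k] x)).toRingHom.toAlgebra

lemma isScalarTower_algX : @IsScalarTower k k[X] A _ (algX x).toSMul _ := by
  letI := algX (k := k) x
  refine IsScalarTower.of_algebraMap_eq fun r => ?_
  change _ = aeval x (C r)
  simp

lemma isScalarTower_algBX (B : Type*) [CommRing B] [Algebra k B] :
    @IsScalarTower B B[X] (B ⊗[k] A) _ (algBX x B).toSMul _ := by
  letI := algBX (k := k) x B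
  refine IsScalarTower.of_algebraMap_eq fun r => ?_
  change _ = aeval ((1 : B) ⊗ₜ[k] x) (C r)
  simp

attribute [local instance] Polynomial.algebra

/-- The basis of `B ⊗ A` over `B[X]` deduced from a basis of `A` over `k[X]`. -/
theorem exists_basis (B : Type*) [CommRing B] [Algebra k B] {ι : Type*}
    (c : @Module.Basis ι k[X] A _ _ (algX x).toModule) :
    ∃ b : @Module.Basis ι B[X] (B ⊗[k] A) _ _ (algBX x B).toModule,
      ∀ i, b i = (1 : B) ⊗ₜ[k] (c i) := by
  letI i1 : Algebra k[X] A := algX (k := k) x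
  letI i2 : Algebra B[X] (B ⊗[k] A) := algBX (k := k) x B
  haveI t1 : IsScalarTower k k[X] A := isScalarTower_algX x
  haveI t2 : IsScalarTower B B[X] (B ⊗[k] A) := isScalarTower_algBX x B
  letI i3 : Algebra A (B ⊗[k] A) := Algebra.TensorProduct.rightAlgebra
  letI i4 : Algebra k[X] (B ⊗[k] A) := ((algebraMap A (B ⊗[k] A)).comp (algebraMap k[X] A)).toAlgebra
  haveI t3 : IsScalarTower k[X] A (B ⊗[k] A) := IsScalarTower.of_algebraMap_eq fun _ => rfl
  haveI t4 : IsScalarTower k[X] B[X] (B ⊗[k] A) := by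
    refine IsScalarTower.of_algebraMap_eq' ?_
    apply Polynomial.ringHom_ext
    · intro r
      change (1 : B) ⊗ₜ[k] (aeval x (C r)) = aeval ((1 : B) ⊗ₜ[k] x) (Polynomial.map _ (C r))
      simp [Algebra.algebraMap_eq_smul_one]
      rfl
    · change (1 : B) ⊗ₜ[k] (aeval x X) = aeval ((1 : B) ⊗ₜ[k] x) (Polynomial.map _ X)
      simp
  haveI t5 : IsScalarTower k B[X] (B ⊗[k] A) := by
    refine IsScalarTower.of_algebraMap_eq fun r => ?_
    rw [IsScalarTower.algebraMap_apply k B B[X], ← IsScalarTower.algebraMap_apply B B[X],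
      ← IsScalarTower.algebraMap_apply k B]
  haveI : Algebra.IsPushout k[X] A B[X] (B ⊗[k] A) := by
    rw [← Algebra.IsPushout.comp_iff k k[X] B (T := A) (S' := B[X])]
    infer_instance
  have h := (Algebra.IsPushout.symm this).out
  refine ⟨h.basis c, fun i => ?_⟩
  rw [h.basis_apply]
  rfl

end Fermat.Agent.MW.PolyBC
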