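import Mathlib
import Fermat.Agent.MW.NormRoots
import Fermat.Agent.MW.PolyBC
import Fermat.Agent.MW.Points

/-!
# Reduction of divisors of functions over a valuation ring

`k` algebraically closed of characteristic zero, `A` a `k`-algebra of dimension one, `O` a valuation
subring of an algebraically closed field `Ω` containing `k`, `κ` its residue field.  For
`a ∈ O ⊗ A` with nonzero reduction `ā ∈ κ ⊗ A`, the divisor of `ā` is the reduction of the divisor
of `a`.
-/

set_option autoImplicit false
set_option linter.style.haveILetI false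

open Polynomial TensorProduct IsLocalRing
open Fermat.Agent.MW.NormDiv Fermat.Agent.MW.PolyBC

namespace Fermat.Agent.MW.Reduction

section Field

variable {k A : Type*} [Field k] [CommRing A] [Algebra k A]
variable {K : Type*} [Field K] [CharZero K] [Algebra k K] [IsDedekindDomain (K ⊗[k] A)]

/-- Zeros of an element and roots of its norm. -/
theorem roots_norm_field (x : A) {ι : Type*} [Fintype ι]
    (c : @Module.Basis ι k[X] A _ _ (algX x).toModule) (a : K ⊗[k] A)
    (D : Multiset (K ⊗[k] A →ₐ[K] K))
    (h : Ideal.span {a} = (D.map fun P => RingHom.ker P).prod) :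
    (@Algebra.norm K[X] (K ⊗[k] A) _ _ (algBX x K) a).roots = D.map fun P => P (1 ⊗ₜ x) := by
  letI i1 := algBX (k := k) x K
  haveI t1 := isScalarTower_algBX (k := k) x K
  obtain ⟨b, -⟩ := exists_basis x K c
  haveI : Module.Free K[X] (K ⊗[k] A) := Module.Free.of_basis b
  haveI : Module.Finite K[X] (K ⊗[k] A) := Module.Finite.of_basis b
  haveI : Module.IsTorsionFree K[X] (K ⊗[k] A) := inferInstance
  rw [roots_norm a D h]
  refine Multiset.map_congr rfl fun P _ => ?_
  change P (aeval ((1 : K) ⊗ₜ[k] x) X) = _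
  rw [aeval_X]

omit [CharZero K] in
theorem norm_ne_zero_field (x : A) {ι : Type*} [Fintype ι]
    (c : @Module.Basis ι k[X] A _ _ (algX x).toModule) {a : K ⊗[k] A} (ha : a ≠ 0) :
    @Algebra.norm K[X] (K ⊗[k] A) _ _ (algBX x K) a ≠ 0 := by
  letI i1 := algBX (k := k) x K
  haveI t1 := isScalarTower_algBX (k := k) x K
  obtain ⟨b, -⟩ := exists_basis x K c
  haveI : Module.Free K[X] (K ⊗[k] A) := Module.Free.of_basis b
  haveI : Module.Finite K[X] (K ⊗[k] A) := Module.Finite.of_basis b
  exact (Algebra.norm_ne_zero_iff).mpr ha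

end Field

section Change

variable {k A : Type*} [CommRing k] [CommRing A] [Algebra k A]

/-- Compatibility of norms with change of base. -/
theorem norm_change (x : A) {ι : Type*} [Fintype ι]
    (c : @Module.Basis ι k[X] A _ _ (algX x).toModule) {B C : Type*} [CommRing B] [CommRing C]
    [Algebra k B] [Algebra k C] (f : B →ₐ[k] C) (a : B ⊗[k] A) :
    @Algebra.norm C[X] (C ⊗[k] A) _ _ (algBX x C)
      (Algebra.TensorProduct.map f (AlgHom.id k A) a) =
      (@Algebra.norm B[X] (B ⊗[k] A) _ _ (algBX x B) a).map f.toRingHom := by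
  letI i1 := algBX (k := k) x B
  letI i2 := algBX (k := k) x C
  obtain ⟨b, hb⟩ := exists_basis x B c
  obtain ⟨b', hb'⟩ := exists_basis x C c
  refine norm_map (mapRingHom f.toRingHom)
    (Algebra.TensorProduct.map f (AlgHom.id k A)).toRingHom ?_ b b' ?_ a
  · intro r
    change (Algebra.TensorProduct.map f (AlgHom.id k A)) (aeval ((1 : B) ⊗ₜ[k] x) r) =
      aeval ((1 : C) ⊗ₜ[k] x) (Polynomial.map f.toRingHom r)
    induction r using Polynomial.induction_on' with
    | add p q hp hq => simp only [map_add, hp, hq, Polynomial.map_add]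
    | monomial n r =>
      simp only [aeval_monomial, map_mul, map_pow, Algebra.TensorProduct.map_tmul,
        Polynomial.map_monomial, Algebra.TensorProduct.algebraMap_apply, Algebra.algebraMap_self,
        RingHom.id_apply, AlgHom.coe_id, id_eq, map_one]
      rfl
  · intro i
    rw [hb, hb']
    simp

end Change


section Points

variable {k A : Type*} [Field k] [CommRing A] [Algebra k A]
variable {Ω : Type*} [Field Ω] [Algebra k Ω] (O : ValuationSubring Ω) [Algebra k O]
  [IsScalarTower k O Ω]

/-- The restriction of a point of `Ω ⊗ A` to `A`. -/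
noncomputable def resA (P : Ω ⊗[k] A →ₐ[Ω] Ω) : A →ₐ[k] Ω :=
  (P.restrictScalars k).comp Algebra.TensorProduct.includeRight

omit [Algebra k O] [IsScalarTower k O Ω] in
@[simp] lemma resA_apply (P : Ω ⊗[k] A →ₐ[Ω] Ω) (a : A) : resA P a = P (1 ⊗ₜ a) := rfl

/-- A point is integral if it takes integral values on `A`. -/
def IsIntPt (P : Ω ⊗[k] A →ₐ[Ω] Ω) : Prop := ∀ a : A, P (1 ⊗ₜ a) ∈ O

/-- The integral point as a map `A → O`. -/
noncomputable def intPt (P : Ω ⊗[k] A →ₐ[Ω] Ω) (h : IsIntPt O P) : A →ₐ[k] O where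
  toFun a := ⟨P (1 ⊗ₜ a), h a⟩
  map_one' := Subtype.ext (map_one (resA P))
  map_mul' a b := Subtype.ext (map_mul (resA P) a b)
  map_zero' := Subtype.ext (map_zero (resA P))
  map_add' a b := Subtype.ext (map_add (resA P) a b)
  commutes' r := by
    apply Subtype.ext
    change resA P (algebraMap k A r) = _
    rw [AlgHom.commutes]
    exact IsScalarTower.algebraMap_apply k O Ω r

/-- The reduction of an integral point. -/
noncomputable def redInt (P : Ω ⊗[k] A →ₐ[Ω] Ω) (h : IsIntPt O P) :
    (ResidueField O) ⊗[k] A →ₐ[ResidueField O] ResidueField O :=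
  Algebra.TensorProduct.lift (Algebra.ofId _ _)
    ((IsScalarTower.toAlgHom k O (ResidueField O)).comp (intPt O P h)) (fun _ _ => Commute.all _ _)

lemma redInt_apply (P : Ω ⊗[k] A →ₐ[Ω] Ω) (h : IsIntPt O P) (a : A) :
    redInt O P h (1 ⊗ₜ a) = residue O ⟨P (1 ⊗ₜ a), h a⟩ := by
  unfold redInt
  rw [Algebra.TensorProduct.lift_tmul, map_one, one_mul]
  rfl

open Classical in
/-- Reduction of points, `none` if the point is not integral (reduces to infinity). -/
noncomputable def redPt (P : Ω ⊗[k] A →ₐ[Ω] Ω) :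
    Option ((ResidueField O) ⊗[k] A →ₐ[ResidueField O] ResidueField O) :=
  if h : IsIntPt O P then some (redInt O P h) else none

/-- Points are determined by their values on `A`. -/
lemma pt_ext {K : Type*} [Field K] [Algebra k K] {P Q : K ⊗[k] A →ₐ[K] K}
    (h : ∀ a : A, P (1 ⊗ₜ a) = Q (1 ⊗ₜ a)) : P = Q := by
  apply Algebra.TensorProduct.ext
  · ext
  · ext a; exact h a

/-- Two distinct points over `K` agree only on a proper `k`-subspace of `A`. -/
noncomputable def agree {K : Type*} [Field K] [Algebra k K] (P Q : K ⊗[k] A →ₐ[K] K) :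
    Submodule k A :=
  LinearMap.eqLocus (resA P).toLinearMap (resA Q).toLinearMap

lemma mem_agree {K : Type*} [Field K] [Algebra k K] {P Q : K ⊗[k] A →ₐ[K] K} {a : A} :
    a ∈ agree P Q ↔ P (1 ⊗ₜ a) = Q (1 ⊗ₜ a) := Iff.rfl

/-- Separation: over an infinite field, two multisets of points coincide as soon as their images
under evaluation at all nonconstant elements coincide. -/
lemma multiset_eq_of_eval [Infinite k] (hA : ∃ x : A, x ∉ Set.range (algebraMap k A))
    {K : Type*} [Field K] [Algebra k K]
    (M N : Multiset (K ⊗[k] A →ₐ[K] K))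
    (h : ∀ x : A, x ∉ Set.range (algebraMap k A) →
      M.map (fun P => P (1 ⊗ₜ x)) = N.map (fun P => P (1 ⊗ₜ x))) : M = N := by
  classical
  -- choose a separating element
  set T : Finset (K ⊗[k] A →ₐ[K] K) := M.toFinset ∪ N.toFinset with hT
  set I : Finset ((K ⊗[k] A →ₐ[K] K) × (K ⊗[k] A →ₐ[K] K)) :=
    (T ×ˢ T).filter (fun p => p.1 ≠ p.2) with hI
  obtain ⟨x, hx⟩ : ∃ x : A, x ∉ Set.range (algebraMap k A) ∧
      ∀ P ∈ T, ∀ Q ∈ T, P (1 ⊗ₜ x) = Q (1 ⊗ₜ x) → P = Q := by
    set s : Finset (Submodule k A) := insert (1 : Submodule k A) (I.image fun p => agree p.1 p.2)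
      with hs
    have hne : (⋃ p ∈ s, (p : Set A)) ≠ Set.univ := by
      apply Subspace.biUnion_ne_univ_of_top_notMem
      intro htop
      rw [hs, Finset.mem_insert] at htop
      rcases htop with htop | htop
      · obtain ⟨x, hx⟩ := hA
        apply hx
        have : x ∈ (1 : Submodule k A) := by rw [← htop]; trivial
        rw [Submodule.mem_one] at this
        exact this
      · rw [Finset.mem_image] at htop
        obtain ⟨⟨P, Q⟩, hPQ, htop⟩ := htop
        rw [hI, Finset.mem_filter] at hPQ
        apply hPQ.2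
        apply pt_ext
        intro a
        have : a ∈ agree P Q := by rw [htop]; trivial
        exact this
    obtain ⟨x, hx⟩ : ∃ x, x ∉ (⋃ p ∈ s, (p : Set A)) := by
      by_contra hcon
      push Not at hcon
      exact hne (Set.eq_univ_of_forall hcon)
    simp only [Set.mem_iUnion, not_exists, SetLike.mem_coe] at hx
    refine ⟨x, ?_, ?_⟩
    · intro hx'
      exact hx 1 (by rw [hs]; exact Finset.mem_insert_self _ _) (Submodule.mem_one.mpr hx')
    · intro P hP Q hQ hPQ
      by_contra hne'
      refine hx (agree P Q) ?_ hPQ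
      rw [hs]
      apply Finset.mem_insert_of_mem
      rw [Finset.mem_image]
      exact ⟨(P, Q), by rw [hI, Finset.mem_filter]; exact ⟨Finset.mk_mem_product hP hQ, hne'⟩, rfl⟩
  have hmap := h x hx.1
  -- evaluation at `x` is injective on `T`
  ext P
  by_cases hP : P ∈ T
  · have hcount : ∀ L : Multiset (K ⊗[k] A →ₐ[K] K), (∀ Q ∈ L, Q ∈ T) →
        (L.map (fun P => P (1 ⊗ₜ x))).count (P (1 ⊗ₜ x)) = L.count P := by
      intro L hL
      rw [Multiset.count_map, Multiset.count, Multiset.countP_eq_card_filter]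
      congr 1
      apply Multiset.filter_congr
      intro Q hQ
      constructor
      · intro h'; exact hx.2 P hP Q (hL Q hQ) h'
      · rintro rfl; rfl
    rw [← hcount M (fun Q hQ => by rw [hT]; simp [hQ]), ← hcount N (fun Q hQ => by rw [hT]; simp [hQ]),
      hmap]
  · rw [hT, Finset.mem_union, Multiset.mem_toFinset, Multiset.mem_toFinset, not_or] at hP
    rw [Multiset.count_eq_zero_of_notMem hP.1, Multiset.count_eq_zero_of_notMem hP.2]

end Points


section Main

variable {k A : Type*} [Field k] [CommRing A] [Algebra k A]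
variable {Ω : Type*} [Field Ω] [Algebra k Ω] (O : ValuationSubring Ω) [Algebra k O]
  [IsScalarTower k O Ω]

/-- `O ⊗ A → Ω ⊗ A`. -/
noncomputable def mapGen : O ⊗[k] A →ₐ[k] Ω ⊗[k] A :=
  Algebra.TensorProduct.map (IsScalarTower.toAlgHom k O Ω) (AlgHom.id k A)

/-- `O ⊗ A → κ ⊗ A`. -/
noncomputable def mapRed : O ⊗[k] A →ₐ[k] (ResidueField O) ⊗[k] A :=
  Algebra.TensorProduct.map (IsScalarTower.toAlgHom k O (ResidueField O)) (AlgHom.id k A)

/-- If `A` is integral over `k[x]`, a point is integral as soon as its value at `x` is. -/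
lemma isIntPt_of_mem (x : A) (hx : ∀ a : A, (aeval (R := k) x).toRingHom.IsIntegralElem a)
    (P : Ω ⊗[k] A →ₐ[Ω] Ω) (h : P (1 ⊗ₜ x) ∈ O) : IsIntPt O P := by
  intro a
  have h1 := (hx a).map (resA P).toRingHom
  set g : k[X] →ₐ[k] O := aeval (⟨P (1 ⊗ₜ x), h⟩ : O) with hg
  have h2 : ((resA P).toRingHom).comp ((aeval (R := k) x).toRingHom) =
      (algebraMap O Ω).comp g.toRingHom := by
    have : (resA P).comp (aeval (R := k) x) = (IsScalarTower.toAlgHom k O Ω).comp g := by
      apply Polynomial.algHom_ext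
      simp [hg]
    exact congrArg (fun φ : k[X] →ₐ[k] Ω => (φ : k[X] →+* Ω)) this
  rw [h2] at h1
  have h3 : (algebraMap O Ω).IsIntegralElem (resA P a) := h1.of_comp
  have h4 : IsIntegral O (resA P a) := h3
  obtain ⟨y, hy⟩ := IsIntegrallyClosed.isIntegral_iff.mp h4
  have : P (1 ⊗ₜ a) = (y : Ω) := hy.symm
  rw [this]
  exact y.2

/-- Values of reductions of points. -/
lemma redElt_eval (x : A) (hx : ∀ a : A, (aeval (R := k) x).toRingHom.IsIntegralElem a)
    (P : Ω ⊗[k] A →ₐ[Ω] Ω) :
    redElt O (P (1 ⊗ₜ x)) = (redPt O P).map (fun Q => Q (1 ⊗ₜ x)) := by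
  by_cases h : IsIntPt O P
  · have h' : P (1 ⊗ₜ x) ∈ O := h x
    simp only [redElt, h', dite_true, redPt, h, Option.map_some, redInt_apply]
  · have h' : P (1 ⊗ₜ x) ∉ O := fun h' => h (isIntPt_of_mem O x hx P h')
    simp only [redElt, h', dite_false, redPt, h, Option.map_none]

/-- The divisor of the reduction is the reduction of the divisor: abstract version. -/
theorem divisor_reduction_aux [IsAlgClosed Ω] [CharZero k] [IsAlgClosed k]
    [IsDedekindDomain (Ω ⊗[k] A)] [IsDedekindDomain ((ResidueField O) ⊗[k] A)]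
    (hA : ∃ x : A, x ∉ Set.range (algebraMap k A))
    (hfin : ∀ x : A, x ∉ Set.range (algebraMap k A) → ∃ (n : ℕ),
      Nonempty (@Module.Basis (Fin n) k[X] A _ _ (algX x).toModule))
    (a : O ⊗[k] A) (ha : mapRed O a ≠ 0)
    (D : Multiset (Ω ⊗[k] A →ₐ[Ω] Ω)) (hD : Ideal.span {mapGen O a} = idl D)
    (D' : Multiset ((ResidueField O) ⊗[k] A →ₐ[ResidueField O] ResidueField O))
    (hD' : Ideal.span {mapRed O a} = idl D') :
    D' = D.filterMap (redPt O) := by
  haveI : CharZero Ω := charZero_of_injective_algebraMap (algebraMap k Ω).injective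
  haveI : CharZero (ResidueField O) :=
    charZero_of_injective_algebraMap (algebraMap k (ResidueField O)).injective
  haveI : Infinite k := inferInstance
  apply multiset_eq_of_eval hA
  intro x hx
  obtain ⟨n, ⟨c⟩⟩ := hfin x hx
  have hint : ∀ a : A, (aeval (R := k) x).toRingHom.IsIntegralElem a := by
    letI := algX (k := k) x
    haveI : Module.Finite k[X] A := Module.Finite.of_basis c
    intro a
    exact Algebra.IsIntegral.isIntegral (R := k[X]) a
  set N := @Algebra.norm (Polynomial O) (O ⊗[k] A) _ _ (algBX x O) a with hN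
  have e1 : @Algebra.norm (Polynomial Ω) (Ω ⊗[k] A) _ _ (algBX x Ω) (mapGen O a) =
      N.map (algebraMap O Ω) := norm_change x c (IsScalarTower.toAlgHom k O Ω) a
  have e2 : @Algebra.norm (Polynomial (ResidueField O)) ((ResidueField O) ⊗[k] A) _ _
      (algBX x (ResidueField O)) (mapRed O a) = N.map (residue O) :=
    norm_change x c (IsScalarTower.toAlgHom k O (ResidueField O)) a
  have e3 := roots_norm_field x c (mapGen O a) D hD
  have e4 := roots_norm_field x c (mapRed O a) D' hD'
  have e5 := norm_ne_zero_field x c ha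
  rw [e1] at e3
  rw [e2] at e4 e5
  rw [← e4, roots_reduction O N e5, e3, Multiset.filterMap_map, Multiset.map_filterMap]
  congr 1
  funext P
  exact redElt_eval O x hint P

end Main

section Curve

variable {k A : Type*} [Field k] [CommRing A] [Algebra k A] (C : CurveAlg k A)

include C in
/-- nonconstant elements have positive degree -/
lemma deg_pos {x : A} (hx : x ∉ Set.range (algebraMap k A)) : 0 < C.deg x := by
  by_contra h
  push Not at h
  have h0 : C.deg x = 0 := by omega
  apply hx
  refine ⟨C.coef 0 x, ?_⟩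
  apply C.ext_coef
  intro m
  rw [Algebra.algebraMap_eq_smul_one, map_smul, ← C.b_zero, C.coef_b]
  by_cases hm : m = 0
  · subst hm; simp
  · rw [if_neg (fun h => hm h.symm), smul_zero]
    exact (C.coef_eq_zero_of_deg_lt (by omega)).symm

include C in
lemma finite_algX {x : A} (hx : 0 < C.deg x) :
    @Module.Finite k[X] A _ _ (algX x).toModule := by
  letI := algX (k := k) x
  haveI : IsScalarTower k k[X] A := isScalarTower_algX x
  have hx0 : x ≠ 0 := by rintro rfl; simp at hx
  set m := C.deg x + C.cond with hm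
  have hsup := C.Fil_sup_span hx0 (m := m) (by omega)
  have hXx : ∀ a : A, (X : k[X]) • a = x * a := by
    intro a
    rw [Algebra.smul_def]
    change aeval x X * a = _
    rw [aeval_X]
  have key : ∀ (n : ℕ) (a : A), C.deg a ≤ n → a ∈ Submodule.span k[X] (C.Fil m : Set A) := by
    intro n
    induction n using Nat.strong_induction_on with
    | _ n ih =>
    intro a ha
    by_cases ham : C.deg a ≤ m
    · exact Submodule.subset_span (C.mem_Fil_iff_deg_le.mpr ham)
    · push Not at ham
      have ha' : a ∈ C.Fil m ⊔ (Ideal.span {x}).restrictScalars k := by rw [hsup]; trivial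
      obtain ⟨f, hf, g, hg, hfg⟩ := Submodule.mem_sup.mp ha'
      rw [Submodule.restrictScalars_mem, Ideal.mem_span_singleton] at hg
      obtain ⟨b, hb⟩ := hg
      have hgm : g ∈ C.Fil (C.deg a) := by
        have : g = a - f := by rw [← hfg]; ring
        rw [this]
        exact Submodule.sub_mem _ (C.mem_Fil_deg a) (C.Fil_mono ham.le hf)
      have hb' : C.deg b < n := by
        by_cases hb0 : b = 0
        · rw [hb0, C.deg_zero]; omega
        · have h1 := C.mem_Fil_iff_deg_le.mp hgm
          rw [hb, C.deg_mul hx0 hb0] at h1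
          omega
      rw [← hfg, hb, ← hXx]
      exact Submodule.add_mem _ (Submodule.subset_span hf)
        (Submodule.smul_mem _ _ (ih _ hb' b le_rfl))
  obtain ⟨T, hT⟩ := Module.Finite.iff_fg.mp (C.finite_Fil m)
  refine ⟨⟨T, ?_⟩⟩
  rw [eq_top_iff]
  intro a _
  refine Submodule.span_le.mpr ?_ (key _ a le_rfl)
  intro f hf
  have hf' : f ∈ Submodule.span k (T : Set A) := by rw [hT]; exact hf
  exact Submodule.span_le_restrictScalars k k[X] _ hf'

include C in
lemma exists_basis_algX {x : A} (hx : x ∉ Set.range (algebraMap k A)) [IsAlgClosed k] :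
    ∃ (n : ℕ), Nonempty (@Module.Basis (Fin n) k[X] A _ _ (algX x).toModule) := by
  letI := algX (k := k) x
  haveI : IsScalarTower k k[X] A := isScalarTower_algX x
  haveI := finite_algX C (deg_pos C hx)
  haveI : IsDomain A := C.isDomain
  have hinj : Function.Injective (algebraMap k[X] A) := by
    rw [injective_iff_map_eq_zero]
    intro p hp
    by_contra hp0
    have hp' : aeval x p = 0 := hp
    have hsplit := (IsAlgClosed.splits p).eq_prod_roots
    rw [hsplit, map_mul, aeval_C, map_multiset_prod, Multiset.map_map] at hp'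
    rcases mul_eq_zero.mp hp' with h | h
    · rw [map_eq_zero_iff _ (algebraMap k A).injective, leadingCoeff_eq_zero] at h
      exact hp0 h
    · rw [Multiset.prod_eq_zero_iff, Multiset.mem_map] at h
      obtain ⟨r, -, hr⟩ := h
      apply hx
      refine ⟨r, ?_⟩
      simp only [Function.comp_apply, map_sub, aeval_X, aeval_C] at hr
      exact (sub_eq_zero.mp hr).symm
  haveI : FaithfulSMul k[X] A := (faithfulSMul_iff_algebraMap_injective _ _).mpr hinj
  haveI : Module.IsTorsionFree k[X] A := inferInstance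
  haveI : Module.Free k[X] A := inferInstance
  exact ⟨_, ⟨Module.finBasis k[X] A⟩⟩

include C in
lemma exists_nonconst : ∃ x : A, x ∉ Set.range (algebraMap k A) := by
  obtain ⟨l, hl⟩ := exists_pos_deg C
  refine ⟨C.b l, ?_⟩
  rintro ⟨r, hr⟩
  have h1 := C.deg_b l
  have h2 : C.deg (algebraMap k A r) = 0 := by
    have : algebraMap k A r ∈ C.Fil 0 := by
      intro m hm
      rw [Algebra.algebraMap_eq_smul_one, map_smul, ← C.b_zero, C.coef_b,
        if_neg (by simp; omega), smul_zero]
    exact Nat.le_zero.mp (C.mem_Fil_iff_deg_le.mp this)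
  rw [hr, h1] at h2
  omega

include C in
/-- **F3**: the divisor of the reduction is the reduction of the divisor. -/
theorem divisor_reduction [IsAlgClosed k] [CharZero k]
    {Ω : Type*} [Field Ω] [Algebra k Ω] [IsAlgClosed Ω] (O : ValuationSubring Ω) [Algebra k O]
    [IsScalarTower k O Ω]
    [IsDedekindDomain (Ω ⊗[k] A)] [IsDedekindDomain ((ResidueField O) ⊗[k] A)]
    (a : O ⊗[k] A) (ha : mapRed O a ≠ 0)
    (D : Multiset (Ω ⊗[k] A →ₐ[Ω] Ω)) (hD : Ideal.span {mapGen O a} = idl D)
    (D' : Multiset ((ResidueField O) ⊗[k] A →ₐ[ResidueField O] ResidueField O))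
    (hD' : Ideal.span {mapRed O a} = idl D') :
    D' = D.filterMap (redPt O) :=
  divisor_reduction_aux O (exists_nonconst C) (fun _ hx => exists_basis_algX C hx) a ha D hD D' hD'

end Curve

end Fermat.Agent.MW.Reduction
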