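import Fermat.Agent.MW.Minors
import Fermat.Agent.MW.DVec
import Fermat.Agent.MW.Ultra

/-!
# The exact identities for norms of lattices (definitions) (team MW, helper39)
-/

set_option autoImplicit false

open Module

namespace Fermat.Agent.MW

open Fermat.Agent.MW.Ultra

section Defs

variable {k A : Type*} [Field k] [CommRing A] [Algebra k A] (C : CurveAlg k A)

/-- `u` is a basis of `L(E,m)` (in the Riemann range). -/
structure IsB (m : ℕ) (E : Multiset (A →ₐ[k] k)) {r : ℕ} (u : Fin r → A) : Prop where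
  li : LinearIndependent k u
  mem : ∀ i, u i ∈ C.L (idl E) m
  fr : r + E.card + C.genus = m + 1
  le : E.card + C.cc ≤ m

/-- The vector of coefficients. -/
noncomputable def cvec (m : ℕ) (f : A) : Fin (m + 1) → k := fun l => C.coef l f

/-- The norm of a family. -/
noncomputable def Nm (O : ValuationSubring k) (m : ℕ) {r : ℕ} (u : Fin r → A) : O.ValueGroup :=
  vval O (C.minors m u)

/-- The exact identities. -/
structure Exact (O : ValuationSubring k) : Prop where
  add : ∀ (m m' : ℕ) (E E' : Multiset (A →ₐ[k] k)) (P : A →ₐ[k] k) (r r' r'' : ℕ)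
    (u : Fin r → A) (u' : Fin r' → A) (u'' : Fin r'' → A) (s s' : A),
    IsB C m (E + {P}) u → IsB C m' (E' + {P}) u' → IsB C (m + m') (E + E' + {P}) u'' →
    s ∈ C.L (idl E) m → s ∉ idl (E + {P}) → s' ∈ C.L (idl E') m' → s' ∉ idl (E' + {P}) →
    Nm C O (m + m') (Fin.snoc (α := fun _ => A) u'' (s * s')) * Nm C O m u * Nm C O m' u' =
      Nm C O (m + m') u'' * Nm C O m (Fin.snoc (α := fun _ => A) u s) *
        Nm C O m' (Fin.snoc (α := fun _ => A) u' s')
  prin : ∀ (m : ℕ) (E F : Multiset (A →ₐ[k] k)) (f : A) (r : ℕ) (u : Fin r → A), f ≠ 0 →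
    Ideal.span {f} = idl F → IsB C m E u →
    Nm C O (m + F.card) (fun i => f * u i) = vval O (cvec C F.card f) ^ r * Nm C O m u
  kum : ∀ (n : ℕ) (d : DV.HData C n), C.cc ≤ n →
    vval O d.dvec * vval O (cvec C (d.E.card + d.E'.card) d.f) ^ (DV.rk C n) =
      Nm C O (n + d.E.card) (fun i => (d.u i : A)) * Nm C O (n + d.E'.card) (fun i => (d.v i : A))

variable {C}

theorem IsB.finrank [IsDedekindDomain A] {m : ℕ} {E : Multiset (A →ₐ[k] k)} {r : ℕ}
    {u : Fin r → A} (h : IsB C m E u) : finrank k (C.L (idl E) m) = r := by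
  have h1 := finrank_L_idl C E h.le
  have h2 := h.fr
  omega

theorem exists_isB [IsDedekindDomain A] {m : ℕ} {E : Multiset (A →ₐ[k] k)} {r : ℕ}
    (h : r + E.card + C.genus = m + 1) (h' : E.card + C.cc ≤ m) :
    ∃ u : Fin r → A, IsB C m E u := by
  have h1 := finrank_L_idl C E h'
  have h2 : finrank k (C.L (idl E) m) = r := by omega
  let b := Module.finBasisOfFinrankEq k (C.L (idl E) m) h2
  exact ⟨fun i => (b i : A), b.linearIndependent.map' (Submodule.subtype _)
    (Submodule.ker_subtype _), fun i => (b i).2, h, h'⟩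

theorem IsB.span_eq [IsDedekindDomain A] {m : ℕ} {E : Multiset (A →ₐ[k] k)} {r : ℕ}
    {u : Fin r → A} (h : IsB C m E u) : Submodule.span k (Set.range u) = C.L (idl E) m := by
  apply Submodule.eq_of_le_of_finrank_eq
  · rw [Submodule.span_le]
    rintro _ ⟨i, rfl⟩
    exact h.mem i
  · rw [finrank_span_eq_card h.li, h.finrank, Fintype.card_fin]

theorem IsB.snoc [IsDedekindDomain A] {m : ℕ} {E : Multiset (A →ₐ[k] k)} {P : A →ₐ[k] k} {r : ℕ}
    {u : Fin r → A} (h : IsB C m (E + {P}) u) {s : A} (hs : s ∈ C.L (idl E) m)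
    (hs' : s ∉ idl (E + {P})) : IsB C m E (Fin.snoc (α := fun _ => A) u s) := by
  have hcard := h.fr
  have hle := h.le
  rw [Multiset.card_add, Multiset.card_singleton] at hcard hle
  refine ⟨?_, ?_, by omega, by omega⟩
  · rw [linearIndependent_finSnoc]
    refine ⟨h.li, fun h1 => hs' ?_⟩
    rw [h.span_eq] at h1
    exact (C.mem_L.mp h1).1
  · intro i
    refine Fin.lastCases ?_ (fun j => ?_) i
    · rw [Fin.snoc_last]; exact hs
    · rw [Fin.snoc_castSucc]
      have hIE : idl (E + {P}) ≤ idl E := by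
        rw [idl_add]
        exact Ideal.mul_le_left
      exact C.L_mono hIE le_rfl (h.mem j)

theorem IsB.not_mem_of_li [IsDedekindDomain A] {m : ℕ} {E : Multiset (A →ₐ[k] k)} {r : ℕ}
    {u : Fin r → A} (h : IsB C m E u) {s : A} (hs : s ∈ C.Fil m)
    (hli : LinearIndependent k (Fin.snoc (α := fun _ => A) u s : Fin (r + 1) → A)) :
    s ∉ idl E := by
  intro h1
  rw [linearIndependent_finSnoc] at hli
  apply hli.2
  rw [h.span_eq]
  exact C.mem_L.mpr ⟨h1, hs⟩

theorem mul_not_mem_idl [IsAlgClosed k] [IsDedekindDomain A] {E E' : Multiset (A →ₐ[k] k)}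
    {P : A →ₐ[k] k} {s s' : A} (hs : s ∈ idl E) (hs' : s' ∈ idl E') (h : s ∉ idl (E + {P}))
    (h' : s' ∉ idl (E' + {P})) (C : CurveAlg k A) : s * s' ∉ idl (E + E' + {P}) := by
  classical
  have h0 : s ≠ 0 := by rintro rfl; exact h (Submodule.zero_mem _)
  have h0' : s' ≠ 0 := by rintro rfl; exact h' (Submodule.zero_mem _)
  intro hm
  rw [mem_idl_iff C h0] at hs h
  rw [mem_idl_iff C h0'] at hs' h'
  rw [mem_idl_iff C (C.mul_ne_zero' h0 h0'), dv_mul C h0 h0'] at hm
  have key : ∀ {X D : Multiset (A →ₐ[k] k)}, D ≤ X → ¬ D + {P} ≤ X →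
      X.count P = D.count P := by
    intro X D h1 h2
    by_contra hne
    apply h2
    rw [Multiset.le_iff_count]
    intro Q
    rw [Multiset.count_add]
    have h3 := Multiset.le_iff_count.mp h1 Q
    by_cases hQ : Q = P
    · subst hQ
      rw [Multiset.count_singleton_self]
      omega
    · rw [Multiset.count_singleton, if_neg hQ]
      omega
  have h1 := key hs h
  have h2 := key hs' h'
  have h3 := Multiset.le_iff_count.mp hm P
  rw [Multiset.count_add, Multiset.count_add, Multiset.count_add, Multiset.count_singleton_self,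
    h1, h2] at h3
  omega

theorem IsB.mul [IsDedekindDomain A] {m : ℕ} {E F : Multiset (A →ₐ[k] k)} {r : ℕ}
    {u : Fin r → A} (h : IsB C m E u) {f : A} (hf : f ≠ 0) (hF : Ideal.span {f} = idl F) :
    IsB C (m + F.card) (E + F) (fun i => f * u i) := by
  have h1 := h.fr
  have h2 := h.le
  have hdeg : C.deg f = F.card := DV.deg_eq_card C hf hF
  have hdom := C.isDomain
  refine ⟨?_, ?_, by rw [Multiset.card_add]; omega, by rw [Multiset.card_add]; omega⟩
  · have h3 : (fun i => f * u i) = (LinearMap.mulLeft k f) ∘ u := rfl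
    rw [h3]
    exact h.li.map' _ (LinearMap.ker_eq_bot.mpr (mul_right_injective₀ hf))
  · intro i
    have h3 := C.mem_L.mp (h.mem i)
    rw [C.mem_L, idl_add]
    refine ⟨?_, ?_⟩
    · rw [mul_comm (idl E)]
      exact Ideal.mul_mem_mul (by rw [← hF]; exact Ideal.mem_span_singleton_self f) h3.1
    · rw [add_comm]
      exact C.mul_mem_Fil (C.mem_Fil_iff_deg_le.mpr hdeg.le) h3.2

theorem cvec_ne_zero {m : ℕ} {f : A} (hf : f ≠ 0) (hm : C.deg f ≤ m) : cvec C m f ≠ 0 := by
  intro h
  exact C.coef_deg_ne_zero hf (congrFun h ⟨C.deg f, by omega⟩)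

end Defs

end Fermat.Agent.MW
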