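import Fermat.Agent.MW.Basic

/-!
# Maximal minors of a family of elements of a curve algebra (team MW, helper39)
-/

set_option autoImplicit false

open Module

namespace Fermat.Agent.MW

section Mat

variable {k : Type*} [Field k]

theorem exists_minor_ne_zero {r n : ℕ} (M : Matrix (Fin r) (Fin n) k)
    (hM : LinearIndependent k M.row) : ∃ φ : Fin r → Fin n, (M.submatrix id φ).det ≠ 0 := by
  have hrank : M.rank = r := by
    have := LinearIndependent.rank_matrix (M := M) hM
    simpa using this
  have hspan : finrank k (Submodule.span k (Set.range M.col)) = r := by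
    rw [← Matrix.rank_eq_finrank_span_cols, hrank]
  have hex : ∃ f : Fin r → (Fin r → k), (∀ i, f i ∈ Set.range M.col) ∧
      LinearIndependent k f := by
    obtain ⟨f, hf, -, hli⟩ := Submodule.exists_fun_fin_finrank_span_eq k (Set.range M.col)
    exact ⟨f ∘ Fin.cast hspan.symm, fun i => hf _, hli.comp _ (Fin.cast_injective _)⟩
  obtain ⟨f, hf, hli⟩ := hex
  choose φ hφ using hf
  refine ⟨φ, ?_⟩
  have h1 : M.submatrix id φ = (Matrix.of f).transpose := by
    ext i j
    rw [Matrix.submatrix_apply, Matrix.transpose_apply, Matrix.of_apply, ← hφ j]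
    rfl
  rw [h1, Matrix.det_transpose]
  have h2 : IsUnit (Matrix.of f) := Matrix.linearIndependent_rows_iff_isUnit.mp hli
  exact ((Matrix.isUnit_iff_isUnit_det _).mp h2).ne_zero

end Mat

namespace CurveAlg

variable {k A : Type*} [Field k] [CommRing A] [Algebra k A] (C : CurveAlg k A)

/-- the matrix of coefficients -/
noncomputable def cmat (m : ℕ) {r : ℕ} (u : Fin r → A) : Matrix (Fin r) (Fin (m + 1)) k :=
  Matrix.of fun i l => C.coef l (u i)

/-- The vector of maximal minors of the coefficient matrix of a family `u`. -/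
noncomputable def minors (m : ℕ) {r : ℕ} (u : Fin r → A) : (Fin r → Fin (m + 1)) → k :=
  fun φ => Matrix.det (Matrix.of fun i j => C.coef (φ j) (u i))

theorem minors_apply (m : ℕ) {r : ℕ} (u : Fin r → A) (φ : Fin r → Fin (m + 1)) :
    C.minors m u φ = ((C.cmat m u).submatrix id φ).det := rfl

/-- change of basis -/
theorem minors_lin (m : ℕ) {r : ℕ} (g : Matrix (Fin r) (Fin r) k) (u : Fin r → A) :
    C.minors m (fun i => ∑ j, g i j • u j) = g.det • C.minors m u := by
  ext φ
  rw [Pi.smul_apply, smul_eq_mul, minors, minors, ← Matrix.det_mul]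
  congr 1
  ext i j
  simp [Matrix.mul_apply, map_sum]

theorem minors_ne_zero {m r : ℕ} {u : Fin r → A} (hu : LinearIndependent k u)
    (hm : ∀ i, u i ∈ C.Fil m) : C.minors m u ≠ 0 := by
  have hli : LinearIndependent k (C.cmat m u).row := by
    show LinearIndependent k (fun i : Fin r => fun l : Fin (m + 1) => C.coef l (u i))
    rw [Fintype.linearIndependent_iff] at hu ⊢
    intro g hg i
    apply hu g
    apply C.ext_coef
    intro l
    rw [map_zero]
    by_cases hl : l ≤ m
    · have := congrFun hg ⟨l, by omega⟩
      simpa [Finset.sum_apply] using this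
    · have hmem : ∑ i, g i • u i ∈ C.Fil m :=
        Submodule.sum_mem _ fun i _ => Submodule.smul_mem _ _ (hm i)
      exact hmem l (by omega)
  obtain ⟨φ, hφ⟩ := exists_minor_ne_zero _ hli
  intro h
  apply hφ
  rw [← C.minors_apply, h]
  rfl

/-- two bases of the same space have proportional minors. -/
theorem exists_minors_eq_smul {m r : ℕ} {u u' : Fin r → A} (V : Submodule k A)
    (hu : LinearIndependent k u) (hu' : LinearIndependent k u') (hV : ∀ i, u i ∈ V)
    (hV' : ∀ i, u' i ∈ V) [Module.Finite k V] (hr : finrank k V = r) :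
    ∃ c : k, c ≠ 0 ∧ C.minors m u' = c • C.minors m u := by
  have hspan : Submodule.span k (Set.range u) = V := by
    apply Submodule.eq_of_le_of_finrank_eq
    · rw [Submodule.span_le]
      rintro _ ⟨i, rfl⟩
      exact hV i
    · rw [finrank_span_eq_card hu, hr, Fintype.card_fin]
  have hmem : ∀ i, ∃ g : Fin r → k, ∑ j, g j • u j = u' i := by
    intro i
    have : u' i ∈ Submodule.span k (Set.range u) := by rw [hspan]; exact hV' i
    exact (Submodule.mem_span_range_iff_exists_fun k).mp this
  choose g hg using hmem
  refine ⟨(Matrix.of g).det, ?_, ?_⟩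
  · intro hdet
    obtain ⟨v, hv0, hv⟩ := Matrix.exists_vecMul_eq_zero_iff.mpr hdet
    apply hv0
    rw [Fintype.linearIndependent_iff] at hu'
    ext i
    refine hu' v ?_ i
    have : ∑ i, v i • u' i = ∑ j, (Matrix.vecMul v (Matrix.of g)) j • u j := by
      simp_rw [← hg, Finset.smul_sum]
      rw [Finset.sum_comm]
      refine Finset.sum_congr rfl fun j _ => ?_
      rw [Matrix.vecMul, dotProduct, Finset.sum_smul]
      refine Finset.sum_congr rfl fun i _ => ?_
      rw [smul_smul]
      rfl
    rw [this, hv]
    simp
  · rw [← C.minors_lin]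
    congr 1
    ext i
    exact (hg i).symm

end CurveAlg

end Fermat.Agent.MW
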