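import Fermat.Agent.MW.Reduction
import Fermat.Agent.MW.BaseChange
import Fermat.Agent.MW.Minors
import Fermat.Agent.MW.Ultra
import Fermat.Agent.MW.ExactDef

/-!
# Exact formulas for the valuations of Plücker vectors over `(Ω, O)`
-/

set_option autoImplicit false
set_option linter.unusedSectionVars false

open Module TensorProduct IsLocalRing

namespace Fermat.Agent.MW

variable {k A : Type*} [Field k] [CommRing A] [Algebra k A] (C : CurveAlg k A)
variable {Ω : Type*} [Field Ω] [Algebra k Ω] (O : ValuationSubring Ω) [Algebra k O]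
  [IsScalarTower k O Ω]

section integral

/-- generic fibre map -/
noncomputable abbrev gen : O ⊗[k] A →ₐ[k] Ω ⊗[k] A := bc A (IsScalarTower.toAlgHom k O Ω)

/-- special fibre map -/
noncomputable abbrev red : O ⊗[k] A →ₐ[k] ResidueField O ⊗[k] A :=
  bc A (IsScalarTower.toAlgHom k O (ResidueField O))

theorem gen_tmul (x : O) (a : A) : gen O (x ⊗ₜ[k] a) = (x : Ω) ⊗ₜ[k] a := by
  simp only [gen, bc, Algebra.TensorProduct.map_tmul]
  rfl

theorem red_tmul (x : O) (a : A) : red O (x ⊗ₜ[k] a) = residue O x ⊗ₜ[k] a := by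
  simp only [red, bc, Algebra.TensorProduct.map_tmul]
  rfl

theorem gen_smul (x : O) (a : O ⊗[k] A) : gen O (x • a) = (x : Ω) • gen O a := by
  induction a using TensorProduct.induction_on with
  | zero => simp
  | tmul y a => rw [smul_tmul', gen_tmul, gen_tmul, smul_tmul']; rfl
  | add a b ha hb => rw [smul_add, map_add, ha, hb, map_add, smul_add]

theorem red_smul (x : O) (a : O ⊗[k] A) : red O (x • a) = residue O x • red O a := by
  induction a using TensorProduct.induction_on with
  | zero => simp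
  | tmul y a => rw [smul_tmul', red_tmul, red_tmul, smul_tmul', smul_eq_mul, map_mul]; rfl
  | add a b ha hb => rw [smul_add, map_add, ha, hb, map_add, smul_add]

/-- coefficients over `O` -/
noncomputable def coefO (m : ℕ) : O ⊗[k] A →ₗ[O] O :=
  (TensorProduct.AlgebraTensorModule.rid k O O).toLinearMap ∘ₗ (C.coef m).baseChange O

theorem coefO_tmul (m : ℕ) (x : O) (a : A) : coefO C O m (x ⊗ₜ a) = C.coef m a • x := by
  simp [coefO]

theorem coef_gen (m : ℕ) (a : O ⊗[k] A) :
    (C.baseChange Ω).coef m (gen O a) = (coefO C O m a : Ω) := by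
  induction a using TensorProduct.induction_on with
  | zero => simp
  | tmul x a =>
    rw [gen_tmul, C.coef_tmul, coefO_tmul, Algebra.smul_def, Algebra.smul_def]
    push_cast
    congr 1
    exact IsScalarTower.algebraMap_apply k O Ω _
  | add a b ha hb => rw [map_add, map_add, ha, hb, map_add]; rfl

theorem coef_red (m : ℕ) (a : O ⊗[k] A) :
    (C.baseChange (ResidueField O)).coef m (red O a) = residue O (coefO C O m a) := by
  induction a using TensorProduct.induction_on with
  | zero => simp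
  | tmul x a =>
    rw [red_tmul, C.coef_tmul, coefO_tmul, Algebra.smul_def, Algebra.smul_def, map_mul]
    rfl
  | add a b ha hb => rw [map_add, map_add, ha, hb, map_add, map_add]

theorem gen_injective : Function.Injective (gen O : O ⊗[k] A →ₐ[k] Ω ⊗[k] A) := by
  have h : Function.Injective (IsScalarTower.toAlgHom k O Ω) := Subtype.val_injective
  exact Module.Flat.rTensor_preserves_injective_linearMap
    (M := A) (IsScalarTower.toAlgHom k O Ω).toLinearMap h

theorem exists_gen_eq (x : Ω ⊗[k] A) (hx : ∀ m, (C.baseChange Ω).coef m x ∈ O) :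
    ∃ a : O ⊗[k] A, gen O a = x := by
  set CΩ := C.baseChange Ω with hCΩ
  refine ⟨∑ l ∈ (CΩ.b.repr x).support, (⟨CΩ.coef l x, hx l⟩ : O) ⊗ₜ[k] C.b l, ?_⟩
  rw [map_sum]
  conv_rhs => rw [← CΩ.b.linearCombination_repr x, Finsupp.linearCombination_apply, Finsupp.sum]
  refine Finset.sum_congr rfl fun l _ => ?_
  have hb : CΩ.b l = (1 : Ω) ⊗ₜ[k] C.b l := C.baseChange_b Ω l
  rw [gen_tmul, hb, smul_tmul', smul_eq_mul, mul_one]
  congr 1
  exact CΩ.coef_coe l x

theorem gen_mem_Fil {m : ℕ} {a : O ⊗[k] A} :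
    gen O a ∈ (C.baseChange Ω).Fil m ↔ ∀ l, m < l → coefO C O l a = 0 := by
  rw [CurveAlg.mem_Fil]
  refine forall_congr' fun l => imp_congr_right fun _ => ?_
  rw [coef_gen]
  exact ZeroMemClass.coe_eq_zero

theorem red_mem_Fil {m : ℕ} {a : O ⊗[k] A} (h : gen O a ∈ (C.baseChange Ω).Fil m) :
    red O a ∈ (C.baseChange (ResidueField O)).Fil m := by
  intro l hl
  rw [coef_red, (gen_mem_Fil C O).mp h l hl, map_zero]

theorem gen_ne_zero_of_red {a : O ⊗[k] A} (ha : red O a ≠ 0) : gen O a ≠ 0 := by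
  intro h
  apply ha
  rw [gen_injective O (by rw [h, map_zero] : gen O a = gen O 0), map_zero]

end integral

section primitive

open Ultra

include C

/-- every nonzero element is a scalar times a primitive one -/
theorem exists_primitive {x : Ω ⊗[k] A} (hx : x ≠ 0) :
    ∃ (φ : Ω) (a : O ⊗[k] A), φ ≠ 0 ∧ red O a ≠ 0 ∧ x = φ • gen O a := by
  classical
  set CΩ := C.baseChange Ω with hCΩ
  have hne : (CΩ.b.repr x).support.Nonempty := by
    rw [Finsupp.support_nonempty_iff]
    simpa using hx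
  obtain ⟨l, hl, hmax⟩ := Finset.exists_max_image _
    (fun l : CΩ.S => O.valuation (CΩ.coef (l : ℕ) x)) hne
  have hl0 : CΩ.coef l x ≠ 0 := by
    rw [CΩ.coef_coe]
    exact Finsupp.mem_support_iff.mp hl
  set φ := CΩ.coef l x with hφ
  have hint : ∀ m, CΩ.coef m (φ⁻¹ • x) ∈ O := by
    intro m
    rw [map_smul, smul_eq_mul, ← ValuationSubring.valuation_le_one_iff, map_mul, map_inv₀]
    by_cases hm : CΩ.coef m x = 0
    · rw [hm, map_zero, mul_zero]
      exact zero_le_one
    · have hmS : m ∈ CΩ.S := by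
        by_contra h
        exact hm (CΩ.coef_of_notMem h x)
      have h1 : (⟨m, hmS⟩ : CΩ.S) ∈ (CΩ.b.repr x).support := by
        rw [Finsupp.mem_support_iff, ← CΩ.coef_coe]
        exact hm
      have h2 := hmax _ h1
      have h3 : O.valuation φ ≠ 0 := by rwa [Ne, Valuation.zero_iff]
      rw [inv_mul_le_iff₀ (zero_lt_iff.mpr h3), mul_one]
      exact h2
  obtain ⟨a, ha⟩ := exists_gen_eq C O _ hint
  refine ⟨φ, a, hl0, ?_, by rw [ha, smul_inv_smul₀ hl0]⟩
  intro h0
  have h1 := coef_red C O l a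
  rw [h0, map_zero] at h1
  have h2 := coef_gen C O l a
  rw [ha, map_smul, smul_eq_mul, ← hCΩ, ← hφ, inv_mul_cancel₀ hl0] at h2
  have h3 : coefO C O l a = 1 := Subtype.ext h2.symm
  rw [h3, map_one] at h1
  exact zero_ne_one h1

/-- scalar multiple of a primitive element integral iff scalar integral -/
theorem mem_of_smul_gen {φ : Ω} {a b : O ⊗[k] A} (ha : red O a ≠ 0)
    (h : φ • gen O a = gen O b) : φ ∈ O := by
  by_contra hφ
  have h1 : φ⁻¹ ∈ O := (O.mem_or_inv_mem φ).resolve_left hφ
  have hφ0 : φ ≠ 0 := by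
    rintro rfl
    exact hφ (zero_mem O)
  have h2 : gen O a = gen O ((⟨φ⁻¹, h1⟩ : O) • b) := by
    rw [gen_smul, ← h, smul_smul]
    simp [inv_mul_cancel₀ hφ0]
  have h3 := gen_injective O h2
  apply ha
  rw [h3, red_smul]
  have h4 : residue O (⟨φ⁻¹, h1⟩ : O) = 0 := by
    rw [residue_eq_zero_iff, ValuationSubring.valuation_lt_one_iff]
    show O.valuation φ⁻¹ < 1
    rw [map_inv₀]
    apply inv_lt_one_of_one_lt₀
    rw [← not_le, ValuationSubring.valuation_le_one_iff]
    exact hφ
  rw [h4, zero_smul]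

/-- **Gauss lemma** -/
theorem exists_gen_eq_of_mul {a b : O ⊗[k] A} {x : Ω ⊗[k] A} (ha : red O a ≠ 0)
    (h : gen O a * x = gen O b) : ∃ c, gen O c = x ∧ a * c = b := by
  have hdom := (C.baseChange (ResidueField O)).isDomain
  by_cases hx : x = 0
  · refine ⟨0, by rw [map_zero, hx], ?_⟩
    apply gen_injective O
    rw [mul_zero, map_zero, ← h, hx, mul_zero]
  obtain ⟨φ, c, hφ, hc, rfl⟩ := exists_primitive C O hx
  have h1 : φ • gen O (a * c) = gen O b := by rw [map_mul, ← h, mul_smul_comm]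
  have h2 : red O (a * c) ≠ 0 := by rw [map_mul]; exact mul_ne_zero ha hc
  have h3 := mem_of_smul_gen C O h2 h1
  refine ⟨(⟨φ, h3⟩ : O) • c, gen_smul O _ _, ?_⟩
  apply gen_injective O
  rw [mul_smul_comm, gen_smul]
  exact h1

end primitive

section unimodular

open Ultra

theorem vval_smul {ι : Type*} [Fintype ι] (c : Ω) (x : ι → Ω) :
    vval O (c • x) = O.valuation c * vval O x := by
  rcases isEmpty_or_nonempty ι with h | h
  · have : ∀ y : ι → Ω, vval O y = 0 := fun y => by
      rw [vval, Finset.univ_eq_empty, Finset.sup_empty]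
      rfl
    rw [this, this, mul_zero]
  · obtain ⟨a, ha⟩ := exists_vval_eq O x
    rw [ha, vval_eq_of_forall_le O (c • x) a]
    · rw [Pi.smul_apply, smul_eq_mul, map_mul]
    · intro b
      rw [Pi.smul_apply, Pi.smul_apply, smul_eq_mul, smul_eq_mul, map_mul, map_mul]
      refine mul_le_mul_right ?_ _
      rw [← ha]
      exact le_vval O x b

variable {r : ℕ}

/-- matrix of integral coefficients of a family -/
theorem minors_gen (m : ℕ) (u : Fin r → O ⊗[k] A) (φ : Fin r → Fin (m + 1)) :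
    (C.baseChange Ω).minors m (fun i => gen O (u i)) φ =
      ((Matrix.of fun i j => coefO C O (φ j) (u i)).det : O) := by
  rw [CurveAlg.minors]
  have h : (Matrix.of fun i j => (C.baseChange Ω).coef (φ j) (gen O (u i))) =
      (Matrix.of fun i j => coefO C O (φ j) (u i)).map (O.subtype) := by
    ext i j
    simp [coef_gen]
  rw [h, ← RingHom.mapMatrix_apply, ← RingHom.map_det]
  rfl

theorem minors_red (m : ℕ) (u : Fin r → O ⊗[k] A) (φ : Fin r → Fin (m + 1)) :
    (C.baseChange (ResidueField O)).minors m (fun i => red O (u i)) φ =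
      residue O ((Matrix.of fun i j => coefO C O (φ j) (u i)).det) := by
  rw [CurveAlg.minors]
  have h : (Matrix.of fun i j => (C.baseChange (ResidueField O)).coef (φ j) (red O (u i))) =
      (Matrix.of fun i j => coefO C O (φ j) (u i)).map (residue O) := by
    ext i j
    simp [coef_red]
  rw [h, ← RingHom.mapMatrix_apply, ← RingHom.map_det]

/-- minors of a unimodular family have norm one. -/
theorem vval_minors_gen {m : ℕ} {u : Fin r → O ⊗[k] A}
    (hu : LinearIndependent (ResidueField O) fun i => red O (u i))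
    (hm : ∀ i, gen O (u i) ∈ (C.baseChange Ω).Fil m) :
    vval O ((C.baseChange Ω).minors m fun i => gen O (u i)) = 1 := by
  have h1 := (C.baseChange (ResidueField O)).minors_ne_zero hu (m := m)
    fun i => red_mem_Fil C O (hm i)
  obtain ⟨φ, hφ⟩ := Function.ne_iff.mp h1
  rw [minors_red, Pi.zero_apply, Ne, residue_eq_zero_iff, mem_maximalIdeal, mem_nonunits_iff,
    not_not] at hφ
  rw [vval_eq_of_forall_le O _ φ]
  · rw [minors_gen]
    exact (ValuationSubring.valuation_eq_one_iff _ _).mp hφ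
  · intro ψ
    rw [minors_gen, minors_gen, (ValuationSubring.valuation_eq_one_iff _ _).mp hφ]
    exact ValuationSubring.valuation_le_one _ _

include C in
/-- a family with independent reduction is independent -/
theorem linearIndependent_gen {ι : Type*} [Fintype ι] {u : ι → O ⊗[k] A}
    (hu : LinearIndependent (ResidueField O) fun i => red O (u i)) :
    LinearIndependent Ω fun i => gen O (u i) := by
  classical
  rw [Fintype.linearIndependent_iff] at hu ⊢
  intro g hg
  by_contra hne
  push Not at hne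
  obtain ⟨i₀, hi₀⟩ := hne
  obtain ⟨j, -, hj⟩ := Finset.exists_max_image Finset.univ (fun i => O.valuation (g i))
    ⟨i₀, Finset.mem_univ _⟩
  have hgj : g j ≠ 0 := by
    intro h
    have := hj i₀ (Finset.mem_univ _)
    rw [h, map_zero] at this
    exact hi₀ ((Valuation.zero_iff _).mp (le_zero_iff.mp this))
  have hint : ∀ i, (g j)⁻¹ * g i ∈ O := by
    intro i
    rw [← ValuationSubring.valuation_le_one_iff, map_mul, map_inv₀,
      inv_mul_le_iff₀ (zero_lt_iff.mpr (by rwa [Ne, Valuation.zero_iff])), mul_one]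
    exact hj i (Finset.mem_univ _)
  have h1 : ∑ i, (⟨(g j)⁻¹ * g i, hint i⟩ : O) • u i = 0 := by
    apply gen_injective O
    rw [map_sum, map_zero]
    simp_rw [gen_smul, mul_smul]
    rw [← Finset.smul_sum, hg, smul_zero]
  have h2 : ∑ i, residue O (⟨(g j)⁻¹ * g i, hint i⟩ : O) • red O (u i) = 0 := by
    have := congrArg (red O) h1
    rw [map_sum, map_zero] at this
    simp_rw [red_smul] at this
    exact this
  have h3 := hu _ h2 j
  have h4 : (⟨(g j)⁻¹ * g j, hint j⟩ : O) = 1 := Subtype.ext (inv_mul_cancel₀ hgj)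
  rw [h4, map_one] at h3
  exact one_ne_zero h3

/-- **unimodular bases exist** -/
theorem exists_unimodular {m : ℕ} {w : Fin r → Ω ⊗[k] A} (hw : LinearIndependent Ω w)
    (hm : ∀ i, w i ∈ (C.baseChange Ω).Fil m) :
    ∃ (g : Matrix (Fin r) (Fin r) Ω) (u : Fin r → O ⊗[k] A), g.det ≠ 0 ∧
      (∀ i, gen O (u i) = ∑ j, g i j • w j) ∧
      LinearIndependent (ResidueField O) fun i => red O (u i) := by
  classical
  set CΩ := C.baseChange Ω with hCΩ
  have h1 := CΩ.minors_ne_zero hw hm
  obtain ⟨φ, hφ⟩ := exists_vval_eq O (CΩ.minors m w)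
  have hφ0 : CΩ.minors m w φ ≠ 0 := by
    intro h0
    apply h1
    ext ψ
    have := le_vval O (CΩ.minors m w) ψ
    rw [hφ, h0, map_zero, le_zero_iff, Valuation.zero_iff] at this
    exact this
  set M : Matrix (Fin r) (Fin r) Ω := Matrix.of fun i j => CΩ.coef (φ j) (w i) with hM
  have hdet : M.det ≠ 0 := hφ0
  have hunit : IsUnit M.det := isUnit_iff_ne_zero.mpr hdet
  let y : Fin r → Ω ⊗[k] A := fun i => ∑ j, M⁻¹ i j • w j
  have hycoef : ∀ i l, CΩ.coef l (y i) = (M⁻¹.mulVec fun j => CΩ.coef l (w j)) i := by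
    intro i l
    simp only [y, map_sum, map_smul, smul_eq_mul, Matrix.mulVec, dotProduct]
  have hyint : ∀ i m, CΩ.coef m (y i) ∈ O := by
    intro i l
    by_cases hl : m < l
    · have h2 : y i ∈ CΩ.Fil m :=
        Submodule.sum_mem _ fun j _ => Submodule.smul_mem _ _ (hm j)
      rw [h2 l hl]
      exact zero_mem O
    · have h2 : (M.updateCol i fun j => CΩ.coef l (w j)).det =
          CΩ.minors m w (Function.update φ i ⟨l, by omega⟩) := by
        rw [CurveAlg.minors]
        congr 1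
        ext a b
        rw [Matrix.updateCol_apply, Matrix.of_apply]
        by_cases hb : b = i
        · subst hb
          simp
        · rw [if_neg hb, Function.update_of_ne hb]
          rfl
      rw [hycoef, Matrix.inv_def, Matrix.smul_mulVec, Pi.smul_apply,
        ← Matrix.cramer_eq_adjugate_mulVec, Matrix.cramer_apply, h2, smul_eq_mul,
        ← ValuationSubring.valuation_le_one_iff, map_mul, Ring.inverse_eq_inv', map_inv₀,
        inv_mul_le_iff₀ (zero_lt_iff.mpr (by rwa [Ne, Valuation.zero_iff])), mul_one]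
      have h3 := le_vval O (CΩ.minors m w) (Function.update φ i ⟨l, by omega⟩)
      rw [hφ] at h3
      exact h3
  choose u hu using fun i => exists_gen_eq C O (y i) (hyint i)
  refine ⟨M⁻¹, u, ?_, hu, ?_⟩
  · rw [Matrix.det_nonsing_inv, Ring.inverse_eq_inv']
    exact inv_ne_zero hdet
  · have hpiv : ∀ i j, coefO C O (φ j) (u i) = if i = j then 1 else 0 := by
      intro i j
      apply Subtype.ext
      rw [← coef_gen, hu, hycoef]
      have h2 : (M⁻¹.mulVec fun a => CΩ.coef (φ j) (w a)) i = (M⁻¹ * M) i j := by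
        rw [Matrix.mul_apply]
        rfl
      rw [h2, Matrix.nonsing_inv_mul _ hunit, Matrix.one_apply]
      split_ifs <;> rfl
    rw [Fintype.linearIndependent_iff]
    intro g hg j
    have h2 := congrArg ((C.baseChange (ResidueField O)).coef (φ j)) hg
    rw [map_zero, map_sum] at h2
    simp_rw [map_smul, coef_red, hpiv, smul_eq_mul] at h2
    simpa [apply_ite (residue O)] using h2

include C in
theorem exists_unimodular_of_finrank {m : ℕ} {V : Submodule Ω (Ω ⊗[k] A)} (hr : finrank Ω V = r)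
    (hV : V ≤ (C.baseChange Ω).Fil m) :
    ∃ u : Fin r → O ⊗[k] A, (∀ i, gen O (u i) ∈ V) ∧
      LinearIndependent (ResidueField O) fun i => red O (u i) := by
  have hfin : Module.Finite Ω V := Submodule.finiteDimensional_of_le hV
  let b := Module.finBasisOfFinrankEq Ω V hr
  have hli : LinearIndependent Ω fun i => (b i : Ω ⊗[k] A) :=
    b.linearIndependent.map' V.subtype (Submodule.ker_subtype V)
  obtain ⟨g, u, -, hgu, hu⟩ := exists_unimodular C O hli (m := m) fun i => hV (b i).2
  refine ⟨u, fun i => ?_, hu⟩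
  rw [hgu]
  exact Submodule.sum_mem _ fun j _ => Submodule.smul_mem _ _ (b j).2

theorem span_eq_of_finrank {F M : Type*} [Field F] [AddCommGroup M] [Module F M]
    {V : Submodule F M} [Module.Finite F V] {u : Fin r → M} (hu : LinearIndependent F u)
    (hV : ∀ i, u i ∈ V) (hr : finrank F V = r) : Submodule.span F (Set.range u) = V := by
  apply Submodule.eq_of_le_of_finrank_eq
  · rw [Submodule.span_le]
    rintro _ ⟨i, rfl⟩
    exact hV i
  · rw [finrank_span_eq_card hu, hr, Fintype.card_fin]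

/-- minors of an enlarged family, in terms of an adapted unimodular one -/
theorem vval_minors_snoc {m : ℕ} {u : Fin r → Ω ⊗[k] A} {x : Ω ⊗[k] A}
    {u₀ : Fin r → O ⊗[k] A} {s₀ : O ⊗[k] A} {g : Matrix (Fin r) (Fin r) Ω} {c : Fin r → Ω} {l : Ω}
    (hu : ∀ i, u i = ∑ j, g i j • gen O (u₀ j)) (hx : x = ∑ j, c j • gen O (u₀ j) + l • gen O s₀)
    (hu₀ : ∀ i, gen O (u₀ i) ∈ (C.baseChange Ω).Fil m) (hs₀ : gen O s₀ ∈ (C.baseChange Ω).Fil m)
    (hli : LinearIndependent (ResidueField O)
      (Fin.snoc (fun i => red O (u₀ i)) (red O s₀) : Fin (r + 1) → ResidueField O ⊗[k] A)) :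
    vval O ((C.baseChange Ω).minors m u) = O.valuation g.det ∧
    vval O ((C.baseChange Ω).minors m (Fin.snoc u x : Fin (r + 1) → Ω ⊗[k] A)) =
      O.valuation g.det * O.valuation l := by
  have hli0 : LinearIndependent (ResidueField O) fun i => red O (u₀ i) :=
    (linearIndependent_finSnoc.mp hli).1
  constructor
  · have h1 : u = fun i => ∑ j, g i j • gen O (u₀ j) := funext hu
    rw [h1, CurveAlg.minors_lin, vval_smul, vval_minors_gen C O hli0 hu₀, mul_one]
  · let G : Matrix (Fin (r + 1)) (Fin (r + 1)) Ω :=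
      Matrix.of (Fin.snoc (fun i => (Fin.snoc (g i) 0 : Fin (r + 1) → Ω))
        (Fin.snoc c l : Fin (r + 1) → Ω) : Fin (r + 1) → Fin (r + 1) → Ω)
    let v : Fin (r + 1) → O ⊗[k] A := Fin.snoc u₀ s₀
    have hv : (fun i => red O (v i)) =
        (Fin.snoc (fun i => red O (u₀ i)) (red O s₀) : Fin (r + 1) → ResidueField O ⊗[k] A) := by
      funext i
      refine Fin.lastCases ?_ (fun i => ?_) i
      · simp [v]
      · simp [v]
    have hdet : G.det = g.det * l := by
      rw [Matrix.det_succ_column G (Fin.last r), Fin.sum_univ_castSucc]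
      have h1 : ∀ i : Fin r, G i.castSucc (Fin.last r) = 0 := fun i => by simp [G]
      have h2 : G (Fin.last r) (Fin.last r) = l := by simp [G]
      have h3 : G.submatrix (Fin.last r).succAbove (Fin.last r).succAbove = g := by
        ext i j
        simp [G]
      simp only [h1, h2, h3, mul_zero, zero_mul, Finset.sum_const_zero, zero_add]
      rw [Even.neg_one_pow ⟨_, rfl⟩, one_mul, mul_comm]
    have h1 : (Fin.snoc u x : Fin (r + 1) → Ω ⊗[k] A) = fun i => ∑ j, G i j • gen O (v j) := by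
      funext i
      rw [Fin.sum_univ_castSucc]
      refine Fin.lastCases ?_ (fun i => ?_) i
      · simp [G, v, hx]
      · simp [G, v, hu]
    rw [h1, CurveAlg.minors_lin, vval_smul, hdet, map_mul, vval_minors_gen C O, mul_one]
    · rw [hv]; exact hli
    · intro i
      refine Fin.lastCases ?_ (fun i => ?_) i
      · simpa [v] using hs₀
      · simpa [v] using hu₀ i

end unimodular

section mult

theorem mul_notMem_idl {K B : Type*} [Field K] [CommRing B] [Algebra K B] (C' : CurveAlg K B)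
    [IsAlgClosed K] [IsDedekindDomain B] {E E' : Multiset (B →ₐ[K] K)} {Q : B →ₐ[K] K} {s t : B}
    (hs : s ∈ idl E) (hs' : s ∉ idl (E + {Q})) (ht : t ∈ idl E') (ht' : t ∉ idl (E' + {Q})) :
    s * t ∉ idl (E + E' + {Q}) := by
  have hdom := C'.isDomain
  have hs0 : s ≠ 0 := by rintro rfl; exact hs' (Submodule.zero_mem _)
  have ht0 : t ≠ 0 := by rintro rfl; exact ht' (Submodule.zero_mem _)
  obtain ⟨R, hR, -⟩ := exists_rest C' hs0 hs
  obtain ⟨R', hR', -⟩ := exists_rest C' ht0 ht
  have h1 : dv C' s = E + R := dv_eq_of C' hR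
  have h2 : dv C' t = E' + R' := dv_eq_of C' hR'
  rw [mem_idl_iff C' hs0, h1, Multiset.add_le_add_iff_left, Multiset.singleton_le] at hs'
  rw [mem_idl_iff C' ht0, h2, Multiset.add_le_add_iff_left, Multiset.singleton_le] at ht'
  rw [mem_idl_iff C' (mul_ne_zero hs0 ht0), dv_mul C' hs0 ht0, h1, h2]
  have h3 : E + R + (E' + R') = E + E' + (R + R') := by abel
  rw [h3, Multiset.add_le_add_iff_left, Multiset.singleton_le, Multiset.mem_add]
  exact fun h => h.elim hs' ht'

theorem mul_notMem_Fil {K B : Type*} [Field K] [CommRing B] [Algebra K B] (C' : CurveAlg K B)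
    {m m' : ℕ} {s t : B} (hm : 1 ≤ m) (hm' : 1 ≤ m')
    (hs' : s ∉ C'.Fil (m - 1)) (ht' : t ∉ C'.Fil (m' - 1)) : s * t ∉ C'.Fil (m + m' - 1) := by
  have hs0 : s ≠ 0 := by rintro rfl; exact hs' (Submodule.zero_mem _)
  have ht0 : t ≠ 0 := by rintro rfl; exact ht' (Submodule.zero_mem _)
  rw [C'.mem_Fil_iff_deg_le] at hs' ht' ⊢
  rw [C'.deg_mul hs0 ht0]
  omega

end mult

section reductionL

variable [Infinite k] [IsAlgClosed Ω] [IsDedekindDomain (Ω ⊗[k] A)]
  [IsDedekindDomain (ResidueField O ⊗[k] A)]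

/-- reduction of a divisor -/
noncomputable def rD (E : Multiset (Ω ⊗[k] A →ₐ[Ω] Ω)) :
    Multiset (ResidueField O ⊗[k] A →ₐ[ResidueField O] ResidueField O) :=
  E.filterMap (redPt O)

theorem rD_add (E F : Multiset (Ω ⊗[k] A →ₐ[Ω] Ω)) : rD O (E + F) = rD O E + rD O F :=
  Multiset.filterMap_add _ _ _

theorem card_rD_le (E : Multiset (Ω ⊗[k] A →ₐ[Ω] Ω)) : (rD O E).card ≤ E.card := by
  unfold rD
  induction E using Multiset.induction_on with
  | empty => simp
  | cons P E ih =>
    rw [Multiset.card_cons]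
    cases h : redPt O P with
    | none => rw [Multiset.filterMap_cons_none _ _ h]; omega
    | some Q => rw [Multiset.filterMap_cons_some _ _ _ h, Multiset.card_cons]; omega

include C in
theorem span_red {a : O ⊗[k] A} (ha : red O a ≠ 0) {D : Multiset (Ω ⊗[k] A →ₐ[Ω] Ω)}
    (hD : Ideal.span {gen O a} = idl D) : Ideal.span {red O a} = idl (rD O D) :=
  span_bc_eq_idl O C (C.baseChange Ω) (C.baseChange (ResidueField O)) a ha hD

theorem red_mem {E : Multiset (Ω ⊗[k] A →ₐ[Ω] Ω)} {a : O ⊗[k] A} {m : ℕ}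
    (ha : gen O a ∈ (C.baseChange Ω).L (idl E) m) (hm : E.card ≤ m) :
    red O a ∈ (C.baseChange (ResidueField O)).L (idl (rD O E)) (m - E.card + (rD O E).card) := by
  have : IsAlgClosed (ResidueField O) := isAlgClosed_residueField O
  set Cκ := C.baseChange (ResidueField O) with hCκ
  by_cases h0 : red O a = 0
  · rw [h0]; exact Submodule.zero_mem _
  rw [CurveAlg.mem_L] at ha ⊢
  have hg := gen_ne_zero_of_red O h0
  obtain ⟨R, hR, hdeg⟩ := exists_rest (C.baseChange Ω) hg ha.1
  have h1 := span_red C O h0 hR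
  rw [rD_add] at h1
  have h2 : dv Cκ (red O a) = rD O E + rD O R := dv_eq_of Cκ h1
  constructor
  · rw [mem_idl_iff Cκ h0, h2]
    exact Multiset.le_add_right _ _
  · rw [Cκ.mem_Fil_iff_deg_le, ← card_dv Cκ _ h0, h2, Multiset.card_add]
    have h3 := card_rD_le O R
    have h4 := (C.baseChange Ω).mem_Fil_iff_deg_le.mp ha.2
    omega

/-- the reduction of a unimodular basis is a basis -/
theorem span_red_eq {E : Multiset (Ω ⊗[k] A →ₐ[Ω] Ω)} {m r : ℕ}
    (hm : E.card + C.cc ≤ m) (hr : r + E.card + C.genus = m + 1) {u : Fin r → O ⊗[k] A}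
    (hu : LinearIndependent (ResidueField O) fun i => red O (u i))
    (hmem : ∀ i, gen O (u i) ∈ (C.baseChange Ω).L (idl E) m) :
    Submodule.span (ResidueField O) (Set.range fun i => red O (u i)) =
      (C.baseChange (ResidueField O)).L (idl (rD O E)) (m - E.card + (rD O E).card) := by
  apply span_eq_of_finrank hu
  · intro i
    exact red_mem C O (hmem i) (by omega)
  · have h1 := finrank_L_idl (C.baseChange (ResidueField O)) (rD O E)
      (m := m - E.card + (rD O E).card) (by
        have : (C.baseChange (ResidueField O)).cc = C.cc := rfl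
        omega)
    have h2 : (C.baseChange (ResidueField O)).genus = C.genus := rfl
    omega

/-- **Adapted decomposition.** -/
theorem exists_adapted {E F : Multiset (Ω ⊗[k] A →ₐ[Ω] Ω)} {P : Ω ⊗[k] A →ₐ[Ω] Ω} {m r : ℕ}
    (hF : F = E + {P})
    (hm : E.card + 1 + C.cc ≤ m) (hr : r + E.card + C.genus = m)
    {u : Fin r → Ω ⊗[k] A}
    (hum : ∀ i, u i ∈ (C.baseChange Ω).L (idl F) m) {s : Ω ⊗[k] A}
    (hs : s ∈ (C.baseChange Ω).L (idl E) m) :
    ∃ (g : Matrix (Fin r) (Fin r) Ω) (u₀ : Fin r → O ⊗[k] A) (s₀ : O ⊗[k] A) (c : Fin r → Ω)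
      (l : Ω), (∀ i, gen O (u₀ i) ∈ (C.baseChange Ω).L (idl F) m) ∧
      gen O s₀ ∈ (C.baseChange Ω).L (idl E) m ∧ (∀ i, u i = ∑ j, g i j • gen O (u₀ j)) ∧
      s = ∑ j, c j • gen O (u₀ j) + l • gen O s₀ ∧
      LinearIndependent (ResidueField O)
      (Fin.snoc (fun i => red O (u₀ i)) (red O s₀) : Fin (r + 1) → ResidueField O ⊗[k] A) := by
  set CΩ := C.baseChange Ω with hCΩ
  have hcc : CΩ.cc = C.cc := rfl
  have hg : CΩ.genus = C.genus := rfl
  have hcE : F.card = E.card + 1 := by rw [hF]; simp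
  have hW : finrank Ω (CΩ.L (idl F) m) = r := by
    have h1 := finrank_L_idl CΩ F (m := m) (by rw [hcE]; omega)
    rw [hcE] at h1
    omega
  have hV : finrank Ω (CΩ.L (idl E) m) = r + 1 := by
    have h1 := finrank_L_idl CΩ E (m := m) (by omega)
    omega
  have hWV : CΩ.L (idl F) m ≤ CΩ.L (idl E) m :=
    CΩ.L_mono ((idl_le_idl_iff CΩ).mpr (by rw [hF]; exact Multiset.le_add_right _ _)) le_rfl
  obtain ⟨u₀, hu₀m, hu₀⟩ := exists_unimodular_of_finrank C O hW (CΩ.L_le_Fil _ m)
  obtain ⟨v, hvm, hv⟩ := exists_unimodular_of_finrank C O hV (CΩ.L_le_Fil _ m)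
  obtain ⟨i₀, hi₀⟩ : ∃ i, red O (v i) ∉
      Submodule.span (ResidueField O) (Set.range fun i => red O (u₀ i)) := by
    by_contra hcon
    push Not at hcon
    have h1 : Submodule.span (ResidueField O) (Set.range fun i => red O (v i)) ≤
        Submodule.span (ResidueField O) (Set.range fun i => red O (u₀ i)) := by
      rw [Submodule.span_le]
      rintro _ ⟨i, rfl⟩
      exact hcon i
    have hfin : Module.Finite (ResidueField O)
        (Submodule.span (ResidueField O) (Set.range fun i => red O (u₀ i))) :=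
      Module.Finite.span_of_finite _ (Set.finite_range _)
    have h2 := Submodule.finrank_mono h1
    rw [finrank_span_eq_card hv, finrank_span_eq_card hu₀, Fintype.card_fin,
      Fintype.card_fin] at h2
    omega
  have hsnoc : LinearIndependent (ResidueField O)
      (Fin.snoc (fun i => red O (u₀ i)) (red O (v i₀)) : Fin (r + 1) → ResidueField O ⊗[k] A) :=
    linearIndependent_finSnoc.mpr ⟨hu₀, hi₀⟩
  have hspanW := span_eq_of_finrank (linearIndependent_gen C O hu₀) hu₀m hW
  -- over `Ω`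
  have hsnocΩ : LinearIndependent Ω
      (Fin.snoc (fun i => gen O (u₀ i)) (gen O (v i₀)) : Fin (r + 1) → Ω ⊗[k] A) := by
    have h1 := linearIndependent_gen C O (u := (Fin.snoc u₀ (v i₀) : Fin (r + 1) → O ⊗[k] A))
      (by
        convert hsnoc using 1
        funext i
        refine Fin.lastCases ?_ (fun i => ?_) i <;> simp)
    convert h1 using 1
    funext i
    refine Fin.lastCases ?_ (fun i => ?_) i <;> simp
  have hspanV := span_eq_of_finrank hsnocΩ (V := CΩ.L (idl E) m) (fun i => by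
    refine Fin.lastCases ?_ (fun i => ?_) i
    · simpa using hvm i₀
    · simpa using hWV (hu₀m i)) hV
  have hs' := hs
  rw [← hspanV] at hs'
  obtain ⟨d, hd⟩ := (Submodule.mem_span_range_iff_exists_fun Ω).mp hs'
  have hu' : ∀ i, ∃ g : Fin r → Ω, ∑ j, g j • gen O (u₀ j) = u i := by
    intro i
    have := hum i
    rw [← hspanW] at this
    exact (Submodule.mem_span_range_iff_exists_fun Ω).mp this
  choose g hg' using hu'
  refine ⟨Matrix.of g, u₀, v i₀, fun i => d i.castSucc, d (Fin.last r), hu₀m, hvm i₀,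
    fun i => (hg' i).symm, ?_, hsnoc⟩
  rw [← hd, Fin.sum_univ_castSucc]
  simp

/-- the adapted element survives modulo the smaller space -/
theorem red_notMem {E F : Multiset (Ω ⊗[k] A →ₐ[Ω] Ω)} {P : Ω ⊗[k] A →ₐ[Ω] Ω} {m r : ℕ}
    (hF : F = E + {P}) (hm : E.card + 1 + C.cc ≤ m)
    (hr : r + E.card + C.genus = m) {u₀ : Fin r → O ⊗[k] A} {s₀ : O ⊗[k] A}
    (hu₀ : ∀ i, gen O (u₀ i) ∈ (C.baseChange Ω).L (idl F) m)
    (hli : LinearIndependent (ResidueField O)
      (Fin.snoc (fun i => red O (u₀ i)) (red O s₀) : Fin (r + 1) → ResidueField O ⊗[k] A)) :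
    red O s₀ ∉ (C.baseChange (ResidueField O)).L (idl (rD O F))
      (m - (E.card + 1) + (rD O F).card) := by
  obtain ⟨h3, h4⟩ := linearIndependent_finSnoc.mp hli
  have hc : F.card = E.card + 1 := by rw [hF]; simp
  have h1 := span_red_eq C O (E := F) (m := m) (r := r) (by rw [hc]; omega)
    (by rw [hc]; omega) h3 hu₀
  rw [hc] at h1
  rw [h1] at h4
  exact h4

theorem red_mul_notMem {E E' F F' F'' : Multiset (Ω ⊗[k] A →ₐ[Ω] Ω)} {P : Ω ⊗[k] A →ₐ[Ω] Ω}
    {m m' r r' : ℕ} (hF : F = E + {P}) (hF' : F' = E' + {P}) (hF'' : F'' = E + E' + {P})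
    (hm : E.card + 1 + C.cc ≤ m)
    (hr : r + E.card + C.genus = m) {u₀ : Fin r → O ⊗[k] A} {s₀ : O ⊗[k] A}
    (hu₀ : ∀ i, gen O (u₀ i) ∈ (C.baseChange Ω).L (idl F) m)
    (hs₀ : gen O s₀ ∈ (C.baseChange Ω).L (idl E) m)
    (hli : LinearIndependent (ResidueField O)
      (Fin.snoc (fun i => red O (u₀ i)) (red O s₀) : Fin (r + 1) → ResidueField O ⊗[k] A))
    (hm' : E'.card + 1 + C.cc ≤ m')
    (hr' : r' + E'.card + C.genus = m') {u₀' : Fin r' → O ⊗[k] A} {s₀' : O ⊗[k] A}
    (hu₀' : ∀ i, gen O (u₀' i) ∈ (C.baseChange Ω).L (idl F') m')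
    (hs₀' : gen O s₀' ∈ (C.baseChange Ω).L (idl E') m')
    (hli' : LinearIndependent (ResidueField O)
      (Fin.snoc (fun i => red O (u₀' i)) (red O s₀') : Fin (r' + 1) → ResidueField O ⊗[k] A)) :
    red O (s₀ * s₀') ∉ (C.baseChange (ResidueField O)).L (idl (rD O F''))
      (m + m' - (E.card + E'.card + 1) + (rD O F'').card) := by
  have : IsAlgClosed (ResidueField O) := isAlgClosed_residueField O
  set Cκ := C.baseChange (ResidueField O) with hCκ
  have hn := red_notMem C O hF hm hr hu₀ hli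
  have hn' := red_notMem C O hF' hm' hr' hu₀' hli'
  have hmem := red_mem C O hs₀ (by omega)
  have hmem' := red_mem C O hs₀' (by omega)
  have hc1 := card_rD_le O E
  have hc2 := card_rD_le O E'
  rw [map_mul]
  rw [CurveAlg.mem_L] at hmem hmem'
  cases hP : redPt O P with
  | some Q =>
    have hQ : ∀ E F : Multiset (Ω ⊗[k] A →ₐ[Ω] Ω), F = E + {P} → rD O F = rD O E + {Q} := by
      rintro E _ rfl
      rw [rD_add]
      congr 1
      exact Multiset.filterMap_cons_some _ _ _ hP
    have e1 := hQ _ _ hF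
    have e2 := hQ _ _ hF'
    have e3 := hQ _ _ hF''
    rw [rD_add] at e3
    have c1 : (rD O F).card = (rD O E).card + 1 := by rw [e1]; simp
    have c2 : (rD O F').card = (rD O E').card + 1 := by rw [e2]; simp
    rw [c1] at hn
    rw [c2] at hn'
    have h1 : red O s₀ ∉ idl (rD O E + {Q}) := by
      intro h
      apply hn
      rw [CurveAlg.mem_L, e1]
      exact ⟨h, Cκ.Fil_mono (by omega) hmem.2⟩
    have h2 : red O s₀' ∉ idl (rD O E' + {Q}) := by
      intro h
      apply hn'
      rw [CurveAlg.mem_L, e2]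
      exact ⟨h, Cκ.Fil_mono (by omega) hmem'.2⟩
    intro h
    rw [CurveAlg.mem_L, e3] at h
    exact mul_notMem_idl Cκ hmem.1 h1 hmem'.1 h2 h.1
  | none =>
    have hQ : ∀ E F : Multiset (Ω ⊗[k] A →ₐ[Ω] Ω), F = E + {P} → rD O F = rD O E := by
      rintro E _ rfl
      rw [rD_add]
      have : rD O {P} = 0 := Multiset.filterMap_cons_none _ _ hP
      rw [this, add_zero]
    have e1 := hQ _ _ hF
    have e2 := hQ _ _ hF'
    have e3 := hQ _ _ hF''
    rw [rD_add] at e3
    rw [e1] at hn
    rw [e2] at hn'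
    have c3 : (rD O F'').card = (rD O E).card + (rD O E').card := by rw [e3]; simp
    rw [c3]
    have h1 : red O s₀ ∉ Cκ.Fil (m - E.card + (rD O E).card - 1) := by
      intro h
      apply hn
      rw [CurveAlg.mem_L]
      exact ⟨hmem.1, Cκ.Fil_mono (by omega) h⟩
    have h2 : red O s₀' ∉ Cκ.Fil (m' - E'.card + (rD O E').card - 1) := by
      intro h
      apply hn'
      rw [CurveAlg.mem_L]
      exact ⟨hmem'.1, Cκ.Fil_mono (by omega) h⟩
    intro h
    rw [CurveAlg.mem_L] at h
    refine mul_notMem_Fil Cκ (by omega) (by omega) h1 h2 (Cκ.Fil_mono (by omega) h.2)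

end reductionL


section exact

open Ultra

variable [IsAlgClosed k] [CharZero k] [IsAlgClosed Ω] [IsDedekindDomain A]

include C in
theorem isDedekindDomain_residue : IsDedekindDomain (ResidueField O ⊗[k] A) := by
  have : IsAlgClosed (ResidueField O) := isAlgClosed_residueField O
  exact isDedekindDomain_baseChange C (ResidueField O)

theorem exact_aux {Γ : Type*} [CommMonoid Γ] (a b c l l' : Γ) :
    a * (l * l') * b * c = a * (b * l) * (c * l') := by
  simp only [mul_comm, mul_left_comm]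

/-- **additivity of local heights** -/
theorem exact_add {E E' F F' F'' : Multiset (Ω ⊗[k] A →ₐ[Ω] Ω)} {P : Ω ⊗[k] A →ₐ[Ω] Ω}
    {m m' r r' r'' : ℕ} (hF : F = E + {P}) (hF' : F' = E' + {P}) (hF'' : F'' = E + E' + {P})
    (hm : E.card + 1 + C.cc ≤ m) (hm' : E'.card + 1 + C.cc ≤ m')
    (hr : r + E.card + C.genus = m) (hr' : r' + E'.card + C.genus = m')
    (hr'' : r'' + E.card + E'.card + C.genus = m + m')
    {u : Fin r → Ω ⊗[k] A} (hu : ∀ i, u i ∈ (C.baseChange Ω).L (idl F) m)
    {s : Ω ⊗[k] A} (hs : s ∈ (C.baseChange Ω).L (idl E) m)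
    {u' : Fin r' → Ω ⊗[k] A} (hu' : ∀ i, u' i ∈ (C.baseChange Ω).L (idl F') m')
    {s' : Ω ⊗[k] A} (hs' : s' ∈ (C.baseChange Ω).L (idl E') m')
    {u'' : Fin r'' → Ω ⊗[k] A}
    (hu'' : ∀ i, u'' i ∈ (C.baseChange Ω).L (idl F'') (m + m')) :
    vval O ((C.baseChange Ω).minors (m + m')
        (Fin.snoc u'' (s * s') : Fin (r'' + 1) → Ω ⊗[k] A)) *
      vval O ((C.baseChange Ω).minors m u) * vval O ((C.baseChange Ω).minors m' u') =
    vval O ((C.baseChange Ω).minors (m + m') u'') *
      vval O ((C.baseChange Ω).minors m (Fin.snoc u s : Fin (r + 1) → Ω ⊗[k] A)) *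
      vval O ((C.baseChange Ω).minors m' (Fin.snoc u' s' : Fin (r' + 1) → Ω ⊗[k] A)) := by
  have : IsAlgClosed (ResidueField O) := isAlgClosed_residueField O
  have : IsDedekindDomain (Ω ⊗[k] A) := isDedekindDomain_baseChange C Ω
  have : IsDedekindDomain (ResidueField O ⊗[k] A) := isDedekindDomain_residue C O
  have : Infinite k := IsAlgClosed.instInfinite
  set CΩ := C.baseChange Ω with hCΩ
  have hcc : CΩ.cc = C.cc := rfl
  have hg : CΩ.genus = C.genus := rfl
  obtain ⟨g, u₀, s₀, c, l, hu₀, hs₀, hgu, hsc, hli⟩ := exists_adapted C O hF hm hr hu hs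
  obtain ⟨g', u₀', s₀', c', l', hu₀', hs₀', hgu', hsc', hli'⟩ :=
    exists_adapted C O hF' hm' hr' hu' hs'
  -- a unimodular basis of the third space
  have hcard : F''.card = E.card + E'.card + 1 := by rw [hF'']; simp
  have hW : finrank Ω (CΩ.L (idl F'') (m + m')) = r'' := by
    have h1 := finrank_L_idl CΩ F'' (m := m + m') (by rw [hcard]; omega)
    rw [hcard] at h1
    omega
  obtain ⟨u₀'', hu₀'', hli0''⟩ := exists_unimodular_of_finrank C O hW (CΩ.L_le_Fil _ _)
  have hspanW := span_eq_of_finrank (linearIndependent_gen C O hli0'') hu₀'' hW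
  have hprod := red_mul_notMem C O hF hF' hF'' hm hr hu₀ hs₀ hli hm' hr' hu₀' hs₀' hli'
  have hli'' : LinearIndependent (ResidueField O)
      (Fin.snoc (fun i => red O (u₀'' i)) (red O (s₀ * s₀')) :
        Fin (r'' + 1) → ResidueField O ⊗[k] A) := by
    refine linearIndependent_finSnoc.mpr ⟨hli0'', fun h => hprod ?_⟩
    have h1 := span_red_eq C O (E := F'') (m := m + m') (r := r'')
      (by rw [hcard]; omega) (by rw [hcard]; omega) hli0'' hu₀''
    rw [hcard] at h1
    rw [← h1]
    exact h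
  -- coordinates of the third family
  have hcoord : ∀ x ∈ CΩ.L (idl F'') (m + m'), ∃ g : Fin r'' → Ω,
      ∑ j, g j • gen O (u₀'' j) = x := by
    intro x hx
    rw [← hspanW] at hx
    exact (Submodule.mem_span_range_iff_exists_fun Ω).mp hx
  choose g'' hg'' using fun i => hcoord _ (hu'' i)
  have hw : ∑ j, c j • gen O (u₀ j) ∈ CΩ.L (idl F) m :=
    Submodule.sum_mem _ fun j _ => Submodule.smul_mem _ _ (hu₀ j)
  have hw' : ∑ j, c' j • gen O (u₀' j) ∈ CΩ.L (idl F') m' :=
    Submodule.sum_mem _ fun j _ => Submodule.smul_mem _ _ (hu₀' j)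
  have hss : s * s' - (l * l') • gen O (s₀ * s₀') ∈ CΩ.L (idl F'') (m + m') := by
    have h1 : s * s' - (l * l') • gen O (s₀ * s₀') =
        (∑ j, c j • gen O (u₀ j)) * s' + (l • gen O s₀) * (∑ j, c' j • gen O (u₀' j)) := by
      rw [map_mul, ← smul_mul_smul_comm, hsc, hsc']
      ring
    rw [h1]
    refine Submodule.add_mem _ ?_ ?_
    · have h2 := CΩ.L_mul hw hs'
      rw [← idl_add] at h2
      have h3 : F + E' = F'' := by rw [hF, hF'']; abel
      rwa [h3] at h2
    · have h2 := CΩ.L_mul (Submodule.smul_mem _ l hs₀) hw'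
      rw [← idl_add] at h2
      have h3 : E + F' = F'' := by rw [hF', hF'']; abel
      rwa [h3] at h2
  obtain ⟨c'', hc''⟩ := hcoord _ hss
  have H1 := vval_minors_snoc C O (m := m) hgu hsc (fun i => CΩ.L_le_Fil _ _ (hu₀ i))
    (CΩ.L_le_Fil _ _ hs₀) hli
  have H2 := vval_minors_snoc C O (m := m') hgu' hsc' (fun i => CΩ.L_le_Fil _ _ (hu₀' i))
    (CΩ.L_le_Fil _ _ hs₀') hli'
  have H3 := vval_minors_snoc C O (m := m + m') (u := u'') (x := s * s') (u₀ := u₀'')
    (s₀ := s₀ * s₀') (g := Matrix.of g'') (c := c'') (l := l * l')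
    (fun i => (hg'' i).symm) (by rw [hc'']; ring) (fun i => CΩ.L_le_Fil _ _ (hu₀'' i))
    (by
      have h1 := CΩ.L_mul hs₀ hs₀'
      rw [← map_mul] at h1
      exact CΩ.L_le_Fil _ _ h1) hli''
  rw [H1.1, H1.2, H2.1, H2.2, H3.1, H3.2, map_mul]
  exact exact_aux _ _ _ _ _

include C in
theorem linearIndependent_red_mul {ι : Type*} {f₀ : O ⊗[k] A} {v : ι → O ⊗[k] A}
    (hf₀ : red O f₀ ≠ 0) (hv : LinearIndependent (ResidueField O) fun i => red O (v i)) :
    LinearIndependent (ResidueField O) fun i => red O (f₀ * v i) := by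
  have hdom := (C.baseChange (ResidueField O)).isDomain
  have h3 : (fun i => red O (f₀ * v i)) =
      (LinearMap.mulLeft (ResidueField O) (red O f₀)) ∘ (fun i => red O (v i)) := by
    funext i
    simp [map_mul]
  rw [h3]
  exact hv.map' _ (LinearMap.ker_eq_bot.mpr (mul_right_injective₀ hf₀))

theorem vval_cvec_gen {d : ℕ} {f₀ : O ⊗[k] A} (hf₀ : red O f₀ ≠ 0)
    (hd : gen O f₀ ∈ (C.baseChange Ω).Fil d) : vval O (cvec (C.baseChange Ω) d (gen O f₀)) = 1 := by
  have h1 : ∃ l, residue O (coefO C O l f₀) ≠ 0 := by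
    by_contra hcon
    push Not at hcon
    apply hf₀
    apply (C.baseChange (ResidueField O)).ext_coef
    intro l
    rw [coef_red, hcon, map_zero]
  obtain ⟨l, hl⟩ := h1
  have hl' : l ≤ d := by
    by_contra hlt
    apply hl
    rw [(gen_mem_Fil C O).mp hd l (by omega), map_zero]
  rw [Ne, residue_eq_zero_iff, mem_maximalIdeal, mem_nonunits_iff, not_not] at hl
  have h2 : O.valuation (coefO C O l f₀ : Ω) = 1 := (ValuationSubring.valuation_eq_one_iff _ _).mp hl
  have h3 : ∀ j : Fin (d + 1),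
      cvec (C.baseChange Ω) d (gen O f₀) j = (coefO C O j f₀ : Ω) := fun j => by
    rw [cvec, coef_gen]
  rw [vval_eq_of_forall_le O _ (⟨l, by omega⟩ : Fin (d + 1))]
  · rw [h3]
    exact h2
  · intro j
    rw [h3, h3]
    show _ ≤ O.valuation (coefO C O l f₀ : Ω)
    rw [h2]
    exact ValuationSubring.valuation_le_one _ _

/-- **multiplication by a function** -/
theorem exact_mul {m d r : ℕ} {f : Ω ⊗[k] A} (hf : f ≠ 0) (hfd : f ∈ (C.baseChange Ω).Fil d)
    {u : Fin r → Ω ⊗[k] A} (hu : LinearIndependent Ω u)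
    (hum : ∀ i, u i ∈ (C.baseChange Ω).Fil m) :
    vval O ((C.baseChange Ω).minors (m + d) fun i => f * u i) =
      vval O (cvec (C.baseChange Ω) d f) ^ r * vval O ((C.baseChange Ω).minors m u) := by
  set CΩ := C.baseChange Ω with hCΩ
  obtain ⟨φ, f₀, hφ, hf₀, rfl⟩ := exists_primitive C O hf
  have hf₀d : gen O f₀ ∈ CΩ.Fil d := by
    have := (CΩ.Fil d).smul_mem φ⁻¹ hfd
    rwa [inv_smul_smul₀ hφ] at this
  obtain ⟨g, v, hg, hgv, hv⟩ := exists_unimodular C O hu hum
  have hvm : ∀ i, gen O (v i) ∈ CΩ.Fil m := fun i => by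
    rw [hgv]
    exact Submodule.sum_mem _ fun j _ => Submodule.smul_mem _ _ (hum j)
  have h1 : 1 = O.valuation g.det * vval O (CΩ.minors m u) := by
    rw [← vval_minors_gen C O hv hvm, ← vval_smul, ← CΩ.minors_lin]
    congr 2
    funext i
    exact hgv i
  have h2 : 1 = O.valuation (φ⁻¹ • g).det *
      vval O (CΩ.minors (m + d) fun i => (φ • gen O f₀) * u i) := by
    rw [← vval_minors_gen C O (linearIndependent_red_mul C O hf₀ hv) (m := m + d) (fun i => by
      rw [map_mul, add_comm]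
      exact CΩ.mul_mem_Fil hf₀d (hvm i)), ← vval_smul, ← CΩ.minors_lin]
    congr 2
    funext i
    rw [map_mul, hgv, Finset.mul_sum]
    refine Finset.sum_congr rfl fun j _ => ?_
    rw [Matrix.smul_apply, smul_eq_mul, smul_mul_assoc, smul_smul, mul_smul_comm]
    congr 1
    field_simp
  have h3 : vval O (cvec CΩ d (φ • gen O f₀)) = O.valuation φ := by
    have : cvec CΩ d (φ • gen O f₀) = φ • cvec CΩ d (gen O f₀) := by
      funext l
      simp [cvec]
    rw [this, vval_smul, vval_cvec_gen C O hf₀ hf₀d, mul_one]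
  rw [h3]
  rw [Matrix.det_smul, Fintype.card_fin, map_mul, map_pow, map_inv₀] at h2
  have hφ' : O.valuation φ ≠ 0 := by rwa [Ne, Valuation.zero_iff]
  have hg' : O.valuation g.det ≠ 0 := by rwa [Ne, Valuation.zero_iff]
  have h4 : O.valuation φ ^ r = O.valuation g.det *
      vval O (CΩ.minors (m + d) fun i => (φ • gen O f₀) * u i) := by
    have h5 : O.valuation φ ^ r ≠ 0 := pow_ne_zero _ hφ'
    calc O.valuation φ ^ r = O.valuation φ ^ r * 1 := (mul_one _).symm
      _ = O.valuation φ ^ r * ((O.valuation φ)⁻¹ ^ r * O.valuation g.det *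
        vval O (CΩ.minors (m + d) fun i => (φ • gen O f₀) * u i)) := by rw [← h2]
      _ = (O.valuation φ ^ r * (O.valuation φ)⁻¹ ^ r) * (O.valuation g.det *
        vval O (CΩ.minors (m + d) fun i => (φ • gen O f₀) * u i)) := by
          simp only [mul_assoc]
      _ = _ := by rw [← mul_pow, mul_inv_cancel₀ hφ', one_pow, one_mul]
  rw [h4, mul_right_comm, ← h1, one_mul]

theorem lin_gen {m : ℕ} (z : DV.Idx C m → ℕ) (a : O ⊗[k] A) :
    DV.lin (C.baseChange Ω) m (fun l => ((z l : ℕ) : Ω)) (gen O a) =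
      ((∑ l : DV.Idx C m, (z l : O) * coefO C O l.1 a : O) : Ω) := by
  rw [DV.lin_apply]
  push_cast
  refine Finset.sum_congr rfl fun l _ => ?_
  congr 1
  rw [← coef_gen]
  exact ((C.baseChange Ω).coef_coe l.1 _).symm

theorem lin_red {m : ℕ} (z : DV.Idx C m → ℕ) (a : O ⊗[k] A) :
    DV.lin (C.baseChange (ResidueField O)) m (fun l => ((z l : ℕ) : ResidueField O)) (red O a) =
      residue O (∑ l : DV.Idx C m, (z l : O) * coefO C O l.1 a) := by
  rw [DV.lin_apply, map_sum]
  refine Finset.sum_congr rfl fun l _ => ?_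
  rw [map_mul, map_natCast]
  congr 1
  rw [← coef_red]
  exact ((C.baseChange (ResidueField O)).coef_coe l.1 _).symm

/-- nonvanishing of the determinant vector, for families instead of bases -/
theorem exists_dvec_ne_zero {K B : Type*} [Field K] [CommRing B] [Algebra K B]
    (C' : CurveAlg K B) [IsAlgClosed K] [CharZero K] [IsDedekindDomain B] {n r : ℕ}
    (hr : r = DV.rk C' n) (hn : C'.cc ≤ n) {E E' : Multiset (B →ₐ[K] K)} {f : B} (hf0 : f ≠ 0)
    (hf : Ideal.span {f} = idl (E + E')) {u v : Fin r → B} (hu : LinearIndependent K u)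
    (hum : ∀ i, u i ∈ C'.L (idl E) (n + E.card)) (hv : LinearIndependent K v)
    (hvm : ∀ i, v i ∈ C'.L (idl E') (n + E'.card)) {c : Matrix (Fin r) (Fin r) B}
    (hc : ∀ i j, u i * v j = f * c i j) :
    ∃ z : DV.Idx C' (2 * n) → Fin (r + 1),
      (c.map (DV.lin C' (2 * n) fun l => ((z l : ℕ) : K))).det ≠ 0 := by
  subst hr
  have hcc : C'.genus ≤ C'.cc := by unfold CurveAlg.cc; omega
  have hb : ∀ (E : Multiset (B →ₐ[K] K)) (u : Fin (DV.rk C' n) → B) (_ : LinearIndependent K u)
      (_ : ∀ i, u i ∈ C'.L (idl E) (n + E.card)),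
      ∃ b : Basis (Fin (DV.rk C' n)) K (C'.L (idl E) (n + E.card)), ∀ i, (b i : B) = u i := by
    intro E u hu hum
    have h1 := finrank_L_idl C' E (m := n + E.card) (by omega)
    have h2 : finrank K (C'.L (idl E) (n + E.card)) = DV.rk C' n := by
      unfold DV.rk
      omega
    have hli : LinearIndependent K (fun i => (⟨u i, hum i⟩ : C'.L (idl E) (n + E.card))) :=
      LinearIndependent.of_comp (Submodule.subtype _) hu
    have hsp := hli.span_eq_top_of_card_eq_finrank' (by rw [h2, Fintype.card_fin])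
    refine ⟨Basis.mk hli hsp.ge, fun i => by rw [Basis.mk_apply]⟩
  obtain ⟨bu, hbu⟩ := hb E u hu hum
  obtain ⟨bv, hbv⟩ := hb E' v hv hvm
  let d : DV.HData C' n :=
    { E := E, E' := E', f := f, f_ne := hf0, hf := hf, u := bu, v := bv, c := c
      hc := fun i j => by rw [hbu, hbv]; exact hc i j }
  exact Function.ne_iff.mp d.dvec_ne_zero

theorem exact_kum_aux {n r : ℕ} (hr : r + C.genus = n + 1) (hn : C.cc ≤ n)
    {E E' F : Multiset (Ω ⊗[k] A →ₐ[Ω] Ω)} (hF : F = E + E') {f : Ω ⊗[k] A} (hf0 : f ≠ 0)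
    (hf : Ideal.span {f} = idl F) {u v : Fin r → Ω ⊗[k] A} (hu : LinearIndependent Ω u)
    (hum : ∀ i, u i ∈ (C.baseChange Ω).L (idl E) (n + E.card)) (hv : LinearIndependent Ω v)
    (hvm : ∀ i, v i ∈ (C.baseChange Ω).L (idl E') (n + E'.card))
    {c : Matrix (Fin r) (Fin r) (Ω ⊗[k] A)} (hc : ∀ i j, u i * v j = f * c i j) :
    vval O (fun z : (DV.Idx C (2 * n) → Fin (r + 1)) =>
      (c.map (DV.lin (C.baseChange Ω) (2 * n) fun l => ((z l : ℕ) : Ω))).det) *
      vval O (cvec (C.baseChange Ω) (E.card + E'.card) f) ^ r =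
      vval O ((C.baseChange Ω).minors (n + E.card) u) *
      vval O ((C.baseChange Ω).minors (n + E'.card) v) := by
  have : IsAlgClosed (ResidueField O) := isAlgClosed_residueField O
  have : IsDedekindDomain (Ω ⊗[k] A) := isDedekindDomain_baseChange C Ω
  have : IsDedekindDomain (ResidueField O ⊗[k] A) := isDedekindDomain_residue C O
  have : Infinite k := IsAlgClosed.instInfinite
  have : CharZero (ResidueField O) :=
    charZero_of_injective_algebraMap (algebraMap k (ResidueField O)).injective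
  set CΩ := C.baseChange Ω with hCΩ
  set Cκ := C.baseChange (ResidueField O) with hCκ
  -- normalize
  obtain ⟨φ, f₀, hφ, hf₀, rfl⟩ := exists_primitive C O hf0
  obtain ⟨g, u₀, hg, hgu, hu₀⟩ := exists_unimodular C O hu fun i => CΩ.L_le_Fil _ _ (hum i)
  obtain ⟨h, v₀, hh, hhv, hv₀⟩ := exists_unimodular C O hv fun i => CΩ.L_le_Fil _ _ (hvm i)
  have hu₀m : ∀ i, gen O (u₀ i) ∈ CΩ.L (idl E) (n + E.card) := fun i => by
    rw [hgu]
    exact Submodule.sum_mem _ fun j _ => Submodule.smul_mem _ _ (hum j)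
  have hv₀m : ∀ i, gen O (v₀ i) ∈ CΩ.L (idl E') (n + E'.card) := fun i => by
    rw [hhv]
    exact Submodule.sum_mem _ fun j _ => Submodule.smul_mem _ _ (hvm j)
  have h1 : 1 = O.valuation g.det * vval O (CΩ.minors (n + E.card) u) := by
    rw [← vval_minors_gen C O hu₀ fun i => CΩ.L_le_Fil _ _ (hu₀m i), ← vval_smul,
      ← CΩ.minors_lin]
    congr 2
    funext i
    exact hgu i
  have h2 : 1 = O.valuation h.det * vval O (CΩ.minors (n + E'.card) v) := by
    rw [← vval_minors_gen C O hv₀ fun i => CΩ.L_le_Fil _ _ (hv₀m i), ← vval_smul,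
      ← CΩ.minors_lin]
    congr 2
    funext i
    exact hhv i
  -- the integral matrix
  let x : Matrix (Fin r) (Fin r) (Ω ⊗[k] A) := fun i j =>
    φ • ∑ a, ∑ b, (g i a * h j b) • c a b
  have hx : ∀ i j, gen O f₀ * x i j = gen O (u₀ i * v₀ j) := by
    intro i j
    rw [map_mul, hgu, hhv, Finset.sum_mul_sum]
    show gen O f₀ * (φ • ∑ a, ∑ b, (g i a * h j b) • c a b) = _
    rw [mul_smul_comm, Finset.mul_sum, Finset.smul_sum]
    refine Finset.sum_congr rfl fun a _ => ?_
    rw [Finset.mul_sum, Finset.smul_sum]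
    refine Finset.sum_congr rfl fun b _ => ?_
    rw [smul_mul_smul_comm, hc, smul_mul_assoc, mul_smul_comm, smul_comm φ]
  choose c₀ hc₀ hc₀' using fun i j => exists_gen_eq_of_mul C O hf₀ (hx i j)
  -- special fibre
  have hspan : Ideal.span {gen O f₀} = idl F := by
    rw [← hf, Algebra.smul_def]
    exact (Ideal.span_singleton_mul_left_unit
      ((isUnit_iff_ne_zero.mpr hφ).map (algebraMap Ω (Ω ⊗[k] A))) _).symm
  have hredspan := span_red C O hf₀ hspan
  rw [hF, rD_add] at hredspan
  have hκu : ∀ i, red O (u₀ i) ∈ Cκ.L (idl (rD O E)) (n + (rD O E).card) := fun i => by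
    have := red_mem C O (hu₀m i) (by omega)
    rwa [Nat.add_sub_cancel] at this
  have hκv : ∀ i, red O (v₀ i) ∈ Cκ.L (idl (rD O E')) (n + (rD O E').card) := fun i => by
    have := red_mem C O (hv₀m i) (by omega)
    rwa [Nat.add_sub_cancel] at this
  have hrk : r = DV.rk Cκ n := by
    have : DV.rk Cκ n = n + 1 - C.genus := rfl
    omega
  obtain ⟨z₀, hz₀⟩ := exists_dvec_ne_zero Cκ hrk hn hf₀ hredspan hu₀ hκu hv₀ hκv
    (c := fun i j => red O (c₀ i j)) (fun i j => by rw [← map_mul, ← map_mul, hc₀'])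
  let D : (DV.Idx C (2 * n) → Fin (r + 1)) → O := fun z =>
    (Matrix.of fun i j => ∑ l : DV.Idx C (2 * n), (((z l : ℕ)) : O) * coefO C O l.1 (c₀ i j)).det
  let dv : (DV.Idx C (2 * n) → Fin (r + 1)) → Ω := fun z =>
    (c.map (DV.lin CΩ (2 * n) fun l => ((z l : ℕ) : Ω))).det
  have hD1 : ∀ z : DV.Idx C (2 * n) → Fin (r + 1),
      (D z : Ω) = (x.map (DV.lin CΩ (2 * n) fun l => ((z l : ℕ) : Ω))).det := by
    intro z
    have h3 : (x.map (DV.lin CΩ (2 * n) fun l => ((z l : ℕ) : Ω))) =
        (Matrix.of fun i j => ∑ l : DV.Idx C (2 * n),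
          (((z l : ℕ)) : O) * coefO C O l.1 (c₀ i j)).map O.subtype := by
      ext i j
      rw [Matrix.map_apply, Matrix.map_apply, Matrix.of_apply, ← hc₀]
      exact lin_gen C O (fun l => (z l : ℕ)) (c₀ i j)
    rw [h3, ← RingHom.mapMatrix_apply, ← RingHom.map_det]
    rfl
  have hD2 : IsUnit (D z₀) := by
    have h3 : ((Matrix.of fun i j => red O (c₀ i j)).map
        (DV.lin Cκ (2 * n) fun l => ((z₀ l : ℕ) : ResidueField O))) =
        (Matrix.of fun i j => ∑ l : DV.Idx C (2 * n),
          (((z₀ l : ℕ)) : O) * coefO C O l.1 (c₀ i j)).map (residue O) := by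
      ext i j
      rw [Matrix.map_apply, Matrix.map_apply, Matrix.of_apply, Matrix.of_apply]
      exact lin_red C O (fun l => (z₀ l : ℕ)) (c₀ i j)
    have h4 : residue O (D z₀) ≠ 0 := by
      have h5 := hz₀
      change ((Matrix.of fun i j => red O (c₀ i j)).map
        (DV.lin Cκ (2 * n) fun l => ((z₀ l : ℕ) : ResidueField O))).det ≠ 0 at h5
      rw [h3, ← RingHom.mapMatrix_apply, ← RingHom.map_det] at h5
      exact h5
    rwa [Ne, residue_eq_zero_iff, mem_maximalIdeal, mem_nonunits_iff, not_not] at h4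
  have hD3 : ∀ z, (D z : Ω) = (φ ^ r * g.det * h.det) * dv z := by
    intro z
    rw [hD1]
    have h3 : (x.map (DV.lin CΩ (2 * n) fun l => ((z l : ℕ) : Ω))) =
        φ • (g * c.map (DV.lin CΩ (2 * n) fun l => ((z l : ℕ) : Ω)) * h.transpose) := by
      ext i j
      rw [Matrix.map_apply, Matrix.smul_apply, Matrix.mul_apply]
      show DV.lin CΩ (2 * n) _ (φ • ∑ a, ∑ b, (g i a * h j b) • c a b) = _
      rw [map_smul, map_sum]
      simp_rw [map_sum, map_smul, smul_eq_mul, Matrix.mul_apply, Finset.sum_mul,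
        Matrix.transpose_apply, Matrix.map_apply]
      congr 1
      rw [Finset.sum_comm]
      refine Finset.sum_congr rfl fun a _ => Finset.sum_congr rfl fun b _ => ?_
      ring
    rw [h3, Matrix.det_smul, Matrix.det_mul, Matrix.det_mul, Matrix.det_transpose,
      Fintype.card_fin]
    ring
  have hV : 1 = O.valuation (φ ^ r * g.det * h.det) * vval O dv := by
    rw [← vval_smul]
    have h3 : (φ ^ r * g.det * h.det) • dv = fun z => (D z : Ω) := by
      funext z
      exact (hD3 z).symm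
    have h4 : O.valuation (D z₀ : Ω) = 1 := (ValuationSubring.valuation_eq_one_iff _ _).mp hD2
    have h5 : vval O (fun z => (D z : Ω)) = O.valuation (D z₀ : Ω) :=
      vval_eq_of_forall_le O (fun z => (D z : Ω)) z₀ (fun z => by
        rw [h4]
        exact ValuationSubring.valuation_le_one _ _)
    rw [h3]
    exact (h5.trans h4).symm
  have hcv : vval O (cvec CΩ (E.card + E'.card) (φ • gen O f₀)) = O.valuation φ := by
    have h3 : cvec CΩ (E.card + E'.card) (φ • gen O f₀) =
        φ • cvec CΩ (E.card + E'.card) (gen O f₀) := by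
      funext l
      simp [cvec]
    rw [h3, vval_smul, vval_cvec_gen C O hf₀, mul_one]
    rw [CΩ.mem_Fil_iff_deg_le, ← card_dv CΩ _ (gen_ne_zero_of_red O hf₀), dv_eq_of CΩ hspan, hF,
      Multiset.card_add]
  rw [hcv]
  show vval O dv * _ = _
  rw [map_mul, map_mul, map_pow] at hV
  generalize vval O dv = V at *
  generalize O.valuation φ ^ r = a at *
  generalize O.valuation g.det = b at *
  generalize O.valuation h.det = c at *
  generalize vval O (CΩ.minors (n + E.card) u) = U at *
  generalize vval O (CΩ.minors (n + E'.card) v) = W at *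
  calc V * a = V * a * (1 * 1) := by rw [mul_one, mul_one]
    _ = V * a * ((b * U) * (c * W)) := by rw [← h1, ← h2]
    _ = (a * b * c * V) * (U * W) := by ac_rfl
    _ = U * W := by rw [← hV, one_mul]

theorem exact_kum {n : ℕ} (hn : C.cc ≤ n) (d : DV.HData (C.baseChange Ω) n) :
    vval O d.dvec * vval O (cvec (C.baseChange Ω) (d.E.card + d.E'.card) d.f) ^
        (DV.rk (C.baseChange Ω) n) =
      vval O ((C.baseChange Ω).minors (n + d.E.card) fun i => (d.u i : Ω ⊗[k] A)) *
      vval O ((C.baseChange Ω).minors (n + d.E'.card) fun i => (d.v i : Ω ⊗[k] A)) := by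
  have hcc : C.genus ≤ C.cc := by unfold CurveAlg.cc; omega
  have hrk : DV.rk (C.baseChange Ω) n + C.genus = n + 1 := by
    have : DV.rk (C.baseChange Ω) n = n + 1 - C.genus := rfl
    omega
  obtain ⟨F, hF⟩ : ∃ F, F = d.E + d.E' := ⟨_, rfl⟩
  exact exact_kum_aux C O hrk hn hF d.f_ne (by rw [hF]; exact d.hf)
    (d.u.linearIndependent.map' _ (Submodule.ker_subtype _)) (fun i => (d.u i).2)
    (d.v.linearIndependent.map' _ (Submodule.ker_subtype _)) (fun i => (d.v i).2)
    (c := d.c) d.hc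

/-- **The exact identities hold.** -/
theorem exact_baseChange : Exact (C.baseChange Ω) O where
  add := by
    intro m m' E E' P r r' r'' u u' u'' s s' hB hB' hB'' hs _ hs' _
    have h1 := hB.fr
    have h2 := hB'.fr
    have h3 := hB''.fr
    have l1 := hB.le
    have l2 := hB'.le
    simp only [Multiset.card_add, Multiset.card_singleton] at h1 h2 h3 l1 l2
    have hg : (C.baseChange Ω).genus = C.genus := rfl
    have hcc : (C.baseChange Ω).cc = C.cc := rfl
    exact exact_add C O rfl rfl rfl (by omega) (by omega) (by omega) (by omega) (by omega)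
      hB.mem hs hB'.mem hs' hB''.mem
  prin := by
    intro m E F f r u hf hF hB
    have : IsDedekindDomain (Ω ⊗[k] A) := isDedekindDomain_baseChange C Ω
    refine exact_mul C O hf ?_ hB.li fun i => (C.baseChange Ω).L_le_Fil _ _ (hB.mem i)
    rw [(C.baseChange Ω).mem_Fil_iff_deg_le, ← card_dv _ _ hf, dv_eq_of _ hF]
  kum := fun n d hn => exact_kum C O hn d

end exact

/-- the exact identities, with a hypothesis `k ⊆ O` instead of an algebra structure. -/
theorem exact_of_forall_mem {k A : Type*} [Field k] [CommRing A] [Algebra k A]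
    (C : CurveAlg k A) {Ω : Type*} [Field Ω] [Algebra k Ω] (O : ValuationSubring Ω)
    [IsAlgClosed k] [CharZero k] [IsAlgClosed Ω] [IsDedekindDomain A]
    (hO : ∀ x : k, algebraMap k Ω x ∈ O) : Exact (C.baseChange Ω) O := by
  let _ := valAlgebra k O hO
  have := valAlgebra_isScalarTower k O hO
  exact exact_baseChange C O

end Fermat.Agent.MW
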