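import Fermat.Agent.MW.Points

/-!
# Finiteness properties of curve algebras: finite over `k[x]`, finite type, Noetherian,
dimension one; a criterion for Dedekind.
-/

set_option autoImplicit false

open Module

namespace Fermat.Agent.MW

namespace CurveAlg

variable {k A : Type*} [Field k] [CommRing A] [Algebra k A] (C : CurveAlg k A)

theorem Fil_le_span (m : ℕ) : C.Fil m ≤ Submodule.span k (C.b '' {l : C.S | (l : ℕ) ≤ m}) := by
  intro a ha
  rw [← C.b.linearCombination_repr a, Finsupp.linearCombination_apply, Finsupp.sum]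
  refine Submodule.sum_mem _ fun l hl => Submodule.smul_mem _ _ (Submodule.subset_span ⟨l, ?_, rfl⟩)
  by_contra hlt
  simp only [Set.mem_ofPred_eq, not_le] at hlt
  rw [Finsupp.mem_support_iff, ← C.coef_coe] at hl
  exact hl (ha l hlt)

theorem eq_smul_b_add {n : ℕ} (hn : n + 1 ∈ C.S) {a : A} (ha : a ∈ C.Fil (n + 1)) :
    a - C.coef (n + 1) a • C.b ⟨n + 1, hn⟩ ∈ C.Fil n := by
  intro l hl
  rw [map_sub, map_smul, C.coef_b]
  rcases Nat.lt_or_ge (n + 1) l with h | h
  · rw [ha l h, if_neg (by simp only; omega)]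
    simp
  · have : l = n + 1 := by omega
    subst this
    rw [if_pos rfl]
    simp

theorem mem_Fil_of_coef_eq_zero {n : ℕ} {a : A} (ha : a ∈ C.Fil (n + 1))
    (h : C.coef (n + 1) a = 0) : a ∈ C.Fil n := by
  intro l hl
  rcases Nat.lt_or_ge (n + 1) l with h' | h'
  · exact ha l h'
  · have : l = n + 1 := by omega
    subst this
    exact h

/-- reduce the top coefficient -/
theorem sub_smul_mem_Fil {n : ℕ} {a c : A} (ha : a ∈ C.Fil (n + 1)) (hc : c ∈ C.Fil (n + 1))
    (hc0 : C.coef (n + 1) c ≠ 0) :
    a - (C.coef (n + 1) a / C.coef (n + 1) c) • c ∈ C.Fil n := by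
  apply C.mem_Fil_of_coef_eq_zero
  · exact Submodule.sub_mem _ ha (Submodule.smul_mem _ _ hc)
  · rw [map_sub, map_smul, smul_eq_mul, div_mul_cancel₀ _ hc0, sub_self]

/-- a subset of `A` containing `Fil m₀` and closed under suitable operations is everything -/
theorem top_le_of_step (N : Submodule k A) (m₀ : ℕ) (h0 : C.Fil m₀ ≤ N)
    (hstep : ∀ n, m₀ ≤ n → C.Fil n ≤ N → ∃ c ∈ N, c ∈ C.Fil (n + 1) ∧ C.coef (n + 1) c ≠ 0) :
    ∀ a, a ∈ N := by
  have key : ∀ n, m₀ ≤ n → C.Fil n ≤ N := by
    intro n hn
    induction n, hn using Nat.le_induction with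
    | base => exact h0
    | succ n hn ih =>
      intro a ha
      obtain ⟨c, hcN, hc, hc0⟩ := hstep n hn ih
      have h1 := ih (C.sub_smul_mem_Fil ha hc hc0)
      have h2 : a = (a - (C.coef (n + 1) a / C.coef (n + 1) c) • c)
        + (C.coef (n + 1) a / C.coef (n + 1) c) • c := by ring
      rw [h2]
      exact N.add_mem h1 (N.smul_mem _ hcN)
  intro a
  exact key (max m₀ (C.deg a)) (le_max_left _ _) (C.Fil_mono (le_max_right _ _) (C.mem_Fil_deg a))

/-- `A` is finite over `k[x]` for nonconstant `x`. -/
theorem finite_aeval {x : A} (hx : 0 < C.deg x) :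
    ((Polynomial.aeval x : Polynomial k →ₐ[k] A) : Polynomial k →+* A).Finite := by
  let : Algebra (Polynomial k) A :=
    ((Polynomial.aeval x : Polynomial k →ₐ[k] A) : Polynomial k →+* A).toAlgebra
  have hsmul : ∀ (p : Polynomial k) (a : A), p • a = Polynomial.aeval x p * a := fun p a => rfl
  have hx0 : x ≠ 0 := by
    rintro rfl
    simp at hx
  set d := C.deg x with hd
  let s : Set A := C.b '' {l : C.S | (l : ℕ) ≤ d + C.cond}
  have hs : s.Finite := (C.finite_le _).image _
  refine ⟨⟨hs.toFinset, ?_⟩⟩
  rw [Set.Finite.coe_toFinset, eq_top_iff]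
  intro a _
  let N : Submodule k A :=
    { carrier := (Submodule.span (Polynomial k) s : Set A)
      zero_mem' := Submodule.zero_mem _
      add_mem' := fun ha hb => Submodule.add_mem _ ha hb
      smul_mem' := fun c a ha => by
        have : c • a = (Polynomial.C c : Polynomial k) • a := by
          rw [hsmul, Polynomial.aeval_C, Algebra.smul_def]
        rw [this]
        exact Submodule.smul_mem _ _ ha }
  have hN : ∀ a, a ∈ N ↔ a ∈ Submodule.span (Polynomial k) s := fun _ => Iff.rfl
  rw [← hN]
  refine C.top_le_of_step N (d + C.cond) ?_ ?_ a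
  · refine (C.Fil_le_span _).trans ?_
    rw [Submodule.span_le]
    intro y hy
    exact (hN y).mpr (Submodule.subset_span hy)
  · intro n hn hle
    have hj : n + 1 - d ∈ C.S := C.mem_of_cond_le (by omega)
    have hbj : C.b ⟨n + 1 - d, hj⟩ ∈ N :=
      hle (C.Fil_mono (by simp only; omega) (C.b_mem_Fil _))
    have hdeg : C.deg (x * C.b ⟨n + 1 - d, hj⟩) = n + 1 := by
      rw [C.deg_mul hx0 (C.b.ne_zero _), C.deg_b, ← hd]
      simp only
      omega
    refine ⟨x * C.b ⟨n + 1 - d, hj⟩, ?_, ?_, ?_⟩
    · rw [hN] at hbj ⊢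
      have : x * C.b ⟨n + 1 - d, hj⟩ = (Polynomial.X : Polynomial k) • C.b ⟨n + 1 - d, hj⟩ := by
        rw [hsmul, Polynomial.aeval_X]
      rw [this]
      exact Submodule.smul_mem _ _ hbj
    · rw [C.mem_Fil_iff_deg_le, hdeg]
    · have := C.coef_deg_ne_zero (C.mul_ne_zero' hx0 (C.b.ne_zero ⟨n + 1 - d, hj⟩))
      rwa [hdeg] at this

include C in
theorem finiteType : Algebra.FiniteType k A := by
  obtain ⟨l, hl⟩ := exists_pos_deg C
  have h1 : 0 < C.deg (C.b l) := by rwa [C.deg_b]
  have h2 := (C.finite_aeval h1).finiteType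
  have h3 : ((Polynomial.aeval (C.b l) : Polynomial k →ₐ[k] A) : Polynomial k →+* A).comp
    (algebraMap k (Polynomial k)) = algebraMap k A := by
    ext c
    simp
  have h4 : (algebraMap k (Polynomial k)).FiniteType :=
    (RingHom.finiteType_algebraMap).mpr inferInstance
  have h5 := h2.comp h4
  rw [h3] at h5
  exact (RingHom.finiteType_algebraMap).mp h5

include C in
theorem isNoetherianRing : IsNoetherianRing A := by
  have := C.finiteType
  exact Algebra.FiniteType.isNoetherianRing k A

include C in
theorem isMaximal_of_isPrime {p : Ideal A} (hp0 : p ≠ ⊥) (hp : p.IsPrime) : p.IsMaximal := by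
  have hfin := C.finite_quotient hp0
  have hint : Algebra.IsIntegral k (A ⧸ p) := Algebra.IsIntegral.of_finite k _
  have hdom : IsDomain (A ⧸ p) := Ideal.Quotient.isDomain p
  exact Ideal.Quotient.maximal_of_isField p
    ((Algebra.IsIntegral.isField_iff_isField (FaithfulSMul.algebraMap_injective k (A ⧸ p))).mp
      (Field.toIsField k))

include C in
/-- a curve algebra over an algebraically closed field such that all point ideals are locally
principal is a Dedekind domain -/
theorem isDedekindDomain_of [IsAlgClosed k]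
    (h : ∀ P : A →ₐ[k] k, ∃ t d : A, P t = 0 ∧ P d ≠ 0 ∧ ∀ x, P x = 0 → t ∣ d * x) :
    IsDedekindDomain A := by
  have hdom := C.isDomain
  have hnoeth := C.isNoetherianRing
  have : IsDedekindDomainDvr A :=
    { toIsNoetherian := hnoeth
      is_dvr_at_nonzero_prime := by
        intro M hM0 hM
        have hMmax := C.isMaximal_of_isPrime hM0 hM
        obtain ⟨P, hP⟩ := exists_pt_of_isMaximal C M
        obtain ⟨t, d, ht, hd, hx⟩ := h P
        let R := Localization.AtPrime M
        have hnf : ¬ IsField R := IsLocalization.AtPrime.not_isField A hM0 R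
        suffices (IsLocalRing.maximalIdeal R).IsPrincipal from
          ((IsDiscreteValuationRing.TFAE R hnf).out 4 0).mp this
        refine ⟨algebraMap A R t, ?_⟩
        rw [← Localization.AtPrime.map_eq_maximalIdeal]
        apply le_antisymm
        · rw [Ideal.map_le_iff_le_comap]
          intro x hxM
          rw [Ideal.mem_comap]
          rw [hP, RingHom.mem_ker] at hxM
          obtain ⟨y, hy⟩ := hx x hxM
          have hdM : d ∈ M.primeCompl := by
            show d ∉ M
            rw [hP, RingHom.mem_ker]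
            exact hd
          have hunit : IsUnit (algebraMap A R d) := IsLocalization.map_units R ⟨d, hdM⟩
          obtain ⟨u, hu⟩ := hunit
          rw [Ideal.submodule_span_eq, Ideal.mem_span_singleton]
          refine ⟨(↑u⁻¹ : R) * algebraMap A R y, ?_⟩
          have h1 : algebraMap A R d * algebraMap A R x = algebraMap A R t * algebraMap A R y := by
            rw [← map_mul, hy, map_mul]
          rw [← hu] at h1
          calc algebraMap A R x = (↑u⁻¹ : R) * (↑u * algebraMap A R x) := by
                rw [← mul_assoc, Units.inv_mul, one_mul]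
            _ = (↑u⁻¹ : R) * (algebraMap A R t * algebraMap A R y) := by rw [h1]
            _ = algebraMap A R t * ((↑u⁻¹ : R) * algebraMap A R y) := by ring
        · rw [Ideal.submodule_span_eq, Ideal.span_singleton_le_iff_mem]
          apply Ideal.mem_map_of_mem
          rw [hP, RingHom.mem_ker]
          exact ht }
  infer_instance

end CurveAlg

/-- In a Dedekind curve algebra point ideals are locally principal. -/
theorem exists_local_param {k A : Type*} [Field k] [CommRing A] [Algebra k A] (C : CurveAlg k A)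
    [IsAlgClosed k] [IsDedekindDomain A] (P : A →ₐ[k] k) :
    ∃ t d : A, P t = 0 ∧ P d ≠ 0 ∧ ∀ x, P x = 0 → t ∣ d * x := by
  classical
  obtain ⟨t, htL, -, ht0, ht⟩ := exists_avoid C {P} {P} (m := 1 + C.cc + 1)
    (by rw [Multiset.card_singleton])
  rw [C.mem_L] at htL
  obtain ⟨R, hR, -⟩ := exists_rest C ht0 htL.1
  have hPR : P ∉ R := by
    intro hPR
    apply ht P (Finset.mem_singleton_self P)
    rw [mem_idl_iff C ht0, dv_eq_of C hR]
    obtain ⟨R', rfl⟩ := Multiset.exists_cons_of_mem hPR
    rw [Multiset.singleton_add, Multiset.cons_le_cons_iff, Multiset.singleton_le]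
    exact Multiset.mem_cons_self P R'
  obtain ⟨d, hdL, -, hd0, hd⟩ := exists_avoid C R {P} (m := R.card + C.cc + 1) le_rfl
  rw [C.mem_L] at hdL
  refine ⟨t, d, ?_, ?_, ?_⟩
  · have := htL.1
    rwa [idl_singleton, RingHom.mem_ker] at this
  · intro h
    apply hd P (Finset.mem_singleton_self P)
    rw [mem_idl_iff C hd0] at hdL ⊢
    rw [mem_ker_iff_mem_dv C hd0] at h
    exact (Multiset.cons_le_of_notMem hPR).mpr ⟨h, hdL.1⟩
  · intro x hx
    rw [← Ideal.mem_span_singleton, hR, Multiset.singleton_add, mul_comm]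
    exact cons_mem_idl_of hdL.1 hx

end Fermat.Agent.MW
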