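import Mathlib

/-!
# The formal parallelogram law (team MW, helper39)

Pure abelian group algebra: from the "determinant of cohomology" identities (additivity of
`H m (E + P) - H m E` in `(m, E)` and the behaviour under multiplication by a function) we derive
the parallelogram law.
-/

set_option autoImplicit false

namespace Fermat.Agent.MW.Quad

variable {X Q : Type*} [AddCommGroup Q]

/-- A system of "determinant heights". -/
structure HSystem (X Q : Type*) [AddCommGroup Q] (c : ℕ) where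
  /-- the height of the space of functions with poles of order `≤ m` vanishing on `E` -/
  H : ℕ → Multiset X → Q
  zero : ∀ m, c ≤ m → H m 0 = 0
  add : ∀ (m m' : ℕ) (E E' : Multiset X) (P : X), E.card + c ≤ m → E'.card + c ≤ m' →
    H (m + m') (E + E' + {P}) - H (m + m') (E + E') =
      (H m (E + {P}) - H m E) + (H m' (E' + {P}) - H m' E')

namespace HSystem

variable {c : ℕ} (S : HSystem X Q c)

/-- `F` is the zero divisor of a function with "height" `η`. -/
def Prin (g : ℤ) (F : Multiset X) (η : Q) : Prop :=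
  ∀ (m : ℕ) (E : Multiset X), E.card + c ≤ m →
    S.H (m + F.card) (E + F) = ((m : ℤ) + 1 - g - E.card) • η + S.H m E

def δ (m : ℕ) (E : Multiset X) (P : X) : Q := S.H m (E + {P}) - S.H m E

theorem δ_add (m m' : ℕ) (E E' : Multiset X) (P : X) (h : E.card + c ≤ m)
    (h' : E'.card + c ≤ m') : S.δ (m + m') (E + E') P = S.δ m E P + S.δ m' E' P :=
  S.add m m' E E' P h h'

def a (P : X) : Q := S.δ (c + 1) 0 P - S.δ c 0 P

theorem δ_succ_zero (m : ℕ) (hm : c ≤ m) (P : X) : S.δ (m + 1) 0 P = S.δ m 0 P + S.a P := by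
  have h1 := S.δ_add (m + 1) c 0 0 P (by simp; omega) (by simp)
  have h2 := S.δ_add m (c + 1) 0 0 P (by simpa using hm) (by simp)
  have h3 : m + 1 + c = m + (c + 1) := by ring
  rw [h3, h2] at h1
  have h4 : S.δ (m + 1) 0 P = S.δ m 0 P + S.δ (c + 1) 0 P - S.δ c 0 P :=
    eq_sub_of_add_eq h1.symm
  rw [h4, a]
  abel

theorem δ_add_zero (j : ℕ) (P : X) : S.δ (c + j) 0 P = S.δ c 0 P + (j : ℤ) • S.a P := by
  induction j with
  | zero => simp
  | succ j ih =>
    rw [← add_assoc, S.δ_succ_zero _ (by omega), ih]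
    push_cast
    rw [add_smul, one_smul]
    abel

theorem δ_zero (m : ℕ) (hm : c ≤ m) (P : X) : S.δ m 0 P = (m : ℤ) • S.a P := by
  have h0 : S.δ c 0 P = (c : ℤ) • S.a P := by
    have h1 := S.δ_add c c 0 0 P (by simp) (by simp)
    rw [add_zero, S.δ_add_zero c P] at h1
    exact (add_left_cancel h1).symm
  obtain ⟨j, rfl⟩ := Nat.exists_eq_add_of_le hm
  rw [S.δ_add_zero, h0]
  push_cast
  rw [add_smul]

def b (R P : X) : Q := ((c + 1 : ℕ) : ℤ) • S.a P - S.δ (c + 1) {R} P

theorem b_comm (R P : X) : S.b R P = S.b P R := by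
  have h1 : ∀ P : X, S.H (c + 1) {P} = ((c + 1 : ℕ) : ℤ) • S.a P := by
    intro P
    have := S.δ_zero (c + 1) (by omega) P
    rw [δ, S.zero _ (by omega), zero_add, sub_zero] at this
    exact this
  rw [b, b, δ, δ, h1, h1, add_comm ({R} : Multiset X) {P}]
  abel

theorem δ_add_singleton (m : ℕ) (E : Multiset X) (R P : X) (h : E.card + 1 + c ≤ m) :
    S.δ m (E + {R}) P = S.δ m E P - S.b R P := by
  have h1 := S.δ_add m (c + 1) E {R} P (by omega) (by simp; omega)
  have h2 := S.δ_add m (c + 1) (E + {R}) 0 P (by simp; omega) (by simp)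
  rw [add_zero, h1, S.δ_zero (c + 1) (by omega)] at h2
  rw [b]
  have h3 := eq_sub_of_add_eq h2.symm
  rw [h3]
  abel

/-- the linear form on divisors -/
def aa (E : Multiset X) : Q := (E.map S.a).sum

/-- the bilinear form on divisors -/
def bb (E E' : Multiset X) : Q := (E.map fun R => (E'.map fun P => S.b R P).sum).sum

@[simp] theorem aa_zero : S.aa 0 = 0 := by simp [aa]
@[simp] theorem aa_singleton (P : X) : S.aa {P} = S.a P := by simp [aa]
theorem aa_add (E E' : Multiset X) : S.aa (E + E') = S.aa E + S.aa E' := by simp [aa]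

@[simp] theorem bb_zero_left (E : Multiset X) : S.bb 0 E = 0 := by simp [bb]
@[simp] theorem bb_zero_right (E : Multiset X) : S.bb E 0 = 0 := by simp [bb]
theorem bb_singleton (R P : X) : S.bb {R} {P} = S.b R P := by simp [bb]
theorem bb_add_left (E E' F : Multiset X) : S.bb (E + E') F = S.bb E F + S.bb E' F := by
  simp [bb]
theorem bb_add_right (E F F' : Multiset X) : S.bb E (F + F') = S.bb E F + S.bb E F' := by
  simp [bb, Multiset.sum_map_add]

theorem bb_comm (E F : Multiset X) : S.bb E F = S.bb F E := by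
  induction E using Multiset.induction with
  | empty => simp
  | cons R E ih =>
    rw [← Multiset.singleton_add, bb_add_left, bb_add_right, ih]
    congr 1
    clear ih
    induction F using Multiset.induction with
    | empty => simp
    | cons P F ih' =>
      rw [← Multiset.singleton_add, bb_add_left, bb_add_right, bb_singleton, bb_singleton, b_comm]
      rw [ih']

theorem δ_eq (m : ℕ) (E : Multiset X) (P : X) (h : E.card + c ≤ m) :
    S.δ m E P = (m : ℤ) • S.a P - S.bb E {P} := by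
  induction E using Multiset.induction with
  | empty => rw [S.δ_zero m (by simpa using h)]; simp
  | cons R E ih =>
    rw [Multiset.card_cons] at h
    rw [← Multiset.singleton_add, add_comm, S.δ_add_singleton m E R P (by omega), ih (by omega),
      bb_add_left, bb_singleton]
    abel

theorem H_succ (m : ℕ) (E : Multiset X) (h : E.card + c ≤ m) :
    S.H (m + 1) E - S.H m E = S.aa E := by
  induction E using Multiset.induction with
  | empty =>
    rw [S.zero _ (by simp at h; omega), S.zero _ (by simpa using h)]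
    simp
  | cons P E ih =>
    rw [Multiset.card_cons] at h
    have h1 := S.δ_eq (m + 1) E P (by omega)
    have h2 := S.δ_eq m E P (by omega)
    rw [δ] at h1 h2
    rw [← Multiset.singleton_add, add_comm {P} E, aa_add, aa_singleton, ← ih (by omega)]
    have h3 := sub_eq_iff_eq_add.mp h1
    have h4 := sub_eq_iff_eq_add.mp h2
    rw [h3, h4]
    push_cast
    rw [add_smul, one_smul]
    abel

def bΔ (E : Multiset X) : Q := (E.map fun P => S.b P P).sum

theorem bΔ_add (E E' : Multiset X) : S.bΔ (E + E') = S.bΔ E + S.bΔ E' := by simp [bΔ]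
@[simp] theorem bΔ_singleton (P : X) : S.bΔ {P} = S.b P P := by simp [bΔ]
@[simp] theorem bΔ_zero : S.bΔ 0 = 0 := by simp [bΔ]

theorem two_H (m : ℕ) (E : Multiset X) (h : E.card + c ≤ m) :
    (2 : ℤ) • S.H m E = (2 * m : ℤ) • S.aa E - S.bb E E + S.bΔ E := by
  induction E using Multiset.induction with
  | empty => rw [S.zero _ (by simpa using h)]; simp
  | cons P E ih =>
    rw [Multiset.card_cons] at h
    have h2 := S.δ_eq m E P (by omega)
    rw [δ] at h2
    have h4 := sub_eq_iff_eq_add.mp h2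
    have ih' := ih (by omega)
    rw [← Multiset.singleton_add, add_comm, h4, aa_add, aa_singleton, bb_add_left, bb_add_right,
      bb_add_right, bb_singleton, bΔ_add, bΔ_singleton, smul_add, ih', S.bb_comm {P} E]
    rw [smul_sub, smul_smul, smul_add, two_smul ℤ (S.bb E {P})]
    abel

theorem Prin.eq_aa {g : ℤ} {F : Multiset X} {η : Q} (h : S.Prin g F η) : S.aa F = η := by
  have h1 := h c 0 (by simp)
  have h2 := h (c + 1) 0 (by simp)
  have h3 := S.H_succ (c + F.card) F (by omega)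
  rw [zero_add] at h1 h2
  have h4 : c + 1 + F.card = c + F.card + 1 := by ring
  rw [h4] at h2
  rw [← h3, h1, h2, S.zero _ le_rfl, S.zero _ (by omega)]
  simp only [Multiset.card_zero, Nat.cast_zero, add_zero, sub_zero]
  rw [← sub_smul]
  push_cast
  convert one_smul ℤ η using 2
  ring

theorem Prin.bb_singleton {g : ℤ} {F : Multiset X} {η : Q} (h : S.Prin g F η) (P : X) :
    S.bb F {P} = (F.card : ℤ) • S.a P + η := by
  have h1 := h (c + 1) 0 (by simp)
  have h2 := h (c + 1) {P} (by simp; omega)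
  have h3 := S.δ_eq (c + 1 + F.card) F P (by omega)
  have h5 := S.δ_zero (c + 1) (by omega) P
  rw [δ] at h3 h5
  rw [zero_add] at h5 h1
  rw [add_comm F {P}, h2, h1] at h3
  rw [sub_eq_iff_eq_add] at h5
  rw [h5, S.zero _ (by omega)] at h3
  have h6 : S.bb F {P} = ((c + 1 + F.card : ℕ) : ℤ) • S.a P -
      ((((c + 1 : ℕ) : ℤ) + 1 - g - (Multiset.card ({P} : Multiset X) : ℤ)) • η +
        (((c + 1 : ℕ) : ℤ) • S.a P + 0) -
        ((((c + 1 : ℕ) : ℤ) + 1 - g - (Multiset.card (0 : Multiset X) : ℤ)) • η + 0)) := by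
    rw [h3]; abel
  rw [h6]
  simp only [Multiset.card_singleton, Multiset.card_zero]
  module

theorem Prin.bb {g : ℤ} {F : Multiset X} {η : Q} (h : S.Prin g F η) (E : Multiset X) :
    S.bb F E = (F.card : ℤ) • S.aa E + (E.card : ℤ) • η := by
  induction E using Multiset.induction with
  | empty => simp
  | cons P E ih =>
    rw [← Multiset.singleton_add, bb_add_right, ih, Prin.bb_singleton S h, aa_add, aa_singleton,
      Multiset.card_add, Multiset.card_singleton]
    push_cast
    module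

theorem Prin.bΔ {g : ℤ} {F : Multiset X} {η : Q} (h : S.Prin g F η) :
    S.bΔ F = (2 * (1 - g)) • η := by
  have h1 := h c 0 (by simp)
  have h2 := S.two_H (c + F.card) F (by omega)
  rw [zero_add] at h1
  rw [h1, S.zero _ le_rfl, Prin.bb S h, Prin.eq_aa S h] at h2
  have h3 : S.bΔ F = (2 : ℤ) • (((c : ℤ) + 1 - g - (Multiset.card (0 : Multiset X) : ℤ)) • η + 0)
      - (2 * ((c + F.card : ℕ) : ℤ)) • η + ((F.card : ℤ) • η + (F.card : ℤ) • η) := by
    rw [h2]; abel
  rw [h3]
  simp only [Multiset.card_zero]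
  push_cast
  module

/-- the modified bilinear form -/
def tb (E E' : Multiset X) : Q :=
  S.bb E E' - (E.card : ℤ) • S.aa E' - (E'.card : ℤ) • S.aa E

theorem tb_comm (E E' : Multiset X) : S.tb E E' = S.tb E' E := by
  rw [tb, tb, bb_comm]; abel

theorem tb_add_left (E E' F : Multiset X) : S.tb (E + E') F = S.tb E F + S.tb E' F := by
  simp only [tb, bb_add_left, aa_add, Multiset.card_add]
  push_cast
  module

theorem Prin.tb {g : ℤ} {F : Multiset X} {η : Q} (h : S.Prin g F η) (E : Multiset X) :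
    S.tb F E = 0 := by
  rw [HSystem.tb, Prin.bb S h, Prin.eq_aa S h]
  abel

/-- The Kummer height. -/
def K (g : ℤ) (n e : ℕ) (E E' : Multiset X) (η : Q) : Q :=
  S.H (n + e) E + S.H (n + e) E' - ((n : ℤ) + 1 - g) • η

theorem two_K {g : ℤ} {n e : ℕ} (hn : c ≤ n) {E E' : Multiset X} (hE : E.card = e)
    (hE' : E'.card = e) {η : Q} (h : S.Prin g (E + E') η) :
    (2 : ℤ) • S.K g n e E E' η = -(2 : ℤ) • S.tb E E := by
  have h1 := S.two_H (n + e) E (by omega)
  have h2 := S.two_H (n + e) E' (by omega)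
  have h3 := Prin.eq_aa S h
  have h4 := Prin.bΔ S h
  have h5 := Prin.tb S h E
  have h6 := Prin.tb S h E'
  rw [aa_add] at h3
  rw [bΔ_add] at h4
  rw [tb_add_left] at h5 h6
  rw [K, smul_sub, smul_add, h1, h2]
  -- tb E E = - tb E' E = - tb E E' = tb E' E'
  have h7 : S.tb E' E' = S.tb E E := by
    rw [S.tb_comm E E'] at h6
    have := h5.trans h6.symm
    have h8 : S.tb E E + S.tb E' E = S.tb E' E + S.tb E' E' := this
    rw [add_comm] at h8
    exact (add_left_cancel h8).symm
  have h8 : (2 : ℤ) • S.tb E E = S.tb E E + S.tb E' E' := by rw [h7, two_smul]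
  rw [neg_smul, h8, tb, tb, hE, hE']
  have h9 : S.aa E' = η - S.aa E := eq_sub_of_add_eq' h3
  have h10 : S.bΔ E' = (2 * (1 - g)) • η - S.bΔ E := eq_sub_of_add_eq' h4
  rw [h9, h10]
  push_cast
  module

/-- **The formal parallelogram law.** -/
theorem parallelogram {g : ℤ} {n e : ℕ} (hn : c ≤ n)
    {E₁ E₁' E₂ E₂' E₃ E₃' E₄ E₄' : Multiset X}
    (h₁ : E₁.card = e) (h₁' : E₁'.card = e) (h₂ : E₂.card = e) (h₂' : E₂'.card = e)
    (h₃ : E₃.card = e) (h₃' : E₃'.card = e) (h₄ : E₄.card = e) (h₄' : E₄'.card = e)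
    {η₁ η₂ η₃ η₄ η₅ η₆ : Q}
    (p₁ : S.Prin g (E₁ + E₁') η₁) (p₂ : S.Prin g (E₂ + E₂') η₂)
    (p₃ : S.Prin g (E₃ + E₃') η₃) (p₄ : S.Prin g (E₄ + E₄') η₄)
    (p₅ : S.Prin g (E₁ + E₂ + E₃') η₅) (p₆ : S.Prin g (E₁ + E₂' + E₄') η₆) :
    (2 : ℤ) • (S.K g n e E₃ E₃' η₃ + S.K g n e E₄ E₄' η₄
      - (2 : ℤ) • S.K g n e E₁ E₁' η₁ - (2 : ℤ) • S.K g n e E₂ E₂' η₂) = 0 := by
  have k₁ := S.two_K hn h₁ h₁' p₁
  have k₂ := S.two_K hn h₂ h₂' p₂
  have k₃ := S.two_K hn h₃ h₃' p₃
  have k₄ := S.two_K hn h₄ h₄' p₄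
  -- linear relations
  have q₂ : ∀ E, S.tb E₂' E = - S.tb E₂ E := fun E => by
    have := Prin.tb S p₂ E
    rw [tb_add_left] at this
    exact eq_neg_of_add_eq_zero_right this
  have q₃' : ∀ E, S.tb E₃' E = - S.tb E₃ E := fun E => by
    have := Prin.tb S p₃ E
    rw [tb_add_left] at this
    exact eq_neg_of_add_eq_zero_right this
  have q₄' : ∀ E, S.tb E₄' E = - S.tb E₄ E := fun E => by
    have := Prin.tb S p₄ E
    rw [tb_add_left] at this
    exact eq_neg_of_add_eq_zero_right this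
  have q₃ : ∀ E, S.tb E₃ E = S.tb E₁ E + S.tb E₂ E := fun E => by
    have := Prin.tb S p₅ E
    rw [tb_add_left, tb_add_left, q₃'] at this
    exact (add_neg_eq_zero.mp this).symm
  have q₄ : ∀ E, S.tb E₄ E = S.tb E₁ E - S.tb E₂ E := fun E => by
    have := Prin.tb S p₆ E
    rw [tb_add_left, tb_add_left, q₄', q₂, ← sub_eq_add_neg (S.tb E₁ E) (S.tb E₂ E)] at this
    exact (add_neg_eq_zero.mp this).symm
  have t₃ : S.tb E₃ E₃ = S.tb E₁ E₁ + (2 : ℤ) • S.tb E₁ E₂ + S.tb E₂ E₂ := by
    rw [q₃, S.tb_comm E₁ E₃, S.tb_comm E₂ E₃, q₃, q₃, S.tb_comm E₂ E₁]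
    module
  have t₄ : S.tb E₄ E₄ = S.tb E₁ E₁ - (2 : ℤ) • S.tb E₁ E₂ + S.tb E₂ E₂ := by
    rw [q₄, S.tb_comm E₁ E₄, S.tb_comm E₂ E₄, q₄, q₄, S.tb_comm E₂ E₁]
    module
  rw [smul_sub, smul_sub, smul_add, smul_comm (2 : ℤ) (2 : ℤ) (S.K g n e E₁ E₁' η₁),
    smul_comm (2 : ℤ) (2 : ℤ) (S.K g n e E₂ E₂' η₂), k₁, k₂, k₃, k₄, t₃, t₄]
  module

end HSystem

end Fermat.Agent.MW.Quad
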