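import Fermat.Agent.MW.UltIdeal
import Fermat.Agent.MW.BaseChange
import Fermat.Agent.MW.ExactDef
import Fermat.Agent.MW.Negl
import Fermat.Agent.MW.Quad

/-!
# Local heights modulo negligible families (team MW, helper39)
-/

set_option autoImplicit false
set_option linter.unusedSectionVars false

open Filter Module TensorProduct Height Height.AdmissibleAbsValues

namespace Fermat.Agent.MW.LH

open Fermat.Agent.MW.Ultra Fermat.Agent.MW.Negl Fermat.Agent.MW.UltCurve Fermat.Agent.MW.Quad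

universe u v

/-! ### The ring of bounded germs contains the constants -/

section Bdd

variable {K₀ : Type v} [Field K₀] {k : Type u} [Field k] [Algebra K₀ k] {U : Ultrafilter ℕ}

theorem algebraMap_mem_bdd_of_bddOn [Algebra.IsAlgebraic K₀ k] {w : ℕ → AbsoluteValue k ℝ}
    (hw : BddOn K₀ w) (x : k) : algebraMap k (Ult k U) x ∈ bdd w U := by
  have h0 : ∀ a : K₀, algebraMap K₀ (Ult k U) a ∈ bdd w U := fun a =>
    algebraMap_mem_bdd (fun a => by
      obtain ⟨B, hB⟩ := hw a
      exact ⟨B, Eventually.of_forall hB⟩) a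
  have hx : IsIntegral K₀ (algebraMap k (Ult k U) x) := by
    have h1 : IsIntegral K₀ x := Algebra.IsIntegral.isIntegral x
    exact h1.map (IsScalarTower.toAlgHom K₀ k (Ult k U))
  let j : K₀ →+* bdd w U := (algebraMap K₀ (Ult k U)).codRestrict (bdd w U).toSubring h0
  obtain ⟨p, hp, hp'⟩ := hx
  have h2 : IsIntegral (bdd w U) (algebraMap k (Ult k U) x) := by
    refine ⟨p.map j, hp.map j, ?_⟩
    rw [Polynomial.eval₂_map]
    exact hp'
  obtain ⟨y, hy⟩ := IsIntegrallyClosed.isIntegral_iff.mp h2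
  rw [← hy]
  exact y.2

end Bdd

/-! ### Vector-valued terms -/

section Terms

variable (D : Type*) (k : Type u) [Field k]

/-- A family of vectors. -/
structure VT where mk' ::
  ι : Type
  fin : Fintype ι
  ne : Nonempty ι
  x : D → ι → k

attribute [instance] VT.fin VT.ne

variable {D k}

variable {K₀ : Type v} [Field K₀] [AdmissibleAbsValues K₀] [Algebra K₀ k]

/-- logarithm of the norm -/
noncomputable def VT.lg (K₀ : Type v) [Field K₀] [AdmissibleAbsValues K₀] [Algebra K₀ k]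
    (t : VT D k) : D → Pl K₀ k → ℝ := fun d w => Real.log (nrm w.1 (t.x d))

/-- value over the ultrapower -/
noncomputable def VT.ul (t : VT D k) (d : ℕ → D) (w : ℕ → AbsoluteValue k ℝ) :
    (bdd w (hyperfilter ℕ)).ValueGroup :=
  vval (bdd w (hyperfilter ℕ)) (fun b => mk (hyperfilter ℕ) fun i => t.x (d i) b)

theorem VT.ul_ne_zero (t : VT D k) (h : ∀ d, t.x d ≠ 0) (d : ℕ → D)
    (w : ℕ → AbsoluteValue k ℝ) : t.ul d w ≠ 0 := by
  intro h0
  have h1 : ∀ b, mk (hyperfilter ℕ) (fun i => t.x (d i) b) = 0 := by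
    intro b
    have h2 := le_vval (bdd w (hyperfilter ℕ)) (fun b => mk (hyperfilter ℕ) fun i => t.x (d i) b) b
    have h3 : vval (bdd w (hyperfilter ℕ)) (fun b => mk (hyperfilter ℕ) fun i => t.x (d i) b) = 0 :=
      h0
    rw [h3, le_zero_iff, map_eq_zero] at h2
    exact h2
  simp_rw [mk_eq_zero] at h1
  obtain ⟨i, hi⟩ := (eventually_all.mpr h1).exists
  exact h _ (funext hi)

theorem sum_lg_mem {J : Type*} [Fintype J] (n : J → ℤ) (t : J → VT D k)
    (H : ∀ (d : ℕ → D) (w : ℕ → AbsoluteValue k ℝ), BddOn K₀ w →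
      ∏ j, (t j).ul d w ^ (n j) = 1) :
    ∑ j, n j • (t j).lg K₀ ∈ NEGL K₀ k D := by
  have h1 := comb_mem_NEGL (K₀ := K₀) (k := k) n (ι := fun j => (t j).ι)
    (fun j => (t j).x) H
  have h2 : (fun d (w : Pl K₀ k) => comb n (fun j => (t j).x) d w.1) =
      ∑ j, n j • (t j).lg K₀ := by
    funext d w
    rw [comb, Finset.sum_apply, Finset.sum_apply]
    refine Finset.sum_congr rfl fun j _ => ?_
    simp only [Pi.smul_apply, zsmul_eq_mul]
    rfl
  rwa [h2] at h1

/-- The class of a term modulo negligible families. -/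
noncomputable def VT.cl (K₀ : Type v) [Field K₀] [AdmissibleAbsValues K₀] [Algebra K₀ k]
    (t : VT D k) : (D → Pl K₀ k → ℝ) ⧸ NEGL K₀ k D :=
  QuotientAddGroup.mk (t.lg K₀)

theorem sum_cl_eq_zero {J : Type*} [Fintype J] (n : J → ℤ) (t : J → VT D k)
    (H : ∀ (d : ℕ → D) (w : ℕ → AbsoluteValue k ℝ), BddOn K₀ w →
      ∏ j, (t j).ul d w ^ (n j) = 1) :
    ∑ j, n j • (t j).cl K₀ = 0 := by
  have h1 := (QuotientAddGroup.eq_zero_iff _).mpr (sum_lg_mem n t H)
  rw [← h1, QuotientAddGroup.mk_sum]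
  rfl

/-- constant vectors -/
theorem cl_const [Algebra.IsAlgebraic K₀ k] (t : VT D k) (x : t.ι → k) (hx : x ≠ 0)
    (h : ∀ d, t.x d = x) : t.cl K₀ = 0 := by
  have h1 := sum_cl_eq_zero (K₀ := K₀) (J := Unit) (fun _ => 1) (fun _ => t) (by
    intro d w hw
    rw [Finset.univ_unique, Finset.prod_singleton, zpow_one]
    obtain ⟨b, hb⟩ := Function.ne_iff.mp hx
    have hO : ∀ y : k, y ≠ 0 → (bdd w (hyperfilter ℕ)).valuation
        (mk (hyperfilter ℕ) fun _ => y) = 1 := by
      intro y hy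
      have h2 := algebraMap_mem_bdd_of_bddOn (U := hyperfilter ℕ) hw y
      have h3 := algebraMap_mem_bdd_of_bddOn (U := hyperfilter ℕ) hw y⁻¹
      rw [map_inv₀] at h3
      rw [← algebraMap_self_eq]
      rw [← ValuationSubring.valuation_le_one_iff] at h2 h3
      rw [map_inv₀] at h3
      refine le_antisymm h2 ?_
      have h4 : (bdd w (hyperfilter ℕ)).valuation (algebraMap k (Ult k (hyperfilter ℕ)) y) ≠ 0 := by
        rw [Ne, map_eq_zero, map_eq_zero]
        exact hy
      exact (inv_le_one₀ (zero_lt_iff.mpr h4)).mp h3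
    have h5 : (fun b => mk (hyperfilter ℕ) fun i => t.x (d i) b) =
        fun b => mk (hyperfilter ℕ) fun _ => x b := by
      funext b
      simp_rw [h]
    rw [VT.ul, h5, vval_eq_of_forall_le _ _ b, hO _ hb]
    intro c
    rw [hO _ hb]
    by_cases hc : x c = 0
    · have h6 : mk (hyperfilter ℕ) (fun _ => x c) = 0 := by
        rw [hc]
        exact map_zero _
      rw [h6, map_zero]
      exact zero_le_one
    · rw [hO _ hc])
  rwa [Finset.univ_unique, Finset.sum_singleton, one_smul] at h1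

/-- proportional vectors -/
theorem cl_eq_of_smul (t t' : VT D k) (c : D → k) (hc : ∀ d, c d ≠ 0)
    (h : ∀ d (w : Pl K₀ k), nrm w.1 (t'.x d) = w.1 (c d) * nrm w.1 (t.x d))
    (h0 : ∀ d, t.x d ≠ 0) : t'.cl K₀ = t.cl K₀ := by
  have h1 : t'.cl K₀ - t.cl K₀ = 0 := by
    rw [VT.cl, VT.cl, ← QuotientAddGroup.mk_sub, QuotientAddGroup.eq_zero_iff]
    convert principal_mem (K₀ := K₀) c hc using 1
    funext d w
    show Real.log _ - Real.log _ = _
    rw [h, Real.log_mul (w.1.ne_zero (hc d)) (nrm_pos w.1 (h0 d)).ne']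
    ring
  exact sub_eq_zero.mp h1

end Terms

theorem nrm_smul {k : Type*} [Field k] (w : AbsoluteValue k ℝ) {ι : Type*} (c : k) (x : ι → k) :
    nrm w (c • x) = w c * nrm w x := by
  unfold nrm
  rw [Real.mul_iSup_of_nonneg (w.nonneg c)]
  simp only [Pi.smul_apply, smul_eq_mul, map_mul]

/-! ### Families of divisors, specialization and ultrapower -/

section Fam

variable {k : Type u} {A : Type v} [Field k] [CommRing A] [Algebra k A] {D : Type*}

/-- specialization of a family of divisors -/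
def sp (E : Multiset (D → (A →ₐ[k] k))) (d : D) : Multiset (A →ₐ[k] k) := E.map fun P => P d

theorem sp_add (E E' : Multiset (D → (A →ₐ[k] k))) (d : D) : sp (E + E') d = sp E d + sp E' d :=
  Multiset.map_add _ _ _

theorem sp_singleton (P : D → (A →ₐ[k] k)) (d : D) : sp {P} d = {P d} :=
  Multiset.map_singleton _ _

@[simp] theorem card_sp (E : Multiset (D → (A →ₐ[k] k))) (d : D) : (sp E d).card = E.card :=
  Multiset.card_map _ _

/-- the divisor over the ultrapower defined by a sequence -/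
noncomputable def up (U : Ultrafilter ℕ) (E : Multiset (D → (A →ₐ[k] k))) (d : ℕ → D) :
    Multiset (Ult k U ⊗[k] A →ₐ[Ult k U] Ult k U) := E.map fun P => pt U fun i => P (d i)

variable {U : Ultrafilter ℕ}

theorem up_add (E E' : Multiset (D → (A →ₐ[k] k))) (d : ℕ → D) :
    up U (E + E') d = up U E d + up U E' d :=
  Multiset.map_add _ _ _

theorem up_singleton (P : D → (A →ₐ[k] k)) (d : ℕ → D) :
    up U {P} d = {pt U fun i => P (d i)} :=
  Multiset.map_singleton _ _

@[simp] theorem card_up (E : Multiset (D → (A →ₐ[k] k))) (d : ℕ → D) :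
    (up U E d).card = E.card :=
  Multiset.card_map _ _

variable (C : CurveAlg k A)

/-- minors as a term -/
noncomputable def mT (m : ℕ) {r : ℕ} (u : D → Fin r → A) : VT D k :=
  ⟨Fin r → Fin (m + 1), inferInstance, inferInstance, fun d => C.minors m (u d)⟩

/-- coefficients as a term -/
noncomputable def cT (m : ℕ) (f : D → A) : VT D k :=
  ⟨Fin (m + 1), inferInstance, inferInstance, fun d => cvec C m (f d)⟩

variable {C} [IsAlgClosed k] [IsDedekindDomain A]
  {C' : CurveAlg (Ult k U) (Ult k U ⊗[k] A)} [IsDedekindDomain (Ult k U ⊗[k] A)]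

theorem mem_L_lift (hC : IsBC C C') {m : ℕ} {E : Multiset (D → (A →ₐ[k] k))} {f : D → A}
    (d : ℕ → D) (hf : ∀ d, f d ∈ C.L (idl (sp E d)) m) {g : Ult k U ⊗[k] A}
    (hg : theta g = mkR U fun i => f (d i)) : g ∈ C'.L (idl (up U E d)) m := by
  have h1 := mem_L_of_eventually hC (E.map fun P i => P (d i)) (m := m) hg
    (Eventually.of_forall fun i => by
      rw [Multiset.map_map]
      exact hf (d i))
  rw [Multiset.map_map] at h1
  exact h1

theorem exists_lift_L (hC : IsBC C C') {m : ℕ} {E : Multiset (D → (A →ₐ[k] k))} {f : D → A}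
    (d : ℕ → D) (hf : ∀ d, f d ∈ C.L (idl (sp E d)) m) :
    ∃ g : Ult k U ⊗[k] A, (theta g = mkR U fun i => f (d i)) ∧ g ∈ C'.L (idl (up U E d)) m := by
  obtain ⟨g, -, hg⟩ := exists_lift (U := U) (f := fun i => f (d i)) hC (m := m)
    (Eventually.of_forall fun i => (C.mem_L.mp (hf (d i))).2)
  exact ⟨g, hg, mem_L_lift hC d hf hg⟩

theorem isB_lift (hC : IsBC C C') {m r : ℕ} {E : Multiset (D → (A →ₐ[k] k))} {u : D → Fin r → A}
    (d : ℕ → D) (hu : ∀ d, IsB C m (sp E d) (u d)) {g : Fin r → Ult k U ⊗[k] A}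
    (hg : ∀ j, theta (g j) = mkR U fun i => u (d i) j) : IsB C' m (up U E d) g := by
  have h1 := hu (d 0)
  refine ⟨?_, fun j => mem_L_lift hC d (f := fun d => u d j) (fun d => (hu d).mem j) (hg j), ?_, ?_⟩
  · exact linearIndependent_of_eventually hC (m := m) (u := fun j i => u (d i) j) hg
      (Eventually.of_forall fun i => (hu (d i)).li)
      (Eventually.of_forall fun i j => (C.mem_L.mp ((hu (d i)).mem j)).2)
  · rw [card_up, genus_eq hC]
    have := h1.fr
    rwa [card_sp] at this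
  · rw [card_up, cc_eq hC]
    have := h1.le
    rwa [card_sp] at this

theorem exists_lift_fam (hC : IsBC C C') {m r : ℕ} {u : D → Fin r → A} (d : ℕ → D)
    (hu : ∀ d j, u d j ∈ C.Fil m) :
    ∃ g : Fin r → Ult k U ⊗[k] A, ∀ j, theta (g j) = mkR U fun i => u (d i) j := by
  choose g _ hg using fun j => exists_lift (U := U) (f := fun i => u (d i) j) hC (m := m)
    (Eventually.of_forall fun i => hu (d i) j)
  exact ⟨g, hg⟩

theorem exists_lift_isB (hC : IsBC C C') {m r : ℕ} {E : Multiset (D → (A →ₐ[k] k))}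
    {u : D → Fin r → A} (d : ℕ → D) (hu : ∀ d, IsB C m (sp E d) (u d)) :
    ∃ g : Fin r → Ult k U ⊗[k] A, (∀ j, theta (g j) = mkR U fun i => u (d i) j) ∧
      IsB C' m (up U E d) g := by
  obtain ⟨g, hg⟩ := exists_lift_fam (u := u) hC (m := m) d fun d j => (C.mem_L.mp ((hu d).mem j)).2
  exact ⟨g, hg, isB_lift hC d hu hg⟩

theorem Nm_lift (hC : IsBC C C') {m r : ℕ} {u : D → Fin r → A} {d : ℕ → D}
    {g : Fin r → Ult k U ⊗[k] A} (hg : ∀ j, theta (g j) = mkR U fun i => u (d i) j)
    (O : ValuationSubring (Ult k U)) :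
    Nm C' O m g = vval O (fun b => mk U fun i => (mT C m u).x (d i) b) := by
  rw [Nm, minors_theta hC hg]
  rfl

theorem cvec_lift (hC : IsBC C C') {m : ℕ} {f : D → A} {d : ℕ → D}
    {g : Ult k U ⊗[k] A} (hg : theta g = mkR U fun i => f (d i))
    (O : ValuationSubring (Ult k U)) :
    vval O (cvec C' m g) = vval O (fun b => mk U fun i => (cT C m f).x (d i) b) := by
  congr 1
  funext b
  show C'.coef b g = _
  rw [← cf_theta hC, hg, cf_mkR]
  rfl

/-- lifting a function with known divisor -/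
theorem exists_lift_span (hC : IsBC C C') {F : Multiset (D → (A →ₐ[k] k))} {f : D → A}
    (d : ℕ → D) (hf : ∀ d, f d ≠ 0) (hF : ∀ d, Ideal.span {f d} = idl (sp F d)) :
    ∃ g : Ult k U ⊗[k] A, (theta g = mkR U fun i => f (d i)) ∧ g ≠ 0 ∧
      Ideal.span {g} = idl (up U F d) := by
  have hdeg : ∀ d, C.deg (f d) = F.card := fun d => by
    rw [DV.deg_eq_card C (hf d) (hF d), card_sp]
  obtain ⟨g, hg, hgL⟩ := exists_lift_L (U := U) (E := F) (m := F.card) (f := f) hC d fun d => by
    rw [C.mem_L, ← hF d, C.mem_Fil_iff_deg_le]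
    exact ⟨Ideal.mem_span_singleton_self _, (hdeg d).le⟩
  have hg0 : g ≠ 0 := by
    rintro rfl
    rw [map_zero] at hg
    obtain ⟨i, hi⟩ := (mkR_eq_zero.mp hg.symm).exists
    exact hf _ hi
  refine ⟨g, hg, hg0, ?_⟩
  rw [C'.mem_L] at hgL
  obtain ⟨R, hR, hcard⟩ := exists_rest C' hg0 hgL.1
  have h1 := C'.mem_Fil_iff_deg_le.mp hgL.2
  rw [card_up] at hcard
  have h2 : R = 0 := Multiset.card_eq_zero.mp (by omega)
  rw [hR, h2, add_zero]

end Fam

/-! ### The system of heights -/

section Sys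

universe w

theorem isBC_baseChange {k : Type u} {A : Type v} [Field k] [CommRing A] [Algebra k A]
    (C : CurveAlg k A) (U : Ultrafilter ℕ) : IsBC C (C.baseChange (Ult k U)) where
  S_eq := rfl
  coef_tmul l z a := by rw [CurveAlg.coef_tmul, Algebra.smul_def, mul_comm]

variable (K₀ : Type w) [Field K₀] [AdmissibleAbsValues K₀] {k : Type u} {A : Type v} [Field k]
  [CommRing A] [Algebra k A] [Algebra K₀ k] (D : Type*) (C : CurveAlg k A)

/-- The local height of `L(E,m)`. -/
noncomputable def Hf (m : ℕ) (E : Multiset (D → (A →ₐ[k] k))) : D → Pl K₀ k → ℝ := fun d w =>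
  Real.log (nrm w.1 (C.minors m fun i => (Module.finBasis k (C.L (idl (sp E d)) m) i : A)))

/-- Its class modulo negligible families. -/
noncomputable def Hc (m : ℕ) (E : Multiset (D → (A →ₐ[k] k))) :
    (D → Pl K₀ k → ℝ) ⧸ NEGL K₀ k D :=
  QuotientAddGroup.mk (Hf K₀ D C m E)

variable {C D K₀} [IsDedekindDomain A]

theorem exists_nrm_rel {m r : ℕ} {E : Multiset (A →ₐ[k] k)} {u : Fin r → A} (hu : IsB C m E u) :
    ∃ c : k, c ≠ 0 ∧ ∀ w : AbsoluteValue k ℝ,
      nrm w (C.minors m fun i => (Module.finBasis k (C.L (idl E) m) i : A)) =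
        w c * nrm w (C.minors m u) := by
  have key : ∀ (s : ℕ) (b : Fin s → A), LinearIndependent k b → (∀ i, b i ∈ C.L (idl E) m) →
      s = r → ∃ c : k, c ≠ 0 ∧ ∀ w : AbsoluteValue k ℝ,
        nrm w (C.minors m b) = w c * nrm w (C.minors m u) := by
    rintro s b hb hbV rfl
    obtain ⟨c, hc, h⟩ := C.exists_minors_eq_smul (m := m) (C.L (idl E) m) hu.li hb hu.mem hbV
      hu.finrank
    exact ⟨c, hc, fun w => by rw [h, nrm_smul]⟩
  refine key _ _ ?_ (fun i => (Module.finBasis k (C.L (idl E) m) i).2) hu.finrank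
  exact (Module.finBasis k (C.L (idl E) m)).linearIndependent.map' (Submodule.subtype _)
    (Submodule.ker_subtype _)

theorem mT_ne_zero {m r : ℕ} {E : Multiset (A →ₐ[k] k)} {u : Fin r → A} (hu : IsB C m E u) :
    C.minors m u ≠ 0 :=
  C.minors_ne_zero hu.li fun i => (C.mem_L.mp (hu.mem i)).2

theorem Hc_eq {m r : ℕ} {E : Multiset (D → (A →ₐ[k] k))} {u : D → Fin r → A}
    (hu : ∀ d, IsB C m (sp E d) (u d)) : Hc K₀ D C m E = (mT C m u).cl K₀ := by
  choose c hc h using fun d => exists_nrm_rel (hu d)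
  have h1 : Hc K₀ D C m E - (mT C m u).cl K₀ = 0 := by
    rw [Hc, VT.cl, ← QuotientAddGroup.mk_sub, QuotientAddGroup.eq_zero_iff]
    convert principal_mem (K₀ := K₀) c hc using 1
    funext d w
    show Real.log _ - Real.log (nrm w.1 (C.minors m (u d))) = _
    rw [h, Real.log_mul (w.1.ne_zero (hc d)) (nrm_pos w.1 (mT_ne_zero (hu d))).ne']
    ring
  exact sub_eq_zero.mp h1

variable [IsAlgClosed k] [CharZero k] [Algebra.IsAlgebraic K₀ k]

theorem Hc_zero {m : ℕ} (hm : C.cc ≤ m) : Hc K₀ D C m 0 = 0 := by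
  obtain ⟨u, hu⟩ := exists_isB (C := C) (m := m) (E := 0) (r := m + 1 - C.genus) (by
    simp only [Multiset.card_zero]
    unfold CurveAlg.cc at hm
    omega) (by simpa using hm)
  rw [Hc_eq (u := fun _ => u) (fun d => hu)]
  exact cl_const _ (C.minors m u) (mT_ne_zero hu) fun d => rfl

/-- The hypothesis: exact identities over the ultrapower. -/
def ExactH (C : CurveAlg k A) : Prop :=
  ∀ O : ValuationSubring (Ult k (hyperfilter ℕ)),
    (∀ x : k, algebraMap k (Ult k (hyperfilter ℕ)) x ∈ O) →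
      Exact (C.baseChange (Ult k (hyperfilter ℕ))) O

theorem Hc_add (hex : ExactH C) {m m' : ℕ} {E E' : Multiset (D → (A →ₐ[k] k))}
    {P : D → (A →ₐ[k] k)} (hm : E.card + (C.cc + 1) ≤ m) (hm' : E'.card + (C.cc + 1) ≤ m') :
    Hc K₀ D C (m + m') (E + E' + {P}) - Hc K₀ D C (m + m') (E + E') =
      (Hc K₀ D C m (E + {P}) - Hc K₀ D C m E) +
        (Hc K₀ D C m' (E' + {P}) - Hc K₀ D C m' E') := by
  have hcc : C.genus ≤ C.cc := by unfold CurveAlg.cc; omega
  have hB : ∀ (m : ℕ) (E : Multiset (D → (A →ₐ[k] k))), E.card + C.cc ≤ m →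
      ∃ u : D → Fin (m + 1 - C.genus - E.card) → A, ∀ d, IsB C m (sp E d) (u d) := by
    intro m E hE
    have h1 : ∀ d, ∃ u : Fin (m + 1 - C.genus - E.card) → A, IsB C m (sp E d) u := fun d =>
      exists_isB (by rw [card_sp]; omega) (by rw [card_sp]; omega)
    choose u hu using h1
    exact ⟨u, hu⟩
  obtain ⟨u, hu⟩ := hB m (E + {P}) (by rw [Multiset.card_add, Multiset.card_singleton]; omega)
  obtain ⟨u', hu'⟩ := hB m' (E' + {P}) (by rw [Multiset.card_add, Multiset.card_singleton]; omega)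
  obtain ⟨u'', hu''⟩ := hB (m + m') (E + E' + {P}) (by
    rw [Multiset.card_add, Multiset.card_add, Multiset.card_singleton]; omega)
  have hS : ∀ (m : ℕ) (E : Multiset (D → (A →ₐ[k] k))), E.card + (C.cc + 1) ≤ m →
      ∃ s : D → A, ∀ d, s d ∈ C.L (idl (sp E d)) m ∧ s d ∉ idl (sp E d + {P d}) := by
    intro m E hE
    choose s h1 _ _ h2 using fun d => exists_avoid C (sp E d) {P d} (m := m) (by
      rw [card_sp]; omega)
    refine ⟨s, fun d => ⟨h1 d, ?_⟩⟩
    have := h2 d (P d) (Finset.mem_singleton_self _)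
    rwa [← Multiset.singleton_add, add_comm] at this
  obtain ⟨s, hs⟩ := hS m E hm
  obtain ⟨s', hs'⟩ := hS m' E' hm'
  -- the bases of the bigger spaces
  let v : D → Fin _ → A := fun d => Fin.snoc (α := fun _ => A) (u d) (s d)
  let v' : D → Fin _ → A := fun d => Fin.snoc (α := fun _ => A) (u' d) (s' d)
  let v'' : D → Fin _ → A := fun d => Fin.snoc (α := fun _ => A) (u'' d) (s d * s' d)
  have hv : ∀ d, IsB C m (sp E d) (v d) := fun d => by
    have := hu d
    rw [sp_add, sp_singleton] at this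
    exact this.snoc (hs d).1 (hs d).2
  have hv' : ∀ d, IsB C m' (sp E' d) (v' d) := fun d => by
    have := hu' d
    rw [sp_add, sp_singleton] at this
    exact this.snoc (hs' d).1 (hs' d).2
  have hv'' : ∀ d, IsB C (m + m') (sp (E + E') d) (v'' d) := fun d => by
    have := hu'' d
    rw [sp_add, sp_singleton] at this
    refine this.snoc ?_ ?_
    · rw [sp_add, idl_add]
      exact C.L_mul (hs d).1 (hs' d).1
    · rw [sp_add]
      exact mul_not_mem_idl (C.mem_L.mp (hs d).1).1 (C.mem_L.mp (hs' d).1).1 (hs d).2 (hs' d).2 C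
  rw [Hc_eq hu, Hc_eq hu', Hc_eq hu'', Hc_eq hv, Hc_eq hv', Hc_eq hv'']
  have key := sum_cl_eq_zero (K₀ := K₀) (J := Fin 6) ![1, 1, 1, -1, -1, -1]
    ![mT C (m + m') v'', mT C m u, mT C m' u', mT C (m + m') u'', mT C m v, mT C m' v'] (by
    intro d w hw
    set O := bdd w (hyperfilter ℕ) with hO
    have hC := isBC_baseChange C (hyperfilter ℕ)
    have hded : IsDedekindDomain (Ult k (hyperfilter ℕ) ⊗[k] A) := isDedekindDomain_baseChange C _
    have hE := hex O (algebraMap_mem_bdd_of_bddOn hw)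
    obtain ⟨g, hg, hgB⟩ := exists_lift_isB (U := hyperfilter ℕ) hC d hu
    obtain ⟨g', hg', hgB'⟩ := exists_lift_isB (U := hyperfilter ℕ) hC d hu'
    obtain ⟨g'', hg'', hgB''⟩ := exists_lift_isB (U := hyperfilter ℕ) hC d hu''
    obtain ⟨t, ht, htL⟩ := exists_lift_L (U := hyperfilter ℕ) hC d fun d => (hs d).1
    obtain ⟨t', ht', htL'⟩ := exists_lift_L (U := hyperfilter ℕ) hC d fun d => (hs' d).1
    have hsn : ∀ {r : ℕ} {u : D → Fin r → A} {s : D → A}
        {g : Fin r → Ult k (hyperfilter ℕ) ⊗[k] A} {t : Ult k (hyperfilter ℕ) ⊗[k] A}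
        (_ : ∀ j, theta (g j) = mkR (hyperfilter ℕ) fun i => u (d i) j)
        (_ : theta t = mkR (hyperfilter ℕ) fun i => s (d i)) (j : Fin (r + 1)),
        theta (Fin.snoc (α := fun _ => Ult k (hyperfilter ℕ) ⊗[k] A) g t j) =
          mkR (hyperfilter ℕ) fun i => (Fin.snoc (α := fun _ => A) (u (d i)) (s (d i)) :
            Fin (r + 1) → A) j := by
      intro r u s g t h1 h2 j
      refine Fin.lastCases ?_ (fun j => ?_) j
      · simp only [Fin.snoc_last]; exact h2
      · simp only [Fin.snoc_castSucc]; exact h1 j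
    have htt : theta (t * t') = mkR (hyperfilter ℕ) fun i => s (d i) * s' (d i) := by
      rw [map_mul, ht, ht', ← map_mul]
      rfl
    have hv1 := hsn hg ht
    have hv1' := hsn hg' ht'
    have hv1'' := hsn (s := fun d => s d * s' d) hg'' htt
    have htn : t ∉ idl (up (hyperfilter ℕ) (E + {P}) d) :=
      hgB.not_mem_of_li (((C.baseChange _).mem_L.mp htL).2) (isB_lift hC d hv hv1).li
    have htn' : t' ∉ idl (up (hyperfilter ℕ) (E' + {P}) d) :=
      hgB'.not_mem_of_li (((C.baseChange _).mem_L.mp htL').2) (isB_lift hC d hv' hv1').li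
    rw [up_add, up_singleton] at hgB hgB' hgB'' htn htn'
    rw [up_add] at hgB''
    have main := hE.add m m' _ _ _ _ _ _ g g' g'' t t' hgB hgB' hgB'' htL htn htL' htn'
    rw [Nm_lift hC hg, Nm_lift hC hg', Nm_lift hC hg'', Nm_lift hC (u := v) hv1,
      Nm_lift hC (u := v') hv1', Nm_lift hC (u := v'') hv1''] at main
    have n1 := (mT C m u).ul_ne_zero (fun d => mT_ne_zero (hu d)) d w
    have n2 := (mT C m' u').ul_ne_zero (fun d => mT_ne_zero (hu' d)) d w
    have n3 := (mT C (m + m') u'').ul_ne_zero (fun d => mT_ne_zero (hu'' d)) d w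
    have n4 := (mT C m v).ul_ne_zero (fun d => mT_ne_zero (hv d)) d w
    have n5 := (mT C m' v').ul_ne_zero (fun d => mT_ne_zero (hv' d)) d w
    have n6 := (mT C (m + m') v'').ul_ne_zero (fun d => mT_ne_zero (hv'' d)) d w
    have main' : (mT C (m + m') v'').ul d w * (mT C m u).ul d w * (mT C m' u').ul d w =
      (mT C (m + m') u'').ul d w * (mT C m v).ul d w * (mT C m' v').ul d w := main
    rw [Fin.prod_univ_six]
    show (mT C (m + m') v'').ul d w ^ (1 : ℤ) * (mT C m u).ul d w ^ (1 : ℤ) *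
      (mT C m' u').ul d w ^ (1 : ℤ) * (mT C (m + m') u'').ul d w ^ (-1 : ℤ) *
      (mT C m v).ul d w ^ (-1 : ℤ) * (mT C m' v').ul d w ^ (-1 : ℤ) = 1
    simp only [zpow_one, zpow_neg]
    rw [main', mul_assoc, mul_assoc, ← mul_inv, ← mul_inv, ← mul_assoc (VT.ul _ d w)]
    exact mul_inv_cancel₀ (mul_ne_zero (mul_ne_zero n3 n4) n5))
  rw [Fin.sum_univ_six] at key
  have key' : (1 : ℤ) • (mT C (m + m') v'').cl K₀ + (1 : ℤ) • (mT C m u).cl K₀ +
      (1 : ℤ) • (mT C m' u').cl K₀ + (-1 : ℤ) • (mT C (m + m') u'').cl K₀ +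
      (-1 : ℤ) • (mT C m v).cl K₀ + (-1 : ℤ) • (mT C m' v').cl K₀ = 0 := key
  rw [← sub_eq_zero, ← neg_eq_zero, ← key']
  module

variable (K₀ D) in
/-- The system of heights. -/
noncomputable def sys (hex : ExactH C) :
    HSystem (D → (A →ₐ[k] k)) ((D → Pl K₀ k → ℝ) ⧸ NEGL K₀ k D) (C.cc + 1) where
  H := Hc K₀ D C
  zero m hm := Hc_zero (by omega)
  add m m' E E' P h h' := Hc_add hex h h'

theorem prin (hex : ExactH C) {F : Multiset (D → (A →ₐ[k] k))} {f : D → A}
    (hf : ∀ d, f d ≠ 0) (hF : ∀ d, Ideal.span {f d} = idl (sp F d)) :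
    (sys K₀ D hex).Prin C.genus F ((cT C F.card f).cl K₀) := by
  intro m E hE
  have hcc : C.genus ≤ C.cc := by unfold CurveAlg.cc; omega
  show Hc K₀ D C (m + F.card) (E + F) = _ • _ + Hc K₀ D C m E
  set r := m + 1 - C.genus - E.card with hr
  have h1 : ∀ d, ∃ u : Fin r → A, IsB C m (sp E d) u := fun d =>
    exists_isB (by rw [card_sp]; omega) (by rw [card_sp]; omega)
  choose u hu using h1
  let v : D → Fin r → A := fun d i => f d * u d i
  have hv : ∀ d, IsB C (m + F.card) (sp (E + F) d) (v d) := fun d => by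
    have := (hu d).mul (hf d) (hF d)
    rwa [card_sp, ← sp_add] at this
  rw [Hc_eq hu, Hc_eq hv]
  have hc0 : ∀ d, cvec C F.card (f d) ≠ 0 := fun d =>
    cvec_ne_zero (hf d) (by rw [DV.deg_eq_card C (hf d) (hF d), card_sp])
  have key := sum_cl_eq_zero (K₀ := K₀) (J := Fin 3) ![1, -(r : ℤ), -1]
    ![mT C (m + F.card) v, cT C F.card f, mT C m u] (by
    intro d w hw
    set O := bdd w (hyperfilter ℕ) with hO
    have hC := isBC_baseChange C (hyperfilter ℕ)
    have hded : IsDedekindDomain (Ult k (hyperfilter ℕ) ⊗[k] A) := isDedekindDomain_baseChange C _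
    have hE := hex O (algebraMap_mem_bdd_of_bddOn hw)
    obtain ⟨g, hg, hgB⟩ := exists_lift_isB (U := hyperfilter ℕ) hC d hu
    obtain ⟨t, ht, ht0, hspan⟩ := exists_lift_span (U := hyperfilter ℕ) hC d hf hF
    have hv1 : ∀ j, theta (t * g j) = mkR (hyperfilter ℕ) fun i => v (d i) j := by
      intro j
      rw [map_mul, ht, hg, ← map_mul]
      rfl
    have main := hE.prin m _ _ t r g ht0 hspan hgB
    rw [card_up, Nm_lift hC hg, Nm_lift hC (u := v) hv1, cvec_lift hC ht] at main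
    have n1 := (mT C m u).ul_ne_zero (fun d => mT_ne_zero (hu d)) d w
    have n2 := (cT C F.card f).ul_ne_zero hc0 d w
    have main' : (mT C (m + F.card) v).ul d w = (cT C F.card f).ul d w ^ r * (mT C m u).ul d w :=
      main
    rw [Fin.prod_univ_three]
    show (mT C (m + F.card) v).ul d w ^ (1 : ℤ) * (cT C F.card f).ul d w ^ (-(r : ℤ)) *
      (mT C m u).ul d w ^ (-1 : ℤ) = 1
    rw [zpow_one, zpow_neg, zpow_neg, zpow_one, zpow_natCast, main', mul_assoc, ← mul_inv]
    exact mul_inv_cancel₀ (mul_ne_zero (pow_ne_zero _ n2) n1))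
  rw [Fin.sum_univ_three] at key
  have key' : (1 : ℤ) • (mT C (m + F.card) v).cl K₀ + (-(r : ℤ)) • (cT C F.card f).cl K₀ +
      (-1 : ℤ) • (mT C m u).cl K₀ = 0 := key
  have h2 : ((m : ℤ) + 1 - C.genus - E.card) = (r : ℤ) := by omega
  rw [h2, ← sub_eq_zero, ← key']
  module

/-! ### The Kummer term -/

theorem isB_hdata_u {n : ℕ} (hn : C.cc ≤ n) (d : DV.HData C n) :
    IsB C (n + d.E.card) d.E (fun i => (d.u i : A)) := by
  have hcc : C.genus ≤ C.cc := by unfold CurveAlg.cc; omega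
  refine ⟨d.linearIndependent_u, fun i => (d.u i).2, ?_, by omega⟩
  unfold DV.rk
  omega

theorem isB_hdata_v {n : ℕ} (hn : C.cc ≤ n) (d : DV.HData C n) :
    IsB C (n + d.E'.card) d.E' (fun i => (d.v i : A)) := by
  have hcc : C.genus ≤ C.cc := by unfold CurveAlg.cc; omega
  refine ⟨d.linearIndependent_v, fun i => (d.v i).2, ?_, by omega⟩
  unfold DV.rk
  omega

theorem IsB.exists_basis {m r : ℕ} {E : Multiset (A →ₐ[k] k)} {u : Fin r → A}
    (h : IsB C m E u) : ∃ b : Basis (Fin r) k (C.L (idl E) m), ∀ i, (b i : A) = u i := by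
  let u' : Fin r → C.L (idl E) m := fun i => ⟨u i, h.mem i⟩
  have h1 : LinearIndependent k u' :=
    LinearIndependent.of_comp (Submodule.subtype _) h.li
  refine ⟨Basis.mk h1 ?_, fun i => by rw [Basis.mk_apply]⟩
  rw [top_le_iff]
  apply Submodule.eq_top_of_finrank_eq
  rw [finrank_span_eq_card h1, Fintype.card_fin, h.finrank]

theorem isB_cast {m m' r : ℕ} {E E' : Multiset (A →ₐ[k] k)} {u : Fin r → A}
    (h : IsB C m E u) (hm : m = m') (hE : E = E') : IsB C m' E' u := by
  subst hm hE; exact h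

theorem mk_det {U : Ultrafilter ℕ} {r : ℕ} (M : ℕ → Matrix (Fin r) (Fin r) k) :
    mk U (fun i => (M i).det) = (Matrix.of fun a b => mk U fun i => M i a b).det := by
  have h1 : (Matrix.of fun a b => mk U fun i => M i a b) =
      (mk (k := k) U).mapMatrix (Matrix.of fun a b i => M i a b) := by
    ext a b
    rfl
  rw [h1, ← RingHom.map_det]
  congr 1
  funext i
  have h2 := (Pi.evalRingHom (fun _ : ℕ => k) i).map_det (Matrix.of fun a b i => M i a b)
  have h3 : (Pi.evalRingHom (fun _ : ℕ => k) i).mapMatrix (Matrix.of fun a b i => M i a b) =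
      M i := by
    ext a b
    rfl
  rw [h3] at h2
  exact h2.symm

theorem lin_lift {U : Ultrafilter ℕ} {m r : ℕ} (z : DV.Idx C m → Fin (r + 1)) {f : ℕ → A}
    {g : Ult k U ⊗[k] A} (hg : theta g = mkR U f) :
    DV.lin (C.baseChange (Ult k U)) m (fun l => ((z l : ℕ) : Ult k U)) g =
      mk U (fun i => DV.lin C m (fun l => ((z l : ℕ) : k)) (f i)) := by
  have hC := isBC_baseChange C U
  rw [DV.lin_apply]
  have h1 : (fun i => DV.lin C m (fun l => ((z l : ℕ) : k)) (f i)) =
      ∑ l : DV.Idx C m, fun i => ((z l : ℕ) : k) * C.coef l.1 (f i) := by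
    funext i
    rw [DV.lin_apply, Finset.sum_apply]
    exact Finset.sum_congr rfl fun l _ => by rw [C.coef_coe]
  rw [h1, map_sum]
  refine Finset.sum_congr rfl fun l _ => ?_
  have h2 : (fun i => ((z l : ℕ) : k) * C.coef l.1 (f i)) =
      ((z l : ℕ) : ℕ → k) * fun i => C.coef l.1 (f i) := rfl
  rw [h2, map_mul, ← cf_mkR, ← hg, cf_theta hC, map_natCast]
  rw [(C.baseChange (Ult k U)).coef_coe]

theorem dvec_lift {U : Ultrafilter ℕ} {n : ℕ} (hd : ℕ → DV.HData C n)
    (hd' : DV.HData (C.baseChange (Ult k U)) n)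
    (c' : Matrix (Fin (DV.rk C n)) (Fin (DV.rk C n)) (Ult k U ⊗[k] A)) (hc' : hd'.c = c')
    (h : ∀ i j : Fin (DV.rk C n), theta (c' i j) = mkR U fun l => (hd l).c i j)
    (z : DV.Idx C (2 * n) → Fin (DV.rk C n + 1)) :
    hd'.dvec z = mk U fun i => (hd i).dvec z := by
  have h1 : hd'.dvec z = (c'.map (DV.lin (C.baseChange (Ult k U)) (2 * n)
      fun l => ((z l : ℕ) : Ult k U))).det := by
    rw [← hc']
    rfl
  have h2 : (fun i => (hd i).dvec z) = fun i =>
      ((hd i).c.map (DV.lin C (2 * n) fun l => ((z l : ℕ) : k))).det := rfl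
  rw [h1, h2, mk_det]
  congr 1
  ext a b
  rw [Matrix.map_apply, Matrix.of_apply]
  exact lin_lift z (h a b)

/-- the determinant vector as a term -/
noncomputable def dT {n : ℕ} (hd : D → DV.HData C n) : VT D k :=
  ⟨DV.Idx C (2 * n) → Fin (DV.rk C n + 1), inferInstance, inferInstance, fun d => (hd d).dvec⟩

theorem kum (hex : ExactH C) {n e e' : ℕ} (hn : C.cc ≤ n) (hd : D → DV.HData C n)
    {E E' : Multiset (D → (A →ₐ[k] k))} (he : E.card = e) (he' : E'.card = e')
    (hE : ∀ d, (hd d).E = sp E d) (hE' : ∀ d, (hd d).E' = sp E' d) :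
    (dT hd).cl K₀ = Hc K₀ D C (n + e) E + Hc K₀ D C (n + e') E' -
      (DV.rk C n : ℤ) • (cT C (e + e') fun d => (hd d).f).cl K₀ := by
  subst he he'
  let u : D → Fin (DV.rk C n) → A := fun d i => ((hd d).u i : A)
  let v : D → Fin (DV.rk C n) → A := fun d i => ((hd d).v i : A)
  let f : D → A := fun d => (hd d).f
  have hu : ∀ d, IsB C (n + E.card) (sp E d) (u d) := fun d => by
    exact isB_cast (isB_hdata_u hn (hd d)) (by rw [hE, card_sp]) (hE d)
  have hv : ∀ d, IsB C (n + E'.card) (sp E' d) (v d) := fun d => by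
    exact isB_cast (isB_hdata_v hn (hd d)) (by rw [hE', card_sp]) (hE' d)
  have hspan : ∀ d, Ideal.span {f d} = idl (sp (E + E') d) := fun d => by
    rw [sp_add, ← hE, ← hE']
    exact (hd d).hf
  have hc0 : ∀ d, cvec C (E.card + E'.card) (f d) ≠ 0 := fun d =>
    cvec_ne_zero (hd d).f_ne (by
      have := DV.deg_eq_card C (hd d).f_ne (hspan d)
      rw [card_sp, Multiset.card_add] at this
      exact this.le)
  rw [Hc_eq hu, Hc_eq hv]
  have key := sum_cl_eq_zero (K₀ := K₀) (J := Fin 4) ![1, (DV.rk C n : ℤ), -1, -1]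
    ![dT hd, cT C (E.card + E'.card) f, mT C (n + E.card) u, mT C (n + E'.card) v] (by
    intro d w hw
    set O := bdd w (hyperfilter ℕ) with hO
    have hC := isBC_baseChange C (hyperfilter ℕ)
    have hded : IsDedekindDomain (Ult k (hyperfilter ℕ) ⊗[k] A) := isDedekindDomain_baseChange C _
    have hEx := hex O (algebraMap_mem_bdd_of_bddOn hw)
    obtain ⟨gu, hgu, hguB⟩ := exists_lift_isB (U := hyperfilter ℕ) hC d hu
    obtain ⟨gv, hgv, hgvB⟩ := exists_lift_isB (U := hyperfilter ℕ) hC d hv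
    obtain ⟨t, ht, ht0, htspan⟩ := exists_lift_span (U := hyperfilter ℕ) hC d
      (fun d => (hd d).f_ne) hspan
    choose gc _ hgc using fun (p : Fin (DV.rk C n) × Fin (DV.rk C n)) =>
      exists_lift (U := hyperfilter ℕ) (f := fun i => (hd (d i)).c p.1 p.2) hC (m := 2 * n)
      (Eventually.of_forall fun i => (hd (d i)).mem_Fil p.1 p.2)
    have hguB' : IsB (C.baseChange (Ult k (hyperfilter ℕ)))
        (n + (up (hyperfilter ℕ) E d).card) (up (hyperfilter ℕ) E d) gu := by
      rw [card_up]; exact hguB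
    have hgvB' : IsB (C.baseChange (Ult k (hyperfilter ℕ)))
        (n + (up (hyperfilter ℕ) E' d).card) (up (hyperfilter ℕ) E' d) gv := by
      rw [card_up]; exact hgvB
    obtain ⟨bu, hbu⟩ := IsB.exists_basis hguB'
    obtain ⟨bv, hbv⟩ := IsB.exists_basis hgvB'
    rw [up_add] at htspan
    have hprod : ∀ i j : Fin (DV.rk C n), (bu i : Ult k (hyperfilter ℕ) ⊗[k] A) *
        (bv j : Ult k (hyperfilter ℕ) ⊗[k] A) = t * gc (i, j) := by
      intro i j
      rw [hbu, hbv]
      apply theta_injective hC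
      rw [map_mul, map_mul, hgu, hgv, ht, hgc, ← map_mul, ← map_mul]
      congr 1
      funext l
      exact (hd (d l)).hc i j
    let hd' : DV.HData (C.baseChange (Ult k (hyperfilter ℕ))) n :=
      ⟨up (hyperfilter ℕ) E d, up (hyperfilter ℕ) E' d, t, ht0, htspan, bu, bv,
        Matrix.of fun i j => gc (i, j), fun i j => hprod i j⟩
    have main := hEx.kum n hd' (by rw [cc_eq hC]; exact hn)
    have e1 : vval O hd'.dvec = (dT hd).ul d w := by
      unfold VT.ul
      congr 1
      funext z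
      exact dvec_lift (fun i => hd (d i)) hd' (Matrix.of fun i j => gc (i, j)) rfl
        (fun i j => hgc (i, j)) z
    have e2 : vval O (cvec (C.baseChange (Ult k (hyperfilter ℕ))) (hd'.E.card + hd'.E'.card)
        hd'.f) = (cT C (E.card + E'.card) f).ul d w := by
      show vval O (cvec (C.baseChange (Ult k (hyperfilter ℕ)))
        ((up (hyperfilter ℕ) E d).card + (up (hyperfilter ℕ) E' d).card) t) = _
      rw [card_up, card_up, cvec_lift hC ht]
      rfl
    have e3 : Nm (C.baseChange (Ult k (hyperfilter ℕ))) O (n + hd'.E.card)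
        (fun i => (hd'.u i : Ult k (hyperfilter ℕ) ⊗[k] A)) = (mT C (n + E.card) u).ul d w := by
      have h3 : (fun i => (hd'.u i : Ult k (hyperfilter ℕ) ⊗[k] A)) = gu := funext hbu
      rw [h3]
      show Nm (C.baseChange (Ult k (hyperfilter ℕ))) O (n + (up (hyperfilter ℕ) E d).card) gu = _
      rw [card_up, Nm_lift hC hgu]
      rfl
    have e4 : Nm (C.baseChange (Ult k (hyperfilter ℕ))) O (n + hd'.E'.card)
        (fun i => (hd'.v i : Ult k (hyperfilter ℕ) ⊗[k] A)) = (mT C (n + E'.card) v).ul d w := by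
      have h3 : (fun i => (hd'.v i : Ult k (hyperfilter ℕ) ⊗[k] A)) = gv := funext hbv
      rw [h3]
      show Nm (C.baseChange (Ult k (hyperfilter ℕ))) O (n + (up (hyperfilter ℕ) E' d).card) gv = _
      rw [card_up, Nm_lift hC hgv]
      rfl
    rw [e1, e2, e3, e4] at main
    have n1 := (mT C (n + E.card) u).ul_ne_zero (fun d => mT_ne_zero (hu d)) d w
    have n2 := (mT C (n + E'.card) v).ul_ne_zero (fun d => mT_ne_zero (hv d)) d w
    have main' : (dT hd).ul d w * (cT C (E.card + E'.card) f).ul d w ^ (DV.rk C n) =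
      (mT C (n + E.card) u).ul d w * (mT C (n + E'.card) v).ul d w := main
    rw [Fin.prod_univ_four]
    show (dT hd).ul d w ^ (1 : ℤ) * (cT C (E.card + E'.card) f).ul d w ^ ((DV.rk C n : ℕ) : ℤ) *
      (mT C (n + E.card) u).ul d w ^ (-1 : ℤ) * (mT C (n + E'.card) v).ul d w ^ (-1 : ℤ) = 1
    rw [zpow_one, zpow_natCast, main', zpow_neg, zpow_neg, zpow_one, zpow_one, mul_assoc,
      ← mul_inv]
    exact mul_inv_cancel₀ (mul_ne_zero n1 n2))
  rw [Fin.sum_univ_four] at key
  have key' : (1 : ℤ) • (dT hd).cl K₀ +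
      (DV.rk C n : ℤ) • (cT C (E.card + E'.card) f).cl K₀ +
      (-1 : ℤ) • (mT C (n + E.card) u).cl K₀ + (-1 : ℤ) • (mT C (n + E'.card) v).cl K₀ = 0 := key
  rw [← sub_eq_zero, ← key']
  show _ - (_ - (DV.rk C n : ℤ) • (cT C (E.card + E'.card) f).cl K₀) = _
  module

end Sys

end Fermat.Agent.MW.LH
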