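import Fermat.Agent.MW.Basic

/-!
# Curve algebras as finite free modules over `k[x]` and their base change
-/

set_option autoImplicit false
set_option linter.style.haveILetI false

open Module Polynomial TensorProduct

namespace Fermat.Agent.MW

/-! ### general algebra -/

section General

/-- `B` as an algebra over `R[X]` through `X ↦ t`. -/
noncomputable abbrev polyAlg (R : Type*) {B : Type*} [CommRing R] [CommRing B] [Algebra R B]
    (t : B) : Algebra (Polynomial R) B := (aeval t : Polynomial R →ₐ[R] B).toRingHom.toAlgebra

theorem polyAlg_isScalarTower (R : Type*) {B : Type*} [CommRing R] [CommRing B] [Algebra R B]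
    (t : B) : letI := polyAlg R t; IsScalarTower R (Polynomial R) B := by
  letI := polyAlg R t
  apply IsScalarTower.of_algebraMap_eq
  intro r
  show _ = (aeval t) (C r)
  simp

variable {R B ι : Type*} [CommRing R] [CommRing B] [Algebra R B] [Algebra (Polynomial R) B]
  [IsScalarTower R (Polynomial R) B]

/-- If `X^j e_i` is an `R`-basis of `B` then `e_i` is an `R[X]`-basis. -/
theorem exists_basis_of_smulTower (β : Basis (ℕ × ι) R B) (e : ι → B)
    (h : ∀ j i, β (j, i) = (X ^ j : Polynomial R) • e i) :
    ∃ b : Basis ι (Polynomial R) B, ∀ i, b i = e i := by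
  let γ : Basis (ℕ × ι) R (ι →₀ Polynomial R) :=
    (Polynomial.basisMonomials R).smulTower
      (Finsupp.basisSingleOne (R := Polynomial R) (ι := ι))
  let F : (ι →₀ Polynomial R) →ₗ[Polynomial R] B := Finsupp.linearCombination (Polynomial R) e
  have hF : F.restrictScalars R = (γ.equiv β (Equiv.refl _) : _ →ₗ[R] _) := by
    apply γ.ext
    rintro ⟨j, i⟩
    rw [LinearEquiv.coe_coe, Basis.equiv_apply, Equiv.refl_apply, h, LinearMap.restrictScalars_apply]
    simp only [γ, F, Basis.smulTower_apply, Polynomial.coe_basisMonomials,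
      Finsupp.coe_basisSingleOne, Finsupp.smul_single, Finsupp.linearCombination_single,
      smul_eq_mul, mul_one, ← Polynomial.X_pow_eq_monomial]
  have hbij : Function.Bijective F := by
    have : (F : (ι →₀ Polynomial R) → B) = (γ.equiv β (Equiv.refl _)) := by
      funext x
      have := congrArg (fun f => f x) hF
      simpa using this
    rw [this]
    exact (γ.equiv β (Equiv.refl _)).bijective
  refine ⟨Basis.ofRepr (LinearEquiv.ofBijective F hbij).symm, fun i => ?_⟩
  rw [Basis.coe_ofRepr, LinearEquiv.symm_symm]
  show F (Finsupp.single i 1) = e i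
  rw [Finsupp.linearCombination_single, one_smul]

omit [Algebra R B] [IsScalarTower R (Polynomial R) B] in
/-- functoriality of norms. -/
theorem norm_map {R' B' : Type*} [CommRing R'] [CommRing B']
    [Algebra (Polynomial R') B'] [Fintype ι] (φ : R →+* R') (Φ : B →+* B')
    (hΦ : ∀ f : Polynomial R, Φ (algebraMap (Polynomial R) B f) =
      algebraMap (Polynomial R') B' (f.map φ))
    (e : Basis ι (Polynomial R) B) (e' : Basis ι (Polynomial R') B')
    (he : ∀ i, Φ (e i) = e' i) (b : B) :
    Algebra.norm (Polynomial R') (Φ b) = (Algebra.norm (Polynomial R) b).map φ := by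
  classical
  rw [Algebra.norm_eq_matrix_det e', Algebra.norm_eq_matrix_det e, ← Polynomial.coe_mapRingHom,
    RingHom.map_det]
  congr 1
  have key : ∀ (y : B) (i : ι), e'.repr (Φ y) i = (e.repr y i).map φ := by
    intro y i
    have h1 : Φ y = ∑ j, ((e.repr y j).map φ) • e' j := by
      conv_lhs => rw [← e.sum_repr y]
      rw [map_sum]
      refine Finset.sum_congr rfl fun j _ => ?_
      rw [Algebra.smul_def, Algebra.smul_def, map_mul, hΦ, he]
    rw [h1, e'.repr_sum_self]
  apply Matrix.ext
  intro i j
  rw [Algebra.leftMulMatrix_eq_repr_mul, RingHom.mapMatrix_apply, Matrix.map_apply,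
    Algebra.leftMulMatrix_eq_repr_mul, coe_mapRingHom, ← key, map_mul Φ, he]

/-- base change of a basis of `A` over `k[X]` to a basis of `R ⊗ A` over `R[X]`. -/
theorem exists_basis_baseChange {k A : Type*} [CommRing k] [CommRing A] [Algebra k A]
    [Algebra (Polynomial k) A] [IsScalarTower k (Polynomial k) A] {ι : Type*}
    (e : Basis ι (Polynomial k) A) (R : Type*) [CommRing R] [Algebra k R]
    [Algebra (Polynomial R) (R ⊗[k] A)] [IsScalarTower R (Polynomial R) (R ⊗[k] A)]
    (hX : algebraMap (Polynomial R) (R ⊗[k] A) X = 1 ⊗ₜ algebraMap (Polynomial k) A X) :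
    ∃ b : Basis ι (Polynomial R) (R ⊗[k] A), ∀ i, b i = 1 ⊗ₜ e i := by
  apply exists_basis_of_smulTower
    (Algebra.TensorProduct.basis R ((Polynomial.basisMonomials k).smulTower e))
  intro j i
  rw [Algebra.TensorProduct.basis_apply, Basis.smulTower_apply, Polynomial.coe_basisMonomials]
  show (1 : R) ⊗ₜ[k] ((monomial j (1 : k)) • e i) = _
  rw [← Polynomial.X_pow_eq_monomial, Algebra.smul_def, Algebra.smul_def, map_pow, map_pow, hX,
    Algebra.TensorProduct.tmul_pow, one_pow, Algebra.TensorProduct.tmul_mul_tmul, one_mul]

end General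

/-! ### curve algebras over `k[x]` -/

namespace CurveAlg

variable {k A : Type*} [Field k] [CommRing A] [Algebra k A] (C : CurveAlg k A)

include C in
theorem deg_pow {x : A} (hx : x ≠ 0) (n : ℕ) : C.deg (x ^ n) = n * C.deg x := by
  induction n with
  | zero =>
    rw [pow_zero, zero_mul, ← C.b_zero, C.deg_b]
  | succ n ih =>
    have := C.isDomain
    rw [pow_succ, C.deg_mul (pow_ne_zero n hx) hx, ih]
    ring

theorem deg_algebraMap (c : k) : C.deg (algebraMap k A c) = 0 := by
  rw [Algebra.algebraMap_eq_smul_one, ← C.b_zero]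
  have : c • C.b ⟨0, C.zero_mem⟩ ∈ C.Fil 0 := (C.Fil 0).smul_mem c (C.b_mem_Fil ⟨0, C.zero_mem⟩)
  exact Nat.le_zero.mp (C.mem_Fil_iff_deg_le.mp this)

theorem mem_Fil_zero_iff {a : A} : a ∈ C.Fil 0 ↔ ∃ c : k, a = algebraMap k A c := by
  constructor
  · intro h
    refine ⟨C.coef 0 a, ?_⟩
    apply C.ext_coef
    intro m
    rw [Algebra.algebraMap_eq_smul_one, ← C.b_zero, map_smul, C.coef_b]
    rcases Nat.eq_zero_or_pos m with rfl | hm
    · simp
    · rw [h m hm]
      simp [hm.ne]
  · rintro ⟨c, rfl⟩
    rw [C.mem_Fil_iff_deg_le, C.deg_algebraMap]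

include C in
theorem finite_polyAlg {x : A} (hx : 0 < C.deg x) :
    letI := polyAlg k x; Module.Finite (Polynomial k) A := by
  letI := polyAlg k x
  have hx0 : x ≠ 0 := by
    rintro rfl
    simp at hx
  refine ⟨?_⟩
  set N := C.cond + C.deg x with hN
  let s : Set A := C.b '' {l : C.S | (l : ℕ) ≤ N}
  have hs : s.Finite := (C.finite_le N).image _
  rw [Submodule.fg_def]
  refine ⟨s, hs, ?_⟩
  rw [eq_top_iff]
  haveI := polyAlg_isScalarTower k x
  have key : ∀ m, ∀ a : A, C.deg a ≤ m → a ∈ Submodule.span (Polynomial k) s := by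
    intro m
    induction m using Nat.strong_induction_on with
    | _ m ih =>
      intro a ha
      by_cases hm : m ≤ N
      · -- `a` is a `k`-combination of the `b_l`
        rw [← C.b.linearCombination_repr a, Finsupp.linearCombination_apply, Finsupp.sum]
        refine Submodule.sum_mem _ fun l hl => ?_
        rw [← algebraMap_smul (Polynomial k)]
        apply Submodule.smul_mem
        apply Submodule.subset_span
        refine ⟨l, ?_, rfl⟩
        have : (l : ℕ) ≤ C.deg a := Finset.le_sup (f := fun l : C.S => (l : ℕ)) hl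
        exact this.trans (ha.trans hm)
      · push Not at hm
        have hjS : m - C.deg x ∈ C.S := C.mem_of_cond_le (by omega)
        set j : C.S := ⟨m - C.deg x, hjS⟩ with hj
        have hjne : C.b j ≠ 0 := C.b.ne_zero j
        have hsum : C.deg x + (j : ℕ) = m := by simp only [hj]; omega
        have hdeg : C.deg (x * C.b j) = m := by rw [C.deg_mul hx0 hjne, C.deg_b, hsum]
        have hab : x * C.b j ≠ 0 := C.mul_ne_zero' hx0 hjne
        have hlam : C.coef m (x * C.b j) ≠ 0 := by
          have := C.coef_deg_ne_zero hab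
          rwa [hdeg] at this
        set lam := C.coef m (x * C.b j)
        have hy : C.deg (a - (C.coef m a / lam) • (x * C.b j)) ≤ m - 1 := by
          rw [← C.mem_Fil_iff_deg_le]
          intro l hl
          rcases Nat.lt_or_ge m l with h | h
          · have e1 : C.coef l a = 0 := C.coef_eq_zero_of_deg_lt (lt_of_le_of_lt ha h)
            have e2 : C.coef l (x * C.b j) = 0 := C.coef_eq_zero_of_deg_lt (by rw [hdeg]; exact h)
            rw [map_sub, map_smul, e1, e2]
            simp
          · have : l = m := by omega
            subst this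
            rw [map_sub, map_smul, smul_eq_mul, div_mul_cancel₀ _ hlam, sub_self]
        have h1 := ih (m - 1) (by omega) _ hy
        have h2 : x * C.b j ∈ Submodule.span (Polynomial k) s := by
          have h3 := ih (j : ℕ) (by simp only [hj]; omega) (C.b j) (by rw [C.deg_b])
          have h4 : x * C.b j = (X : Polynomial k) • C.b j := by
            rw [Algebra.smul_def]
            congr 1
            show _ = (aeval x) X
            simp
          rw [h4]
          exact Submodule.smul_mem _ _ h3
        have h5 : a = (a - (C.coef m a / lam) • (x * C.b j)) + (C.coef m a / lam) • (x * C.b j) := by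
          ring
        rw [h5]
        refine Submodule.add_mem _ h1 ?_
        rw [← algebraMap_smul (Polynomial k)]
        exact Submodule.smul_mem _ _ h2
  intro a _
  exact key _ a le_rfl

theorem aeval_injective {x : A} (hx : 0 < C.deg x) :
    Function.Injective (aeval x : Polynomial k →ₐ[k] A) := by
  have hx0 : x ≠ 0 := by
    rintro rfl
    simp at hx
  have := C.isDomain
  rw [injective_iff_map_eq_zero]
  intro f hf
  by_contra hne
  -- the coefficient of degree `natDegree f * deg x`
  have key : C.coef (f.natDegree * C.deg x) (aeval x f) ≠ 0 := by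
    rw [aeval_eq_sum_range, map_sum, Finset.sum_range_succ, Finset.sum_eq_zero, zero_add, map_smul,
      smul_eq_mul]
    · apply mul_ne_zero (leadingCoeff_ne_zero.mpr hne)
      have := C.coef_deg_ne_zero (pow_ne_zero f.natDegree hx0)
      rwa [C.deg_pow hx0] at this
    · intro i hi
      rw [Finset.mem_range] at hi
      rw [map_smul, C.coef_eq_zero_of_deg_lt, smul_zero]
      rw [C.deg_pow hx0]
      exact Nat.mul_lt_mul_of_pos_right hi hx
  apply key
  rw [hf, map_zero]

/-- `A` is free of finite rank over `k[x]`. -/
theorem exists_basis_polyAlg {x : A} (hx : 0 < C.deg x) :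
    letI := polyAlg k x; ∃ n : ℕ, Nonempty (Basis (Fin n) (Polynomial k) A) := by
  letI := polyAlg k x
  haveI := C.isDomain
  haveI := C.finite_polyAlg hx
  haveI : Module.IsTorsionFree (Polynomial k) A := by
    rw [Module.isTorsionFree_iff_algebraMap_injective]
    exact C.aeval_injective hx
  exact ⟨_, ⟨Module.finBasis (Polynomial k) A⟩⟩

end CurveAlg

end Fermat.Agent.MW
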