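import Fermat.Agent.MW.NormBase
import Fermat.Agent.MW.Points

/-!
# Norm of an element whose divisor is a sum of rational points
-/

set_option autoImplicit false
set_option linter.style.haveILetI false

open Module Polynomial

namespace Fermat.Agent.MW

section

variable {Ω B : Type*} [Field Ω] [CommRing B] [Algebra Ω B]
variable [Algebra (Polynomial Ω) B] [IsScalarTower Ω (Polynomial Ω) B]

theorem pt_algebraMap_poly (P : B →ₐ[Ω] Ω) (f : Polynomial Ω) :
    P (algebraMap (Polynomial Ω) B f) = f.eval (P (algebraMap (Polynomial Ω) B X)) := by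
  have h2 : (P.comp (IsScalarTower.toAlgHom Ω (Polynomial Ω) B)) =
      aeval (P (algebraMap (Polynomial Ω) B X)) := by
    apply Polynomial.algHom_ext
    simp
  have h3 := congrArg (fun g => g f) h2
  simpa [Polynomial.coe_aeval_eq_eval] using h3

theorem comap_ker_eq (P : B →ₐ[Ω] Ω) :
    (RingHom.ker P).comap (algebraMap (Polynomial Ω) B) =
      Ideal.span {X - C (P (algebraMap (Polynomial Ω) B X))} := by
  ext f
  rw [Ideal.mem_comap, RingHom.mem_ker, Ideal.mem_span_singleton, dvd_iff_isRoot, IsRoot.def,
    pt_algebraMap_poly]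

/-- the norm of an element with divisor `D` is `c ∏ (X - x(P))`. -/
theorem norm_eq_prod (C₀ : CurveAlg Ω B) [IsDedekindDomain B] {n : ℕ}
    (b : Basis (Fin n) (Polynomial Ω) B) {a : B} (ha : a ≠ 0) {D : Multiset (B →ₐ[Ω] Ω)}
    (hD : Ideal.span {a} = idl D) :
    ∃ c : Ω, c ≠ 0 ∧ Algebra.norm (Polynomial Ω) a =
      C c * (D.map fun P => (X - C (P (algebraMap (Polynomial Ω) B X)) : Polynomial Ω)).prod := by
  classical
  haveI : Module.Finite (Polynomial Ω) B := Module.Finite.of_basis b
  haveI : Module.Free (Polynomial Ω) B := Module.Free.of_basis b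
  haveI : Module.IsTorsionFree (Polynomial Ω) B := inferInstance
  -- the exponents
  have hex : ∀ P : B →ₐ[Ω] Ω, ∃ s : ℕ, Ideal.relNorm (Polynomial Ω) (RingHom.ker P) =
      (Ideal.span {X - C (P (algebraMap (Polynomial Ω) B X))}) ^ s := by
    intro P
    haveI : (RingHom.ker P).LiesOver
      (Ideal.span {X - C (P (algebraMap (Polynomial Ω) B X))}) := ⟨(comap_ker_eq P).symm⟩
    haveI : (Ideal.span {X - C (P (algebraMap (Polynomial Ω) B X))}).IsPrime := by
      rw [Ideal.span_singleton_prime (X_sub_C_ne_zero _)]
      exact prime_X_sub_C _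
    exact Ideal.exists_relNorm_eq_pow_of_isPrime _ _
  choose s hs using hex
  have hs1 : ∀ P, 1 ≤ s P := by
    intro P
    by_contra h
    have h0 : s P = 0 := by omega
    have h1 := hs P
    rw [h0, pow_zero, Ideal.one_eq_top] at h1
    have h2 := Ideal.relNorm_le_comap (Polynomial Ω) (RingHom.ker P)
    rw [h1, top_le_iff, Ideal.comap_eq_top_iff] at h2
    exact (RingHom.ker_ne_top P) h2
  have hnorm : Ideal.span {Algebra.norm (Polynomial Ω) a} = Ideal.span
      {(D.map fun P => (X - C (P (algebraMap (Polynomial Ω) B X)) : Polynomial Ω) ^ s P).prod} := by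
    rw [← Algebra.intNorm_eq_norm, ← Ideal.relNorm_singleton, hD]
    unfold idl
    rw [map_multiset_prod, Multiset.map_map, ← Ideal.multiset_prod_span_singleton,
      Multiset.map_map]
    congr 1
    apply Multiset.map_congr rfl
    intro P _
    rw [Function.comp_apply, Function.comp_apply, hs, Ideal.span_singleton_pow]
  rw [Ideal.span_singleton_eq_span_singleton] at hnorm
  -- degrees
  have hdeg : (Algebra.norm (Polynomial Ω) a).natDegree = Multiset.card D := by
    rw [← finrank_quotient_span_eq_natDegree_norm b ha, ← col_idl C₀, ← hD]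
    rfl
  have hmonic : ∀ P ∈ D, ((X - C (P (algebraMap (Polynomial Ω) B X)) : Polynomial Ω) ^ s P).Monic :=
    fun P _ => (monic_X_sub_C _).pow _
  have hdeg2 : (D.map fun P =>
      (X - C (P (algebraMap (Polynomial Ω) B X)) : Polynomial Ω) ^ s P).prod.natDegree =
      (D.map s).sum := by
    rw [natDegree_multiset_prod_of_monic, Multiset.map_map]
    · congr 1
      apply Multiset.map_congr rfl
      intro P _
      rw [Function.comp_apply, natDegree_pow, natDegree_X_sub_C, mul_one]
    · intro f hf
      obtain ⟨P, hP, rfl⟩ := Multiset.mem_map.mp hf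
      exact hmonic P hP
  have hsum : (D.map s).sum = Multiset.card D := by
    rw [← hdeg2, ← hdeg]
    exact (natDegree_eq_of_degree_eq (degree_eq_degree_of_associated hnorm)).symm
  have hall : ∀ P ∈ D, s P = 1 := by
    have h1 : (D.map fun P => s P - 1).sum = 0 := by
      have h2 : (D.map fun P => (s P - 1) + 1).sum = (D.map s).sum := by
        congr 1
        apply Multiset.map_congr rfl
        intro P _
        have := hs1 P
        omega
      rw [Multiset.sum_map_add, hsum] at h2
      simp only [Multiset.map_const', Multiset.sum_replicate, smul_eq_mul, mul_one] at h2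
      omega
    intro P hP
    have h3 : s P - 1 ∈ D.map fun P => s P - 1 := Multiset.mem_map_of_mem _ hP
    have h4 := Multiset.le_sum_of_mem h3
    have := hs1 P
    omega
  have hprod : (D.map fun P =>
      (X - C (P (algebraMap (Polynomial Ω) B X)) : Polynomial Ω) ^ s P).prod =
      (D.map fun P => (X - C (P (algebraMap (Polynomial Ω) B X)) : Polynomial Ω)).prod := by
    congr 1
    apply Multiset.map_congr rfl
    intro P hP
    rw [hall P hP, pow_one]
  rw [hprod] at hnorm
  obtain ⟨u, hu⟩ := hnorm.symm
  obtain ⟨c, hc, hcu⟩ := Polynomial.isUnit_iff.mp u.isUnit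
  refine ⟨c, hc.ne_zero, ?_⟩
  rw [← hu, ← hcu, mul_comm]

end

end Fermat.Agent.MW
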