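import Mathlib

/-!
# Reduction of split polynomials over a valuation ring

`O` a valuation subring of a field `Ω`, `κ` its residue field.  If `f ∈ O[X]` has nonzero
reduction and `f = c ∏ (X - α)` over `Ω`, then `f̄ = c' ∏_{α ∈ O} (X - ᾱ)`, `c' ≠ 0`.
-/

set_option autoImplicit false

open Polynomial

namespace Fermat.Agent.MW

variable {Ω : Type*} [Field Ω] (O : ValuationSubring Ω)

/-- reduction of an element of `Ω`: defined on `O` only. -/
noncomputable def redVal (α : Ω) : Option (IsLocalRing.ResidueField O) :=
  open Classical in if h : α ∈ O then some (IsLocalRing.residue O ⟨α, h⟩) else none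

theorem redVal_of_mem {α : Ω} (h : α ∈ O) :
    redVal O α = some (IsLocalRing.residue O ⟨α, h⟩) := by
  simp [redVal, h]

theorem redVal_of_notMem {α : Ω} (h : α ∉ O) : redVal O α = none := by
  simp [redVal, h]

theorem redVal_coe (α : O) : redVal O (α : Ω) = some (IsLocalRing.residue O α) :=
  redVal_of_mem O α.2

/-- `X - α` up to a unit of `Ω` -/
theorem exists_lift_linear (α : Ω) : ∃ (g : Polynomial O) (u : Ω), u ≠ 0 ∧
    (X - C α : Polynomial Ω) = C u * g.map (algebraMap O Ω) ∧
    g.map (IsLocalRing.residue O) =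
      (((redVal O α).map fun a => (X - C a : Polynomial (IsLocalRing.ResidueField O))).getD 1) := by
  by_cases h : α ∈ O
  · refine ⟨X - C ⟨α, h⟩, 1, one_ne_zero, ?_, ?_⟩
    · simp only [map_one, one_mul, Polynomial.map_sub, map_X, map_C]
      rfl
    · rw [redVal_of_mem O h]
      simp
  · have hα0 : α ≠ 0 := by
      rintro rfl
      exact h O.zero_mem
    have hinv : α⁻¹ ∈ O := (O.mem_or_inv_mem α).resolve_left h
    refine ⟨1 - C ⟨α⁻¹, hinv⟩ * X, -α, neg_ne_zero.mpr hα0, ?_, ?_⟩
    · have h1 : (algebraMap O Ω) ⟨α⁻¹, hinv⟩ = α⁻¹ := rfl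
      simp only [Polynomial.map_sub, Polynomial.map_one, Polynomial.map_mul, map_C, map_X, h1,
        C_neg]
      have h2 : (C α : Polynomial Ω) * C α⁻¹ = 1 := by rw [← C_mul, mul_inv_cancel₀ hα0, C_1]
      linear_combination (-(X : Polynomial Ω)) * h2
    · rw [redVal_of_notMem O h]
      have h1 : IsLocalRing.residue O ⟨α⁻¹, hinv⟩ = 0 := by
        rw [IsLocalRing.residue_eq_zero_iff, IsLocalRing.mem_maximalIdeal, mem_nonunits_iff]
        intro hu
        obtain ⟨v, hv⟩ := hu.exists_right_inv
        apply h
        have : α⁻¹ * (v : Ω) = 1 := congrArg Subtype.val hv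
        have hv' : (v : Ω) = α := by
          field_simp at this
          exact this
        rw [← hv']
        exact v.2
      simp [h1]

theorem exists_lift_prod (s : Multiset Ω) : ∃ (g : Polynomial O) (u : Ω), u ≠ 0 ∧
    (s.map fun α => (X - C α : Polynomial Ω)).prod = C u * g.map (algebraMap O Ω) ∧
    g.map (IsLocalRing.residue O) = ((s.filterMap (redVal O)).map
      fun a => (X - C a : Polynomial (IsLocalRing.ResidueField O))).prod := by
  induction s using Multiset.induction with
  | empty => exact ⟨1, 1, one_ne_zero, by simp, by simp⟩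
  | cons α s ih =>
    obtain ⟨g, u, hu, h1, h2⟩ := ih
    obtain ⟨g', u', hu', h1', h2'⟩ := exists_lift_linear O α
    refine ⟨g' * g, u' * u, mul_ne_zero hu' hu, ?_, ?_⟩
    · rw [Multiset.map_cons, Multiset.prod_cons, h1, h1', Polynomial.map_mul, C_mul]
      ring
    · rw [Polynomial.map_mul, h2, h2']
      cases h : redVal O α with
      | none => rw [Multiset.filterMap_cons_none _ _ h]; simp
      | some b => rw [Multiset.filterMap_cons_some _ _ _ h]; simp

/-- **Reduction of primitive split polynomials.** -/
theorem map_residue_eq_prod {f : Polynomial O} {c : Ω} {s : Multiset Ω}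
    (hf : f.map (algebraMap O Ω) = C c * (s.map fun α => (X - C α : Polynomial Ω)).prod)
    (hne : f.map (IsLocalRing.residue O) ≠ 0) :
    ∃ c' : IsLocalRing.ResidueField O, c' ≠ 0 ∧
      f.map (IsLocalRing.residue O) = C c' * ((s.filterMap (redVal O)).map
        fun a => (X - C a : Polynomial (IsLocalRing.ResidueField O))).prod := by
  obtain ⟨g, u, hu, h1, h2⟩ := exists_lift_prod O s
  have hmonic : (g.map (IsLocalRing.residue O)).Monic := by
    rw [h2]
    exact monic_multiset_prod_of_monic _ _ fun a _ => monic_X_sub_C a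
  set i := (g.map (IsLocalRing.residue O)).natDegree with hi
  have hgi : IsUnit (g.coeff i) := by
    by_contra hnu
    have : IsLocalRing.residue O (g.coeff i) = 0 := by
      rw [IsLocalRing.residue_eq_zero_iff, IsLocalRing.mem_maximalIdeal]
      exact hnu
    have h3 := hmonic.coeff_natDegree
    rw [← hi, coeff_map, this] at h3
    exact zero_ne_one h3
  obtain ⟨w, hw⟩ := hgi.exists_right_inv
  -- `f = v' g`
  have hfg : f = C (f.coeff i * w) * g := by
    apply Polynomial.map_injective (algebraMap O Ω) (IsFractionRing.injective O Ω)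
    rw [Polynomial.map_mul, map_C, hf, h1, ← mul_assoc, ← C_mul]
    congr 2
    have h4 := congrArg (fun p => p.coeff i) hf
    simp only [h1] at h4
    rw [← mul_assoc, ← C_mul, coeff_C_mul, coeff_map, coeff_map] at h4
    rw [map_mul, h4, mul_assoc, ← map_mul, hw, map_one, mul_one]
  refine ⟨IsLocalRing.residue O (f.coeff i * w), ?_, ?_⟩
  · intro h0
    apply hne
    rw [hfg, Polynomial.map_mul, map_C, h0, C_0, zero_mul]
  · conv_lhs => rw [hfg]
    rw [Polynomial.map_mul, map_C, h2]

/-- multiset version: if the reduction is also split, the roots correspond. -/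
theorem filterMap_redVal_eq {f : Polynomial O} {c : Ω} {s : Multiset Ω}
    {c' : IsLocalRing.ResidueField O} {s' : Multiset (IsLocalRing.ResidueField O)}
    (hf : f.map (algebraMap O Ω) = C c * (s.map fun α => (X - C α : Polynomial Ω)).prod)
    (hc' : c' ≠ 0)
    (hf' : f.map (IsLocalRing.residue O) = C c' *
      (s'.map fun α => (X - C α : Polynomial (IsLocalRing.ResidueField O))).prod) :
    s' = s.filterMap (redVal O) := by
  have hprod : ∀ t : Multiset (IsLocalRing.ResidueField O),
      (t.map fun α => (X - C α : Polynomial (IsLocalRing.ResidueField O))).prod ≠ 0 := fun t =>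
    (monic_multiset_prod_of_monic _ _ fun a _ => monic_X_sub_C a).ne_zero
  have hne : f.map (IsLocalRing.residue O) ≠ 0 := by
    rw [hf']
    exact mul_ne_zero (C_ne_zero.mpr hc') (hprod _)
  obtain ⟨c'', hc'', h⟩ := map_residue_eq_prod O hf hne
  rw [hf'] at h
  have h2 := congrArg Polynomial.roots h
  rw [roots_C_mul _ hc', roots_C_mul _ hc'', roots_multiset_prod_X_sub_C,
    roots_multiset_prod_X_sub_C] at h2
  exact h2

end Fermat.Agent.MW
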