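import Fermat.Agent.MW.RedPoly
import Fermat.Agent.MW.NormDiv

/-!
# Reduction of divisors for a constant curve over a valuation ring

`k ⊆ O ⊂ Ω`, `κ` the residue field of `O`.  For `a ∈ O ⊗ A` with nonzero image `ā` in `κ ⊗ A`:
`div ā = red_* (div a)` where `red P = residue ∘ P` if `P(A) ⊆ O` and `P` disappears (goes to the
point at infinity) otherwise.
-/

set_option autoImplicit false
set_option linter.style.haveILetI false

open Module Polynomial TensorProduct

namespace Fermat.Agent.MW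

section general

variable {k A : Type*} [Field k] [CommRing A] [Algebra k A]

/-- extension of an `R`-valued point of `A` to `R ⊗ A`. -/
noncomputable def ptExt {R : Type*} [CommRing R] [Algebra k R] (P : A →ₐ[k] R) :
    R ⊗[k] A →ₐ[R] R :=
  Algebra.TensorProduct.lift (AlgHom.id R R) P (fun _ _ => Commute.all _ _)

@[simp] theorem ptExt_tmul {R : Type*} [CommRing R] [Algebra k R] (P : A →ₐ[k] R) (r : R) (a : A) :
    ptExt P (r ⊗ₜ a) = r * P a := by
  simp [ptExt]

/-- restriction of a point of `R ⊗ A` to `A`. -/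
noncomputable def ptRes {R : Type*} [CommRing R] [Algebra k R] (P : R ⊗[k] A →ₐ[R] R) :
    A →ₐ[k] R :=
  (P.restrictScalars k).comp Algebra.TensorProduct.includeRight

@[simp] theorem ptRes_apply {R : Type*} [CommRing R] [Algebra k R] (P : R ⊗[k] A →ₐ[R] R) (a : A) :
    ptRes P a = P (1 ⊗ₜ a) := rfl

@[simp] theorem ptExt_ptRes {R : Type*} [CommRing R] [Algebra k R] (P : R ⊗[k] A →ₐ[R] R) :
    ptExt (ptRes P) = P := by
  apply AlgHom.ext
  intro z
  induction z using TensorProduct.induction_on with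
  | zero => simp
  | tmul r a =>
    rw [ptExt_tmul, ptRes_apply, ← smul_eq_mul, ← map_smul, TensorProduct.smul_tmul', smul_eq_mul,
      mul_one]
  | add x y hx hy => rw [map_add, map_add, hx, hy]

@[simp] theorem ptRes_ptExt {R : Type*} [CommRing R] [Algebra k R] (P : A →ₐ[k] R) :
    ptRes (ptExt P) = P := by
  ext a
  simp

theorem pt_ext {R : Type*} [CommRing R] [Algebra k R] {P Q : R ⊗[k] A →ₐ[R] R}
    (h : ∀ a : A, P (1 ⊗ₜ a) = Q (1 ⊗ₜ a)) : P = Q := by
  rw [← ptExt_ptRes P, ← ptExt_ptRes Q]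
  congr 1
  ext a
  simpa using h a

/-- base change along an algebra homomorphism of coefficient rings -/
noncomputable abbrev bc {R R' : Type*} (A : Type*) [CommRing A] [Algebra k A] [CommRing R]
    [Algebra k R] [CommRing R'] [Algebra k R'] (φ : R →ₐ[k] R') : R ⊗[k] A →ₐ[k] R' ⊗[k] A :=
  Algebra.TensorProduct.map φ (AlgHom.id k A)

theorem bc_aeval {R R' : Type*} [CommRing R] [Algebra k R] [CommRing R'] [Algebra k R']
    (φ : R →ₐ[k] R') (x : A) (f : Polynomial R) :
    bc A φ (aeval (1 ⊗ₜ x : R ⊗[k] A) f) = aeval (1 ⊗ₜ x : R' ⊗[k] A) (f.map (φ : R →+* R')) := by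
  induction f using Polynomial.induction_on' with
  | add p q hp hq => rw [map_add, map_add, hp, hq, Polynomial.map_add, map_add]
  | monomial n r =>
    rw [aeval_monomial, Polynomial.map_monomial, aeval_monomial, map_mul, map_pow]
    simp only [Algebra.TensorProduct.algebraMap_apply, Algebra.algebraMap_self, RingHom.id_apply,
      Algebra.TensorProduct.map_tmul, AlgHom.coe_id, id_eq, map_one]
    rfl

/-- multisets with equal images under a map injective on both. -/
theorem eq_of_map_eq {α β : Type*} {f : α → β} {s t : Multiset α}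
    (hf : ∀ x ∈ s + t, ∀ y ∈ s + t, f x = f y → x = y) (h : s.map f = t.map f) : s = t := by
  classical
  have key : ∀ u : Multiset α, u ≤ s + t → ∀ x ∈ s + t, u.count x = (u.map f).count (f x) := by
    intro u hu x hx
    rw [Multiset.count_map, Multiset.count_eq_card_filter_eq]
    congr 1
    apply Multiset.filter_congr
    intro y hy
    constructor
    · rintro rfl; rfl
    · intro h
      exact hf x hx y (Multiset.mem_of_le hu hy) h
  apply Multiset.ext.mpr
  intro x
  by_cases hx : x ∈ s + t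
  · rw [key s (Multiset.le_add_right _ _) x hx, key t (Multiset.le_add_left _ _) x hx, h]
  · rw [Multiset.mem_add, not_or] at hx
    rw [Multiset.count_eq_zero_of_notMem hx.1, Multiset.count_eq_zero_of_notMem hx.2]

/-- an element of `A` separating finitely many points and nonconstant. -/
theorem exists_separating [Infinite k] (C : CurveAlg k A) {κ : Type*} [Field κ] [Algebra k κ]
    (T : Finset (A →ₐ[k] κ)) :
    ∃ x : A, 0 < C.deg x ∧ ∀ P ∈ T, ∀ Q ∈ T, P x = Q x → P = Q := by
  classical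
  let ι := Option {pq : (A →ₐ[k] κ) × (A →ₐ[k] κ) // pq ∈ T ×ˢ T ∧ pq.1 ≠ pq.2}
  haveI : Finite {pq : (A →ₐ[k] κ) × (A →ₐ[k] κ) // pq ∈ T ×ˢ T ∧ pq.1 ≠ pq.2} :=
    Set.Finite.subset (T ×ˢ T).finite_toSet (fun pq h => h.1)
  let V : ι → Submodule k A := fun o => match o with
    | none => C.Fil 0
    | some pq => LinearMap.ker (pq.1.1.toLinearMap - pq.1.2.toLinearMap)
  have hV : ∀ o, V o ≠ ⊤ := by
    intro o h
    cases o with
    | none =>
      obtain ⟨l, hl⟩ := exists_pos_deg C
      have h1 : C.b l ∈ C.Fil 0 := by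
        have : C.b l ∈ V none := by rw [h]; trivial
        exact this
      rw [C.mem_Fil_iff_deg_le, C.deg_b] at h1
      omega
    | some pq =>
      apply pq.2.2
      ext a
      have : a ∈ V (some pq) := by rw [h]; trivial
      have h2 : (pq.1.1.toLinearMap - pq.1.2.toLinearMap) a = 0 := this
      simpa [sub_eq_zero] using h2
  obtain ⟨x, hx⟩ := Submodule.exists_forall_notMem_of_forall_ne_top V hV
  refine ⟨x, ?_, ?_⟩
  · have := hx none
    by_contra h
    apply this
    show x ∈ C.Fil 0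
    rw [C.mem_Fil_iff_deg_le]
    omega
  · intro P hP Q hQ hPQ
    by_contra hne
    apply hx (some ⟨(P, Q), Finset.mem_product.mpr ⟨hP, hQ⟩, hne⟩)
    show (P.toLinearMap - Q.toLinearMap) x = 0
    simpa [sub_eq_zero] using hPQ

end general

section reduction

variable {k A : Type*} [Field k] [CommRing A] [Algebra k A]
variable {Ω : Type*} [Field Ω] [Algebra k Ω] (O : ValuationSubring Ω) [Algebra k O]
  [IsScalarTower k O Ω]

/-- the `k`-algebra structure on a valuation ring containing `k`. -/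
noncomputable abbrev valAlgebra (k : Type*) [Field k] {Ω : Type*} [Field Ω] [Algebra k Ω]
    (O : ValuationSubring Ω) (hO : ∀ c : k, algebraMap k Ω c ∈ O) : Algebra k O :=
  ((algebraMap k Ω).codRestrict O.toSubring hO).toAlgebra

theorem valAlgebra_isScalarTower (k : Type*) [Field k] {Ω : Type*} [Field Ω] [Algebra k Ω]
    (O : ValuationSubring Ω) (hO : ∀ c : k, algebraMap k Ω c ∈ O) :
    letI := valAlgebra k O hO; IsScalarTower k O Ω := by
  letI := valAlgebra k O hO
  exact IsScalarTower.of_algebraMap_eq fun c => rfl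

/-- the reduction of a point of `A` with values in `Ω` that is integral. -/
noncomputable def redHom (P : A →ₐ[k] Ω) (h : ∀ a, P a ∈ O) :
    A →ₐ[k] IsLocalRing.ResidueField O where
  toRingHom := (IsLocalRing.residue O).comp ((P : A →+* Ω).codRestrict O.toSubring h)
  commutes' := fun c => by
    show (IsLocalRing.residue O) ⟨P (algebraMap k A c), _⟩ = _
    have : (⟨P (algebraMap k A c), h _⟩ : O) = algebraMap k O c := by
      apply Subtype.ext
      show P (algebraMap k A c) = (algebraMap O Ω) (algebraMap k O c)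
      rw [← IsScalarTower.algebraMap_apply, AlgHom.commutes]
    rw [this]
    rfl

theorem redHom_apply (P : A →ₐ[k] Ω) (h : ∀ a, P a ∈ O) (a : A) :
    redHom O P h a = IsLocalRing.residue O ⟨P a, h a⟩ := rfl

/-- reduction of a point of `Ω ⊗ A`; `none` = the point at infinity. -/
noncomputable def redPt (P : Ω ⊗[k] A →ₐ[Ω] Ω) :
    Option (IsLocalRing.ResidueField O ⊗[k] A →ₐ[IsLocalRing.ResidueField O]
      IsLocalRing.ResidueField O) :=
  open Classical in if h : ∀ a : A, ptRes P a ∈ O then some (ptExt (redHom O (ptRes P) h)) else none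

/-- integrality of a point is detected by any non constant function. -/
theorem forall_mem_of_mem (C : CurveAlg k A) {x : A} (hx : 0 < C.deg x) (P : A →ₐ[k] Ω)
    (h : P x ∈ O) (a : A) : P a ∈ O := by
  letI := polyAlg k x
  haveI := polyAlg_isScalarTower k x
  haveI := C.finite_polyAlg hx
  obtain ⟨q, hq, hq0⟩ : IsIntegral (Polynomial k) a := Algebra.IsIntegral.isIntegral a
  let θ : Polynomial k →+* O := (aeval (⟨P x, h⟩ : O) : Polynomial k →ₐ[k] O).toRingHom
  have hθ : (P : A →+* Ω).comp (algebraMap (Polynomial k) A) = (algebraMap O Ω).comp θ := by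
    have h1 : P.comp (aeval x : Polynomial k →ₐ[k] A) =
        (IsScalarTower.toAlgHom k O Ω).comp (aeval (⟨P x, h⟩ : O)) := by
      apply Polynomial.algHom_ext
      simp only [AlgHom.comp_apply, aeval_X]
      rfl
    exact RingHom.ext fun f => congrArg (fun g => g f) h1
  have h1 : eval₂ (algebraMap O Ω) (P a) (q.map θ) = 0 := by
    rw [eval₂_map, ← hθ]
    have := congrArg (P : A →+* Ω) hq0
    rw [hom_eval₂, map_zero] at this
    exact this
  have h2 : IsIntegral O (P a) := ⟨q.map θ, hq.map θ, h1⟩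
  obtain ⟨y, hy⟩ := IsIntegrallyClosed.isIntegral_iff.mp h2
  rw [← hy]
  exact y.2

theorem redPt_eq_map (C : CurveAlg k A) {x : A} (hx : 0 < C.deg x)
    (P : Ω ⊗[k] A →ₐ[Ω] Ω) :
    (redPt O P).map (fun Q => Q (1 ⊗ₜ x)) = redVal O (P (1 ⊗ₜ x)) := by
  by_cases h : P (1 ⊗ₜ x) ∈ O
  · have hall : ∀ a : A, ptRes P a ∈ O := forall_mem_of_mem O C hx (ptRes P) h
    rw [redPt, dif_pos hall, Option.map_some, ptExt_tmul, one_mul, redHom_apply,
      redVal_of_mem O h]
    rfl
  · rw [redVal_of_notMem O h, redPt, dif_neg]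
    · rfl
    · intro hall
      exact h (hall x)

omit [Algebra k Ω] [Algebra k O] [IsScalarTower k O Ω] in
/-- abstract comparison of norms. -/
theorem norm_compare {BO BΩ Bκ : Type*} [CommRing BO] [CommRing BΩ] [CommRing Bκ] [Algebra Ω BΩ]
    [Algebra (IsLocalRing.ResidueField O) Bκ]
    [Algebra (Polynomial O) BO] [Algebra (Polynomial Ω) BΩ]
    [Algebra (Polynomial (IsLocalRing.ResidueField O)) Bκ] [IsScalarTower Ω (Polynomial Ω) BΩ]
    [IsScalarTower (IsLocalRing.ResidueField O) (Polynomial (IsLocalRing.ResidueField O)) Bκ]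
    (CΩ : CurveAlg Ω BΩ) (Cκ : CurveAlg (IsLocalRing.ResidueField O) Bκ) [IsDedekindDomain BΩ]
    [IsDedekindDomain Bκ] {n : ℕ} (eO : Basis (Fin n) (Polynomial O) BO)
    (eΩ : Basis (Fin n) (Polynomial Ω) BΩ)
    (eκ : Basis (Fin n) (Polynomial (IsLocalRing.ResidueField O)) Bκ)
    (ΦΩ : BO →+* BΩ) (hΦΩ : ∀ f : Polynomial O, ΦΩ (algebraMap (Polynomial O) BO f) =
      algebraMap (Polynomial Ω) BΩ (f.map (algebraMap O Ω))) (heΩ : ∀ i, ΦΩ (eO i) = eΩ i)
    (Φκ : BO →+* Bκ) (hΦκ : ∀ f : Polynomial O, Φκ (algebraMap (Polynomial O) BO f) =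
      algebraMap (Polynomial (IsLocalRing.ResidueField O)) Bκ (f.map (IsLocalRing.residue O)))
    (heκ : ∀ i, Φκ (eO i) = eκ i) (a : BO)
    {D : Multiset (BΩ →ₐ[Ω] Ω)} (hD : Ideal.span {ΦΩ a} = idl D)
    {D' : Multiset (Bκ →ₐ[IsLocalRing.ResidueField O] IsLocalRing.ResidueField O)}
    (hD' : Ideal.span {Φκ a} = idl D') :
    D'.map (fun Q => Q (algebraMap (Polynomial (IsLocalRing.ResidueField O)) Bκ X)) =
      (D.map fun P => P (algebraMap (Polynomial Ω) BΩ X)).filterMap (redVal O) := by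
  have hN1 := norm_map (algebraMap O Ω) ΦΩ hΦΩ eO eΩ heΩ a
  have hN2 := norm_map (IsLocalRing.residue O) Φκ hΦκ eO eκ heκ a
  have haΩ : ΦΩ a ≠ 0 := by
    intro h
    apply idl_ne_bot CΩ D
    rw [← hD, h, Ideal.span_singleton_eq_bot]
  have haκ : Φκ a ≠ 0 := by
    intro h
    apply idl_ne_bot Cκ D'
    rw [← hD', h, Ideal.span_singleton_eq_bot]
  obtain ⟨c, hc, h1⟩ := norm_eq_prod CΩ eΩ haΩ hD
  obtain ⟨c', hc', h2⟩ := norm_eq_prod Cκ eκ haκ hD'
  have h1' : (Algebra.norm (Polynomial O) a).map (algebraMap O Ω) =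
      C c * ((D.map fun P => P (algebraMap (Polynomial Ω) BΩ X)).map
        fun α => (X - C α : Polynomial Ω)).prod := by
    rw [← hN1, Multiset.map_map]
    exact h1
  have h2' : (Algebra.norm (Polynomial O) a).map (IsLocalRing.residue O) =
      C c' * ((D'.map fun P =>
        P (algebraMap (Polynomial (IsLocalRing.ResidueField O)) Bκ X)).map fun α =>
        (X - C α : Polynomial (IsLocalRing.ResidueField O))).prod := by
    rw [← hN2, Multiset.map_map]
    exact h2
  exact filterMap_redVal_eq O h1' hc' h2'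

/-- the comparison of multisets for one function `x`. -/
theorem map_eq_map (C₀ : CurveAlg k A) (CΩ : CurveAlg Ω (Ω ⊗[k] A)) [IsDedekindDomain (Ω ⊗[k] A)]
    (Cκ : CurveAlg (IsLocalRing.ResidueField O) (IsLocalRing.ResidueField O ⊗[k] A))
    [IsDedekindDomain (IsLocalRing.ResidueField O ⊗[k] A)]
    (a : O ⊗[k] A)
    {D : Multiset (Ω ⊗[k] A →ₐ[Ω] Ω)}
    (hD : Ideal.span {bc A (IsScalarTower.toAlgHom k O Ω) a} = idl D)
    {D' : Multiset (IsLocalRing.ResidueField O ⊗[k] A →ₐ[IsLocalRing.ResidueField O]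
      IsLocalRing.ResidueField O)}
    (hD' : Ideal.span {bc A (IsScalarTower.toAlgHom k O (IsLocalRing.ResidueField O)) a} = idl D')
    {x : A} (hx : 0 < C₀.deg x) :
    D'.map (fun Q => Q (1 ⊗ₜ x)) = (D.filterMap (redPt O)).map (fun Q => Q (1 ⊗ₜ x)) := by
  letI := polyAlg k x
  haveI := polyAlg_isScalarTower k x
  obtain ⟨n, ⟨e⟩⟩ := C₀.exists_basis_polyAlg hx
  have hX : algebraMap (Polynomial k) A X = x := by
    show (aeval x : Polynomial k →ₐ[k] A) X = x
    simp
  -- the three base changes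
  letI : Algebra (Polynomial O) (O ⊗[k] A) := polyAlg O (1 ⊗ₜ x)
  haveI : IsScalarTower O (Polynomial O) (O ⊗[k] A) := polyAlg_isScalarTower O _
  letI : Algebra (Polynomial Ω) (Ω ⊗[k] A) := polyAlg Ω (1 ⊗ₜ x)
  haveI : IsScalarTower Ω (Polynomial Ω) (Ω ⊗[k] A) := polyAlg_isScalarTower Ω _
  letI : Algebra (Polynomial (IsLocalRing.ResidueField O)) (IsLocalRing.ResidueField O ⊗[k] A) :=
    polyAlg (IsLocalRing.ResidueField O) (1 ⊗ₜ x)
  haveI : IsScalarTower (IsLocalRing.ResidueField O) (Polynomial (IsLocalRing.ResidueField O))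
      (IsLocalRing.ResidueField O ⊗[k] A) := polyAlg_isScalarTower (IsLocalRing.ResidueField O) _
  have hXO : algebraMap (Polynomial O) (O ⊗[k] A) X = 1 ⊗ₜ x := by
    show (aeval (1 ⊗ₜ x : O ⊗[k] A) : Polynomial O →ₐ[O] _) X = _
    simp
  have hXΩ : algebraMap (Polynomial Ω) (Ω ⊗[k] A) X = 1 ⊗ₜ x := by
    show (aeval (1 ⊗ₜ x : Ω ⊗[k] A) : Polynomial Ω →ₐ[Ω] _) X = _
    simp
  have hXκ : algebraMap (Polynomial (IsLocalRing.ResidueField O))
      (IsLocalRing.ResidueField O ⊗[k] A) X = 1 ⊗ₜ x := by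
    show (aeval (1 ⊗ₜ x : IsLocalRing.ResidueField O ⊗[k] A) : _ →ₐ[IsLocalRing.ResidueField O] _) X
      = _
    simp
  obtain ⟨eO, heO⟩ := exists_basis_baseChange e O (by rw [hXO, hX])
  obtain ⟨eΩ, heΩ⟩ := exists_basis_baseChange e Ω (by rw [hXΩ, hX])
  obtain ⟨eκ, heκ⟩ := exists_basis_baseChange e (IsLocalRing.ResidueField O) (by rw [hXκ, hX])
  have key := norm_compare O CΩ Cκ eO eΩ eκ
    (bc A (IsScalarTower.toAlgHom k O Ω) : O ⊗[k] A →+* Ω ⊗[k] A)
    (fun f => bc_aeval (IsScalarTower.toAlgHom k O Ω) x f)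
    (fun i => by
      rw [heO, heΩ]
      show bc A (IsScalarTower.toAlgHom k O Ω) (1 ⊗ₜ e i) = _
      rw [Algebra.TensorProduct.map_tmul, map_one]; rfl)
    (bc A (IsScalarTower.toAlgHom k O (IsLocalRing.ResidueField O)) :
      O ⊗[k] A →+* IsLocalRing.ResidueField O ⊗[k] A)
    (fun f => bc_aeval (IsScalarTower.toAlgHom k O (IsLocalRing.ResidueField O)) x f)
    (fun i => by
      rw [heO, heκ]
      show bc A (IsScalarTower.toAlgHom k O (IsLocalRing.ResidueField O)) (1 ⊗ₜ e i) = _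
      rw [Algebra.TensorProduct.map_tmul, map_one]; rfl) a hD hD'
  rw [hXΩ, hXκ] at key
  rw [key, Multiset.filterMap_map, Multiset.map_filterMap]
  congr 1
  funext P
  exact (redPt_eq_map O C₀ hx P).symm

/-- **Reduction of divisors**: if `ā` has divisor `D'` then `D' = red_* D`. -/
theorem filterMap_redPt_eq [Infinite k] (C₀ : CurveAlg k A) (CΩ : CurveAlg Ω (Ω ⊗[k] A))
    [IsDedekindDomain (Ω ⊗[k] A)]
    (Cκ : CurveAlg (IsLocalRing.ResidueField O) (IsLocalRing.ResidueField O ⊗[k] A))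
    [IsDedekindDomain (IsLocalRing.ResidueField O ⊗[k] A)]
    (a : O ⊗[k] A)
    {D : Multiset (Ω ⊗[k] A →ₐ[Ω] Ω)}
    (hD : Ideal.span {bc A (IsScalarTower.toAlgHom k O Ω) a} = idl D)
    {D' : Multiset (IsLocalRing.ResidueField O ⊗[k] A →ₐ[IsLocalRing.ResidueField O]
      IsLocalRing.ResidueField O)}
    (hD' : Ideal.span {bc A (IsScalarTower.toAlgHom k O (IsLocalRing.ResidueField O)) a} = idl D') :
    D' = D.filterMap (redPt O) := by
  classical
  obtain ⟨x, hx, hsep⟩ := exists_separating C₀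
    ((D' + D.filterMap (redPt O)).map ptRes).toFinset
  apply eq_of_map_eq (f := fun Q => Q (1 ⊗ₜ x)) _ (map_eq_map O C₀ CΩ Cκ a hD hD' hx)
  intro P hP Q hQ hPQ
  have h1 := hsep (ptRes P) (by
    rw [Multiset.mem_toFinset]; exact Multiset.mem_map_of_mem _ hP) (ptRes Q) (by
    rw [Multiset.mem_toFinset]; exact Multiset.mem_map_of_mem _ hQ) hPQ
  rw [← ptExt_ptRes P, ← ptExt_ptRes Q, h1]

omit [Algebra k Ω] [Algebra k O] [IsScalarTower k O Ω] in
/-- the residue field of a valuation ring of an algebraically closed field is algebraically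
closed. -/
theorem isAlgClosed_residueField [IsAlgClosed Ω] : IsAlgClosed (IsLocalRing.ResidueField O) := by
  apply IsAlgClosed.of_exists_root
  intro p hp hirr
  have hsurj : Function.Surjective (IsLocalRing.residue O) := IsLocalRing.residue_surjective
  have hlift : p ∈ Polynomial.lifts (IsLocalRing.residue O) := by
    rw [Polynomial.mem_lifts]
    exact Polynomial.map_surjective _ hsurj p
  obtain ⟨q, hq, hqdeg, hqm⟩ := Polynomial.lifts_and_degree_eq_and_monic hlift hp
  have hdeg : (q.map (algebraMap O Ω)).degree ≠ 0 := by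
    rw [hqm.degree_map, hqdeg]
    exact hirr.degree_pos.ne'
  obtain ⟨α, hα⟩ := IsAlgClosed.exists_root _ hdeg
  have hint : IsIntegral O α := ⟨q, hqm, by rwa [IsRoot.def, eval_map] at hα⟩
  obtain ⟨y, hy⟩ := IsIntegrallyClosed.isIntegral_iff.mp hint
  refine ⟨IsLocalRing.residue O y, ?_⟩
  have h1 : eval₂ (algebraMap O Ω) (algebraMap O Ω y) q = 0 := by
    rw [hy]
    rwa [IsRoot.def, eval_map] at hα
  rw [eval₂_hom, map_eq_zero_iff _ (IsFractionRing.injective O Ω)] at h1
  rw [← hq, eval_map, eval₂_hom, h1, map_zero]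

/-- **Reduction of divisors**, with algebraically closed constants. -/
theorem span_bc_eq_idl [IsAlgClosed Ω] [Infinite k] (C₀ : CurveAlg k A)
    (CΩ : CurveAlg Ω (Ω ⊗[k] A)) [IsDedekindDomain (Ω ⊗[k] A)]
    (Cκ : CurveAlg (IsLocalRing.ResidueField O) (IsLocalRing.ResidueField O ⊗[k] A))
    [IsDedekindDomain (IsLocalRing.ResidueField O ⊗[k] A)]
    (a : O ⊗[k] A)
    (ha : bc A (IsScalarTower.toAlgHom k O (IsLocalRing.ResidueField O)) a ≠ 0)
    {D : Multiset (Ω ⊗[k] A →ₐ[Ω] Ω)}
    (hD : Ideal.span {bc A (IsScalarTower.toAlgHom k O Ω) a} = idl D) :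
    Ideal.span {bc A (IsScalarTower.toAlgHom k O (IsLocalRing.ResidueField O)) a} =
      idl (D.filterMap (redPt O)) := by
  haveI := isAlgClosed_residueField O
  obtain ⟨D', hD'⟩ := exists_div Cκ ha
  rw [hD', filterMap_redPt_eq O C₀ CΩ Cκ a hD hD']

end reduction

end Fermat.Agent.MW
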