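import Fermat.Agent.MW.Points
import Fermat.Agent.MW.Reduction
import Fermat.Agent.MW.Ultra
import Fermat.Agent.MW.Minors

/-!
# Ultrapowers of a curve algebra (team MW, helper39)

`θ : Ult k U ⊗[k] A → UltR A U` and its compatibility with points and coefficients.
-/

set_option autoImplicit false

open Filter Module TensorProduct

namespace Fermat.Agent.MW.UltCurve

open Fermat.Agent.MW.Ultra

universe u v

/-- The ultrapower of a ring. -/
def UltR (A : Type v) (U : Ultrafilter ℕ) : Type v := Filter.Germ (U : Filter ℕ) A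

variable {k : Type u} {A : Type v} [Field k] [CommRing A] [Algebra k A] {U : Ultrafilter ℕ}

instance : CommRing (UltR A U) := inferInstanceAs (CommRing (Filter.Germ (U : Filter ℕ) A))

/-- The class of a sequence. -/
def mkR (U : Ultrafilter ℕ) : (ℕ → A) →+* UltR A U := Filter.Germ.coeRingHom (U : Filter ℕ)

theorem mkR_surjective : Function.Surjective (mkR (A := A) U) := by
  intro x
  induction x using Filter.Germ.inductionOn with
  | _ f => exact ⟨f, rfl⟩

theorem mkR_eq_mkR {f g : ℕ → A} : mkR U f = mkR U g ↔ ∀ᶠ i in (U : Filter ℕ), f i = g i :=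
  Filter.Germ.coe_eq

theorem mkR_eq_zero {f : ℕ → A} : mkR U f = 0 ↔ ∀ᶠ i in (U : Filter ℕ), f i = 0 := by
  rw [← map_zero (mkR U), mkR_eq_mkR]; rfl

/-- A representative. -/
noncomputable def repR (x : UltR A U) : ℕ → A := (mkR_surjective x).choose

@[simp]
theorem mkR_repR (x : UltR A U) : mkR U (repR x) = x := (mkR_surjective x).choose_spec

theorem repR_mkR (f : ℕ → A) : ∀ᶠ i in (U : Filter ℕ), repR (mkR U f) i = f i :=
  mkR_eq_mkR.mp (mkR_repR _)

theorem rep_mk (f : ℕ → k) : ∀ᶠ i in (U : Filter ℕ), rep (mk U f) i = f i :=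
  mk_eq_mk.mp (mk_rep _)

noncomputable instance : Algebra k (UltR A U) :=
  RingHom.toAlgebra ((mkR (A := A) U).comp
    ((RingHom.pi fun _ : ℕ => algebraMap k A) : k →+* (ℕ → A)))

theorem algebraMapR_eq (r : k) :
    algebraMap k (UltR A U) r = mkR U (fun _ => algebraMap k A r) := rfl

/-- coefficients -/
noncomputable def iota : Ult k U →ₐ[k] UltR A U where
  toFun z := mkR U (fun i => algebraMap k A (rep z i))
  map_one' := by
    rw [← map_one (mkR U), mkR_eq_mkR]
    have := rep_mk (k := k) (U := U) 1
    rw [map_one] at this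
    filter_upwards [this] with i hi
    rw [hi]; simp
  map_zero' := by
    rw [← map_zero (mkR U), mkR_eq_mkR]
    have := rep_mk (k := k) (U := U) 0
    rw [map_zero] at this
    filter_upwards [this] with i hi
    rw [hi]; simp
  map_mul' x y := by
    rw [← map_mul (mkR U), mkR_eq_mkR]
    have h : mk U (rep (x * y)) = mk U (rep x * rep y) := by
      rw [map_mul, mk_rep, mk_rep, mk_rep]
    filter_upwards [mk_eq_mk.mp h] with i hi
    rw [hi]; simp
  map_add' x y := by
    rw [← map_add (mkR U), mkR_eq_mkR]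
    have h : mk U (rep (x + y)) = mk U (rep x + rep y) := by
      rw [map_add, mk_rep, mk_rep, mk_rep]
    filter_upwards [mk_eq_mk.mp h] with i hi
    rw [hi]; simp
  commutes' r := by
    rw [algebraMapR_eq]
    show mkR U _ = mkR U _
    rw [mkR_eq_mkR]
    filter_upwards [rep_mk (U := U) (fun _ : ℕ => r)] with i hi
    show algebraMap k A (rep (algebraMap k (Ult k U) r) i) = _
    rw [algebraMap_self_eq, hi]

theorem iota_mk (f : ℕ → k) : iota (mk U f) = mkR U (fun i => algebraMap k A (f i)) := by
  show mkR U _ = _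
  rw [mkR_eq_mkR]
  filter_upwards [rep_mk (U := U) f] with i hi
  rw [hi]

/-- constant germs -/
noncomputable def const : A →ₐ[k] UltR A U where
  toFun a := mkR U (fun _ => a)
  map_one' := map_one (mkR U)
  map_zero' := map_zero (mkR U)
  map_mul' x y := map_mul (mkR U) (fun _ => x) (fun _ => y)
  map_add' x y := map_add (mkR U) (fun _ => x) (fun _ => y)
  commutes' _ := rfl

theorem const_apply (a : A) : const (k := k) (U := U) a = mkR U (fun _ => a) := rfl

/-- The natural map `Ω ⊗ A → A^*`. -/
noncomputable def theta : Ult k U ⊗[k] A →ₐ[k] UltR A U :=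
  Algebra.TensorProduct.lift iota const (fun _ _ => Commute.all _ _)

theorem theta_tmul (f : ℕ → k) (a : A) :
    theta (mk U f ⊗ₜ[k] a) = mkR U (fun i => f i • a) := by
  rw [theta, Algebra.TensorProduct.lift_tmul, iota_mk, const_apply, ← map_mul]
  congr 1
  ext i
  simp [Algebra.smul_def]

theorem theta_tmul' (z : Ult k U) (a : A) :
    theta (z ⊗ₜ[k] a) = mkR U (fun i => rep z i • a) := by
  conv_lhs => rw [← mk_rep z]
  exact theta_tmul _ _

/-- evaluation at a sequence of points. -/
noncomputable def ev (P : ℕ → (A →ₐ[k] k)) : UltR A U →+* Ult k U where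
  toFun x := mk U (fun i => P i (repR x i))
  map_one' := by
    rw [← map_one (mk U), mk_eq_mk]
    have := repR_mkR (A := A) (U := U) 1
    rw [map_one] at this
    filter_upwards [this] with i hi
    rw [hi]; simp
  map_zero' := by
    rw [← map_zero (mk U), mk_eq_mk]
    have := repR_mkR (A := A) (U := U) 0
    rw [map_zero] at this
    filter_upwards [this] with i hi
    rw [hi]; simp
  map_mul' x y := by
    rw [← map_mul (mk U), mk_eq_mk]
    have h : mkR U (repR (x * y)) = mkR U (repR x * repR y) := by
      rw [map_mul, mkR_repR, mkR_repR, mkR_repR]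
    filter_upwards [mkR_eq_mkR.mp h] with i hi
    rw [hi]; simp
  map_add' x y := by
    rw [← map_add (mk U), mk_eq_mk]
    have h : mkR U (repR (x + y)) = mkR U (repR x + repR y) := by
      rw [map_add, mkR_repR, mkR_repR, mkR_repR]
    filter_upwards [mkR_eq_mkR.mp h] with i hi
    rw [hi]; simp

theorem ev_mkR (P : ℕ → (A →ₐ[k] k)) (f : ℕ → A) :
    ev P (mkR U f) = mk U (fun i => P i (f i)) := by
  show mk U _ = _
  rw [mk_eq_mk]
  filter_upwards [repR_mkR (U := U) f] with i hi
  rw [hi]

/-- The point over the ultrapower defined by a sequence of points. -/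
noncomputable def pt (U : Ultrafilter ℕ) (P : ℕ → (A →ₐ[k] k)) :
    Ult k U ⊗[k] A →ₐ[Ult k U] Ult k U :=
  ptExt
    { toFun := fun a => mk U (fun i => P i a)
      map_one' := by
        rw [← map_one (mk U)]; congr 1; ext i; simp
      map_zero' := by
        rw [← map_zero (mk U)]; congr 1; ext i; simp
      map_mul' := fun x y => by
        rw [← map_mul (mk U)]; congr 1; ext i; simp
      map_add' := fun x y => by
        rw [← map_add (mk U)]; congr 1; ext i; simp
      commutes' := fun r => by
        rw [algebraMap_self_eq]; congr 1; ext i; simp }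

theorem pt_tmul (P : ℕ → (A →ₐ[k] k)) (z : Ult k U) (a : A) :
    pt U P (z ⊗ₜ a) = z * mk U (fun i => P i a) := by
  rw [pt, ptExt_tmul]; rfl

theorem ev_theta (P : ℕ → (A →ₐ[k] k)) (g : Ult k U ⊗[k] A) : ev P (theta g) = pt U P g := by
  induction g using TensorProduct.induction_on with
  | zero => simp
  | tmul z a =>
    rw [theta_tmul', ev_mkR, pt_tmul]
    conv_rhs => rw [← mk_rep z]
    rw [← map_mul]
    congr 1
    ext i
    simp
  | add x y hx hy => rw [map_add, map_add, map_add, hx, hy]

section Coef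

variable (C : CurveAlg k A)

/-- coefficients of germs -/
noncomputable def cf (l : ℕ) : UltR A U →+ Ult k U where
  toFun x := mk U (fun i => C.coef l (repR x i))
  map_zero' := by
    rw [← map_zero (mk U), mk_eq_mk]
    have := repR_mkR (A := A) (U := U) 0
    rw [map_zero] at this
    filter_upwards [this] with i hi
    rw [hi]; simp
  map_add' x y := by
    rw [← map_add (mk U), mk_eq_mk]
    have h : mkR U (repR (x + y)) = mkR U (repR x + repR y) := by
      rw [map_add, mkR_repR, mkR_repR, mkR_repR]
    filter_upwards [mkR_eq_mkR.mp h] with i hi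
    rw [hi]; simp

theorem cf_mkR (l : ℕ) (f : ℕ → A) : cf C l (mkR U f) = mk U (fun i => C.coef l (f i)) := by
  show mk U _ = _
  rw [mk_eq_mk]
  filter_upwards [repR_mkR (U := U) f] with i hi
  rw [hi]

/-- Data: the base changed curve algebra. -/
structure IsBC (C' : CurveAlg (Ult k U) (Ult k U ⊗[k] A)) : Prop where
  S_eq : C'.S = C.S
  coef_tmul : ∀ (l : ℕ) (z : Ult k U) (a : A),
    C'.coef l (z ⊗ₜ a) = z * algebraMap k (Ult k U) (C.coef l a)

variable {C} {C' : CurveAlg (Ult k U) (Ult k U ⊗[k] A)} (hC : IsBC C C')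

include hC

theorem cf_theta (l : ℕ) (g : Ult k U ⊗[k] A) : cf C l (theta g) = C'.coef l g := by
  induction g using TensorProduct.induction_on with
  | zero => simp
  | tmul z a =>
    rw [theta_tmul', cf_mkR, hC.coef_tmul, algebraMap_self_eq]
    conv_rhs => rw [← mk_rep z]
    rw [← map_mul]
    congr 1
    ext i
    simp
  | add x y hx hy => rw [map_add, map_add, map_add, hx, hy]

theorem theta_injective : Function.Injective (theta (k := k) (A := A) (U := U)) := by
  intro g g' h
  apply C'.ext_coef
  intro l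
  rw [← cf_theta hC, ← cf_theta hC, h]

theorem genus_eq : C'.genus = C.genus := by
  rw [CurveAlg.genus, CurveAlg.genus, hC.S_eq]

theorem cond_eq : C'.cond = C.cond := by
  have h1 : C'.finite_compl.toFinset = C.finite_compl.toFinset := by
    ext l
    simp [hC.S_eq]
  rw [CurveAlg.cond, CurveAlg.cond, h1]

theorem cc_eq : C'.cc = C.cc := by
  rw [CurveAlg.cc, CurveAlg.cc, cond_eq hC, genus_eq hC]

/-- A sequence of elements of bounded degree defines an element over the ultrapower. -/
theorem exists_lift {m : ℕ} {f : ℕ → A} (hf : ∀ᶠ i in (U : Filter ℕ), f i ∈ C.Fil m) :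
    ∃ g ∈ C'.Fil m, theta g = mkR U f := by
  classical
  have hfin : Fintype {l : C.S // (l : ℕ) ≤ m} := (C.finite_le m).fintype
  refine ⟨∑ l : {l : C.S // (l : ℕ) ≤ m}, (mk U fun i => C.coef l.1 (f i)) ⊗ₜ C.b l.1, ?_, ?_⟩
  · intro l hl
    rw [map_sum]
    refine Finset.sum_eq_zero fun j _ => ?_
    rw [hC.coef_tmul, C.coef_b, if_neg (by have := j.2; omega)]
    simp
  · rw [map_sum]
    simp_rw [theta_tmul]
    rw [← map_sum, mkR_eq_mkR]
    filter_upwards [hf] with i hi
    rw [Finset.sum_apply]
    apply C.ext_coef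
    intro l
    rw [map_sum]
    by_cases hl : l ∈ C.S ∧ l ≤ m
    · rw [Finset.sum_eq_single (⟨⟨l, hl.1⟩, hl.2⟩ : {l : C.S // (l : ℕ) ≤ m})]
      · rw [map_smul, C.coef_b, if_pos rfl, smul_eq_mul, mul_one]
      · intro j _ hj
        rw [map_smul, C.coef_b, if_neg, smul_zero]
        intro h
        apply hj
        ext
        exact h
      · intro h; exact absurd (Finset.mem_univ _) h
    · rw [Finset.sum_eq_zero]
      · by_cases hlS : l ∈ C.S
        · exact (hi l (by by_contra h; exact hl ⟨hlS, not_lt.mp h⟩)).symm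
        · exact (C.coef_of_notMem hlS _).symm
      · intro j _
        rw [map_smul, C.coef_b, if_neg, smul_zero]
        intro h
        exact hl ⟨h ▸ j.1.2, h ▸ j.2⟩

theorem mem_Fil_of_theta {m : ℕ} {f : ℕ → A} {g : Ult k U ⊗[k] A} (h : theta g = mkR U f)
    (hf : ∀ᶠ i in (U : Filter ℕ), f i ∈ C.Fil m) : g ∈ C'.Fil m := by
  obtain ⟨g', hg', h'⟩ := exists_lift hC hf
  rwa [theta_injective hC (h.trans h'.symm)]

end Coef

end Fermat.Agent.MW.UltCurve
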