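import Fermat.Agent.MW.UltCurve

/-!
# Transfer of membership in ideals of points to the ultrapower (team MW, helper39)
-/

set_option autoImplicit false
set_option linter.unusedSectionVars false

open Filter Module TensorProduct

namespace Fermat.Agent.MW.UltCurve

open Fermat.Agent.MW.Ultra

universe u v

section General

variable {k A : Type*} [Field k] [CommRing A] [Algebra k A] (C : CurveAlg k A) [IsAlgClosed k]
  [IsDedekindDomain A]

include C

theorem mem_idl_cons_of {P : A →ₐ[k] k} {D : Multiset (A →ₐ[k] k)} {g h : A} (hg : g ∈ idl D)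
    (hh : P h ≠ 0) (hgh : h * g ∈ idl (P ::ₘ D)) : g ∈ idl (P ::ₘ D) := by
  classical
  by_cases hg0 : g = 0
  · rw [hg0]; exact Submodule.zero_mem _
  have hh0 : h ≠ 0 := by rintro rfl; exact hh (map_zero _)
  rw [mem_idl_iff C hg0] at hg ⊢
  rw [mem_idl_iff C (mul_ne_zero hh0 hg0), dv_mul C hh0 hg0] at hgh
  have hP : P ∉ dv C h := fun h1 => hh ((mem_ker_iff_mem_dv C hh0).mpr h1)
  rw [Multiset.le_iff_count]
  intro Q
  by_cases hQ : Q = P
  · subst hQ
    have h1 := Multiset.le_iff_count.mp hgh Q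
    rwa [Multiset.count_add, Multiset.count_eq_zero_of_notMem hP, zero_add] at h1
  · rw [Multiset.count_cons_of_ne hQ]
    exact Multiset.le_iff_count.mp hg Q

theorem apply_ne_zero_of_notMem_cons {P : A →ₐ[k] k} {R : Multiset (A →ₐ[k] k)} {h : A}
    (hR : h ∈ idl R) (hP : P ∉ R) (hh : h ∉ idl (P ::ₘ R)) : P h ≠ 0 := by
  classical
  intro h0
  apply hh
  by_cases hh0 : h = 0
  · rw [hh0]; exact Submodule.zero_mem _
  rw [mem_idl_iff C hh0] at hR ⊢
  have hP' : P ∈ dv C h := (mem_ker_iff_mem_dv C hh0).mp h0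
  rw [Multiset.le_iff_count]
  intro Q
  by_cases hQ : Q = P
  · subst hQ
    rw [Multiset.count_cons_self, Multiset.count_eq_zero_of_notMem hP, zero_add]
    exact Multiset.one_le_count_iff_mem.mpr hP'
  · rw [Multiset.count_cons_of_ne hQ]
    exact Multiset.le_iff_count.mp hR Q

end General

variable {k : Type u} {A : Type v} [Field k] [CommRing A] [Algebra k A] {U : Ultrafilter ℕ}
  [IsAlgClosed k] [IsDedekindDomain A] {C : CurveAlg k A}
  {C' : CurveAlg (Ult k U) (Ult k U ⊗[k] A)} [IsDedekindDomain (Ult k U ⊗[k] A)]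

/-- **Transfer of membership.** -/
theorem mem_idl_of_eventually (hC : IsBC C C') (E : Multiset (ℕ → (A →ₐ[k] k))) :
    ∀ {m : ℕ} {f : ℕ → A} {g : Ult k U ⊗[k] A} (_ : theta g = mkR U f)
      (_ : ∀ᶠ i in (U : Filter ℕ), f i ∈ C.L (idl (E.map fun P => P i)) m),
      g ∈ idl (E.map (pt U)) := by
  induction E using Multiset.induction with
  | empty =>
    intro m f g _ _
    simp
  | cons Q E ih =>
    intro m f g hg hf
    have hcard : ∀ i, (E.map fun P => P i).card = E.card := fun i => Multiset.card_map _ _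
    -- the functions `s i`
    choose s hsL hsdeg hs0 hsQ using fun i => exists_avoid C (E.map fun P => P i) {Q i}
      (m := E.card + C.cc + 1) (by rw [hcard])
    choose R hR hRcard using fun i => exists_rest C (hs0 i) (C.mem_L.mp (hsL i)).1
    have hQR : ∀ i, Q i ∉ R i := by
      intro i hi
      apply hsQ i (Q i) (Finset.mem_singleton_self _)
      have h1 : s i ∈ idl ((E.map fun P => P i) + R i) := by
        rw [← hR i]; exact Ideal.subset_span rfl
      refine (idl_le_idl_iff C).mpr ?_ h1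
      rw [← Multiset.singleton_add, add_comm]
      exact add_le_add_right (Multiset.singleton_le.mpr hi) _
    have hRc : ∀ i, (R i).card = C.cc + 1 := by
      intro i
      have := hRcard i
      rw [hsdeg, hcard] at this
      omega
    choose h hhL hhdeg hh0 hhQ using fun i => exists_avoid C (R i) {Q i}
      (m := C.cc + 1 + C.cc + 1) (by rw [hRc])
    have hhne : ∀ i, Q i (h i) ≠ 0 := fun i =>
      apply_ne_zero_of_notMem_cons C (C.mem_L.mp (hhL i)).1 (hQR i)
        (hhQ i (Q i) (Finset.mem_singleton_self _))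
    have hl : ∀ i, ∃ l : A, f i ∈ C.L (idl ((Q ::ₘ E).map fun P => P i)) m →
        (Q i l = 0 ∧ l * s i = h i * f i ∧ l ∈ C.Fil (C.cc + 1 + C.cc + 1 + m)) := by
      intro i
      by_cases hfi : f i ∈ C.L (idl ((Q ::ₘ E).map fun P => P i)) m
      · rw [C.mem_L, Multiset.map_cons, idl_cons] at hfi
        have h1 : h i * f i ∈ RingHom.ker (Q i) * Ideal.span {s i} := by
          rw [hR i, idl_add, mul_comm (idl (E.map fun P => P i)) (idl (R i)), ← mul_assoc,
            mul_comm (RingHom.ker (Q i)) (idl (R i)), mul_assoc]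
          exact Ideal.mul_mem_mul (C.mem_L.mp (hhL i)).1 hfi.1
        obtain ⟨l, hl1, hl2⟩ := Ideal.mem_mul_span_singleton.mp h1
        refine ⟨l, fun _ => ⟨hl1, hl2, ?_⟩⟩
        by_cases hl0 : l = 0
        · rw [hl0]; exact Submodule.zero_mem _
        rw [C.mem_Fil_iff_deg_le]
        have h3 : h i * f i ∈ C.Fil (C.cc + 1 + C.cc + 1 + m) :=
          C.mul_mem_Fil (C.mem_L.mp (hhL i)).2 hfi.2
        rw [← hl2, C.mem_Fil_iff_deg_le, C.deg_mul hl0 (hs0 i)] at h3
        omega
      · exact ⟨0, fun h => absurd h hfi⟩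
    choose l hl using hl
    obtain ⟨gs, -, hgs⟩ := exists_lift (U := U) hC (Eventually.of_forall fun i =>
      (C.mem_L.mp (hsL i)).2)
    obtain ⟨gh, -, hgh⟩ := exists_lift (U := U) hC (Eventually.of_forall fun i =>
      (C.mem_L.mp (hhL i)).2)
    obtain ⟨gl, -, hgl⟩ := exists_lift (U := U) (f := l) hC
      (m := C.cc + 1 + C.cc + 1 + m) (by
        filter_upwards [hf] with i hi
        exact (hl i hi).2.2)
    have heq : gh * g = gl * gs := by
      apply theta_injective hC
      rw [map_mul, map_mul, hgh, hg, hgl, hgs, ← map_mul, ← map_mul, mkR_eq_mkR]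
      filter_upwards [hf] with i hi
      exact (hl i hi).2.1.symm
    have hgl0 : pt U Q gl = 0 := by
      rw [← ev_theta, hgl, ev_mkR, mk_eq_zero]
      filter_upwards [hf] with i hi
      exact (hl i hi).1
    have hgs1 : gs ∈ idl (E.map (pt U)) := ih hgs (Eventually.of_forall fun i => hsL i)
    have hg1 : g ∈ idl (E.map (pt U)) := by
      refine ih hg (m := m) ?_
      filter_upwards [hf] with i hi
      rw [C.mem_L] at hi ⊢
      refine ⟨(idl_le_idl_iff C).mpr ?_ hi.1, hi.2⟩
      rw [Multiset.map_cons]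
      exact Multiset.le_cons_self _ _
    have hgh0 : pt U Q gh ≠ 0 := by
      rw [← ev_theta, hgh, ev_mkR, mk_ne_zero]
      exact Eventually.of_forall hhne
    rw [Multiset.map_cons]
    refine mem_idl_cons_of C' hg1 hgh0 ?_
    rw [heq, idl_cons]
    exact Ideal.mul_mem_mul hgl0 hgs1

theorem mem_L_of_eventually (hC : IsBC C C') (E : Multiset (ℕ → (A →ₐ[k] k))) {m : ℕ} {f : ℕ → A}
    {g : Ult k U ⊗[k] A} (hg : theta g = mkR U f)
    (hf : ∀ᶠ i in (U : Filter ℕ), f i ∈ C.L (idl (E.map fun P => P i)) m) :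
    g ∈ C'.L (idl (E.map (pt U))) m := by
  rw [C'.mem_L]
  refine ⟨mem_idl_of_eventually hC E hg hf, mem_Fil_of_theta hC hg ?_⟩
  filter_upwards [hf] with i hi
  exact (C.mem_L.mp hi).2

/-! ### Families and minors -/

theorem minors_theta (hC : IsBC C C') {m r : ℕ} {u : Fin r → ℕ → A}
    {g : Fin r → Ult k U ⊗[k] A} (hg : ∀ j, theta (g j) = mkR U (u j)) :
    C'.minors m g = fun φ => mk U (fun i => C.minors m (fun j => u j i) φ) := by
  ext φ
  rw [CurveAlg.minors, Matrix.det_apply]
  simp_rw [CurveAlg.minors, Matrix.det_apply, Matrix.of_apply]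
  rw [mk_sum]
  refine Finset.sum_congr rfl fun σ _ => ?_
  have h1 : (fun i => Equiv.Perm.sign σ • ∏ j, C.coef (φ j) (u (σ j) i)) =
      fun i => (((Equiv.Perm.sign σ : ℤˣ) : ℤ) : k) * ∏ j, C.coef (φ j) (u (σ j) i) := by
    ext i
    rw [Units.smul_def, zsmul_eq_mul]
  rw [h1]
  have h2 : (fun i => (((Equiv.Perm.sign σ : ℤˣ) : ℤ) : k) * ∏ j, C.coef (φ j) (u (σ j) i)) =
      (fun _ => (((Equiv.Perm.sign σ : ℤˣ) : ℤ) : k)) * fun i => ∏ j, C.coef (φ j) (u (σ j) i) := rfl
  rw [h2, map_mul, mk_prod, Units.smul_def, zsmul_eq_mul]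
  have h3 : mk U (fun _ => (((Equiv.Perm.sign σ : ℤˣ) : ℤ) : k)) =
      (((Equiv.Perm.sign σ : ℤˣ) : ℤ) : Ult k U) := by
    rw [← algebraMap_self_eq, map_intCast]
  rw [h3]
  congr 1
  refine Finset.prod_congr rfl fun j _ => ?_
  rw [← cf_theta hC, hg, cf_mkR]

/-- Linear independence is transferred. -/
theorem linearIndependent_of_eventually (hC : IsBC C C') {m r : ℕ} {u : Fin r → ℕ → A}
    {g : Fin r → Ult k U ⊗[k] A} (hg : ∀ j, theta (g j) = mkR U (u j))
    (hu : ∀ᶠ i in (U : Filter ℕ), LinearIndependent k (fun j => u j i))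
    (hm : ∀ᶠ i in (U : Filter ℕ), ∀ j, u j i ∈ C.Fil m) :
    LinearIndependent (Ult k U) g := by
  have h1 : C'.minors m g ≠ 0 := by
    intro h0
    rw [minors_theta hC hg] at h0
    have h2 : ∀ᶠ i in (U : Filter ℕ), ∀ φ, C.minors m (fun j => u j i) φ = 0 := by
      rw [eventually_all]
      intro φ
      rw [← mk_eq_zero]
      exact congrFun h0 φ
    obtain ⟨i, hi1, hi2, hi3⟩ := (hu.and (hm.and h2)).exists
    exact C.minors_ne_zero hi1 hi2 (funext hi3)
  obtain ⟨φ, hφ⟩ := Function.ne_iff.mp h1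
  rw [Fintype.linearIndependent_iff]
  intro c hc i
  by_contra hci
  apply hφ
  rw [CurveAlg.minors, Pi.zero_apply, ← Matrix.exists_vecMul_eq_zero_iff]
  refine ⟨c, fun h => hci (congrFun h i), ?_⟩
  ext j
  have := congrArg (C'.coef (φ j)) hc
  rw [map_sum, map_zero] at this
  simp only [map_smul, smul_eq_mul] at this
  rw [Matrix.vecMul, dotProduct]
  exact this

end Fermat.Agent.MW.UltCurve
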